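import Mathlib
import Fermat.Agent.S24.FF.Dedekind
import Fermat.Agent.S44.L.PlaceDVRFin

/-!
# PROGRAM MW (S17), strand H, block C, leaf C7: CLOSEDNESS of the embedded curve (helper87)

`K` algebraically closed of characteristic `0`, `F` a function field of one variable over `K`
(`Algebra.EssFiniteType K F`, `Algebra.trdeg K F = 1`), `φ : ι → F` a finite family.

* `exists_place_of_valuationSubring` : a valuation subring `≠ ⊤` of `F` containing `K` is
  (the ring of) a Prelude `Place K F`.
* `nonempty_place` : `F` has a place.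
* `exists_place_of_mem_cone` : **closedness**.  Every nonzero `K`-point `x` of the cone of
  homogeneous relations of `φ` is the projective point `φ(v)` of a place `v`: for some index `i`
  with `x i ≠ 0`, `φ i ≠ 0`, every `φ j / φ i` is regular at `v` with value `x j / x i`
  (stated without division: `v(x i • φ j - x j • φ i) < v(φ i)`).

Proof: dehomogenise at `i`; the `K`-algebra `K[φ j / φ i]` maps to `K` by `φ j / φ i ↦ x j / x i`
(well defined by homogenising relations); a valuation subring dominating the kernel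
(Mathlib `Ideal.image_subset_nonunits_valuationSubring`) is a place by `S44/L/PlaceDVRFin`.
-/

set_option autoImplicit false

namespace Fermat.Agent.S17.H.LD.Closed

open AlgebraicCurve MvPolynomial

section Homog

variable {K : Type*} [Field K] {ι : Type*}

/-- Scaling the point of evaluation of a homogeneous polynomial. -/
theorem aeval_mul_of_isHomogeneous {L : Type*} [CommRing L] [Algebra K L] {n : ℕ}
    {P : MvPolynomial ι K} (hP : P.IsHomogeneous n) (c : L) (w : ι → L) :
    aeval (fun j => c * w j) P = c ^ n * aeval w P := by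
  rw [aeval_def, aeval_def, eval₂_eq, eval₂_eq, Finset.mul_sum]
  refine Finset.sum_congr rfl fun d hd => ?_
  have hdeg : n = ∑ j ∈ d.support, d j := hP.degree_eq_sum_deg_support hd
  have h1 : ∏ j ∈ d.support, (c * w j) ^ d j = c ^ n * ∏ j ∈ d.support, w j ^ d j := by
    rw [hdeg, ← Finset.prod_pow_eq_pow_sum, ← Finset.prod_mul_distrib]
    exact Finset.prod_congr rfl fun j _ => mul_pow _ _ _
  rw [h1]
  ring

/-- Homogenisation of `Q` with respect to the variable `i`, in degree `Q.totalDegree`. -/
noncomputable def homog (i : ι) (Q : MvPolynomial ι K) : MvPolynomial ι K :=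
  ∑ k ∈ Finset.range (Q.totalDegree + 1),
    homogeneousComponent k Q * X i ^ (Q.totalDegree - k)

theorem homog_isHomogeneous (i : ι) (Q : MvPolynomial ι K) :
    (homog i Q).IsHomogeneous Q.totalDegree := by
  unfold homog
  refine IsHomogeneous.sum _ _ _ fun k hk => ?_
  have hk' : k ≤ Q.totalDegree := Nat.lt_succ_iff.mp (Finset.mem_range.mp hk)
  have h2 : (X i ^ (Q.totalDegree - k) : MvPolynomial ι K).IsHomogeneous (Q.totalDegree - k) := by
    simpa using (isHomogeneous_X K i).pow (Q.totalDegree - k)
  have h := (homogeneousComponent_isHomogeneous k Q).mul h2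
  rwa [Nat.add_sub_cancel' hk'] at h

theorem aeval_homog {L : Type*} [CommRing L] [Algebra K L] (i : ι) (Q : MvPolynomial ι K)
    (c : L) (w : ι → L) (hw : w i = 1) :
    aeval (fun j => c * w j) (homog i Q) = c ^ Q.totalDegree * aeval w Q := by
  have hQ : aeval w Q
      = ∑ k ∈ Finset.range (Q.totalDegree + 1), aeval w (homogeneousComponent k Q) := by
    calc aeval w Q
        = aeval w (∑ k ∈ Finset.range (Q.totalDegree + 1), homogeneousComponent k Q) := by
          rw [sum_homogeneousComponent]
      _ = _ := map_sum _ _ _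
  unfold homog
  rw [map_sum, hQ, Finset.mul_sum]
  refine Finset.sum_congr rfl fun k hk => ?_
  have hk' : k ≤ Q.totalDegree := Nat.lt_succ_iff.mp (Finset.mem_range.mp hk)
  rw [map_mul, map_pow, aeval_X,
    aeval_mul_of_isHomogeneous (homogeneousComponent_isHomogeneous k Q), hw, mul_one,
    mul_right_comm, ← pow_add, Nat.add_sub_cancel' hk']

end Homog

variable {K F : Type*} [Field K] [Field F] [Algebra K F]

/-- A valuation subring `≠ ⊤` of a function field of one variable over an algebraically closed
field, containing the constants, is a place. -/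
theorem exists_place_of_valuationSubring [IsAlgClosed K] [Algebra.EssFiniteType K F]
    (htr : Algebra.trdeg K F = 1) (V : ValuationSubring F)
    (hK : ∀ c : K, algebraMap K F c ∈ V) (hV : V ≠ ⊤) :
    ∃ v : Place K F, v.toValuationSubring = V := by
  obtain ⟨X, hXV⟩ : ∃ X : F, X ∉ V := by
    by_contra h
    push_neg at h
    exact hV (SetLike.ext fun x => ⟨fun _ => ValuationSubring.mem_top x, fun _ => h x⟩)
  have hXr : X ∉ Set.range (algebraMap K F) := by
    rintro ⟨c, rfl⟩
    exact hXV (hK c)
  have hX : Transcendental K X := Fermat.Agent.S24.FF.transcendental_of_not_mem_range hXr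
  haveI : Module.Finite (IntermediateField.adjoin K {X}) F :=
    Fermat.Agent.S24.FF.finite_adjoin_simple htr hX
  haveI : IsDiscreteValuationRing V :=
    Fermat.Agent.S44.L.PlaceDVR.isDiscreteValuationRing_of_finite X hX V hK hV
  exact ⟨⟨V, hK, hV, inferInstance⟩, rfl⟩

/-- A function field of one variable has a place. -/
theorem nonempty_place [IsAlgClosed K] [CharZero K] [Algebra.EssFiniteType K F]
    (htr : Algebra.trdeg K F = 1) : Nonempty (Place K F) := by
  have htrans : Algebra.Transcendental K F :=
    (trdeg_ne_zero_iff (R := K) (A := F)).mp (by rw [htr]; exact one_ne_zero)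
  obtain ⟨X, hX⟩ := htrans.transcendental
  by_contra hne
  have hempty : {v : Place K F | v.ord X < 0} = ∅ := by
    ext v
    exact (hne ⟨v⟩).elim
  have h := Fermat.Agent.S24.FF.sum_ord_poles htr hX
  rw [hempty, finsum_mem_empty] at h
  haveI : Module.Finite (IntermediateField.adjoin K {X}) F :=
    Fermat.Agent.S24.FF.finite_adjoin_simple htr hX
  have hpos : 0 < Module.finrank (IntermediateField.adjoin K {X}) F := Module.finrank_pos
  have h0 : Module.finrank (IntermediateField.adjoin K {X}) F = 0 := by exact_mod_cast h.symm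
  omega

/-- Domination: if every relation of `w` vanishes at `y`, some valuation subring of `F`
containing `K` has all `w j - y j` among its nonunits. -/
theorem exists_valuationSubring_of_ker {ι : Type*} (w : ι → F) (y : ι → K)
    (hker : ∀ Q : MvPolynomial ι K, aeval w Q = 0 → eval y Q = 0) :
    ∃ B : ValuationSubring F, (∀ c : K, algebraMap K F c ∈ B) ∧
      ∀ j, w j - algebraMap K F (y j) ∈ B.nonunits := by
  obtain ⟨Ψ, hΨ⟩ : ∃ Ψ : MvPolynomial ι K →+* F, ∀ p, Ψ p = aeval w p :=
    ⟨(aeval w : MvPolynomial ι K →ₐ[K] F).toRingHom, fun _ => rfl⟩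
  have hf : Function.Surjective Ψ.rangeRestrict := Ψ.rangeRestrict_surjective
  have hval : ∀ p, ((Ψ.rangeRestrict p : Ψ.range) : F) = aeval w p := fun p =>
    (RingHom.coe_rangeRestrict Ψ p).trans (hΨ p)
  have hkerJ : Ideal.comap Ψ.rangeRestrict ⊥ ≤ RingHom.ker (eval y) := by
    intro Q hQ
    rw [Ideal.mem_comap, Ideal.mem_bot] at hQ
    rw [RingHom.mem_ker]
    apply hker Q
    rw [← hval Q, hQ]
    rfl
  have hI : Ideal.map Ψ.rangeRestrict (RingHom.ker (eval y)) ≠ ⊤ := by
    intro htop
    have h1 := Ideal.comap_map_of_surjective Ψ.rangeRestrict hf (RingHom.ker (eval y))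
    rw [htop, Ideal.comap_top, sup_eq_left.mpr hkerJ] at h1
    have h2 : (1 : MvPolynomial ι K) ∈ RingHom.ker (eval y) := by
      rw [← h1]
      exact Submodule.mem_top
    rw [RingHom.mem_ker, map_one] at h2
    exact one_ne_zero h2
  obtain ⟨B, hAB, hB⟩ := Ideal.image_subset_nonunits_valuationSubring _ hI
  refine ⟨B, fun c => hAB (RingHom.mem_range.mpr ⟨C c, by rw [hΨ, aeval_C]⟩), fun j => ?_⟩
  have hmem : (X j - C (y j) : MvPolynomial ι K) ∈ RingHom.ker (eval y) := by
    rw [RingHom.mem_ker, map_sub, eval_X, eval_C, sub_self]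
  have h3 := hB (Set.mem_image_of_mem Ψ.range.subtype
    (Ideal.mem_map_of_mem Ψ.rangeRestrict hmem))
  have h4 : (Ψ.range.subtype (Ψ.rangeRestrict (X j - C (y j))) : F)
      = w j - algebraMap K F (y j) := by
    show ((Ψ.rangeRestrict (X j - C (y j)) : Ψ.range) : F) = _
    rw [hval, map_sub, aeval_X, aeval_C]
  rw [h4] at h3
  exact h3

/-- **Closedness of the embedded curve.**  Every nonzero `K`-point `x` of the cone of
homogeneous relations of a finite family `φ` of `F` is the projective point `φ(v)` of a place. -/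
theorem exists_place_of_mem_cone [IsAlgClosed K] [CharZero K] [Algebra.EssFiniteType K F]
    (htr : Algebra.trdeg K F = 1) {ι : Type*} (φ : ι → F) (x : ι → K) (hx : x ≠ 0)
    (hcone : ∀ (n : ℕ) (P : MvPolynomial ι K), P.IsHomogeneous n →
      aeval φ P = 0 → eval x P = 0) :
    ∃ (v : Place K F) (i : ι), x i ≠ 0 ∧ φ i ≠ 0 ∧
      ∀ j, v.adicValuation (algebraMap K F (x i) * φ j - algebraMap K F (x j) * φ i)
        < v.adicValuation (φ i) := by
  obtain ⟨i, hxi⟩ : ∃ i, x i ≠ 0 := by
    by_contra h
    push_neg at h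
    exact hx (funext h)
  have hφi : φ i ≠ 0 := by
    intro h0
    apply hxi
    have h := hcone 1 (X i) (isHomogeneous_X K i) (by rw [aeval_X, h0])
    rwa [eval_X] at h
  obtain ⟨w, hw⟩ : ∃ w : ι → F, ∀ j, w j = φ j / φ i := ⟨_, fun _ => rfl⟩
  obtain ⟨y, hy⟩ : ∃ y : ι → K, ∀ j, y j = x j / x i := ⟨_, fun _ => rfl⟩
  have hwi : w i = 1 := by rw [hw, div_self hφi]
  have hyi : y i = 1 := by rw [hy, div_self hxi]
  have hφw : (fun j => φ i * w j) = φ := by
    funext j
    rw [hw, mul_comm, div_mul_cancel₀ _ hφi]
  have hxy : (fun j => x i * y j) = x := by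
    funext j
    rw [hy, mul_comm, div_mul_cancel₀ _ hxi]
  have hxiF : algebraMap K F (x i) ≠ 0 := by
    rw [Ne, map_eq_zero]
    exact hxi
  -- relations of `w` vanish at `y`
  have hker : ∀ Q : MvPolynomial ι K, aeval w Q = 0 → eval y Q = 0 := by
    intro Q hQ
    have e1 := aeval_homog i Q (φ i) w hwi
    rw [hφw, hQ, mul_zero] at e1
    have h2 := hcone _ _ (homog_isHomogeneous i Q) e1
    have e2 := aeval_homog i Q (x i) y hyi
    rw [hxy] at e2
    have e3 : eval x (homog i Q) = x i ^ Q.totalDegree * eval y Q := e2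
    rw [h2] at e3
    rcases mul_eq_zero.mp e3.symm with h | h
    · exact absurd h (pow_ne_zero _ hxi)
    · exact h
  -- the common identity
  have heq : ∀ j, algebraMap K F (x i) * φ j - algebraMap K F (x j) * φ i
      = (w j - algebraMap K F (y j)) * (algebraMap K F (x i) * φ i) := by
    intro j
    have h1 : φ j / φ i * φ i = φ j := div_mul_cancel₀ _ hφi
    have h2 : algebraMap K F (x j) / algebraMap K F (x i) * algebraMap K F (x i)
        = algebraMap K F (x j) := div_mul_cancel₀ _ hxiF
    rw [hw, hy, map_div₀]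
    linear_combination (-(algebraMap K F (x i))) * h1 + φ i * h2
  by_cases hdeg : ∀ j, w j = algebraMap K F (y j)
  · obtain ⟨v⟩ := nonempty_place (K := K) (F := F) htr
    refine ⟨v, i, hxi, hφi, fun j => ?_⟩
    rw [heq j, hdeg j, sub_self, zero_mul, map_zero]
    exact zero_lt_iff.mpr (v.adicValuation_ne_zero hφi)
  · push_neg at hdeg
    obtain ⟨j0, hj0⟩ := hdeg
    obtain ⟨B, hKB, ht⟩ := exists_valuationSubring_of_ker w y hker
    have hBtop : B ≠ ⊤ := by
      intro htop
      have h := ht j0
      rw [ValuationSubring.mem_nonunits_iff_or] at h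
      rcases h with h | h
      · exact hj0 (sub_eq_zero.mp h)
      · exact h (by rw [htop]; exact ValuationSubring.mem_top _)
    obtain ⟨v, hv⟩ := exists_place_of_valuationSubring htr B hKB hBtop
    refine ⟨v, i, hxi, hφi, fun j => ?_⟩
    have hlt : v.adicValuation (w j - algebraMap K F (y j)) < 1 := by
      have h := ht j
      rw [← hv] at h
      obtain ⟨hmem, hmax⟩ := ValuationSubring.mem_nonunits_iff_exists_mem_maximalIdeal.mp h
      exact Fermat.Agent.S24.FF.adicValuation_lt_one_of_mem_maximal v hmax
    have hpos : 0 < v.adicValuation (φ i) := zero_lt_iff.mpr (v.adicValuation_ne_zero hφi)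
    rw [heq j, map_mul, map_mul, Fermat.Agent.S24.FF.adicValuation_algebraMap v hxi, one_mul]
    calc v.adicValuation (w j - algebraMap K F (y j)) * v.adicValuation (φ i)
        < 1 * v.adicValuation (φ i) := mul_lt_mul_of_pos_right hlt hpos
      _ = v.adicValuation (φ i) := one_mul _

end Fermat.Agent.S17.H.LD.Closed
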