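/-
MW strand H, block C (LD), leaf C5: the base-point-free pencil trick, level-free.

`F / K` a function field of one variable over an algebraically closed field of characteristic
zero, `c` a threshold for Riemann's theorem (`IsRiemannBound`; one exists by
`R.riemann_eq_of_large`).

* `exists_bpf_pair` (G4 a): `deg D ≥ c + 1` ⟹ there are `w₁ w₂ ∈ L(D)`, both nonzero, such that
  at every place one of them has exactly the pole order allowed by `D`;
* `exists_eq_mul_add_mul` (G4 b): for such a pair and `deg B - deg D ≥ c`: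
  `w₁ L(B) + w₂ L(B) = L(B + D)` (the kernel of `(f₁, f₂) ↦ w₁ f₁ + w₂ f₂` is `L(B - D)`, and
  the three dimensions are given by Riemann's theorem);
* `L_mul_L`, `span_image2_mul_L`, `prod_L_mul_L`: the product forms
  `L(D) * L(B) = L(D + B)` and `(∏ i ∈ s, L(D i)) * L(B) = L(∑ i ∈ s, D i + B)`;
* `exists_threshold`, `exists_threshold_prod`: the same with the threshold hidden.
-/
import Mathlib
import Fermat.Prelude.Def_AlgebraicCurve_Repartitions
import Fermat.Agent.S24.FF.Ord
import Fermat.Agent.S17.R.LSpace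
import Fermat.Agent.S17.R.LStep
import Fermat.Agent.S17.R.Riemann
import Fermat.Agent.S17.R.Places
import Fermat.Agent.S17.R.PoleOrder

set_option autoImplicit false

namespace Fermat.Agent.S17.H.LD.Pencil

open AlgebraicCurve Fermat.Agent.S17.R

variable {K F : Type*} [Field K] [Field F] [Algebra K F]

/-- `c` is a threshold for Riemann's theorem: `l(D) = deg D + 1 - g` as soon as `c ≤ deg D`. -/
def IsRiemannBound (K F : Type*) [Field K] [Field F] [Algebra K F] (c : ℤ) : Prop :=
  ∀ D : Divisor K F, c ≤ Divisor.degree D →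
    (Module.finrank K ↥(riemannRochSpace D) : ℤ) = Divisor.degree D + 1 - (gR K F : ℤ)

/-- A pair `w₁ w₂ ∈ L(D)` of nonzero functions without common base point relative to `D`:
at every place one of the two has exactly the order `-D P`. -/
def IsBpfPair (D : Divisor K F) (w₁ w₂ : F) : Prop :=
  w₁ ∈ riemannRochSpace D ∧ w₂ ∈ riemannRochSpace D ∧ w₁ ≠ 0 ∧ w₂ ≠ 0 ∧
    ∀ P : Place K F, P.ord w₁ = -D P ∨ P.ord w₂ = -D P

theorem sub_single_le (D : Divisor K F) (P : Place K F) :
    D - Finsupp.single P (1 : ℤ) ≤ D := by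
  classical
  rw [Finsupp.le_def]
  intro v
  rw [Finsupp.sub_apply, Finsupp.single_apply]
  split_ifs <;> omega

/-- `w ∈ L(D)`, `w ∉ L(D - P)`: the order of `w` at `P` is exactly `-D P`. -/
theorem ord_eq_of_mem_of_notMem {D : Divisor K F} {P : Place K F} {w : F}
    (hw : w ∈ riemannRochSpace D)
    (hn : w ∉ riemannRochSpace (D - Finsupp.single P (1 : ℤ))) : P.ord w = -D P := by
  classical
  have hw0 : w ≠ 0 := by
    rintro rfl
    exact hn (Submodule.zero_mem _)
  rw [mem_L_of_ne_zero hw0] at hw hn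
  push_neg at hn
  obtain ⟨v, hv⟩ := hn
  have hvP : v = P := by
    by_contra hne
    have h1 := hw v
    rw [Finsupp.sub_apply, Finsupp.single_apply, if_neg (Ne.symm hne)] at hv
    omega
  subst hvP
  have h1 := hw v
  rw [Finsupp.sub_apply, Finsupp.single_eq_same] at hv
  omega

section Curve

variable [IsAlgClosed K] [CharZero K] [Algebra.EssFiniteType K F]

/-- A threshold for Riemann's theorem exists (`R.riemann_eq_of_large`). -/
theorem exists_isRiemannBound (htr : Algebra.trdeg K F = 1) : ∃ c : ℤ, IsRiemannBound K F c :=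
  riemann_eq_of_large (K := K) (F := F) htr

theorem IsRiemannBound.mono {c c' : ℤ} (hc : IsRiemannBound K F c) (h : c ≤ c') :
    IsRiemannBound K F c' :=
  fun D hD => hc D (le_trans h hD)

/-- A threshold for Riemann's theorem is at least `-1`. -/
theorem IsRiemannBound.neg_one_le (htr : Algebra.trdeg K F = 1) {c : ℤ}
    (hc : IsRiemannBound K F c) : -1 ≤ c := by
  by_contra hlt
  push_neg at hlt
  obtain ⟨P⟩ := nonempty_place (K := K) (F := F) htr
  have hdeg : Divisor.degree ((-2 : ℤ) • Finsupp.single P (1 : ℤ)) = -2 :=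
    PoleOrder.degree_zsmul_single htr P (-2)
  have h1 := hc ((-2 : ℤ) • Finsupp.single P (1 : ℤ)) (by rw [hdeg]; omega)
  rw [L_eq_bot_of_degree_neg htr (by rw [hdeg]; norm_num), finrank_bot, hdeg] at h1
  have h2 : (0 : ℤ) ≤ (gR K F : ℤ) := Int.natCast_nonneg _
  have h3 : ((0 : ℕ) : ℤ) = 0 := rfl
  omega

/-- Above the threshold, removing a point drops the dimension by exactly one. -/
theorem finrank_sub_single_add_one (htr : Algebra.trdeg K F = 1) {c : ℤ}
    (hc : IsRiemannBound K F c) {D : Divisor K F} (hD : c + 1 ≤ Divisor.degree D)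
    (P : Place K F) :
    (Module.finrank K ↥(riemannRochSpace (D - Finsupp.single P (1 : ℤ))) : ℤ) + 1 =
      (Module.finrank K ↥(riemannRochSpace D) : ℤ) := by
  have hd := PoleOrder.degree_sub_single htr D P
  have h0 := hc D (by linarith)
  have h1 := hc (D - Finsupp.single P (1 : ℤ)) (by rw [hd]; linarith)
  rw [hd] at h1
  linarith

/-- Above the threshold, `L(D)` is not contained in `L(D - P)`: no base point. -/
theorem not_le_sub_single (htr : Algebra.trdeg K F = 1) {c : ℤ}
    (hc : IsRiemannBound K F c) {D : Divisor K F} (hD : c + 1 ≤ Divisor.degree D)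
    (P : Place K F) :
    ¬ riemannRochSpace D ≤ riemannRochSpace (D - Finsupp.single P (1 : ℤ)) := by
  intro h
  have heq := le_antisymm h (L_mono (sub_single_le D P))
  have h1 := finrank_sub_single_add_one htr hc hD P
  rw [← heq] at h1
  omega

/-- Above the threshold, `deg D ≥ 0`. -/
theorem degree_nonneg_of_bound (htr : Algebra.trdeg K F = 1) {c : ℤ}
    (hc : IsRiemannBound K F c) {D : Divisor K F} (hD : c + 1 ≤ Divisor.degree D) :
    0 ≤ Divisor.degree D := by
  have := hc.neg_one_le htr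
  omega

/-- **G4 (a)**: a base-point-free pair exists in `L(D)` as soon as `deg D ≥ c + 1`. -/
theorem exists_bpf_pair (htr : Algebra.trdeg K F = 1) {c : ℤ} (hc : IsRiemannBound K F c)
    {D : Divisor K F} (hD : c + 1 ≤ Divisor.degree D) :
    ∃ w₁ w₂ : F, IsBpfPair D w₁ w₂ := by
  classical
  haveI := finite_L htr D
  obtain ⟨P₀⟩ := nonempty_place (K := K) (F := F) htr
  have hpos : 0 < Module.finrank K ↥(riemannRochSpace D) := by
    have h := finrank_sub_single_add_one htr hc hD P₀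
    have h' : (0 : ℤ) < (Module.finrank K ↥(riemannRochSpace D) : ℤ) := by
      have : (0 : ℤ) ≤ (Module.finrank K
        ↥(riemannRochSpace (D - Finsupp.single P₀ (1 : ℤ))) : ℤ) := Int.natCast_nonneg _
      linarith
    exact_mod_cast h'
  obtain ⟨z, hz⟩ := Module.finrank_pos_iff_exists_ne_zero.mp hpos
  have hz0 : (z : F) ≠ 0 := fun h => hz (Subtype.ext h)
  have hzord : ∀ P : Place K F, P ∉ (D + divOf K (z : F)).support → P.ord (z : F) = -D P := by
    intro P hP
    rw [Finsupp.notMem_support_iff, Finsupp.add_apply, divOf_apply htr] at hP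
    omega
  by_cases hS : (D + divOf K (z : F)).support = ∅
  · refine ⟨z, z, z.2, z.2, hz0, hz0, fun P => Or.inl (hzord P ?_)⟩
    rw [hS]
    exact Finset.notMem_empty P
  · obtain ⟨P₁, hP₁⟩ := Finset.nonempty_iff_ne_empty.mpr hS
    let s : Finset (Subspace K ↥(riemannRochSpace D)) :=
      (D + divOf K (z : F)).support.image fun P =>
        Submodule.comap (riemannRochSpace D).subtype
          (riemannRochSpace (D - Finsupp.single P (1 : ℤ)))
    have hs : ⊤ ∉ s := by
      intro htop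
      obtain ⟨P, -, hP⟩ := Finset.mem_image.mp htop
      refine not_le_sub_single htr hc hD P fun f hf => ?_
      have hmem : (⟨f, hf⟩ : ↥(riemannRochSpace D)) ∈
          Submodule.comap (riemannRochSpace D).subtype
            (riemannRochSpace (D - Finsupp.single P (1 : ℤ))) := by
        rw [hP]
        exact Submodule.mem_top
      exact hmem
    have hne := Subspace.biUnion_ne_univ_of_top_notMem hs
    obtain ⟨y, hy⟩ : ∃ y : ↥(riemannRochSpace D), y ∉ ⋃ p ∈ s, (p : Set ↥(riemannRochSpace D)) := by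
      by_contra hcon
      push_neg at hcon
      exact hne (Set.eq_univ_of_forall hcon)
    have hyn : ∀ P ∈ (D + divOf K (z : F)).support,
        (y : F) ∉ riemannRochSpace (D - Finsupp.single P (1 : ℤ)) := by
      intro P hP hmem
      apply hy
      refine Set.mem_biUnion (Finset.mem_image_of_mem _ hP) ?_
      exact hmem
    have hy0 : (y : F) ≠ 0 := by
      intro h0
      exact hyn P₁ hP₁ (by rw [h0]; exact Submodule.zero_mem _)
    refine ⟨z, y, z.2, y.2, hz0, hy0, fun P => ?_⟩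
    by_cases hP : P ∈ (D + divOf K (z : F)).support
    · exact Or.inr (ord_eq_of_mem_of_notMem y.2 (hyn P hP))
    · exact Or.inl (hzord P hP)

/-- The map `(f₁, f₂) ↦ w₁ f₁ + w₂ f₂ : L(B) × L(B) → L(B + D)` for `w₁ w₂ ∈ L(D)`. -/
noncomputable def pairMap (D B : Divisor K F) {w₁ w₂ : F} (h₁ : w₁ ∈ riemannRochSpace D)
    (h₂ : w₂ ∈ riemannRochSpace D) :
    (↥(riemannRochSpace B) × ↥(riemannRochSpace B)) →ₗ[K] ↥(riemannRochSpace (B + D)) where
  toFun x := ⟨w₁ * (x.1 : F) + w₂ * (x.2 : F), by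
    rw [add_comm B D]
    exact Submodule.add_mem _ (mul_mem_L h₁ x.1.2) (mul_mem_L h₂ x.2.2)⟩
  map_add' x y := Subtype.ext (by
    show w₁ * ((x + y).1 : F) + w₂ * ((x + y).2 : F) =
      (w₁ * (x.1 : F) + w₂ * (x.2 : F)) + (w₁ * (y.1 : F) + w₂ * (y.2 : F))
    rw [Prod.fst_add, Prod.snd_add, Submodule.coe_add, Submodule.coe_add]
    ring)
  map_smul' a x := Subtype.ext (by
    show w₁ * ((a • x).1 : F) + w₂ * ((a • x).2 : F) =
      a • (w₁ * (x.1 : F) + w₂ * (x.2 : F))
    rw [Prod.smul_fst, Prod.smul_snd, Submodule.coe_smul, Submodule.coe_smul, smul_add,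
      mul_smul_comm, mul_smul_comm])

omit [IsAlgClosed K] [CharZero K] [Algebra.EssFiniteType K F] in
theorem pairMap_apply (D B : Divisor K F) {w₁ w₂ : F} (h₁ : w₁ ∈ riemannRochSpace D)
    (h₂ : w₂ ∈ riemannRochSpace D) (x : ↥(riemannRochSpace B) × ↥(riemannRochSpace B)) :
    (pairMap D B h₁ h₂ x : F) = w₁ * (x.1 : F) + w₂ * (x.2 : F) := rfl

omit [IsAlgClosed K] [CharZero K] [Algebra.EssFiniteType K F] in
/-- The kernel of the pair map sits in `L(B - D)`: `f₁ / w₂ ∈ L(B - D)`. -/
theorem div_mem_of_mem_ker {D B : Divisor K F} {w₁ w₂ : F} (hw : IsBpfPair D w₁ w₂)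
    {f₁ f₂ : F} (hf₁ : f₁ ∈ riemannRochSpace B) (hf₂ : f₂ ∈ riemannRochSpace B)
    (hrel : w₁ * f₁ + w₂ * f₂ = 0) : f₁ * w₂⁻¹ ∈ riemannRochSpace (B - D) := by
  obtain ⟨-, -, hw₁, hw₂, hord⟩ := hw
  by_cases hf₁0 : f₁ = 0
  · rw [hf₁0, zero_mul]
    exact Submodule.zero_mem _
  have hf₂0 : f₂ ≠ 0 := by
    rintro rfl
    rw [mul_zero, add_zero] at hrel
    exact (mul_ne_zero hw₁ hf₁0) hrel
  have hw₂i : w₂⁻¹ ≠ 0 := inv_ne_zero hw₂
  have hw₁i : w₁⁻¹ ≠ 0 := inv_ne_zero hw₁
  have hh0 : f₁ * w₂⁻¹ ≠ 0 := mul_ne_zero hf₁0 hw₂i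
  -- the second expression of the quotient
  have halt : f₁ * w₂⁻¹ = -(f₂ * w₁⁻¹) := by
    have h1 : w₁ * f₁ = -(w₂ * f₂) := eq_neg_of_add_eq_zero_left hrel
    field_simp
    linear_combination h1
  rw [mem_L_of_ne_zero hh0]
  rw [mem_L_of_ne_zero hf₁0] at hf₁
  rw [mem_L_of_ne_zero hf₂0] at hf₂
  intro P
  rw [Finsupp.sub_apply]
  rcases hord P with h | h
  · rw [halt, Fermat.Agent.S24.FF.ord_neg, P.ord_mul hf₂0 hw₁i, P.ord_inv, h]
    have := hf₂ P
    omega
  · rw [P.ord_mul hf₁0 hw₂i, P.ord_inv, h]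
    have := hf₁ P
    omega

omit [IsAlgClosed K] [CharZero K] [Algebra.EssFiniteType K F] in
theorem pairMap_eq_zero_iff (D B : Divisor K F) {w₁ w₂ : F} (h₁ : w₁ ∈ riemannRochSpace D)
    (h₂ : w₂ ∈ riemannRochSpace D) (x : ↥(riemannRochSpace B) × ↥(riemannRochSpace B)) :
    pairMap D B h₁ h₂ x = 0 ↔ w₁ * (x.1 : F) + w₂ * (x.2 : F) = 0 :=
  Subtype.ext_iff

/-- The kernel of the pair map maps to `L(B - D)` by `(f₁, f₂) ↦ f₁ / w₂`. -/
noncomputable def kerMap {D B : Divisor K F} {w₁ w₂ : F} (hw : IsBpfPair D w₁ w₂) :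
    ↥(LinearMap.ker (pairMap D B hw.1 hw.2.1)) →ₗ[K] ↥(riemannRochSpace (B - D)) where
  toFun x := ⟨(x.1.1 : F) * w₂⁻¹, div_mem_of_mem_ker hw x.1.1.2 x.1.2.2
    ((pairMap_eq_zero_iff D B hw.1 hw.2.1 x.1).mp (LinearMap.mem_ker.mp x.2))⟩
  map_add' x y := Subtype.ext (by
    show ((x + y).1.1 : F) * w₂⁻¹ = (x.1.1 : F) * w₂⁻¹ + (y.1.1 : F) * w₂⁻¹
    rw [Submodule.coe_add, Prod.fst_add, Submodule.coe_add, add_mul])
  map_smul' a x := Subtype.ext (by
    show ((a • x).1.1 : F) * w₂⁻¹ = a • ((x.1.1 : F) * w₂⁻¹)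
    rw [Submodule.coe_smul, Prod.smul_fst, Submodule.coe_smul, smul_mul_assoc])

theorem kerMap_injective {D B : Divisor K F} {w₁ w₂ : F} (hw : IsBpfPair D w₁ w₂) :
    Function.Injective (kerMap (B := B) hw) := by
  refine (injective_iff_map_eq_zero _).mpr fun x hx => ?_
  have h1 : (x.1.1 : F) * w₂⁻¹ = 0 := congrArg Subtype.val hx
  have h2 : (x.1.1 : F) = 0 := by
    rcases mul_eq_zero.mp h1 with h | h
    · exact h
    · exact absurd h (inv_ne_zero hw.2.2.2.1)
  have hx' := (pairMap_eq_zero_iff D B hw.1 hw.2.1 x.1).mp (LinearMap.mem_ker.mp x.2)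
  rw [h2, mul_zero, zero_add] at hx'
  have h3 : (x.1.2 : F) = 0 := by
    rcases mul_eq_zero.mp hx' with h | h
    · exact absurd h hw.2.2.2.1
    · exact h
  apply Subtype.ext
  apply Prod.ext
  · exact Subtype.ext h2
  · exact Subtype.ext h3

/-- **G4 (b)**, surjectivity form: for a base-point-free pair of `L(D)` and
`deg B - deg D ≥ c` the map `(f₁, f₂) ↦ w₁ f₁ + w₂ f₂ : L(B) × L(B) → L(B + D)` is onto. -/
theorem pairMap_surjective (htr : Algebra.trdeg K F = 1) {c : ℤ} (hc : IsRiemannBound K F c)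
    {D B : Divisor K F} {w₁ w₂ : F} (hw : IsBpfPair D w₁ w₂)
    (hB : c ≤ Divisor.degree B - Divisor.degree D) :
    Function.Surjective (pairMap D B hw.1 hw.2.1) := by
  classical
  haveI := finite_L htr B
  haveI := finite_L htr (B + D)
  haveI := finite_L htr (B - D)
  -- `deg D ≥ 0` because `L(D) ≠ 0`
  have hD0 : 0 ≤ Divisor.degree D := by
    have h1 := degree_nonneg htr (add_divOf_nonneg htr hw.2.2.1 hw.1)
    rw [map_add, degree_divOf htr, add_zero] at h1
    exact h1
  -- the three dimensions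
  have hlB := hc B (by linarith)
  have hlBD := hc (B + D) (by rw [map_add]; linarith)
  have hlBmD := hc (B - D) (by rw [map_sub]; exact hB)
  rw [map_add] at hlBD
  rw [map_sub] at hlBmD
  have hker : Module.finrank K ↥(LinearMap.ker (pairMap D B hw.1 hw.2.1)) ≤
      Module.finrank K ↥(riemannRochSpace (B - D)) :=
    LinearMap.finrank_le_finrank_of_injective (kerMap_injective (B := B) hw)
  have hrn := LinearMap.finrank_range_add_finrank_ker (pairMap D B hw.1 hw.2.1)
  rw [Module.finrank_prod] at hrn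
  have hrange : Module.finrank K ↥(LinearMap.range (pairMap D B hw.1 hw.2.1)) =
      Module.finrank K ↥(riemannRochSpace (B + D)) := by
    have hle : Module.finrank K ↥(LinearMap.range (pairMap D B hw.1 hw.2.1)) ≤
        Module.finrank K ↥(riemannRochSpace (B + D)) := Submodule.finrank_le _
    have h1 : (Module.finrank K ↥(LinearMap.range (pairMap D B hw.1 hw.2.1)) : ℤ) +
        (Module.finrank K ↥(LinearMap.ker (pairMap D B hw.1 hw.2.1)) : ℤ) =
        (Module.finrank K ↥(riemannRochSpace B) : ℤ) +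
          (Module.finrank K ↥(riemannRochSpace B) : ℤ) := by
      exact_mod_cast hrn
    have h2 : (Module.finrank K ↥(LinearMap.ker (pairMap D B hw.1 hw.2.1)) : ℤ) ≤
        (Module.finrank K ↥(riemannRochSpace (B - D)) : ℤ) := by
      exact_mod_cast hker
    have h3 : (Module.finrank K ↥(LinearMap.range (pairMap D B hw.1 hw.2.1)) : ℤ) ≤
        (Module.finrank K ↥(riemannRochSpace (B + D)) : ℤ) := by
      exact_mod_cast hle
    have h4 : (Module.finrank K ↥(LinearMap.range (pairMap D B hw.1 hw.2.1)) : ℤ) =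
        (Module.finrank K ↥(riemannRochSpace (B + D)) : ℤ) := by
      linarith
    exact_mod_cast h4
  exact LinearMap.range_eq_top.mp (Submodule.eq_top_of_finrank_eq hrange)

/-- **G4 (b)**: for a base-point-free pair `w₁ w₂` of `L(D)` and `deg B - deg D ≥ c`:
`L(B + D) = w₁ L(B) + w₂ L(B)`. -/
theorem exists_eq_mul_add_mul (htr : Algebra.trdeg K F = 1) {c : ℤ} (hc : IsRiemannBound K F c)
    {D B : Divisor K F} {w₁ w₂ : F} (hw : IsBpfPair D w₁ w₂)
    (hB : c ≤ Divisor.degree B - Divisor.degree D) {f : F}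
    (hf : f ∈ riemannRochSpace (B + D)) :
    ∃ f₁ ∈ riemannRochSpace B, ∃ f₂ ∈ riemannRochSpace B, f = w₁ * f₁ + w₂ * f₂ := by
  obtain ⟨x, hx⟩ := pairMap_surjective htr hc hw hB ⟨f, hf⟩
  refine ⟨x.1, x.1.2, x.2, x.2.2, ?_⟩
  have := congrArg Subtype.val hx
  rw [pairMap_apply] at this
  exact this.symm

omit [IsAlgClosed K] [CharZero K] [Algebra.EssFiniteType K F] in
/-- The converse inclusion: `w₁ L(B) + w₂ L(B) ⊆ L(B + D)`. -/
theorem mul_add_mul_mem {D B : Divisor K F} {w₁ w₂ f₁ f₂ : F}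
    (h₁ : w₁ ∈ riemannRochSpace D) (h₂ : w₂ ∈ riemannRochSpace D)
    (hf₁ : f₁ ∈ riemannRochSpace B) (hf₂ : f₂ ∈ riemannRochSpace B) :
    w₁ * f₁ + w₂ * f₂ ∈ riemannRochSpace (B + D) := by
  rw [add_comm B D]
  exact Submodule.add_mem _ (mul_mem_L h₁ hf₁) (mul_mem_L h₂ hf₂)

/-- **Pencil trick, span form**: `deg D ≥ c + 1`, `deg B - deg D ≥ c` ⟹ the products `l * f`,
`l ∈ L(D)`, `f ∈ L(B)`, span `L(D + B)`. -/
theorem span_image2_mul_L (htr : Algebra.trdeg K F = 1) {c : ℤ} (hc : IsRiemannBound K F c)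
    {D B : Divisor K F} (hD : c + 1 ≤ Divisor.degree D)
    (hB : c ≤ Divisor.degree B - Divisor.degree D) :
    Submodule.span K (Set.image2 (fun f g : F => f * g)
      (riemannRochSpace D : Set F) (riemannRochSpace B : Set F)) = riemannRochSpace (D + B) := by
  apply le_antisymm
  · rw [Submodule.span_le]
    rintro _ ⟨l, hl, f, hf, rfl⟩
    exact mul_mem_L hl hf
  · intro f hf
    obtain ⟨w₁, w₂, hw⟩ := exists_bpf_pair htr hc hD
    rw [add_comm D B] at hf
    obtain ⟨f₁, hf₁, f₂, hf₂, rfl⟩ := exists_eq_mul_add_mul htr hc hw hB hf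
    exact Submodule.add_mem _
      (Submodule.subset_span ⟨w₁, hw.1, f₁, hf₁, rfl⟩)
      (Submodule.subset_span ⟨w₂, hw.2.1, f₂, hf₂, rfl⟩)

/-- **Pencil trick, product form**: `L(D) * L(B) = L(D + B)` (submodule product in `F`) for
`deg D ≥ c + 1`, `deg B - deg D ≥ c`. -/
theorem L_mul_L (htr : Algebra.trdeg K F = 1) {c : ℤ} (hc : IsRiemannBound K F c)
    {D B : Divisor K F} (hD : c + 1 ≤ Divisor.degree D)
    (hB : c ≤ Divisor.degree B - Divisor.degree D) :
    riemannRochSpace D * riemannRochSpace B = riemannRochSpace (D + B) := by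
  rw [Submodule.mul_eq_span_mul_set, ← Set.image2_mul]
  exact span_image2_mul_L htr hc hD hB

/-- **Pencil trick, iterated**: `(∏ i ∈ s, L(D i)) * L(B) = L(∑ i ∈ s, D i + B)` as soon as
every `deg (D i) ≥ c + 1` and `deg B - deg (D i) ≥ c`. -/
theorem prod_L_mul_L (htr : Algebra.trdeg K F = 1) {c : ℤ} (hc : IsRiemannBound K F c)
    {ι : Type*} (s : Finset ι) (D : ι → Divisor K F) (B : Divisor K F)
    (hD : ∀ i ∈ s, c + 1 ≤ Divisor.degree (D i))
    (hB : ∀ i ∈ s, c ≤ Divisor.degree B - Divisor.degree (D i)) :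
    (∏ i ∈ s, riemannRochSpace (D i)) * riemannRochSpace B =
      riemannRochSpace (∑ i ∈ s, D i + B) := by
  classical
  induction s using Finset.induction_on with
  | empty =>
    rw [Finset.prod_empty, Finset.sum_empty, one_mul, zero_add]
  | insert a s ha ih =>
    have ih' := ih (fun i hi => hD i (Finset.mem_insert_of_mem hi))
      (fun i hi => hB i (Finset.mem_insert_of_mem hi))
    rw [Finset.prod_insert ha, Finset.sum_insert ha, mul_assoc, ih', add_assoc]
    refine L_mul_L htr hc (hD a (Finset.mem_insert_self a s)) ?_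
    have hsum : 0 ≤ Divisor.degree (∑ i ∈ s, D i) := by
      rw [map_sum]
      exact Finset.sum_nonneg fun i hi =>
        degree_nonneg_of_bound htr hc (hD i (Finset.mem_insert_of_mem hi))
    have hBa := hB a (Finset.mem_insert_self a s)
    rw [map_add]
    linarith

/-- The pencil trick with the threshold hidden. -/
theorem exists_threshold (htr : Algebra.trdeg K F = 1) :
    ∃ c : ℤ, IsRiemannBound K F c ∧ ∀ D B : Divisor K F, c + 1 ≤ Divisor.degree D →
      c ≤ Divisor.degree B - Divisor.degree D →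
      riemannRochSpace D * riemannRochSpace B = riemannRochSpace (D + B) := by
  obtain ⟨c, hc⟩ := exists_isRiemannBound (K := K) (F := F) htr
  exact ⟨c, hc, fun D B hD hB => L_mul_L htr hc hD hB⟩

/-- The iterated pencil trick with the threshold hidden. -/
theorem exists_threshold_prod (htr : Algebra.trdeg K F = 1) :
    ∃ c : ℤ, IsRiemannBound K F c ∧ ∀ {ι : Type*} (s : Finset ι) (D : ι → Divisor K F)
      (B : Divisor K F), (∀ i ∈ s, c + 1 ≤ Divisor.degree (D i)) →
      (∀ i ∈ s, c ≤ Divisor.degree B - Divisor.degree (D i)) →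
      (∏ i ∈ s, riemannRochSpace (D i)) * riemannRochSpace B =
        riemannRochSpace (∑ i ∈ s, D i + B) := by
  obtain ⟨c, hc⟩ := exists_isRiemannBound (K := K) (F := F) htr
  exact ⟨c, hc, fun s D B hD hB => prod_L_mul_L htr hc s D B hD hB⟩

end Curve

end Fermat.Agent.S17.H.LD.Pencil
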