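/-
MW strand H, block C (LD), leaf G5 / C6 (racing twin, helper163): CONSTANT RANK, the part that
does not need the point vocabulary (`IsPt`).

`F / K` a function field of one variable over an algebraically closed field of characteristic
zero, `c` a threshold for Riemann's theorem (`Pencil.IsRiemannBound`).

* `exists_rep_core`: divisors `D i` (`i : Fin M`) of degree `≥ c + 1`, generators
  `l i : ι → F` of `L(D i)`, `B` with `deg B - deg (D i) ≥ c`: every `y ∈ L(∑ i, D i + B)` is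
  `∑ ab, (∏ i, l i (ab i)) * f ab` with `f ab ∈ L(B)` (the pencil trick `M` times);
* `exists_rep_of_span`: the same at `D i = m0 v₀ - Z i`, `B = e m0 v₀` (`m0 ≥ c + 2`, `e ≥ 2`),
  generators the linear forms `x_a τ_b - x_b τ_a` - the literal of row S17.H.C6 with the
  conclusion of `IsPt.span_linForm` as a hypothesis;
* `L_sub_single_ne`: the hypothesis `hbpf` of `IsPt.span_linForm` above the threshold;
* `finrank_L_sub_sum`, `finrank_L_sub_zeros`: `l(A - ∑ i, Z i) = deg A - M + 1 - g`.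

Repeated `Z i` and `Z i = v₀` are allowed everywhere.
-/
import Mathlib
import Fermat.Prelude.Def_AlgebraicCurve_Repartitions
import Fermat.Agent.S17.R.LSpace
import Fermat.Agent.S17.R.LStep
import Fermat.Agent.S17.R.Riemann
import Fermat.Agent.S17.R.PoleOrder
import Fermat.Agent.S17.H.LD.Pencil

set_option autoImplicit false

namespace Fermat.Agent.S17.H.LD.ConstRankTwin

open AlgebraicCurve Fermat.Agent.S17.R Fermat.Agent.S17.H.LD.Pencil

variable {K F : Type*} [Field K] [Field F] [Algebra K F]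

/-- The `K`-subspace of `F` of the sums `∑ ab, (∏ i, l i (ab i)) * f ab` with `f ab ∈ L(B)`. -/
def repSpace {ι : Type*} [Fintype ι] {M : ℕ} (l : Fin M → ι → F) (B : Divisor K F) :
    Submodule K F where
  carrier := {y | ∃ f : (Fin M → ι) → F, (∀ ab, f ab ∈ riemannRochSpace B) ∧
    y = ∑ ab : Fin M → ι, (∏ i, l i (ab i)) * f ab}
  zero_mem' := ⟨fun _ => 0, fun _ => Submodule.zero_mem _, by simp⟩
  add_mem' := by
    rintro _ _ ⟨f, hf, rfl⟩ ⟨g, hg, rfl⟩
    refine ⟨fun ab => f ab + g ab, fun ab => Submodule.add_mem _ (hf ab) (hg ab), ?_⟩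
    rw [← Finset.sum_add_distrib]
    exact Finset.sum_congr rfl fun ab _ => (mul_add _ _ _).symm
  smul_mem' := by
    rintro a _ ⟨f, hf, rfl⟩
    refine ⟨fun ab => a • f ab, fun ab => Submodule.smul_mem _ a (hf ab), ?_⟩
    rw [Finset.smul_sum]
    exact Finset.sum_congr rfl fun ab _ => (mul_smul_comm _ _ _).symm

theorem mem_repSpace {ι : Type*} [Fintype ι] {M : ℕ} {l : Fin M → ι → F} {B : Divisor K F}
    {y : F} : y ∈ repSpace l B ↔ ∃ f : (Fin M → ι) → F, (∀ ab, f ab ∈ riemannRochSpace B) ∧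
      y = ∑ ab : Fin M → ι, (∏ i, l i (ab i)) * f ab := Iff.rfl

/-- A monomial in the generators times a section of `L(B)` lies in `repSpace`. -/
theorem prod_mul_mem_repSpace {ι : Type*} [Fintype ι] {M : ℕ} (l : Fin M → ι → F)
    {B : Divisor K F} (ab₀ : Fin M → ι) {n : F} (hn : n ∈ riemannRochSpace B) :
    (∏ i, l i (ab₀ i)) * n ∈ repSpace l B := by
  classical
  refine ⟨Pi.single ab₀ n, fun ab => ?_, ?_⟩
  · by_cases h : ab = ab₀
    · rw [h, Pi.single_eq_same]
      exact hn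
    · rw [Pi.single_eq_of_ne h]
      exact Submodule.zero_mem _
  · rw [Finset.sum_eq_single ab₀]
    · rw [Pi.single_eq_same]
    · intro ab _ hne
      rw [Pi.single_eq_of_ne hne, mul_zero]
    · intro h
      exact absurd (Finset.mem_univ ab₀) h

/-- The product of the spans of the generators times `L(B)` lies in `repSpace`. -/
theorem prod_span_mul_le_repSpace {ι : Type*} [Fintype ι] {M : ℕ} (l : Fin M → ι → F)
    (B : Divisor K F) :
    (∏ i, Submodule.span K (Set.range (l i))) * riemannRochSpace B ≤ repSpace l B := by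
  rw [Submodule.prod_span, Submodule.mul_le]
  intro m hm n hn
  induction hm using Submodule.span_induction with
  | mem x hx =>
    obtain ⟨g, hg, rfl⟩ := (Set.mem_fintype_prod _ _).mp hx
    choose ab hab using hg
    have h1 : ∏ i, g i = ∏ i, l i (ab i) := Finset.prod_congr rfl fun i _ => (hab i).symm
    rw [h1]
    exact prod_mul_mem_repSpace l ab hn
  | zero =>
    rw [zero_mul]
    exact Submodule.zero_mem _
  | add x y _ _ hx hy =>
    rw [add_mul]
    exact Submodule.add_mem _ hx hy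
  | smul a x _ hx =>
    rw [smul_mul_assoc]
    exact Submodule.smul_mem _ a hx

theorem sum_sub_single (H : Divisor K F) {M : ℕ} (Z : Fin M → Place K F) :
    ∑ i, (H - Finsupp.single (Z i) (1 : ℤ)) =
      (M : ℤ) • H - ∑ i, Finsupp.single (Z i) (1 : ℤ) := by
  rw [Finset.sum_sub_distrib, Finset.sum_const, Finset.card_univ, Fintype.card_fin,
    natCast_zsmul]

/-- The converse inclusion: the combinations lie in `L(∑ i, D i + B)`. -/
theorem rep_mem_L {ι : Type*} [Fintype ι] {M : ℕ} (D : Fin M → Divisor K F) (B : Divisor K F)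
    (l : Fin M → ι → F) (hl : ∀ i a, l i a ∈ riemannRochSpace (D i))
    (f : (Fin M → ι) → F) (hf : ∀ ab, f ab ∈ riemannRochSpace B) :
    ∑ ab : Fin M → ι, (∏ i, l i (ab i)) * f ab ∈ riemannRochSpace (∑ i, D i + B) := by
  refine Submodule.sum_mem _ fun ab _ => ?_
  refine mul_mem_L ?_ (hf ab)
  have key : ∀ s : Finset (Fin M), ∏ i ∈ s, l i (ab i) ∈ riemannRochSpace (∑ i ∈ s, D i) := by
    classical
    intro s
    induction s using Finset.induction_on with
    | empty =>
      rw [Finset.prod_empty, Finset.sum_empty]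
      exact RiemannAux.one_mem_L_zero
    | insert a s ha ih =>
      rw [Finset.prod_insert ha, Finset.sum_insert ha]
      exact mul_mem_L (hl a (ab a)) ih
  exact key Finset.univ

section Curve

variable [IsAlgClosed K] [CharZero K] [Algebra.EssFiniteType K F]

omit [CharZero K] [Algebra.EssFiniteType K F] in
/-- `deg (∑ i, Z i) = M`. -/
theorem degree_sum_single (htr : Algebra.trdeg K F = 1) {M : ℕ} (Z : Fin M → Place K F) :
    Divisor.degree (∑ i, Finsupp.single (Z i) (1 : ℤ)) = (M : ℤ) := by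
  rw [map_sum]
  have h1 : ∀ i ∈ (Finset.univ : Finset (Fin M)),
      Divisor.degree (Finsupp.single (Z i) (1 : ℤ)) = 1 := by
    intro i _
    rw [Divisor.degree_single, Fermat.Agent.S24.FF.deg_eq_one htr (Z i)]
    simp
  rw [Finset.sum_congr rfl h1, Finset.sum_const, Finset.card_univ, Fintype.card_fin]
  simp

/-- **Constant rank, core.** Divisors `D i` of degree `≥ c + 1` with generators `l i` of
`L(D i)`, and `deg B - deg (D i) ≥ c`: every `y ∈ L(∑ i, D i + B)` is a combination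
`∑ ab, (∏ i, l i (ab i)) * f ab` with coefficients `f ab ∈ L(B)`. -/
theorem exists_rep_core (htr : Algebra.trdeg K F = 1) {c : ℤ} (hc : IsRiemannBound K F c)
    {ι : Type*} [Fintype ι] {M : ℕ} (D : Fin M → Divisor K F) (B : Divisor K F)
    (l : Fin M → ι → F)
    (hl : ∀ i, Submodule.span K (Set.range (l i)) = riemannRochSpace (D i))
    (hD : ∀ i, c + 1 ≤ Divisor.degree (D i))
    (hB : ∀ i, c ≤ Divisor.degree B - Divisor.degree (D i))
    {y : F} (hy : y ∈ riemannRochSpace (∑ i, D i + B)) :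
    ∃ f : (Fin M → ι) → F, (∀ ab, f ab ∈ riemannRochSpace B) ∧
      y = ∑ ab : Fin M → ι, (∏ i, l i (ab i)) * f ab := by
  have hprod := prod_L_mul_L htr hc (Finset.univ : Finset (Fin M)) D B
    (fun i _ => hD i) (fun i _ => hB i)
  have h1 : (∏ i, Submodule.span K (Set.range (l i))) = ∏ i, riemannRochSpace (D i) :=
    Finset.prod_congr rfl fun i _ => hl i
  rw [← hprod, ← h1] at hy
  exact prod_span_mul_le_repSpace l B hy

/-- Above the threshold `L(D - P) ≠ L(D)` (the hypothesis `hbpf` of `IsPt.span_linForm`). -/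
theorem L_sub_single_ne (htr : Algebra.trdeg K F = 1) {c : ℤ} (hc : IsRiemannBound K F c)
    {D : Divisor K F} (hD : c + 1 ≤ Divisor.degree D) (P : Place K F) :
    riemannRochSpace (D - Finsupp.single P (1 : ℤ)) ≠ riemannRochSpace D := fun h =>
  not_le_sub_single htr hc hD P (le_of_eq h.symm)

/-- `l(A - ∑ i, Z i) = deg A - M + 1 - g` as soon as `deg A - M ≥ c`. -/
theorem finrank_L_sub_sum (htr : Algebra.trdeg K F = 1) {c : ℤ} (hc : IsRiemannBound K F c)
    (A : Divisor K F) {M : ℕ} (Z : Fin M → Place K F) (h : c ≤ Divisor.degree A - (M : ℤ)) :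
    (Module.finrank K ↥(riemannRochSpace (A - ∑ i, Finsupp.single (Z i) (1 : ℤ))) : ℤ) =
      Divisor.degree A - (M : ℤ) + 1 - (gR K F : ℤ) := by
  have hdeg : Divisor.degree (A - ∑ i, Finsupp.single (Z i) (1 : ℤ)) =
      Divisor.degree A - (M : ℤ) := by
    rw [map_sub, degree_sum_single htr Z]
  rw [hc _ (by rw [hdeg]; exact h), hdeg]

/-- Row S17.H.C6, first literal: `l(N v₀ - ∑ i, Z i) = N - M + 1 - g` for `N ≥ n₁ + M`. -/
theorem finrank_L_sub_zeros (htr : Algebra.trdeg K F = 1) (v₀ : Place K F) :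
    ∃ n₁ : ℕ, ∀ N M : ℕ, n₁ + M ≤ N → ∀ Z : Fin M → Place K F,
      (Module.finrank K ↥(riemannRochSpace ((N : ℤ) • Finsupp.single v₀ (1 : ℤ) -
        ∑ i, Finsupp.single (Z i) (1 : ℤ))) : ℤ) = (N : ℤ) - M + 1 - (gR K F : ℤ) := by
  obtain ⟨c, hc⟩ := exists_isRiemannBound (K := K) (F := F) htr
  refine ⟨c.toNat, fun N M hNM Z => ?_⟩
  have hdeg := PoleOrder.degree_zsmul_single htr v₀ (N : ℤ)
  have h1 : c ≤ (c.toNat : ℤ) := Int.self_le_toNat c
  have h2 : ((c.toNat + M : ℕ) : ℤ) ≤ (N : ℤ) := by exact_mod_cast hNM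
  have h3 := finrank_L_sub_sum htr hc ((N : ℤ) • Finsupp.single v₀ (1 : ℤ)) Z
    (by rw [hdeg]; push_cast at h2; linarith)
  rw [h3, hdeg]

/-- **Constant rank**, the literal of row S17.H.C6 with the conclusion of `IsPt.span_linForm`
as a hypothesis: for `m0 ≥ c + 2`, `e ≥ 2`, zeros `Z : Fin M → Place K F` (repeats and `v₀`
allowed) with value vectors `x i` such that the linear forms `x_a τ_b - x_b τ_a` span
`L(m0 v₀ - Z i)`: every `y ∈ L((M + e) m0 v₀ - ∑ i, Z i)` is
`∑ ab, (∏ i, linear form (ab i) at x i) * f ab` with `f ab ∈ L(e m0 v₀)`. -/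
theorem exists_rep_of_span (htr : Algebra.trdeg K F = 1) {c : ℤ} (hc : IsRiemannBound K F c)
    (v₀ : Place K F) {m0 : ℕ} (hm0 : c + 2 ≤ (m0 : ℤ)) {ι : Type*} [Fintype ι] (τ : ι → F)
    (M e : ℕ) (he : 2 ≤ e) (Z : Fin M → Place K F) (x : Fin M → ι → K)
    (hspan : ∀ i, Submodule.span K (Set.range fun p : ι × ι =>
        algebraMap K F (x i p.1) * τ p.2 - algebraMap K F (x i p.2) * τ p.1) =
      riemannRochSpace ((m0 : ℤ) • Finsupp.single v₀ (1 : ℤ) - Finsupp.single (Z i) (1 : ℤ)))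
    {y : F}
    (hy : y ∈ riemannRochSpace ((((M + e) * m0 : ℕ) : ℤ) • Finsupp.single v₀ (1 : ℤ) -
      ∑ i, Finsupp.single (Z i) (1 : ℤ))) :
    ∃ f : (Fin M → ι × ι) → F,
      (∀ ab, f ab ∈ riemannRochSpace (((e * m0 : ℕ) : ℤ) • Finsupp.single v₀ (1 : ℤ))) ∧
      y = ∑ ab : Fin M → ι × ι,
        (∏ i, (algebraMap K F (x i (ab i).1) * τ (ab i).2 -
          algebraMap K F (x i (ab i).2) * τ (ab i).1)) * f ab := by
  have hdD : ∀ i, Divisor.degree
      ((m0 : ℤ) • Finsupp.single v₀ (1 : ℤ) - Finsupp.single (Z i) (1 : ℤ)) = (m0 : ℤ) - 1 := by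
    intro i
    rw [PoleOrder.degree_sub_single htr, PoleOrder.degree_zsmul_single htr]
  have hdB : Divisor.degree (((e * m0 : ℕ) : ℤ) • Finsupp.single v₀ (1 : ℤ)) =
      ((e * m0 : ℕ) : ℤ) := PoleOrder.degree_zsmul_single htr v₀ _
  have hem : (2 : ℤ) * (m0 : ℤ) ≤ ((e * m0 : ℕ) : ℤ) := by
    have h : 2 * m0 ≤ e * m0 := Nat.mul_le_mul_right m0 he
    exact_mod_cast h
  have hsum : ∑ i, ((m0 : ℤ) • Finsupp.single v₀ (1 : ℤ) - Finsupp.single (Z i) (1 : ℤ)) +
      ((e * m0 : ℕ) : ℤ) • Finsupp.single v₀ (1 : ℤ) =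
      (((M + e) * m0 : ℕ) : ℤ) • Finsupp.single v₀ (1 : ℤ) -
        ∑ i, Finsupp.single (Z i) (1 : ℤ) := by
    rw [sum_sub_single, smul_smul]
    have h1 : (((M + e) * m0 : ℕ) : ℤ) = (M : ℤ) * (m0 : ℤ) + ((e * m0 : ℕ) : ℤ) := by
      push_cast
      ring
    rw [h1, add_smul]
    abel
  rw [← hsum] at hy
  exact exists_rep_core htr hc
    (fun i => (m0 : ℤ) • Finsupp.single v₀ (1 : ℤ) - Finsupp.single (Z i) (1 : ℤ))
    (((e * m0 : ℕ) : ℤ) • Finsupp.single v₀ (1 : ℤ))
    (fun i (p : ι × ι) =>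
      algebraMap K F (x i p.1) * τ p.2 - algebraMap K F (x i p.2) * τ p.1)
    hspan (fun i => by rw [hdD i]; linarith) (fun i => by rw [hdD i, hdB]; linarith) hy

/-- The threshold-hidden form: one `n₁` serves `finrank`, `hbpf` and the representation. -/
theorem exists_threshold_rep (htr : Algebra.trdeg K F = 1) (v₀ : Place K F) :
    ∃ n₁ : ℕ, ∀ m0 : ℕ, n₁ ≤ m0 →
      (∀ P : Place K F, riemannRochSpace ((m0 : ℤ) • Finsupp.single v₀ (1 : ℤ) -
          Finsupp.single P (1 : ℤ)) ≠ riemannRochSpace ((m0 : ℤ) • Finsupp.single v₀ (1 : ℤ))) ∧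
      ∀ {ι : Type*} [Fintype ι] (τ : ι → F) (M e : ℕ), 2 ≤ e →
        ∀ (Z : Fin M → Place K F) (x : Fin M → ι → K),
        (∀ i, Submodule.span K (Set.range fun p : ι × ι =>
            algebraMap K F (x i p.1) * τ p.2 - algebraMap K F (x i p.2) * τ p.1) =
          riemannRochSpace ((m0 : ℤ) • Finsupp.single v₀ (1 : ℤ) -
            Finsupp.single (Z i) (1 : ℤ))) →
        ∀ y ∈ riemannRochSpace ((((M + e) * m0 : ℕ) : ℤ) • Finsupp.single v₀ (1 : ℤ) -
          ∑ i, Finsupp.single (Z i) (1 : ℤ)),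
        ∃ f : (Fin M → ι × ι) → F,
          (∀ ab, f ab ∈ riemannRochSpace (((e * m0 : ℕ) : ℤ) • Finsupp.single v₀ (1 : ℤ))) ∧
          y = ∑ ab : Fin M → ι × ι,
            (∏ i, (algebraMap K F (x i (ab i).1) * τ (ab i).2 -
              algebraMap K F (x i (ab i).2) * τ (ab i).1)) * f ab := by
  obtain ⟨c, hc⟩ := exists_isRiemannBound (K := K) (F := F) htr
  refine ⟨(c + 2).toNat, fun m0 hm0 => ?_⟩
  have hm0' : c + 2 ≤ (m0 : ℤ) := PoleOrder.le_of_toNat_le hm0
  have hdeg := PoleOrder.degree_zsmul_single htr v₀ (m0 : ℤ)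
  refine ⟨fun P => L_sub_single_ne htr hc (by rw [hdeg]; linarith) P, ?_⟩
  intro ι _ τ M e he Z x hspan y hy
  exact exists_rep_of_span htr hc v₀ hm0' τ M e he Z x hspan hy

end Curve

end Fermat.Agent.S17.H.LD.ConstRankTwin
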