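import Mathlib
import Fermat.Agent.S17.H.LD.Closed
import Fermat.Agent.S17.H.Glob.Eval

/-!
# PROGRAM MW (S17), strand H, block C, leaf C1a: projective points of a family at a place (helper87)

`K` a field, `F` a field over `K`, `φ : ι → F` a family, `v : Place K F`.

* `IsPt φ v x` : `x : ι → K` is a representative of the projective point `φ(v)`:
  for some index `i` with `x i ≠ 0`, `φ i ≠ 0`, every `φ j / φ i` is regular at `v` with value
  `x j / x i` (division-free: `v(x i • φ j - x j • φ i) < v(φ i)`).
* `IsPt.of_ne_zero` : the condition holds at every index `i` with `x i ≠ 0`.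
* `IsPt.form_lt` : **form evaluation**: for `P` homogeneous of degree `n`,
  `v(x i ^ n • P(φ) - P(x) • φ i ^ n) < v(φ i) ^ n`.
* `IsPt.onCone` : `x` lies on the cone of homogeneous relations of `φ`.
* `IsPt.eval_form` : for any value function `ev` (`Glob.IsEval`), `P(φ) / φ i ^ n` is regular at
  `v` with value `P(x) / x i ^ n`.
* `exists_isPt_of_onCone` : closedness (`Closed.exists_place_of_mem_cone`).
* `isPt_of_values`, `exists_isPt`, `IsPt.smul`, `IsPt.unique`.
-/

set_option autoImplicit false

namespace Fermat.Agent.S17.H.LD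

open AlgebraicCurve MvPolynomial
open Fermat.Agent.S24.FF

variable {K F : Type*} [Field K] [Field F] [Algebra K F] {ι : Type*}

/-- `x` is a representative of the projective point `φ(v)` of the family `φ` at the place `v`. -/
def IsPt (φ : ι → F) (v : Place K F) (x : ι → K) : Prop :=
  ∃ i, x i ≠ 0 ∧ φ i ≠ 0 ∧ ∀ j,
    v.adicValuation (algebraMap K F (x i) * φ j - algebraMap K F (x j) * φ i)
      < v.adicValuation (φ i)

namespace Pt

/-- Constants have valuation `≤ 1`. -/
theorem adicValuation_const_le (v : Place K F) (c : K) :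
    v.adicValuation (algebraMap K F c) ≤ 1 :=
  adicValuation_le_one_of_mem v (v.algebraMap_mem' c)

/-- A constant of valuation `< 1` is zero. -/
theorem const_eq_zero_of_lt (v : Place K F) {c : K}
    (h : v.adicValuation (algebraMap K F c) < 1) : c = 0 := by
  by_contra hc
  rw [adicValuation_algebraMap v hc] at h
  exact lt_irrefl _ h

/-- Multiplying by something of valuation `≤ 1` keeps valuation `< 1`. -/
theorem mul_lt_one_of_le_of_lt (v : Place K F) {a b : F} (ha : v.adicValuation a ≤ 1)
    (hb : v.adicValuation b < 1) : v.adicValuation (a * b) < 1 := by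
  rw [map_mul]
  calc v.adicValuation a * v.adicValuation b ≤ 1 * v.adicValuation b := by gcongr
    _ = v.adicValuation b := one_mul _
    _ < 1 := hb

/-- Cancelling a nonzero factor in a strict inequality of valuations. -/
theorem lt_one_of_mul_lt (v : Place K F) {t c : F} (_hc : c ≠ 0)
    (h : v.adicValuation (t * c) < v.adicValuation c) : v.adicValuation t < 1 := by
  by_contra hcon
  rw [not_lt] at hcon
  rw [map_mul] at h
  have h2 : 1 * v.adicValuation c ≤ v.adicValuation t * v.adicValuation c := by gcongr
  rw [one_mul] at h2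
  exact lt_irrefl _ (lt_of_le_of_lt h2 h)

/-- The dehomogenised congruence: if `w j ≡ y j` modulo the maximal ideal of `v` for all `j`,
then `P(w) ≡ P(y)` for every polynomial `P`. -/
theorem aeval_sub_lt_one (v : Place K F) (w : ι → F) (y : ι → K)
    (hw : ∀ j, v.adicValuation (w j - algebraMap K F (y j)) < 1) (P : MvPolynomial ι K) :
    v.adicValuation (aeval w P - algebraMap K F (eval y P)) < 1 := by
  have hwle : ∀ j, v.adicValuation (w j) ≤ 1 := by
    intro j
    have e : w j = (w j - algebraMap K F (y j)) + algebraMap K F (y j) := by ring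
    rw [e]
    exact Valuation.map_add_le _ (hw j).le (adicValuation_const_le v _)
  induction P using MvPolynomial.induction_on with
  | C a =>
    rw [aeval_C, eval_C, sub_self, map_zero]
    exact zero_lt_one
  | add p q hp hq =>
    have e : aeval w (p + q) - algebraMap K F (eval y (p + q))
        = (aeval w p - algebraMap K F (eval y p)) + (aeval w q - algebraMap K F (eval y q)) := by
      rw [map_add, map_add, map_add]
      ring
    rw [e]
    exact Valuation.map_add_lt _ hp hq
  | mul_X p j hp =>
    have e : aeval w (p * X j) - algebraMap K F (eval y (p * X j))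
        = w j * (aeval w p - algebraMap K F (eval y p))
          + algebraMap K F (eval y p) * (w j - algebraMap K F (y j)) := by
      rw [map_mul, map_mul, aeval_X, eval_X, map_mul]
      ring
    rw [e]
    exact Valuation.map_add_lt _ (mul_lt_one_of_le_of_lt v (hwle j) hp)
      (mul_lt_one_of_le_of_lt v (adicValuation_const_le v _) (hw j))

end Pt

open Pt

/-- The defining condition of `IsPt` holds at **every** index `i` with `x i ≠ 0`. -/
theorem IsPt.of_ne_zero {φ : ι → F} {v : Place K F} {x : ι → K} (h : IsPt φ v x) {i : ι}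
    (hi : x i ≠ 0) :
    φ i ≠ 0 ∧ ∀ j, v.adicValuation (algebraMap K F (x i) * φ j - algebraMap K F (x j) * φ i)
      < v.adicValuation (φ i) := by
  obtain ⟨i0, hi0, hφ0, h0⟩ := h
  have h2 : v.adicValuation (algebraMap K F (x i) * φ i0) = v.adicValuation (φ i0) := by
    rw [map_mul, adicValuation_algebraMap v hi, one_mul]
  have h3 : v.adicValuation (algebraMap K F (x i0) * φ i) = v.adicValuation (φ i0) := by
    have e : algebraMap K F (x i0) * φ i
        = (algebraMap K F (x i0) * φ i - algebraMap K F (x i) * φ i0)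
          + algebraMap K F (x i) * φ i0 := by ring
    rw [e, Valuation.map_add_eq_of_lt_right, h2]
    rw [h2]
    exact h0 i
  have hval : v.adicValuation (φ i) = v.adicValuation (φ i0) := by
    rwa [map_mul, adicValuation_algebraMap v hi0, one_mul] at h3
  have hφi : φ i ≠ 0 := by
    intro h
    rw [h, map_zero] at hval
    exact v.adicValuation_ne_zero hφ0 hval.symm
  refine ⟨hφi, fun j => ?_⟩
  have e : algebraMap K F (x i0) * (algebraMap K F (x i) * φ j - algebraMap K F (x j) * φ i)
      = algebraMap K F (x i) * (algebraMap K F (x i0) * φ j - algebraMap K F (x j) * φ i0)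
        - algebraMap K F (x j) * (algebraMap K F (x i0) * φ i - algebraMap K F (x i) * φ i0) := by
    ring
  have h4 : v.adicValuation
      (algebraMap K F (x i0) * (algebraMap K F (x i) * φ j - algebraMap K F (x j) * φ i))
      < v.adicValuation (φ i0) := by
    rw [e]
    refine Valuation.map_sub_lt _ ?_ ?_
    · rw [map_mul]
      calc v.adicValuation (algebraMap K F (x i))
            * v.adicValuation (algebraMap K F (x i0) * φ j - algebraMap K F (x j) * φ i0)
          ≤ 1 * v.adicValuation (algebraMap K F (x i0) * φ j - algebraMap K F (x j) * φ i0) := by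
            have := adicValuation_const_le v (x i)
            gcongr
        _ = _ := one_mul _
        _ < _ := h0 j
    · rw [map_mul]
      calc v.adicValuation (algebraMap K F (x j))
            * v.adicValuation (algebraMap K F (x i0) * φ i - algebraMap K F (x i) * φ i0)
          ≤ 1 * v.adicValuation (algebraMap K F (x i0) * φ i - algebraMap K F (x i) * φ i0) := by
            have := adicValuation_const_le v (x j)
            gcongr
        _ = _ := one_mul _
        _ < _ := h0 i
  rwa [map_mul, adicValuation_algebraMap v hi0, one_mul, ← hval] at h4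

/-- Dehomogenised form of the point condition. -/
theorem IsPt.div_sub_lt_one {φ : ι → F} {v : Place K F} {x : ι → K} (h : IsPt φ v x) {i : ι}
    (hi : x i ≠ 0) (j : ι) :
    v.adicValuation (φ j / φ i - algebraMap K F (x j / x i)) < 1 := by
  obtain ⟨hφi, hpt⟩ := h.of_ne_zero hi
  have hxiF : algebraMap K F (x i) ≠ 0 := by
    rw [Ne, map_eq_zero]
    exact hi
  have h1 : φ j / φ i * φ i = φ j := div_mul_cancel₀ _ hφi
  have h2 : algebraMap K F (x j) / algebraMap K F (x i) * algebraMap K F (x i)
      = algebraMap K F (x j) := div_mul_cancel₀ _ hxiF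
  have e : (φ j / φ i - algebraMap K F (x j / x i)) * (algebraMap K F (x i) * φ i)
      = algebraMap K F (x i) * φ j - algebraMap K F (x j) * φ i := by
    rw [map_div₀]
    linear_combination (algebraMap K F (x i)) * h1 - φ i * h2
  refine lt_one_of_mul_lt v (mul_ne_zero hxiF hφi) ?_
  rw [e, map_mul (v.adicValuation) (algebraMap K F (x i)) (φ i), adicValuation_algebraMap v hi,
    one_mul]
  exact hpt j

/-- **Form evaluation at a point.** -/
theorem IsPt.form_lt {φ : ι → F} {v : Place K F} {x : ι → K} (h : IsPt φ v x) {i : ι}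
    (hi : x i ≠ 0) {n : ℕ} {P : MvPolynomial ι K} (hP : P.IsHomogeneous n) :
    v.adicValuation (algebraMap K F (x i) ^ n * aeval φ P - algebraMap K F (eval x P) * φ i ^ n)
      < v.adicValuation (φ i) ^ n := by
  obtain ⟨hφi, -⟩ := h.of_ne_zero hi
  obtain ⟨w, hw⟩ : ∃ w : ι → F, ∀ j, w j = φ j / φ i := ⟨_, fun _ => rfl⟩
  obtain ⟨y, hy⟩ : ∃ y : ι → K, ∀ j, y j = x j / x i := ⟨_, fun _ => rfl⟩
  have hφw : (fun j => φ i * w j) = φ := by
    funext j
    rw [hw, mul_comm, div_mul_cancel₀ _ hφi]
  have hxy : (fun j => x i * y j) = x := by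
    funext j
    rw [hy, mul_comm, div_mul_cancel₀ _ hi]
  have hcong : ∀ j, v.adicValuation (w j - algebraMap K F (y j)) < 1 := by
    intro j
    rw [hw, hy]
    exact h.div_sub_lt_one hi j
  have hA := aeval_sub_lt_one v w y hcong P
  have e1 : aeval φ P = φ i ^ n * aeval w P := by
    have := Closed.aeval_mul_of_isHomogeneous hP (φ i) w
    rwa [hφw] at this
  have e2 : eval x P = x i ^ n * eval y P := by
    have := Closed.aeval_mul_of_isHomogeneous hP (x i) y
    rw [hxy] at this
    exact this
  have e : algebraMap K F (x i) ^ n * aeval φ P - algebraMap K F (eval x P) * φ i ^ n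
      = (aeval w P - algebraMap K F (eval y P)) * (algebraMap K F (x i) ^ n * φ i ^ n) := by
    rw [e1, e2, map_mul, map_pow]
    ring
  have hpos : 0 < v.adicValuation (φ i) ^ n :=
    pow_pos (zero_lt_iff.mpr (v.adicValuation_ne_zero hφi)) n
  rw [e, map_mul, map_mul, map_pow, map_pow, adicValuation_algebraMap v hi, one_pow, one_mul]
  calc v.adicValuation (aeval w P - algebraMap K F (eval y P)) * v.adicValuation (φ i) ^ n
      < 1 * v.adicValuation (φ i) ^ n := mul_lt_mul_of_pos_right hA hpos
    _ = v.adicValuation (φ i) ^ n := one_mul _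

/-- A point of the curve lies on the cone of homogeneous relations (`mem_cone_of_place`). -/
theorem IsPt.onCone {φ : ι → F} {v : Place K F} {x : ι → K} (h : IsPt φ v x) :
    ∀ (n : ℕ) (P : MvPolynomial ι K), P.IsHomogeneous n → aeval φ P = 0 → eval x P = 0 := by
  intro n P hP h0
  obtain ⟨i, hi, hφi, -⟩ := id h
  have hlt := h.form_lt hi hP
  rw [h0, mul_zero, zero_sub, Valuation.map_neg, map_mul, map_pow] at hlt
  have hpos : 0 < v.adicValuation (φ i) ^ n :=
    pow_pos (zero_lt_iff.mpr (v.adicValuation_ne_zero hφi)) n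
  refine const_eq_zero_of_lt v ?_
  by_contra hcon
  rw [not_lt] at hcon
  have h2 : 1 * v.adicValuation (φ i) ^ n
      ≤ v.adicValuation (algebraMap K F (eval x P)) * v.adicValuation (φ i) ^ n := by gcongr
  rw [one_mul] at h2
  exact lt_irrefl _ (lt_of_le_of_lt h2 hlt)

/-- **Closedness**: over an algebraically closed constant field of characteristic zero, every
point of the cone of homogeneous relations of `φ` other than the vertex is the point of `φ` at
some place (`Closed.exists_place_of_mem_cone`). -/
theorem exists_isPt_of_onCone [IsAlgClosed K] [CharZero K] [Algebra.EssFiniteType K F]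
    (htr : Algebra.trdeg K F = 1) (φ : ι → F) (x : ι → K) (hx : x ≠ 0)
    (hcone : ∀ (n : ℕ) (P : MvPolynomial ι K), P.IsHomogeneous n → aeval φ P = 0 → eval x P = 0) :
    ∃ v : Place K F, IsPt φ v x := by
  obtain ⟨v, i, hi, hφi, h⟩ := Closed.exists_place_of_mem_cone htr φ x hx hcone
  exact ⟨v, i, hi, hφi, h⟩

/-! ### Sizes of the coordinates at a point -/

/-- At a point, the coordinate functions at the indices of nonzero coordinates have the largest
valuation. -/
theorem IsPt.adicValuation_le {φ : ι → F} {v : Place K F} {x : ι → K} (h : IsPt φ v x) {i : ι}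
    (hi : x i ≠ 0) (j : ι) : v.adicValuation (φ j) ≤ v.adicValuation (φ i) := by
  obtain ⟨-, hpt⟩ := h.of_ne_zero hi
  have e : algebraMap K F (x i) * φ j
      = (algebraMap K F (x i) * φ j - algebraMap K F (x j) * φ i)
        + algebraMap K F (x j) * φ i := by ring
  have h1 : v.adicValuation (algebraMap K F (x i) * φ j) ≤ v.adicValuation (φ i) := by
    rw [e]
    refine Valuation.map_add_le _ (hpt j).le ?_
    rw [map_mul]
    calc v.adicValuation (algebraMap K F (x j)) * v.adicValuation (φ i)
        ≤ 1 * v.adicValuation (φ i) := by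
          have := adicValuation_const_le v (x j)
          gcongr
      _ = _ := one_mul _
  rwa [map_mul, adicValuation_algebraMap v hi, one_mul] at h1

/-- At a point, the coordinate functions at two indices of nonzero coordinates have the same
valuation. -/
theorem IsPt.adicValuation_eq {φ : ι → F} {v : Place K F} {x : ι → K} (h : IsPt φ v x) {i j : ι}
    (hi : x i ≠ 0) (hj : x j ≠ 0) : v.adicValuation (φ j) = v.adicValuation (φ i) :=
  le_antisymm (h.adicValuation_le hi j) (h.adicValuation_le hj i)

/-- At a point, a coordinate function at an index of zero coordinate is strictly smaller. -/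
theorem IsPt.adicValuation_lt {φ : ι → F} {v : Place K F} {x : ι → K} (h : IsPt φ v x) {i j : ι}
    (hi : x i ≠ 0) (hj : x j = 0) : v.adicValuation (φ j) < v.adicValuation (φ i) := by
  obtain ⟨-, hpt⟩ := h.of_ne_zero hi
  have h1 := hpt j
  rwa [hj, map_zero, zero_mul, sub_zero, map_mul, adicValuation_algebraMap v hi, one_mul] at h1

/-- The support of a representative of the point is the set of indices of largest valuation; in
particular it does not depend on the representative. -/
theorem IsPt.ne_zero_iff {φ : ι → F} {v : Place K F} {x : ι → K} (h : IsPt φ v x) (j : ι) :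
    x j ≠ 0 ↔ ∀ k, v.adicValuation (φ k) ≤ v.adicValuation (φ j) := by
  constructor
  · intro hj k
    exact h.adicValuation_le hj k
  · intro hk hj
    obtain ⟨i, hi, -, -⟩ := id h
    exact lt_irrefl _ (lt_of_le_of_lt (hk i) (h.adicValuation_lt hi hj))

/-! ### Forms at a point -/

/-- Dehomogenised form evaluation: `P(φ) / φ i ^ n ≡ P(x) / x i ^ n` at `v`. -/
theorem IsPt.form_div_sub_lt_one {φ : ι → F} {v : Place K F} {x : ι → K} (h : IsPt φ v x)
    {i : ι} (hi : x i ≠ 0) {n : ℕ} {P : MvPolynomial ι K} (hP : P.IsHomogeneous n) :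
    v.adicValuation (aeval φ P / φ i ^ n - algebraMap K F (eval x P / x i ^ n)) < 1 := by
  obtain ⟨hφi, -⟩ := h.of_ne_zero hi
  have hxiF : algebraMap K F (x i) ≠ 0 := by
    rw [Ne, map_eq_zero]
    exact hi
  have hφn : φ i ^ n ≠ 0 := pow_ne_zero n hφi
  have hxn : algebraMap K F (x i) ^ n ≠ 0 := pow_ne_zero n hxiF
  have h1 : aeval φ P / φ i ^ n * φ i ^ n = aeval φ P := div_mul_cancel₀ _ hφn
  have h2 : algebraMap K F (eval x P) / algebraMap K F (x i) ^ n * algebraMap K F (x i) ^ n
      = algebraMap K F (eval x P) := div_mul_cancel₀ _ hxn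
  have e : (aeval φ P / φ i ^ n - algebraMap K F (eval x P / x i ^ n))
        * (algebraMap K F (x i) ^ n * φ i ^ n)
      = algebraMap K F (x i) ^ n * aeval φ P - algebraMap K F (eval x P) * φ i ^ n := by
    rw [map_div₀, map_pow]
    linear_combination (algebraMap K F (x i) ^ n) * h1 - φ i ^ n * h2
  refine lt_one_of_mul_lt v (mul_ne_zero hxn hφn) ?_
  rw [e, map_mul (v.adicValuation) (algebraMap K F (x i) ^ n) (φ i ^ n), map_pow, map_pow,
    adicValuation_algebraMap v hi, one_pow, one_mul]
  exact h.form_lt hi hP

/-- `P(φ) / φ i ^ n` is regular at the point. -/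
theorem IsPt.form_div_mem {φ : ι → F} {v : Place K F} {x : ι → K} (h : IsPt φ v x)
    {i : ι} (hi : x i ≠ 0) {n : ℕ} {P : MvPolynomial ι K} (hP : P.IsHomogeneous n) :
    aeval φ P / φ i ^ n ∈ v.toValuationSubring := by
  rw [← adicValuation_le_one_iff]
  have e : aeval φ P / φ i ^ n
      = (aeval φ P / φ i ^ n - algebraMap K F (eval x P / x i ^ n))
        + algebraMap K F (eval x P / x i ^ n) := by ring
  rw [e]
  exact Valuation.map_add_le _ (h.form_div_sub_lt_one hi hP).le (adicValuation_const_le v _)

/-- A form is bounded at a point by the power of the largest coordinate function. -/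
theorem IsPt.adicValuation_aeval_le {φ : ι → F} {v : Place K F} {x : ι → K} (h : IsPt φ v x)
    {i : ι} (hi : x i ≠ 0) {n : ℕ} {P : MvPolynomial ι K} (hP : P.IsHomogeneous n) :
    v.adicValuation (aeval φ P) ≤ v.adicValuation (φ i) ^ n := by
  obtain ⟨hφi, -⟩ := h.of_ne_zero hi
  have hφn : φ i ^ n ≠ 0 := pow_ne_zero n hφi
  have h1 := adicValuation_le_one_of_mem v (h.form_div_mem hi hP)
  have e : aeval φ P = aeval φ P / φ i ^ n * φ i ^ n := (div_mul_cancel₀ _ hφn).symm
  rw [e, map_mul, map_pow]
  calc v.adicValuation (aeval φ P / φ i ^ n) * v.adicValuation (φ i) ^ n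
      ≤ 1 * v.adicValuation (φ i) ^ n := by gcongr
    _ = _ := one_mul _

/-- **A form vanishes at the point iff the corresponding function vanishes at the place.** -/
theorem IsPt.eval_eq_zero_iff {φ : ι → F} {v : Place K F} {x : ι → K} (h : IsPt φ v x)
    {i : ι} (hi : x i ≠ 0) {n : ℕ} {P : MvPolynomial ι K} (hP : P.IsHomogeneous n) :
    eval x P = 0 ↔ v.adicValuation (aeval φ P) < v.adicValuation (φ i) ^ n := by
  obtain ⟨hφi, -⟩ := h.of_ne_zero hi
  have hlt := h.form_lt hi hP
  have hpos : 0 < v.adicValuation (φ i) ^ n :=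
    pow_pos (zero_lt_iff.mpr (v.adicValuation_ne_zero hφi)) n
  have hA : v.adicValuation (algebraMap K F (x i) ^ n * aeval φ P)
      = v.adicValuation (aeval φ P) := by
    rw [map_mul, map_pow, adicValuation_algebraMap v hi, one_pow, one_mul]
  constructor
  · intro h0
    rw [h0, map_zero, zero_mul, sub_zero] at hlt
    rwa [hA] at hlt
  · intro hsmall
    refine const_eq_zero_of_lt v ?_
    have e : algebraMap K F (eval x P) * φ i ^ n
        = algebraMap K F (x i) ^ n * aeval φ P
          - (algebraMap K F (x i) ^ n * aeval φ P - algebraMap K F (eval x P) * φ i ^ n) := by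
      ring
    have h3 : v.adicValuation (algebraMap K F (eval x P) * φ i ^ n)
        < v.adicValuation (φ i) ^ n := by
      rw [e]
      exact Valuation.map_sub_lt _ (by rwa [hA]) hlt
    rw [map_mul, map_pow] at h3
    by_contra hcon
    rw [not_lt] at hcon
    have h2 : 1 * v.adicValuation (φ i) ^ n
        ≤ v.adicValuation (algebraMap K F (eval x P)) * v.adicValuation (φ i) ^ n := by gcongr
    rw [one_mul] at h2
    exact lt_irrefl _ (lt_of_le_of_lt h2 h3)

/-- A form not vanishing at the point has exactly the size of the power of the largest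
coordinate function. -/
theorem IsPt.adicValuation_aeval_eq {φ : ι → F} {v : Place K F} {x : ι → K} (h : IsPt φ v x)
    {i : ι} (hi : x i ≠ 0) {n : ℕ} {P : MvPolynomial ι K} (hP : P.IsHomogeneous n)
    (hne : eval x P ≠ 0) : v.adicValuation (aeval φ P) = v.adicValuation (φ i) ^ n := by
  refine le_antisymm (h.adicValuation_aeval_le hi hP) (not_lt.mp fun hlt => hne ?_)
  exact (h.eval_eq_zero_iff hi hP).mpr hlt

/-! ### The bridge to the value functions of `Glob.Eval` -/

/-- The two valuations attached to a place have the same open unit ball. -/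
theorem Pt.adicValuation_lt_one_iff (v : Place K F) (f : F) :
    v.adicValuation f < 1 ↔ v.toValuationSubring.valuation f < 1 := by
  rw [Glob.valuation_lt_one_iff]
  by_cases hf : f = 0
  · subst hf
    rw [map_zero]
    exact ⟨fun _ => Or.inl rfl, fun _ => zero_lt_one⟩
  · rw [← ord_pos_iff_adicValuation_lt_one v hf]
    exact ⟨fun h => Or.inr h, fun h => h.resolve_left hf⟩

/-- **Value of a form at a point**: for any value function `ev`, the function
`P(φ) / φ i ^ n` takes at `v` the value `P(x) / x i ^ n`. -/
theorem IsPt.eval_form {ev : Place K F → F → K} (hev : Glob.IsEval ev) {φ : ι → F}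
    {v : Place K F} {x : ι → K} (h : IsPt φ v x) {i : ι} (hi : x i ≠ 0) {n : ℕ}
    {P : MvPolynomial ι K} (hP : P.IsHomogeneous n) :
    ev v (aeval φ P / φ i ^ n) = eval x P / x i ^ n :=
  hev.eq_of_valuation_lt (h.form_div_mem hi hP)
    ((Pt.adicValuation_lt_one_iff v _).mp (h.form_div_sub_lt_one hi hP))

/-- Value of a coordinate ratio at a point. -/
theorem IsPt.eval_div {ev : Place K F → F → K} (hev : Glob.IsEval ev) {φ : ι → F}
    {v : Place K F} {x : ι → K} (h : IsPt φ v x) {i : ι} (hi : x i ≠ 0) (j : ι) :
    φ j / φ i ∈ v.toValuationSubring ∧ ev v (φ j / φ i) = x j / x i := by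
  have hlt := h.div_sub_lt_one hi j
  have hmem : φ j / φ i ∈ v.toValuationSubring := by
    rw [← adicValuation_le_one_iff]
    have e : φ j / φ i = (φ j / φ i - algebraMap K F (x j / x i)) + algebraMap K F (x j / x i) := by
      ring
    rw [e]
    exact Valuation.map_add_le _ hlt.le (adicValuation_const_le v _)
  exact ⟨hmem, hev.eq_of_valuation_lt hmem ((Pt.adicValuation_lt_one_iff v _).mp hlt)⟩

/-! ### Construction, scaling, uniqueness -/

/-- A vector of values of the ratios `φ j / φ i₀` is a representative of the point. -/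
theorem isPt_of_values {φ : ι → F} {v : Place K F} {i₀ : ι} (hφ : φ i₀ ≠ 0) (y : ι → K)
    (hy : ∀ j, v.adicValuation (φ j / φ i₀ - algebraMap K F (y j)) < 1) : IsPt φ v y := by
  have hy1 : y i₀ = 1 := by
    have h1 := hy i₀
    rw [div_self hφ] at h1
    have h2 : v.adicValuation (algebraMap K F (1 - y i₀)) < 1 := by
      rwa [map_sub, map_one]
    exact (sub_eq_zero.mp (const_eq_zero_of_lt v h2)).symm
  refine ⟨i₀, by rw [hy1]; exact one_ne_zero, hφ, fun j => ?_⟩
  have e : algebraMap K F (y i₀) * φ j - algebraMap K F (y j) * φ i₀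
      = (φ j / φ i₀ - algebraMap K F (y j)) * φ i₀ := by
    rw [hy1, map_one, one_mul, sub_mul, div_mul_cancel₀ _ hφ]
  rw [e, map_mul]
  calc v.adicValuation (φ j / φ i₀ - algebraMap K F (y j)) * v.adicValuation (φ i₀)
      < 1 * v.adicValuation (φ i₀) :=
        mul_lt_mul_of_pos_right (hy j) (zero_lt_iff.mpr (v.adicValuation_ne_zero hφ))
    _ = _ := one_mul _

/-- Same, with the values given through a value function: if `φ i₀ ≠ 0` and every ratio
`φ j / φ i₀` is regular at `v`, the vector of their values is a representative of the point. -/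
theorem isPt_of_isEval {ev : Place K F → F → K} (hev : Glob.IsEval ev) {φ : ι → F}
    {v : Place K F} {i₀ : ι} (hφ : φ i₀ ≠ 0) (hreg : ∀ j, φ j / φ i₀ ∈ v.toValuationSubring) :
    IsPt φ v (fun j => ev v (φ j / φ i₀)) :=
  isPt_of_values hφ _ fun j => (Pt.adicValuation_lt_one_iff v _).mpr (hev v _ (hreg j))

/-- **Existence of the point**: a finite family, not identically zero, of functions on a curve
over an algebraically closed field has a point at every place. -/
theorem exists_isPt [Finite ι] [IsAlgClosed K] (htr : Algebra.trdeg K F = 1) (φ : ι → F)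
    (hφ : ∃ i, φ i ≠ 0) (v : Place K F) : ∃ x : ι → K, IsPt φ v x := by
  obtain ⟨i1, hi1⟩ := hφ
  have : Nonempty ι := ⟨i1⟩
  obtain ⟨i₀, hmax⟩ := Finite.exists_max (fun j => v.adicValuation (φ j))
  have hφ0 : φ i₀ ≠ 0 := by
    intro h0
    have h1 := hmax i1
    rw [h0, map_zero] at h1
    exact v.adicValuation_ne_zero hi1 (le_antisymm h1 zero_le)
  have hreg : ∀ j, φ j / φ i₀ ∈ v.toValuationSubring := by
    intro j
    rw [← adicValuation_le_one_iff, map_div₀]
    exact div_le_one_of_le₀ (hmax j) zero_le
  have hval : ∀ j, ∃ c : K, v.adicValuation (φ j / φ i₀ - algebraMap K F c) < 1 := by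
    intro j
    obtain ⟨c, hc⟩ := exists_residue htr v (hreg j)
    refine ⟨c, ?_⟩
    rcases hc with hc | hc
    · rw [hc, sub_self, map_zero]
      exact zero_lt_one
    · have hne : φ j / φ i₀ - algebraMap K F c ≠ 0 := by
        intro h0
        rw [h0] at hc
        simp at hc
      exact (ord_pos_iff_adicValuation_lt_one v hne).mp hc
  choose y hy using hval
  exact ⟨y, isPt_of_values hφ0 y hy⟩

/-- Scaling the representative. -/
theorem IsPt.smul {φ : ι → F} {v : Place K F} {x : ι → K} (h : IsPt φ v x) {c : K}
    (hc : c ≠ 0) : IsPt φ v (fun j => c * x j) := by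
  obtain ⟨i, hi, hφi, hpt⟩ := h
  refine ⟨i, mul_ne_zero hc hi, hφi, fun j => ?_⟩
  have e : algebraMap K F (c * x i) * φ j - algebraMap K F (c * x j) * φ i
      = algebraMap K F c * (algebraMap K F (x i) * φ j - algebraMap K F (x j) * φ i) := by
    rw [map_mul, map_mul]
    ring
  rw [e, map_mul, adicValuation_algebraMap v hc, one_mul]
  exact hpt j

/-- Scaling the family by a nonzero function does not move the point. -/
theorem IsPt.mul_left {φ : ι → F} {v : Place K F} {x : ι → K} (h : IsPt φ v x) {g : F}
    (hg : g ≠ 0) : IsPt (fun j => g * φ j) v x := by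
  obtain ⟨i, hi, hφi, hpt⟩ := h
  refine ⟨i, hi, mul_ne_zero hg hφi, fun j => ?_⟩
  have e : algebraMap K F (x i) * (g * φ j) - algebraMap K F (x j) * (g * φ i)
      = g * (algebraMap K F (x i) * φ j - algebraMap K F (x j) * φ i) := by ring
  rw [e, map_mul, map_mul]
  exact mul_lt_mul_of_pos_left (hpt j) (zero_lt_iff.mpr (v.adicValuation_ne_zero hg))

/-- **Uniqueness of the point**: two representatives are proportional. -/
theorem IsPt.unique {φ : ι → F} {v : Place K F} {x x' : ι → K} (h : IsPt φ v x)
    (h' : IsPt φ v x') : ∃ c : K, c ≠ 0 ∧ ∀ j, x' j = c * x j := by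
  obtain ⟨i, hi, -, -⟩ := id h
  have hi' : x' i ≠ 0 := (h'.ne_zero_iff i).mpr ((h.ne_zero_iff i).mp hi)
  refine ⟨x' i / x i, div_ne_zero hi' hi, fun j => ?_⟩
  have h1 := h.div_sub_lt_one hi j
  have h2 := h'.div_sub_lt_one hi' j
  have h3 : v.adicValuation (algebraMap K F (x' j / x' i - x j / x i)) < 1 := by
    have e : algebraMap K F (x' j / x' i - x j / x i)
        = (φ j / φ i - algebraMap K F (x j / x i)) - (φ j / φ i - algebraMap K F (x' j / x' i)) := by
      rw [map_sub]
      ring
    rw [e]
    exact Valuation.map_sub_lt _ h1 h2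
  have h4 := const_eq_zero_of_lt v h3
  have h5 : x' j / x' i = x j / x i := sub_eq_zero.mp h4
  field_simp
  field_simp at h5
  linear_combination h5

end Fermat.Agent.S17.H.LD
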