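import Mathlib
import Fermat.Agent.S17.R.LSpace

/-!
# Program MW (S17), strand H, block C, leaf C1 (divisor half): the linear sections through a point

`φ : ι → F` a family in `L(D)`, `Z` a place, `x : ι → K` a representative of the projective
point `φ(Z)` in the valuation shape of record
`∃ i, x i ≠ 0 ∧ φ i ≠ 0 ∧ ∀ j, Z(x i • φ j - x j • φ i) < Z(φ i)`
(this is `IsPt φ Z x` of `LD/Pt.lean` unfolded: a proof of `IsPt φ Z x` can be passed as `hx`).

* `linForm_mem_L` : `x a • φ b - x b • φ a ∈ L(D - Z)`;
* `span_linForm` : if `φ` spans `L(D)` and `Z` is not a base point of `L(D)`, these sections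
  span `L(D - Z)`.
Valuation arithmetic only; no curve hypothesis.
-/

set_option autoImplicit false

namespace Fermat.Agent.S17.H.LD.PtSpan

open AlgebraicCurve Fermat.Agent.S17.R Fermat.Agent.S24.FF

variable {K F : Type*} [Field K] [Field F] [Algebra K F] {ι : Type*}

/-- Strict comparison of valuations is strict comparison of orders. -/
theorem ord_lt_ord_of_adicValuation_lt (Z : Place K F) {f g : F} (hf : f ≠ 0) (hg : g ≠ 0)
    (h : Z.adicValuation f < Z.adicValuation g) : Z.ord g < Z.ord f := by
  unfold Place.ord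
  have hf' := Z.adicValuation_ne_zero hf
  have hg' := Z.adicValuation_ne_zero hg
  have := (WithZero.log_lt_log hf' hg').mpr h
  omega

/-- Multiplying by a constant does not increase the valuation. -/
theorem adicValuation_const_mul_le (Z : Place K F) (c : K) (f : F) :
    Z.adicValuation (algebraMap K F c * f) ≤ Z.adicValuation f := by
  rw [map_mul]
  have h1 : Z.adicValuation (algebraMap K F c) ≤ 1 :=
    adicValuation_le_one_of_mem Z (Z.algebraMap_mem' c)
  calc Z.adicValuation (algebraMap K F c) * Z.adicValuation f ≤ 1 * Z.adicValuation f :=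
        mul_le_mul' h1 le_rfl
    _ = Z.adicValuation f := one_mul _

theorem sub_single_le (D : Divisor K F) (Z : Place K F) :
    D - Finsupp.single Z (1 : ℤ) ≤ D := by
  classical
  rw [Finsupp.le_def]
  intro v
  rw [Finsupp.sub_apply, Finsupp.single_apply]
  split_ifs <;> omega

/-- **The linear sections vanish at the point**: `x a • φ b - x b • φ a ∈ L(D - Z)` for a
representative `x` of `φ(Z)` and `φ j ∈ L(D)`. -/
theorem linForm_mem_L {φ : ι → F} {Z : Place K F} {x : ι → K}
    (hx : ∃ i, x i ≠ 0 ∧ φ i ≠ 0 ∧ ∀ j,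
      Z.adicValuation (algebraMap K F (x i) * φ j - algebraMap K F (x j) * φ i)
        < Z.adicValuation (φ i))
    {D : Divisor K F} (hφ : ∀ j, φ j ∈ riemannRochSpace D) (a b : ι) :
    algebraMap K F (x a) * φ b - algebraMap K F (x b) * φ a ∈
      riemannRochSpace (D - Finsupp.single Z (1 : ℤ)) := by
  classical
  obtain ⟨i, hxi, hφi, hlt⟩ := hx
  have hlD : algebraMap K F (x a) * φ b - algebraMap K F (x b) * φ a ∈ riemannRochSpace D := by
    have h1 : algebraMap K F (x a) * φ b ∈ riemannRochSpace D := by
      rw [← Algebra.smul_def]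
      exact Submodule.smul_mem _ _ (hφ b)
    have h2 : algebraMap K F (x b) * φ a ∈ riemannRochSpace D := by
      rw [← Algebra.smul_def]
      exact Submodule.smul_mem _ _ (hφ a)
    exact Submodule.sub_mem _ h1 h2
  by_cases hl0 : algebraMap K F (x a) * φ b - algebraMap K F (x b) * φ a = 0
  · rw [hl0]
    exact Submodule.zero_mem _
  rw [mem_L_of_ne_zero hl0]
  intro v
  have hv := (mem_L_of_ne_zero hl0).mp hlD v
  rw [Finsupp.sub_apply]
  by_cases hvZ : v = Z
  · subst hvZ
    rw [Finsupp.single_eq_same]
    have e : algebraMap K F (x i) * (algebraMap K F (x a) * φ b - algebraMap K F (x b) * φ a) =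
        algebraMap K F (x a) * (algebraMap K F (x i) * φ b - algebraMap K F (x b) * φ i)
        - algebraMap K F (x b) * (algebraMap K F (x i) * φ a - algebraMap K F (x a) * φ i) := by
      ring
    have h1 : v.adicValuation
        (algebraMap K F (x i) * (algebraMap K F (x a) * φ b - algebraMap K F (x b) * φ a))
        < v.adicValuation (φ i) := by
      rw [e]
      exact Valuation.map_sub_lt _
        (lt_of_le_of_lt (adicValuation_const_mul_le v _ _) (hlt b))
        (lt_of_le_of_lt (adicValuation_const_mul_le v _ _) (hlt a))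
    rw [map_mul, adicValuation_algebraMap v hxi, one_mul] at h1
    have h2 := ord_lt_ord_of_adicValuation_lt v hl0 hφi h1
    have h3 := (mem_L_of_ne_zero hφi).mp (hφ i) v
    omega
  · rw [Finsupp.single_eq_of_ne hvZ]
    omega

/-- **The linear sections span `L(D - Z)`** if `φ` spans `L(D)` and `Z` is not a base point. -/
theorem span_linForm [Finite ι] {φ : ι → F} {Z : Place K F} {x : ι → K}
    (hx : ∃ i, x i ≠ 0 ∧ φ i ≠ 0 ∧ ∀ j,
      Z.adicValuation (algebraMap K F (x i) * φ j - algebraMap K F (x j) * φ i)
        < Z.adicValuation (φ i))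
    {D : Divisor K F} (hφ : Submodule.span K (Set.range φ) = riemannRochSpace D)
    (hbpf : riemannRochSpace (D - Finsupp.single Z (1 : ℤ)) ≠ riemannRochSpace D) :
    Submodule.span K (Set.range fun p : ι × ι =>
        algebraMap K F (x p.1) * φ p.2 - algebraMap K F (x p.2) * φ p.1) =
      riemannRochSpace (D - Finsupp.single Z (1 : ℤ)) := by
  classical
  cases nonempty_fintype ι
  have hφmem : ∀ j, φ j ∈ riemannRochSpace D := fun j => by
    rw [← hφ]
    exact Submodule.subset_span ⟨j, rfl⟩
  have hle : riemannRochSpace (D - Finsupp.single Z (1 : ℤ)) ≤ riemannRochSpace D :=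
    L_mono (sub_single_le D Z)
  have hSle : Submodule.span K (Set.range fun p : ι × ι =>
      algebraMap K F (x p.1) * φ p.2 - algebraMap K F (x p.2) * φ p.1) ≤
      riemannRochSpace (D - Finsupp.single Z (1 : ℤ)) := by
    rw [Submodule.span_le]
    rintro _ ⟨p, rfl⟩
    exact linForm_mem_L hx hφmem p.1 p.2
  refine le_antisymm hSle ?_
  obtain ⟨i, hxi, hφi, -⟩ := hx
  have hlS : ∀ j, algebraMap K F (x i) * φ j - algebraMap K F (x j) * φ i ∈
      Submodule.span K (Set.range fun p : ι × ι =>
        algebraMap K F (x p.1) * φ p.2 - algebraMap K F (x p.2) * φ p.1) := fun j =>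
    Submodule.subset_span ⟨(i, j), rfl⟩
  -- `φ i ∉ L(D - Z)`, otherwise `Z` is a base point
  have hφi_not : φ i ∉ riemannRochSpace (D - Finsupp.single Z (1 : ℤ)) := by
    intro hmem
    apply hbpf
    refine le_antisymm hle ?_
    rw [← hφ, Submodule.span_le]
    rintro _ ⟨j, rfl⟩
    have h1 : algebraMap K F (x i) * φ j ∈ riemannRochSpace (D - Finsupp.single Z (1 : ℤ)) := by
      have e : algebraMap K F (x i) * φ j =
          (algebraMap K F (x i) * φ j - algebraMap K F (x j) * φ i)
            + algebraMap K F (x j) * φ i := by ring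
      rw [e]
      refine Submodule.add_mem _ (hSle (hlS j)) ?_
      rw [← Algebra.smul_def]
      exact Submodule.smul_mem _ _ hmem
    have h2 := Submodule.smul_mem _ (x i)⁻¹ h1
    rwa [Algebra.smul_def, ← mul_assoc, ← map_mul, inv_mul_cancel₀ hxi, map_one, one_mul] at h2
  intro f hf
  have hfD : f ∈ Submodule.span K (Set.range φ) := by
    rw [hφ]
    exact hle hf
  obtain ⟨c, hc⟩ := (Submodule.mem_span_range_iff_exists_fun K).mp hfD
  have key : algebraMap K F (x i) * f =
      ∑ j, c j • (algebraMap K F (x i) * φ j - algebraMap K F (x j) * φ i)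
        + (∑ j, c j * x j) • φ i := by
    rw [← hc, Finset.mul_sum, Finset.sum_smul, ← Finset.sum_add_distrib]
    refine Finset.sum_congr rfl fun j _ => ?_
    simp only [Algebra.smul_def, map_mul]
    ring
  have hsum : ∑ j, c j • (algebraMap K F (x i) * φ j - algebraMap K F (x j) * φ i) ∈
      Submodule.span K (Set.range fun p : ι × ι =>
        algebraMap K F (x p.1) * φ p.2 - algebraMap K F (x p.2) * φ p.1) :=
    Submodule.sum_mem _ fun j _ => Submodule.smul_mem _ _ (hlS j)
  have hxf : algebraMap K F (x i) * f ∈ riemannRochSpace (D - Finsupp.single Z (1 : ℤ)) := by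
    rw [← Algebra.smul_def]
    exact Submodule.smul_mem _ _ hf
  have hlast : (∑ j, c j * x j) • φ i ∈ riemannRochSpace (D - Finsupp.single Z (1 : ℤ)) := by
    have e : (∑ j, c j * x j) • φ i = algebraMap K F (x i) * f -
        ∑ j, c j • (algebraMap K F (x i) * φ j - algebraMap K F (x j) * φ i) := by
      rw [key]
      ring
    rw [e]
    exact Submodule.sub_mem _ hxf (hSle hsum)
  have hzero : ∑ j, c j * x j = 0 := by
    by_contra hne
    apply hφi_not
    have h := Submodule.smul_mem _ (∑ j, c j * x j)⁻¹ hlast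
    rwa [smul_smul, inv_mul_cancel₀ hne, one_smul] at h
  rw [hzero, zero_smul, add_zero] at key
  have hfS : algebraMap K F (x i) * f ∈
      Submodule.span K (Set.range fun p : ι × ι =>
        algebraMap K F (x p.1) * φ p.2 - algebraMap K F (x p.2) * φ p.1) := by
    rw [key]
    exact hsum
  have h := Submodule.smul_mem _ (x i)⁻¹ hfS
  rwa [Algebra.smul_def, ← mul_assoc, ← map_mul, inv_mul_cancel₀ hxi, map_one, one_mul] at h

end Fermat.Agent.S17.H.LD.PtSpan
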