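/-
MW strand H, block C (LD), leaf G5 in the form consumed by (UP): CONSTANT RANK ON THE CONE
(helper163).

`F / K` a function field of one variable over an algebraically closed field of characteristic
zero, `v₀` a place, `τ : ι → F` a family in `L(m0 v₀)` such that at every place `Z` the linear
forms `x_a τ_b - x_b τ_a` (`x` a value vector of `τ` at `Z`) span `L(m0 v₀ - Z)` (`SpanLin`,
the conclusion of G1 `IsPt.span_linForm`).  For EVERY tuple `x : Fin M → ι → K` of nonzero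
points of the cone of `τ` (`OnCone`):

* `exists_zeros`: there are places `Z i` with `x i` a value vector of `τ` at `Z i`
  (closedness, `Closed.exists_place_of_mem_cone`) and
  `L((M + e) m0 v₀ - ∑ i, Z i) = {∑ ab, (∏ i, lin τ (x i) (ab i)) * f ab : f ab ∈ L(e m0 v₀)}`;
* `finrank_span_cols`: for generators `β` of `L(e m0 v₀)` the span of the products
  `(∏ i, lin τ (x i) (ab i)) * β t` has dimension `(M + e) m0 - M + 1 - g`;
* `rank_eq`, `rank_add_eq`: any coordinate matrix of these products in a linearly independent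
  family has rank `(M + e) m0 - M + 1 - g` - the hypothesis `hrank` of
  `exists_bounded_solution` at every point of the multi-cone;
* `spanLin_of_span`: `SpanLin` holds for every spanning family of `L(m0 v₀)` above the
  threshold (`PtSpan.span_linForm`), hence the hypothesis-free forms
  `exists_rep_of_mem_L_sub` (the second literal of row S17.H.C6, with `IsPt`),
  `exists_threshold_zeros` and `exists_threshold_rank`.
-/
import Mathlib
import Fermat.Agent.S17.H.LD.Carrier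
import Fermat.Agent.S17.H.LD.Closed
import Fermat.Agent.S17.H.LD.Pt
import Fermat.Agent.S17.H.LD.PtSpan
import Fermat.Agent.S17.H.LD.ConstRankTwin

set_option autoImplicit false

namespace Fermat.Agent.S17.H.LD.ConeRank

open AlgebraicCurve MvPolynomial Fermat.Agent.S17.R Fermat.Agent.S17.H.LD
  Fermat.Agent.S17.H.LD.Pencil Fermat.Agent.S17.H.LD.ConstRankTwin

variable {K F : Type*} [Field K] [Field F] [Algebra K F]

/-- `x` is a value vector of the family `τ` at the place `Z` (the valuation shape of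
`Closed.exists_place_of_mem_cone`; the body of `IsPt τ Z x`). -/
def PtBody {ι : Type*} (τ : ι → F) (Z : Place K F) (x : ι → K) : Prop :=
  ∃ i, x i ≠ 0 ∧ τ i ≠ 0 ∧
    ∀ j, Z.adicValuation (algebraMap K F (x i) * τ j - algebraMap K F (x j) * τ i)
      < Z.adicValuation (τ i)

/-- The conclusion of G1 (`IsPt.span_linForm`) for the family `τ` and the divisor `D`: at every
place `Z` and every value vector `x` of `τ` at `Z`, the linear forms `x_a τ_b - x_b τ_a` span
`L(D - Z)`. -/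
def SpanLin {ι : Type*} (τ : ι → F) (D : Divisor K F) : Prop :=
  ∀ (Z : Place K F) (x : ι → K), PtBody τ Z x →
    Submodule.span K (Set.range fun p : ι × ι =>
      algebraMap K F (x p.1) * τ p.2 - algebraMap K F (x p.2) * τ p.1) =
    riemannRochSpace (D - Finsupp.single Z (1 : ℤ))

theorem lin_eq {ι : Type*} (τ : ι → F) (x : ι → K) (p : ι × ι) :
    lin τ x p = algebraMap K F (x p.1) * τ p.2 - algebraMap K F (x p.2) * τ p.1 := by
  unfold lin
  rw [Algebra.smul_def, Algebra.smul_def]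

theorem sum_add_eq (v₀ : Place K F) (m0 M e : ℕ) (Z : Fin M → Place K F) :
    ∑ i, ((m0 : ℤ) • Finsupp.single v₀ (1 : ℤ) - Finsupp.single (Z i) (1 : ℤ)) +
      ((e * m0 : ℕ) : ℤ) • Finsupp.single v₀ (1 : ℤ) =
      (((M + e) * m0 : ℕ) : ℤ) • Finsupp.single v₀ (1 : ℤ) -
        ∑ i, Finsupp.single (Z i) (1 : ℤ) := by
  rw [sum_sub_single, smul_smul]
  have h1 : (((M + e) * m0 : ℕ) : ℤ) = (M : ℤ) * (m0 : ℤ) + ((e * m0 : ℕ) : ℤ) := by
    push_cast
    ring
  rw [h1, add_smul]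
  abel

section Curve

variable [IsAlgClosed K] [CharZero K] [Algebra.EssFiniteType K F]

/-- **Constant rank on the cone, span form.** For every tuple `x` of nonzero cone points there
are places `Z i` carrying them, and `L((M + e) m0 v₀ - ∑ i, Z i)` is exactly the set of the
combinations `∑ ab, (∏ i, lin τ (x i) (ab i)) * f ab`, `f ab ∈ L(e m0 v₀)`. -/
theorem exists_zeros (htr : Algebra.trdeg K F = 1) {c : ℤ} (hc : IsRiemannBound K F c)
    (v₀ : Place K F) {m0 : ℕ} (hm0 : c + 2 ≤ (m0 : ℤ)) {ι : Type*} [Fintype ι] (τ : ι → F)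
    (hG1 : SpanLin τ ((m0 : ℤ) • Finsupp.single v₀ (1 : ℤ))) (M e : ℕ) (he : 2 ≤ e)
    (x : Fin M → ι → K) (hx : ∀ i, x i ≠ 0) (hcone : ∀ i, OnCone τ (x i)) :
    ∃ Z : Fin M → Place K F, (∀ i, PtBody τ (Z i) (x i)) ∧
      ∀ y : F, y ∈ riemannRochSpace ((((M + e) * m0 : ℕ) : ℤ) • Finsupp.single v₀ (1 : ℤ) -
          ∑ i, Finsupp.single (Z i) (1 : ℤ)) ↔
        ∃ f : (Fin M → ι × ι) → F,
          (∀ ab, f ab ∈ riemannRochSpace (((e * m0 : ℕ) : ℤ) • Finsupp.single v₀ (1 : ℤ))) ∧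
          y = ∑ ab : Fin M → ι × ι, (∏ i, lin τ (x i) (ab i)) * f ab := by
  have h : ∀ i, ∃ Z : Place K F, PtBody τ Z (x i) := fun i =>
    Closed.exists_place_of_mem_cone htr τ (x i) (hx i) (hcone i)
  choose Z hZ using h
  have hspan : ∀ i, Submodule.span K (Set.range fun p : ι × ι =>
        algebraMap K F (x i p.1) * τ p.2 - algebraMap K F (x i p.2) * τ p.1) =
      riemannRochSpace ((m0 : ℤ) • Finsupp.single v₀ (1 : ℤ) - Finsupp.single (Z i) (1 : ℤ)) :=
    fun i => hG1 (Z i) (x i) (hZ i)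
  refine ⟨Z, hZ, fun y => ⟨fun hy => ?_, ?_⟩⟩
  · obtain ⟨f, hf, hyf⟩ := exists_rep_of_span htr hc v₀ hm0 τ M e he Z x hspan hy
    refine ⟨f, hf, ?_⟩
    rw [hyf]
    refine Finset.sum_congr rfl fun ab _ => ?_
    congr 1
    exact Finset.prod_congr rfl fun i _ => (lin_eq τ (x i) (ab i)).symm
  · rintro ⟨f, hf, rfl⟩
    have hl : ∀ (i : Fin M) (p : ι × ι), lin τ (x i) p ∈
        riemannRochSpace ((m0 : ℤ) • Finsupp.single v₀ (1 : ℤ) -
          Finsupp.single (Z i) (1 : ℤ)) := by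
      intro i p
      rw [← hspan i, lin_eq]
      exact Submodule.subset_span ⟨p, rfl⟩
    have h1 := rep_mem_L
      (fun i => (m0 : ℤ) • Finsupp.single v₀ (1 : ℤ) - Finsupp.single (Z i) (1 : ℤ))
      (((e * m0 : ℕ) : ℤ) • Finsupp.single v₀ (1 : ℤ))
      (fun i (p : ι × ι) => lin τ (x i) p) hl f hf
    rw [sum_add_eq] at h1
    exact h1

/-- **Constant rank on the cone, dimension form.** -/
theorem finrank_span_cols (htr : Algebra.trdeg K F = 1) {c : ℤ} (hc : IsRiemannBound K F c)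
    (v₀ : Place K F) {m0 : ℕ} (hm0 : c + 2 ≤ (m0 : ℤ)) {ι : Type*} [Fintype ι] (τ : ι → F)
    (hG1 : SpanLin τ ((m0 : ℤ) • Finsupp.single v₀ (1 : ℤ))) (M e : ℕ) (he : 2 ≤ e)
    (x : Fin M → ι → K) (hx : ∀ i, x i ≠ 0) (hcone : ∀ i, OnCone τ (x i))
    {κ : Type*} [Fintype κ] (β : κ → F)
    (hβ : Submodule.span K (Set.range β) =
      riemannRochSpace (((e * m0 : ℕ) : ℤ) • Finsupp.single v₀ (1 : ℤ))) :
    (Module.finrank K ↥(Submodule.span K (Set.range fun q : (Fin M → ι × ι) × κ =>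
      (∏ i, lin τ (x i) (q.1 i)) * β q.2)) : ℤ) =
      (((M + e) * m0 : ℕ) : ℤ) - (M : ℤ) + 1 - (gR K F : ℤ) := by
  obtain ⟨Z, -, hZ⟩ := exists_zeros htr hc v₀ hm0 τ hG1 M e he x hx hcone
  have hS : Submodule.span K (Set.range fun q : (Fin M → ι × ι) × κ =>
      (∏ i, lin τ (x i) (q.1 i)) * β q.2) =
      riemannRochSpace ((((M + e) * m0 : ℕ) : ℤ) • Finsupp.single v₀ (1 : ℤ) -
        ∑ i, Finsupp.single (Z i) (1 : ℤ)) := by
    apply le_antisymm
    · rw [Submodule.span_le]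
      rintro _ ⟨q, rfl⟩
      have hβq : β q.2 ∈ riemannRochSpace (((e * m0 : ℕ) : ℤ) • Finsupp.single v₀ (1 : ℤ)) := by
        rw [← hβ]
        exact Submodule.subset_span ⟨q.2, rfl⟩
      exact (hZ _).mpr (mem_repSpace.mp
        (prod_mul_mem_repSpace (fun i (p : ι × ι) => lin τ (x i) p) q.1 hβq))
    · intro y hy
      obtain ⟨f, hf, rfl⟩ := (hZ y).mp hy
      refine Submodule.sum_mem _ fun ab _ => ?_
      have hfab : f ab ∈ Submodule.span K (Set.range β) := by
        rw [hβ]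
        exact hf ab
      obtain ⟨cf, hcf⟩ := (Submodule.mem_span_range_iff_exists_fun K).mp hfab
      rw [← hcf, Finset.mul_sum]
      refine Submodule.sum_mem _ fun t _ => ?_
      rw [mul_smul_comm]
      exact Submodule.smul_mem _ _ (Submodule.subset_span ⟨(ab, t), rfl⟩)
  rw [hS]
  have hdeg := PoleOrder.degree_zsmul_single htr v₀ (((M + e) * m0 : ℕ) : ℤ)
  have hc1 := hc.neg_one_le htr
  have hm : (0 : ℤ) ≤ (M : ℤ) * ((m0 : ℤ) - 1) :=
    mul_nonneg (Int.natCast_nonneg M) (by linarith)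
  have hem : (2 : ℤ) * (m0 : ℤ) ≤ (e : ℤ) * (m0 : ℤ) :=
    mul_le_mul_of_nonneg_right (by exact_mod_cast he) (Int.natCast_nonneg m0)
  have hN : (((M + e) * m0 : ℕ) : ℤ) = (M : ℤ) * (m0 : ℤ) + (e : ℤ) * (m0 : ℤ) := by
    push_cast
    ring
  have h3 := finrank_L_sub_sum htr hc ((((M + e) * m0 : ℕ) : ℤ) • Finsupp.single v₀ (1 : ℤ)) Z
    (by rw [hdeg, hN]; nlinarith)
  rw [h3, hdeg]

/-- **Constant rank on the cone, matrix form**: a coordinate matrix `A` of the products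
`(∏ i, lin τ (x i) (ab i)) * β t` in a linearly independent family `χ` has rank
`(M + e) m0 - M + 1 - g`, for every tuple `x` of nonzero cone points. -/
theorem rank_eq (htr : Algebra.trdeg K F = 1) {c : ℤ} (hc : IsRiemannBound K F c)
    (v₀ : Place K F) {m0 : ℕ} (hm0 : c + 2 ≤ (m0 : ℤ)) {ι : Type*} [Fintype ι] (τ : ι → F)
    (hG1 : SpanLin τ ((m0 : ℤ) • Finsupp.single v₀ (1 : ℤ))) (M e : ℕ) (he : 2 ≤ e)
    (x : Fin M → ι → K) (hx : ∀ i, x i ≠ 0) (hcone : ∀ i, OnCone τ (x i))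
    {γ κ : Type*} [Fintype γ] [Fintype κ] (χ : γ → F) (hχ : LinearIndependent K χ) (β : κ → F)
    (hβ : Submodule.span K (Set.range β) =
      riemannRochSpace (((e * m0 : ℕ) : ℤ) • Finsupp.single v₀ (1 : ℤ)))
    (A : Matrix γ ((Fin M → ι × ι) × κ) K)
    (hA : ∀ q : (Fin M → ι × ι) × κ,
      ∑ u, A u q • χ u = (∏ i, lin τ (x i) (q.1 i)) * β q.2) :
    (A.rank : ℤ) = (((M + e) * m0 : ℕ) : ℤ) - (M : ℤ) + 1 - (gR K F : ℤ) := by
  rw [Matrix.rank_eq_finrank_span_cols]
  have hT : Function.Injective (Fintype.linearCombination K χ) :=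
    hχ.fintypeLinearCombination_injective
  have h1 : Module.finrank K
      ↥((Submodule.span K (Set.range A.col)).map (Fintype.linearCombination K χ)) =
      Module.finrank K ↥(Submodule.span K (Set.range A.col)) :=
    (Submodule.equivMapOfInjective (Fintype.linearCombination K χ) hT _).finrank_eq.symm
  have h2 : (Submodule.span K (Set.range A.col)).map (Fintype.linearCombination K χ) =
      Submodule.span K (Set.range fun q : (Fin M → ι × ι) × κ =>
        (∏ i, lin τ (x i) (q.1 i)) * β q.2) := by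
    rw [Submodule.map_span, ← Set.range_comp]
    congr 2
    funext q
    rw [Function.comp_apply, Fintype.linearCombination_apply]
    exact hA q
  rw [← h1, h2]
  exact finrank_span_cols htr hc v₀ hm0 τ hG1 M e he x hx hcone β hβ

/-- The natural-number form of `rank_eq`: `rank A + M + g = (M + e) m0 + 1`. -/
theorem rank_add_eq (htr : Algebra.trdeg K F = 1) {c : ℤ} (hc : IsRiemannBound K F c)
    (v₀ : Place K F) {m0 : ℕ} (hm0 : c + 2 ≤ (m0 : ℤ)) {ι : Type*} [Fintype ι] (τ : ι → F)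
    (hG1 : SpanLin τ ((m0 : ℤ) • Finsupp.single v₀ (1 : ℤ))) (M e : ℕ) (he : 2 ≤ e)
    (x : Fin M → ι → K) (hx : ∀ i, x i ≠ 0) (hcone : ∀ i, OnCone τ (x i))
    {γ κ : Type*} [Fintype γ] [Fintype κ] (χ : γ → F) (hχ : LinearIndependent K χ) (β : κ → F)
    (hβ : Submodule.span K (Set.range β) =
      riemannRochSpace (((e * m0 : ℕ) : ℤ) • Finsupp.single v₀ (1 : ℤ)))
    (A : Matrix γ ((Fin M → ι × ι) × κ) K)
    (hA : ∀ q : (Fin M → ι × ι) × κ,
      ∑ u, A u q • χ u = (∏ i, lin τ (x i) (q.1 i)) * β q.2) :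
    A.rank + M + gR K F = (M + e) * m0 + 1 := by
  have h := rank_eq htr hc v₀ hm0 τ hG1 M e he x hx hcone χ hχ β hβ A hA
  have h' : ((A.rank + M + gR K F : ℕ) : ℤ) = (((M + e) * m0 + 1 : ℕ) : ℤ) := by
    push_cast at h ⊢
    linarith
  exact_mod_cast h'

/-- G1 (`PtSpan.span_linForm`) gives `SpanLin` for every spanning family of `L(m0 v₀)` above
the threshold. -/
theorem spanLin_of_span (htr : Algebra.trdeg K F = 1) {c : ℤ} (hc : IsRiemannBound K F c)
    (v₀ : Place K F) {m0 : ℕ} (hm0 : c + 1 ≤ (m0 : ℤ)) {ι : Type*} [Finite ι] (τ : ι → F)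
    (hτ : Submodule.span K (Set.range τ) =
      riemannRochSpace ((m0 : ℤ) • Finsupp.single v₀ (1 : ℤ))) :
    SpanLin τ ((m0 : ℤ) • Finsupp.single v₀ (1 : ℤ)) := by
  intro Z x hx
  have hdeg := PoleOrder.degree_zsmul_single htr v₀ (m0 : ℤ)
  exact PtSpan.span_linForm hx hτ (L_sub_single_ne htr hc (by rw [hdeg]; exact hm0) Z)

/-- **Row S17.H.C6, second literal** (`rank Φ_Z` is constant; `Z` enumerates points with
multiplicity, repeats and `Z i = v₀` allowed). -/
theorem exists_rep_of_mem_L_sub (htr : Algebra.trdeg K F = 1) (v₀ : Place K F) :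
    ∃ n₁ : ℕ, ∀ m0 : ℕ, n₁ ≤ m0 → ∀ {ι : Type} [Fintype ι] (τ : ι → F),
      Submodule.span K (Set.range τ) =
        riemannRochSpace ((m0 : ℤ) • Finsupp.single v₀ (1 : ℤ)) →
      ∀ (M e : ℕ), 2 ≤ e → ∀ (Z : Fin M → Place K F) (x : Fin M → ι → K),
      (∀ i, IsPt τ (Z i) (x i)) →
      ∀ y ∈ riemannRochSpace ((((M + e) * m0 : ℕ) : ℤ) • Finsupp.single v₀ (1 : ℤ) -
        ∑ i, Finsupp.single (Z i) (1 : ℤ)),
      ∃ f : (Fin M → ι × ι) → F,
        (∀ ab, f ab ∈ riemannRochSpace (((e * m0 : ℕ) : ℤ) • Finsupp.single v₀ (1 : ℤ))) ∧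
        y = ∑ ab : Fin M → ι × ι,
          (∏ i, (algebraMap K F (x i (ab i).1) * τ (ab i).2 -
            algebraMap K F (x i (ab i).2) * τ (ab i).1)) * f ab := by
  obtain ⟨c, hc⟩ := exists_isRiemannBound (K := K) (F := F) htr
  refine ⟨(c + 2).toNat, fun m0 hm0 ι _ τ hτ M e he Z x hpt y hy => ?_⟩
  have hm0' : c + 2 ≤ (m0 : ℤ) := PoleOrder.le_of_toNat_le hm0
  exact exists_rep_of_span htr hc v₀ hm0' τ M e he Z x
    (fun i => spanLin_of_span htr hc v₀ (by linarith) τ hτ (Z i) (x i) (hpt i)) hy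

/-- `exists_zeros` with the threshold hidden and `SpanLin` discharged: for every tuple of
nonzero cone points of a spanning family `τ` of `L(m0 v₀)` there are places `Z i` with
`IsPt τ (Z i) (x i)` and `L((M + e) m0 v₀ - ∑ i, Z i)` is the set of the combinations
`∑ ab, (∏ i, lin τ (x i) (ab i)) * f ab`, `f ab ∈ L(e m0 v₀)`. -/
theorem exists_threshold_zeros (htr : Algebra.trdeg K F = 1) (v₀ : Place K F) :
    ∃ n₁ : ℕ, ∀ m0 : ℕ, n₁ ≤ m0 → ∀ {ι : Type*} [Fintype ι] (τ : ι → F),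
      Submodule.span K (Set.range τ) =
        riemannRochSpace ((m0 : ℤ) • Finsupp.single v₀ (1 : ℤ)) →
      ∀ (M e : ℕ), 2 ≤ e → ∀ (x : Fin M → ι → K), (∀ i, x i ≠ 0) → (∀ i, OnCone τ (x i)) →
      ∃ Z : Fin M → Place K F, (∀ i, IsPt τ (Z i) (x i)) ∧
        ∀ y : F, y ∈ riemannRochSpace ((((M + e) * m0 : ℕ) : ℤ) • Finsupp.single v₀ (1 : ℤ) -
            ∑ i, Finsupp.single (Z i) (1 : ℤ)) ↔
          ∃ f : (Fin M → ι × ι) → F,
            (∀ ab, f ab ∈ riemannRochSpace (((e * m0 : ℕ) : ℤ) • Finsupp.single v₀ (1 : ℤ))) ∧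
            y = ∑ ab : Fin M → ι × ι, (∏ i, lin τ (x i) (ab i)) * f ab := by
  obtain ⟨c, hc⟩ := exists_isRiemannBound (K := K) (F := F) htr
  refine ⟨(c + 2).toNat, fun m0 hm0 ι _ τ hτ M e he x hx hcone => ?_⟩
  have hm0' : c + 2 ≤ (m0 : ℤ) := PoleOrder.le_of_toNat_le hm0
  exact exists_zeros htr hc v₀ hm0' τ (spanLin_of_span htr hc v₀ (by linarith) τ hτ)
    M e he x hx hcone

/-- **Constant rank on the cone**, threshold hidden, no hypothesis on the points beyond
`x i ≠ 0` and `OnCone τ (x i)`: every coordinate matrix `A` (in a linearly independent family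
`χ`) of the products `(∏ i, lin τ (x i) (ab i)) * β t`, `β` generators of `L(e m0 v₀)`,
satisfies `rank A + M + g = (M + e) m0 + 1`. -/
theorem exists_threshold_rank (htr : Algebra.trdeg K F = 1) (v₀ : Place K F) :
    ∃ n₁ : ℕ, ∀ m0 : ℕ, n₁ ≤ m0 → ∀ {ι : Type*} [Fintype ι] (τ : ι → F),
      Submodule.span K (Set.range τ) =
        riemannRochSpace ((m0 : ℤ) • Finsupp.single v₀ (1 : ℤ)) →
      ∀ (M e : ℕ), 2 ≤ e → ∀ (x : Fin M → ι → K), (∀ i, x i ≠ 0) → (∀ i, OnCone τ (x i)) →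
      ∀ {γ κ : Type*} [Fintype γ] [Fintype κ] (χ : γ → F), LinearIndependent K χ →
      ∀ (β : κ → F), Submodule.span K (Set.range β) =
        riemannRochSpace (((e * m0 : ℕ) : ℤ) • Finsupp.single v₀ (1 : ℤ)) →
      ∀ (A : Matrix γ ((Fin M → ι × ι) × κ) K),
      (∀ q : (Fin M → ι × ι) × κ, ∑ u, A u q • χ u = (∏ i, lin τ (x i) (q.1 i)) * β q.2) →
      A.rank + M + gR K F = (M + e) * m0 + 1 := by
  obtain ⟨c, hc⟩ := exists_isRiemannBound (K := K) (F := F) htr
  refine ⟨(c + 2).toNat, fun m0 hm0 ι _ τ hτ M e he x hx hcone γ κ _ _ χ hχ β hβ A hA => ?_⟩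
  have hm0' : c + 2 ≤ (m0 : ℤ) := PoleOrder.le_of_toNat_le hm0
  exact rank_add_eq htr hc v₀ hm0' τ (spanLin_of_span htr hc v₀ (by linarith) τ hτ)
    M e he x hx hcone χ hχ β hβ A hA

end Curve

end Fermat.Agent.S17.H.LD.ConeRank
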