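/-
MW strand H, block C (LD), curve leaves G3 + G7 of the chain of record: the divisor-count lemmas.

`s` a function with `div s + A = ∑ i, Z i` (the zeros of `s ∈ L(A)` with multiplicity; `Z i = v₀`
and repeated `Z i` allowed):
* (G3) `l i ∈ L(H i - Z i)` for all `i`  ⟹  `(∏ i, l i) / s ∈ L(∑ i, H i - A)`;
* (G7) `ε ∈ L(B)`  ⟹  `s * ε ∈ L(A + B - ∑ i, Z i)`.
Level-free; only the calculus of `L(D)` of leaf R0 (`S17/R/LSpace`).
-/
import Mathlib
import Fermat.Agent.S17.R.LSpace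

set_option autoImplicit false

namespace Fermat.Agent.S17.H.LD.DivCount

open AlgebraicCurve Fermat.Agent.S17.R

variable {K F : Type*} [Field K] [Field F] [Algebra K F]

theorem one_mem_L_zero : (1 : F) ∈ riemannRochSpace (0 : Divisor K F) := by
  rw [mem_L_iff]
  refine Or.inr fun v => ?_
  rw [Place.ord_one]
  simp

/-- A finite product of members of `L(D i)` lies in `L(∑ D i)`. -/
theorem prod_mem_L {ι : Type*} (t : Finset ι) (D : ι → Divisor K F) (l : ι → F)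
    (hl : ∀ i ∈ t, l i ∈ riemannRochSpace (D i)) :
    ∏ i ∈ t, l i ∈ riemannRochSpace (∑ i ∈ t, D i) := by
  classical
  induction t using Finset.induction_on with
  | empty =>
    rw [Finset.prod_empty, Finset.sum_empty]
    exact one_mem_L_zero
  | insert a t ha ih =>
    rw [Finset.prod_insert ha, Finset.sum_insert ha]
    exact mul_mem_L (hl a (Finset.mem_insert_self a t))
      (ih fun i hi => hl i (Finset.mem_insert_of_mem hi))

/-- Arithmetic of the multiples of `v₀` used by the chain: `M • (m₀ v₀) - (k m₀) v₀`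
with `M = k m₀`. -/
theorem sum_nsmul_sub (v₀ : Place K F) (m₀ k : ℕ) :
    (∑ _i : Fin (k * m₀), ((m₀ : ℤ) • Finsupp.single v₀ (1 : ℤ) : Divisor K F)) -
        ((k * m₀ : ℕ) : ℤ) • Finsupp.single v₀ (1 : ℤ) =
      (((k * m₀ - k) * m₀ : ℕ) : ℤ) • Finsupp.single v₀ (1 : ℤ) := by
  rw [Finset.sum_const, Finset.card_univ, Fintype.card_fin, ← natCast_zsmul, smul_smul,
    ← sub_smul]
  congr 1
  rcases Nat.eq_zero_or_pos m₀ with h | h
  · subst h
    simp
  · have hk : k ≤ k * m₀ := Nat.le_mul_of_pos_right k h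
    push_cast [Nat.cast_sub hk]
    ring

section Curve

variable [IsAlgClosed K] [CharZero K] [Algebra.EssFiniteType K F]

/-- (G3), general form: if `div s + A = ∑ i, Z i` and `l i ∈ L(H i - Z i)`, then
`(∏ i, l i) / s ∈ L(∑ i, H i - A)`.  Exact, multiplicities included. -/
theorem prod_div_mem_L (htr : Algebra.trdeg K F = 1) {ι : Type*} [Fintype ι]
    (s : F) (A : Divisor K F) (Z : ι → Place K F)
    (hZ : divOf K s + A = ∑ i, Finsupp.single (Z i) (1 : ℤ))
    (H : ι → Divisor K F) (l : ι → F)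
    (hl : ∀ i, l i ∈ riemannRochSpace (H i - Finsupp.single (Z i) (1 : ℤ))) :
    (∏ i, l i) / s ∈ riemannRochSpace (∑ i, H i - A) := by
  have h1 := prod_mem_L Finset.univ (fun i => H i - Finsupp.single (Z i) (1 : ℤ)) l
    (fun i _ => hl i)
  have h2 := mul_mem_L_sub_divOf htr s⁻¹ h1
  rw [divOf_inv htr, Finset.sum_sub_distrib, ← hZ] at h2
  rw [div_eq_mul_inv]
  have e : ∑ i, H i - (divOf K s + A) - -divOf K s = ∑ i, H i - A := by abel
  rwa [e] at h2

/-- (G7), general form: if `div s + A = ∑ i, Z i` and `ε ∈ L(B)`, then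
`s * ε ∈ L(A + B - ∑ i, Z i)`. -/
theorem mul_mem_L_sub_zeros (htr : Algebra.trdeg K F = 1) {ι : Type*} [Fintype ι]
    (s : F) (A : Divisor K F) (Z : ι → Place K F)
    (hZ : divOf K s + A = ∑ i, Finsupp.single (Z i) (1 : ℤ))
    {B : Divisor K F} {ε : F} (hε : ε ∈ riemannRochSpace B) :
    s * ε ∈ riemannRochSpace (A + B - ∑ i, Finsupp.single (Z i) (1 : ℤ)) := by
  have h2 := mul_mem_L_sub_divOf htr s hε
  rw [mul_comm]
  have e : B - divOf K s = A + B - ∑ i, Finsupp.single (Z i) (1 : ℤ) := by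
    rw [← hZ]
    abel
  rwa [e] at h2

/-- (G3) in the shape of the chain: `H = m₀ v₀`, `s ∈ L(k H)` with its `M = k m₀` zeros `Z`,
`l i ∈ L(H - Z i)`  ⟹  `(∏ i, l i) / s ∈ L((M - k) H)`. -/
theorem prod_div_mem_L_nsmul (htr : Algebra.trdeg K F = 1) (v₀ : Place K F) (m₀ k : ℕ)
    (s : F) (Z : Fin (k * m₀) → Place K F)
    (hZ : divOf K s + ((k * m₀ : ℕ) : ℤ) • Finsupp.single v₀ (1 : ℤ) =
      ∑ i, Finsupp.single (Z i) (1 : ℤ))
    (l : Fin (k * m₀) → F)
    (hl : ∀ i, l i ∈ riemannRochSpace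
      ((m₀ : ℤ) • Finsupp.single v₀ (1 : ℤ) - Finsupp.single (Z i) (1 : ℤ))) :
    (∏ i, l i) / s ∈
      riemannRochSpace ((((k * m₀ - k) * m₀ : ℕ) : ℤ) • Finsupp.single v₀ (1 : ℤ)) := by
  have h := prod_div_mem_L htr s _ Z hZ (fun _ => (m₀ : ℤ) • Finsupp.single v₀ (1 : ℤ)) l hl
  rwa [sum_nsmul_sub] at h

/-- (G7) in the shape of the chain: `s ∈ L(k H)` with its zeros `Z`, `ε ∈ L(n v₀)`
⟹  `s * ε ∈ L((k m₀ + n) v₀ - ∑ i, Z i)`. -/
theorem mul_mem_L_nsmul_sub_zeros (htr : Algebra.trdeg K F = 1) (v₀ : Place K F) (m₀ k n : ℕ)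
    (s : F) (Z : Fin (k * m₀) → Place K F)
    (hZ : divOf K s + ((k * m₀ : ℕ) : ℤ) • Finsupp.single v₀ (1 : ℤ) =
      ∑ i, Finsupp.single (Z i) (1 : ℤ))
    {ε : F} (hε : ε ∈ riemannRochSpace ((n : ℤ) • Finsupp.single v₀ (1 : ℤ))) :
    s * ε ∈ riemannRochSpace ((((k * m₀ + n : ℕ) : ℤ) • Finsupp.single v₀ (1 : ℤ)) -
      ∑ i, Finsupp.single (Z i) (1 : ℤ)) := by
  have h := mul_mem_L_sub_zeros htr s _ Z hZ hε
  rwa [← add_smul, ← Nat.cast_add] at h

end Curve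

end Fermat.Agent.S17.H.LD.DivCount
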