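import Mathlib
import Fermat.Agent.S17.H.Cert.LocConst

/-!
# Program MW (S17), strand H, block C: the carrier of the local lemma (LD)

Block C proves the uniform Gauss-Mahler lemma (LD) from two identities in the function field
and Nullstellensatz certificates.  The local leaves (`Down`, `Up`) are Mathlib-only: they see
the curve only through

* a family `τ : ι → F` in a commutative `K`-algebra `F` (a basis of `L(H)`),
* sections of degree `j` written as forms of degree `j` evaluated at `τ`,
* value vectors `y : ι → K` on the cone of `τ` (`OnCone τ y`): every homogeneous relation of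
  `τ` vanishes at `y`.  The value at `y` of the section `aeval τ P` (`P` a form) is `eval y P`.

This file contains the definitions and the evaluation lemmas.
-/

set_option autoImplicit false

namespace Fermat.Agent.S17.H.LD

open MvPolynomial Fermat.Agent.S17.H.Cert

variable {K F : Type*} [Field K] [CommRing F] [Algebra K F] {ι : Type*}

/-- `y` lies on the cone of the family `τ`: it kills every homogeneous relation of `τ`. -/
def OnCone (τ : ι → F) (y : ι → K) : Prop :=
  ∀ (n : ℕ) (P : MvPolynomial ι K), P.IsHomogeneous n → aeval τ P = 0 → eval y P = 0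

/-- Two forms of the same degree with the same value at `τ` have the same value at a cone
point. -/
theorem OnCone.eval_eq {τ : ι → F} {y : ι → K} (hy : OnCone τ y) {n : ℕ}
    {P Q : MvPolynomial ι K} (hP : P.IsHomogeneous n) (hQ : Q.IsHomogeneous n)
    (h : aeval τ P = aeval τ Q) : eval y P = eval y Q := by
  have h0 := hy n (P - Q) (hP.sub hQ) (by rw [map_sub, h, sub_self])
  rw [map_sub] at h0
  exact sub_eq_zero.mp h0

/-- The secant (Plücker) coordinate `x_a y_b - x_b y_a`. -/
def sec (x y : ι → K) (p : ι × ι) : K := x p.1 * y p.2 - x p.2 * y p.1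

/-- The section `x_a τ_b - x_b τ_a`: it vanishes at the point with value vector `x`. -/
def lin (τ : ι → F) (x : ι → K) (p : ι × ι) : F := x p.1 • τ p.2 - x p.2 • τ p.1

/-- The linear form `x_a X_b - x_b X_a`. -/
noncomputable def linForm (x : ι → K) (p : ι × ι) : MvPolynomial ι K :=
  C (x p.1) * X p.2 - C (x p.2) * X p.1

theorem linForm_isHomogeneous (x : ι → K) (p : ι × ι) : (linForm x p).IsHomogeneous 1 :=
  (isHomogeneous_C_mul_X _ _).sub (isHomogeneous_C_mul_X _ _)

theorem aeval_linForm (τ : ι → F) (x : ι → K) (p : ι × ι) :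
    aeval τ (linForm x p) = lin τ x p := by
  simp [linForm, lin, Algebra.smul_def]

theorem eval_linForm (x y : ι → K) (p : ι × ι) : eval y (linForm x p) = sec x y p := by
  simp [linForm, sec]

theorem prod_linForm_isHomogeneous {M : ℕ} (x : Fin M → ι → K) (p : Fin M → ι × ι) :
    (∏ i, linForm (x i) (p i)).IsHomogeneous M := by
  have h := IsHomogeneous.prod (Finset.univ : Finset (Fin M))
    (fun i => linForm (x i) (p i)) (fun _ => 1) (fun i _ => linForm_isHomogeneous (x i) (p i))
  simpa using h

theorem aeval_prod_linForm {M : ℕ} (τ : ι → F) (x : Fin M → ι → K) (p : Fin M → ι × ι) :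
    aeval τ (∏ i, linForm (x i) (p i)) = ∏ i, lin τ (x i) (p i) := by
  rw [map_prod]
  exact Finset.prod_congr rfl fun i _ => aeval_linForm τ (x i) (p i)

theorem eval_prod_linForm {M : ℕ} (x : Fin M → ι → K) (y : ι → K) (p : Fin M → ι × ι) :
    eval y (∏ i, linForm (x i) (p i)) = ∏ i, sec (x i) y (p i) := by
  rw [map_prod]
  exact Finset.prod_congr rfl fun i _ => eval_linForm (x i) y (p i)

/-- The form `∑ a_j Ψ_j` of a coefficient vector. -/
noncomputable def comb {β : Type*} [Fintype β] (a : β → K) (Ψ : β → MvPolynomial ι K) :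
    MvPolynomial ι K := ∑ j, C (a j) * Ψ j

theorem comb_isHomogeneous {β : Type*} [Fintype β] (a : β → K) {Ψ : β → MvPolynomial ι K}
    {k : ℕ} (hΨ : ∀ j, (Ψ j).IsHomogeneous k) : (comb a Ψ).IsHomogeneous k :=
  IsHomogeneous.sum _ _ _ fun j _ => (hΨ j).C_mul (a j)

theorem aeval_comb {β : Type*} [Fintype β] (τ : ι → F) (a : β → K)
    (Ψ : β → MvPolynomial ι K) : aeval τ (comb a Ψ) = ∑ j, a j • aeval τ (Ψ j) := by
  simp [comb, Algebra.smul_def]

theorem eval_comb {β : Type*} [Fintype β] (y : ι → K) (a : β → K)
    (Ψ : β → MvPolynomial ι K) : eval y (comb a Ψ) = ∑ j, a j * eval y (Ψ j) := by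
  simp [comb]

namespace Carrier

variable {α : Type*} [Fintype α]

omit [Fintype α] in
/-- The sup of the absolute values of a finite vector is nonnegative. -/
theorem supAbv_nonneg (v : AbsoluteValue K ℝ) (x : α → K) : 0 ≤ ⨆ j, v (x j) :=
  Real.iSup_nonneg fun _ => v.nonneg _

theorem le_supAbv (v : AbsoluteValue K ℝ) (x : α → K) (j : α) : v (x j) ≤ ⨆ j, v (x j) :=
  Finite.le_ciSup (fun j => v (x j)) j

/-- The sup of the absolute values of a nonzero vector is positive. -/
theorem supAbv_pos (v : AbsoluteValue K ℝ) {x : α → K} (hx : x ≠ 0) : 0 < ⨆ j, v (x j) := by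
  obtain ⟨j, hj⟩ : ∃ j, x j ≠ 0 := by
    by_contra h
    exact hx (funext fun j => by_contra fun hj => h ⟨j, hj⟩)
  exact lt_of_lt_of_le (v.pos hj) (le_supAbv v x j)

/-- A product of sups over a finite nonempty type is attained at a multi-index. -/
theorem exists_prod_eq_prod_iSup [Nonempty α] {M : ℕ} (f : Fin M → α → ℝ) :
    ∃ p : Fin M → α, ∏ i, f i (p i) = ∏ i, ⨆ a, f i a := by
  have h : ∀ i, ∃ a, f i a = ⨆ a, f i a := fun i => exists_eq_ciSup_of_finite
  choose p hp using h
  exact ⟨p, Finset.prod_congr rfl fun i _ => hp i⟩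

end Carrier

end Fermat.Agent.S17.H.LD
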