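import Mathlib
import Fermat.Agent.S17.H.LD.Carrier

/-!
# Program MW (S17), strand H, block C, leaf C8: the lower half of (LD)

`exists_down`: Mathlib-only.  For a family `τ` of a commutative `K`-algebra `F`, a section
`s = ∑ a_j ψ_j` of degree `k` (`ψ_j = aeval τ (Ψ j)`) and vectors `x_1, .., x_M` such that every
product `∏ i, lin τ (x i) (p i)` of linear sections is `s * G` with `G` a section of degree `n`
(`M = k + n`), and every cone point `y`:

`|a| * ∏ i, max_p |sec (x i) y p| ≤ C(v) * |s(y)| * ∏ i, |x i| * |y| ^ n`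

at every absolute value `v` of `K`, with `C(v)` a local constant of product type.  The only
input is the lower bound `hK1` for the multiplication of sections (leaf C3, `MulLower`).
-/

set_option autoImplicit false

namespace Fermat.Agent.S17.H.LD

open MvPolynomial Fermat.Agent.S17.H.Cert

variable {K F : Type*} [Field K] [CommRing F] [Algebra K F] {ι : Type*}

namespace DownAux

open Carrier

/-- The two coefficients of `lin τ x q = x q.1 • τ q.2 - x q.2 • τ q.1`. -/
def linCoef (x : ι → K) (q : ι × ι) (b : Bool) : K := if b then x q.1 else -x q.2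

/-- The two indices of `lin τ x q`. -/
def linIdx (q : ι × ι) (b : Bool) : ι := if b then q.2 else q.1

theorem lin_eq_sum_bool (τ : ι → F) (x : ι → K) (q : ι × ι) :
    lin τ x q = ∑ b : Bool, linCoef x q b • τ (linIdx q b) := by
  simp [lin, linCoef, linIdx, sub_eq_add_neg]

theorem abv_linCoef_le [Fintype ι] (v : AbsoluteValue K ℝ) (x : ι → K) (q : ι × ι) (b : Bool) :
    v (linCoef x q b) ≤ ⨆ j, v (x j) := by
  cases b
  · simp only [linCoef, Bool.false_eq_true, if_false, map_neg_eq_map]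
    exact le_supAbv v x q.2
  · simp only [linCoef, if_true]
    exact le_supAbv v x q.1

/-- Expansion of a product of linear sections into monomials of `τ`. -/
theorem prod_lin_eq {M : ℕ} (τ : ι → F) (x : Fin M → ι → K) (p : Fin M → ι × ι) :
    ∏ i, lin τ (x i) (p i) =
      ∑ s : Fin M → Bool, (∏ i, linCoef (x i) (p i) (s i)) • ∏ i, τ (linIdx (p i) (s i)) := by
  simp_rw [lin_eq_sum_bool]
  rw [Finset.prod_univ_sum, Fintype.piFinset_univ]
  refine Finset.sum_congr rfl fun s _ => ?_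
  simp only [Algebra.smul_def, Finset.prod_mul_distrib, map_prod]

/-- The coordinates of `∏ i, lin τ (x i) (p i)` in a family `ω` in which the monomials
`∏ i, τ (b i)` have coordinates `m b`. -/
def cvec {M : ℕ} {δ : Type*} (m : (Fin M → ι) → δ → K) (x : Fin M → ι → K)
    (p : Fin M → ι × ι) (d : δ) : K :=
  ∑ s : Fin M → Bool, (∏ i, linCoef (x i) (p i) (s i)) * m (fun i => linIdx (p i) (s i)) d

theorem prod_lin_eq_sum {M : ℕ} {δ : Type*} [Fintype δ] (τ : ι → F) (ω : δ → F)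
    (m : (Fin M → ι) → δ → K) (hm : ∀ b, ∑ d, m b d • ω d = ∏ i, τ (b i))
    (x : Fin M → ι → K) (p : Fin M → ι × ι) :
    ∏ i, lin τ (x i) (p i) = ∑ d, cvec m x p d • ω d := by
  rw [prod_lin_eq]
  simp_rw [← hm, Finset.smul_sum, smul_smul, cvec, Finset.sum_smul]
  rw [Finset.sum_comm]

theorem locConst_zero_mul_gamProd (c : ℝ) (Γ : Multiset K) (v : AbsoluteValue K ℝ) :
    locConst c (0 : Multiset K) v * gamProd Γ v = locConst c Γ v := by
  unfold locConst
  rw [gamProd_zero, mul_one]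

theorem abv_cvec_le [Fintype ι] {M : ℕ} {δ : Type*} (v : AbsoluteValue K ℝ)
    (m : (Fin M → ι) → δ → K) (Γm : Multiset K) (hΓm : ∀ b d, m b d ∈ Γm)
    (x : Fin M → ι → K) (p : Fin M → ι × ι) (d : δ) :
    v (cvec m x p d) ≤
      locConst (Fintype.card (Fin M → Bool)) Γm v * ∏ i, ⨆ j, v (x i j) := by
  have hPX0 : 0 ≤ ∏ i, ⨆ j, v (x i j) :=
    Finset.prod_nonneg fun i _ => supAbv_nonneg v (x i)
  have hterm : ∀ s : Fin M → Bool,
      v ((∏ i, linCoef (x i) (p i) (s i)) * m (fun i => linIdx (p i) (s i)) d) ≤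
        (∏ i, ⨆ j, v (x i j)) * gamProd Γm v := by
    intro s
    rw [map_mul, map_prod]
    refine mul_le_mul ?_ (le_gamProd_of_mem (hΓm _ d) v) (v.nonneg _) hPX0
    exact Finset.prod_le_prod (fun i _ => v.nonneg _)
      (fun i _ => abv_linCoef_le v (x i) (p i) (s i))
  have h1 := abv_sum_le v
    (fun s : Fin M → Bool =>
      (∏ i, linCoef (x i) (p i) (s i)) * m (fun i => linIdx (p i) (s i)) d)
  have h2 : (⨆ s : Fin M → Bool,
      v ((∏ i, linCoef (x i) (p i) (s i)) * m (fun i => linIdx (p i) (s i)) d)) ≤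
        (∏ i, ⨆ j, v (x i j)) * gamProd Γm v :=
    Real.iSup_le hterm (mul_nonneg hPX0 (gamProd_pos Γm v).le)
  have h0 : (0 : ℝ) ≤ (Fintype.card (Fin M → Bool) : ℝ) := Nat.cast_nonneg _
  calc v (cvec m x p d) ≤ locConst (Fintype.card (Fin M → Bool)) (0 : Multiset K) v *
        ((∏ i, ⨆ j, v (x i j)) * gamProd Γm v) :=
        le_trans h1 (mul_le_mul_of_nonneg_left h2 (locConst_nonneg h0 _ v))
    _ = locConst (Fintype.card (Fin M → Bool)) Γm v * ∏ i, ⨆ j, v (x i j) := by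
        rw [← locConst_zero_mul_gamProd _ Γm v]
        ring

end DownAux

open Carrier DownAux

variable [Fintype ι] [Nonempty ι] {β γ δ : Type*} [Fintype β] [Fintype γ] [Fintype δ]

/-- **C8, the lower half of (LD).**  See the file header. -/
theorem exists_down (τ : ι → F) {k n M : ℕ} (hM : M = k + n)
    (Ψ : β → MvPolynomial ι K) (hΨ : ∀ j, (Ψ j).IsHomogeneous k)
    (Θ : γ → MvPolynomial ι K) (hΘ : ∀ u, (Θ u).IsHomogeneous n)
    (ω : δ → F) (hpow : ∀ b : Fin M → ι, ∏ i, τ (b i) ∈ Submodule.span K (Set.range ω))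
    (C₁ : ℝ) (Γ₁ : Multiset K) (hC₁ : 1 ≤ C₁)
    (hK1 : ∀ (v : AbsoluteValue K ℝ) (a : β → K) (g : γ → K) (c : δ → K),
      (∑ j, a j • aeval τ (Ψ j)) * (∑ u, g u • aeval τ (Θ u)) = ∑ d, c d • ω d →
      (⨆ j, v (a j)) * (⨆ u, v (g u)) ≤ locConst C₁ Γ₁ v * ⨆ d, v (c d)) :
    ∃ (C : ℝ) (Γ : Multiset K), 1 ≤ C ∧
      ∀ (v : AbsoluteValue K ℝ) (a : β → K) (x : Fin M → ι → K) (y : ι → K),
        OnCone τ y →
        (∀ p : Fin M → ι × ι, ∃ g : γ → K,
          ∏ i, lin τ (x i) (p i) = (∑ j, a j • aeval τ (Ψ j)) * ∑ u, g u • aeval τ (Θ u)) →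
        (⨆ j, v (a j)) * ∏ i, ⨆ p : ι × ι, v (sec (x i) y p) ≤
          locConst C Γ v * v (∑ j, a j * eval y (Ψ j)) * (∏ i, ⨆ j, v (x i j)) *
            (⨆ j, v (y j)) ^ n := by
  classical
  have hm : ∀ b : Fin M → ι, ∃ c : δ → K, ∑ d, c d • ω d = ∏ i, τ (b i) := fun b =>
    (Submodule.mem_span_range_iff_exists_fun K).mp (hpow b)
  choose m hm using hm
  let Γm : Multiset K :=
    (Finset.univ : Finset ((Fin M → ι) × δ)).val.map fun bd => m bd.1 bd.2
  have hΓm : ∀ b d, m b d ∈ Γm := fun b d =>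
    Multiset.mem_map_of_mem (fun bd : (Fin M → ι) × δ => m bd.1 bd.2)
      (Finset.mem_univ_val (b, d))
  have hc2 : (1 : ℝ) ≤ (Fintype.card (Fin M → Bool) : ℝ) := by
    exact_mod_cast Fintype.card_pos
  have hc3 : (1 : ℝ) ≤ (Fintype.card γ : ℝ) + 1 := by
    have : (0 : ℝ) ≤ (Fintype.card γ : ℝ) := Nat.cast_nonneg _
    linarith
  have hc4 : (1 : ℝ) ≤ monoCount Θ := one_le_monoCount Θ
  refine ⟨C₁ * (Fintype.card (Fin M → Bool) : ℝ) * (((Fintype.card γ : ℝ) + 1) * monoCount Θ),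
    Γ₁ + Γm + (0 + famCoeffs Θ), ?_, ?_⟩
  · have h12 : (1 : ℝ) ≤ C₁ * (Fintype.card (Fin M → Bool) : ℝ) :=
      one_le_mul_of_one_le_of_one_le hC₁ hc2
    have h34 : (1 : ℝ) ≤ ((Fintype.card γ : ℝ) + 1) * monoCount Θ :=
      one_le_mul_of_one_le_of_one_le hc3 hc4
    exact one_le_mul_of_one_le_of_one_le h12 h34
  intro v a x y hy hfac
  have hPX0 : 0 ≤ ∏ i, ⨆ j, v (x i j) :=
    Finset.prod_nonneg fun i _ => supAbv_nonneg v (x i)
  have hY0 : 0 ≤ (⨆ j, v (y j)) ^ n := pow_nonneg (supAbv_nonneg v y) n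
  have hL1 : 0 ≤ locConst C₁ Γ₁ v := (locConst_pos hC₁ Γ₁ v).le
  have hL2 : 0 ≤ locConst (Fintype.card (Fin M → Bool)) Γm v := (locConst_pos hc2 Γm v).le
  have hL3 : 0 ≤ locConst ((Fintype.card γ : ℝ) + 1) (0 : Multiset K) v :=
    (locConst_pos hc3 _ v).le
  have hL4 : 0 ≤ locConst (monoCount Θ) (famCoeffs Θ) v := (locConst_pos hc4 _ v).le
  have key : ∀ p : Fin M → ι × ι,
      (⨆ j, v (a j)) * ∏ i, v (sec (x i) y (p i)) ≤
        (locConst C₁ Γ₁ v * locConst (Fintype.card (Fin M → Bool)) Γm v *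
          (locConst ((Fintype.card γ : ℝ) + 1) (0 : Multiset K) v *
            locConst (monoCount Θ) (famCoeffs Θ) v)) *
          v (∑ j, a j * eval y (Ψ j)) * (∏ i, ⨆ j, v (x i j)) * (⨆ j, v (y j)) ^ n := by
    intro p
    obtain ⟨g, hg⟩ := hfac p
    have h1 : (⨆ j, v (a j)) * (⨆ u, v (g u)) ≤
        locConst C₁ Γ₁ v * ⨆ d, v (cvec m x p d) :=
      hK1 v a g (cvec m x p) (by rw [← hg, prod_lin_eq_sum τ ω m hm x p])
    have h2 : (⨆ d, v (cvec m x p d)) ≤
        locConst (Fintype.card (Fin M → Bool)) Γm v * ∏ i, ⨆ j, v (x i j) :=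
      Real.iSup_le (fun d => abv_cvec_le v m Γm hΓm x p d) (mul_nonneg hL2 hPX0)
    have h3 : ∏ i, sec (x i) y (p i) =
        (∑ j, a j * eval y (Ψ j)) * ∑ u, g u * eval y (Θ u) := by
      have hhom : (comb a Ψ * comb g Θ).IsHomogeneous M :=
        hM ▸ (comb_isHomogeneous a hΨ).mul (comb_isHomogeneous g hΘ)
      have := hy.eval_eq (prod_linForm_isHomogeneous x p) hhom
        (by rw [aeval_prod_linForm, map_mul, aeval_comb, aeval_comb, hg])
      rw [eval_prod_linForm, map_mul, eval_comb, eval_comb] at this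
      exact this
    have h4 : v (∑ u, g u * eval y (Θ u)) ≤
        locConst ((Fintype.card γ : ℝ) + 1) (0 : Multiset K) v *
          ((⨆ u, v (g u)) * (locConst (monoCount Θ) (famCoeffs Θ) v * (⨆ j, v (y j)) ^ n)) := by
      refine le_trans (abv_sum_le v _) ?_
      refine mul_le_mul (locConst_mono (Nat.cast_nonneg _) (by linarith) le_rfl v) ?_
        (Real.iSup_nonneg fun _ => v.nonneg _) hL3
      refine Real.iSup_le (fun u => ?_)
        (mul_nonneg (supAbv_nonneg v g) (mul_nonneg hL4 hY0))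
      rw [map_mul]
      exact mul_le_mul (le_supAbv v g u) (abv_eval_le v Θ u (hΘ u) y) (v.nonneg _)
        (supAbv_nonneg v g)
    have hA0 : 0 ≤ ⨆ j, v (a j) := supAbv_nonneg v a
    have hw0 : 0 ≤ v (∑ j, a j * eval y (Ψ j)) := v.nonneg _
    calc (⨆ j, v (a j)) * ∏ i, v (sec (x i) y (p i))
        = (⨆ j, v (a j)) * (v (∑ j, a j * eval y (Ψ j)) * v (∑ u, g u * eval y (Θ u))) := by
          rw [← map_prod, h3, map_mul]
      _ ≤ (⨆ j, v (a j)) * (v (∑ j, a j * eval y (Ψ j)) *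
            (locConst ((Fintype.card γ : ℝ) + 1) (0 : Multiset K) v *
              ((⨆ u, v (g u)) *
                (locConst (monoCount Θ) (famCoeffs Θ) v * (⨆ j, v (y j)) ^ n)))) :=
          mul_le_mul_of_nonneg_left (mul_le_mul_of_nonneg_left h4 hw0) hA0
      _ = ((⨆ j, v (a j)) * (⨆ u, v (g u))) *
            (v (∑ j, a j * eval y (Ψ j)) *
              (locConst ((Fintype.card γ : ℝ) + 1) (0 : Multiset K) v *
                (locConst (monoCount Θ) (famCoeffs Θ) v * (⨆ j, v (y j)) ^ n))) := by ring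
      _ ≤ (locConst C₁ Γ₁ v *
            (locConst (Fintype.card (Fin M → Bool)) Γm v * ∏ i, ⨆ j, v (x i j))) *
            (v (∑ j, a j * eval y (Ψ j)) *
              (locConst ((Fintype.card γ : ℝ) + 1) (0 : Multiset K) v *
                (locConst (monoCount Θ) (famCoeffs Θ) v * (⨆ j, v (y j)) ^ n))) :=
          mul_le_mul_of_nonneg_right
            (h1.trans (mul_le_mul_of_nonneg_left h2 hL1))
            (mul_nonneg hw0 (mul_nonneg hL3 (mul_nonneg hL4 hY0)))
      _ = _ := by ring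
  obtain ⟨p, hp⟩ := exists_prod_eq_prod_iSup (fun i (q : ι × ι) => v (sec (x i) y q))
  have hL : locConst C₁ Γ₁ v * locConst (Fintype.card (Fin M → Bool)) Γm v *
      (locConst ((Fintype.card γ : ℝ) + 1) (0 : Multiset K) v *
        locConst (monoCount Θ) (famCoeffs Θ) v) =
      locConst (C₁ * (Fintype.card (Fin M → Bool) : ℝ) *
        (((Fintype.card γ : ℝ) + 1) * monoCount Θ)) (Γ₁ + Γm + (0 + famCoeffs Θ)) v := by
    simp only [locConst_mul]
  rw [← hL, ← hp]
  exact key p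

end Fermat.Agent.S17.H.LD
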