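import Mathlib
import Fermat.Agent.S17.R.LSpace
import Fermat.Agent.S17.R.SectionRing

/-!
# S17 / strand H, block C, leaf C1b: every section is a form in `τ`

`F / K` a function field of one variable, `v₀` a place, `τ : ι → F` a spanning family of
`V = L(m0·v₀)` with `m0` large.  Then every `f ∈ L(j m0·v₀)` is `P(τ)` for a homogeneous
polynomial `P` of degree `j` (`exists_form_of_mem_L`).

Proof: `L(m0·v₀) ^ (j'+1) = L((j'+1) m0·v₀)` (`R.L_pow_nsmul_single`, leaf R10b) and, for any
family `τ` in a commutative algebra, `(span τ) ^ n` is contained in the image of the forms of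
degree `n` under `aeval τ` (`pow_span_le_map_homogeneous`); `j = 0` is `L(0) = K`.
-/

set_option autoImplicit false

namespace Fermat.Agent.S17.H.LD

open AlgebraicCurve MvPolynomial Fermat.Agent.S17.R

namespace Forms

/-- The `n`-th power of the span of a family `τ` consists of values at `τ` of forms of
degree `n`. -/
theorem pow_span_le_map_homogeneous {K A ι : Type*} [CommSemiring K] [CommSemiring A]
    [Algebra K A] (τ : ι → A) (n : ℕ) :
    Submodule.span K (Set.range τ) ^ n ≤
      Submodule.map (aeval τ : MvPolynomial ι K →ₐ[K] A).toLinearMap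
        (homogeneousSubmodule ι K n) := by
  have h1 : Submodule.span K (Set.range τ) ≤
      Submodule.map (aeval τ : MvPolynomial ι K →ₐ[K] A).toLinearMap
        (homogeneousSubmodule ι K 1) := by
    rw [Submodule.span_le]
    rintro _ ⟨i, rfl⟩
    exact ⟨X i, isHomogeneous_X K i, aeval_X τ i⟩
  induction n with
  | zero =>
    rw [pow_zero, Submodule.one_le]
    exact ⟨1, isHomogeneous_one ι K, (AlgHom.toLinearMap_apply _ _).trans (map_one _)⟩
  | succ n ih =>
    rw [pow_succ]
    refine (mul_le_mul' ih h1).trans ?_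
    rw [← Submodule.map_mul]
    exact Submodule.map_mono (homogeneousSubmodule_mul n 1)

/-- Elementwise form of `pow_span_le_map_homogeneous`. -/
theorem exists_form_of_mem_pow_span {K A ι : Type*} [CommSemiring K] [CommSemiring A]
    [Algebra K A] (τ : ι → A) (n : ℕ) {f : A} (hf : f ∈ Submodule.span K (Set.range τ) ^ n) :
    ∃ P : MvPolynomial ι K, P.IsHomogeneous n ∧ aeval τ P = f := by
  obtain ⟨P, hP, hPf⟩ := pow_span_le_map_homogeneous τ n hf
  exact ⟨P, hP, hPf⟩

end Forms

variable {K F : Type*} [Field K] [Field F] [Algebra K F]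
variable [IsAlgClosed K] [CharZero K] [Algebra.EssFiniteType K F]

/-- **C1b.** Every section is a form in `τ`: for `m0` large and `τ` spanning `L(m0·v₀)`, every
`f ∈ L(j m0·v₀)` is the value at `τ` of a homogeneous polynomial of degree `j`. -/
theorem exists_form_of_mem_L (htr : Algebra.trdeg K F = 1) (v₀ : Place K F) :
    ∃ n₀ : ℕ, ∀ m0 : ℕ, n₀ ≤ m0 → ∀ {ι : Type} [Fintype ι] (τ : ι → F),
      Submodule.span K (Set.range τ) =
        riemannRochSpace ((m0 : ℤ) • Finsupp.single v₀ (1 : ℤ)) →
      ∀ (j : ℕ) (f : F),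
        f ∈ riemannRochSpace (((j * m0 : ℕ) : ℤ) • Finsupp.single v₀ (1 : ℤ)) →
        ∃ P : MvPolynomial ι K, P.IsHomogeneous j ∧ aeval τ P = f := by
  obtain ⟨n₀, h⟩ := L_pow_nsmul_single htr v₀
  refine ⟨n₀, fun m0 hm0 ι _ τ hτ j f hf => ?_⟩
  apply Forms.exists_form_of_mem_pow_span
  cases j with
  | zero =>
    rw [pow_zero, Submodule.mem_one]
    have hf' : f ∈ riemannRochSpace (0 : Divisor K F) := by
      rw [Nat.zero_mul, Nat.cast_zero, zero_smul] at hf
      exact hf
    exact (mem_L_zero_iff htr).mp hf'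
  | succ k =>
    rw [hτ, h m0 hm0 k]
    exact hf

end Fermat.Agent.S17.H.LD
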