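import Mathlib
import Fermat.Agent.S17.H.Cert.LocConst
import Fermat.Agent.S17.H.B.Certificate

/-!
# Program MW (statement S17), strand H, block C, leaf K1 = C3: multiplication does not shrink

Mathlib-only mathematics; no curve object.

A bilinear "multiplication" `k^α × k^β → k^γ` is given by structure constants `μ a b c`:
the `c`-th coordinate of the product of `w` and `w'` is `∑ a, ∑ b, μ a b c * w a * w' b`.
If the multiplication has no zero divisors (as for `L(jH) × L(kH) → L((j+k)H)` inside a field)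
and `k` is algebraically closed, then

`|w|_v * |w'|_v ≤ locConst C Γ v * |w * w'|_v`

for every absolute value `v` of `k`, with one pair `(C, Γ)` for all `v` (`|·|_v` = the largest
absolute value of a coordinate).

* `abv_eval_le_of_le_one` : value bound for an arbitrary (non-homogeneous) polynomial at a
  point whose coordinates have absolute value `≤ 1`;
* `mulForm`, `eval_mulForm` : the coordinates of the product as polynomials;
* `exists_mul_certificate` : the Nullstellensatz certificate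
  `∑ c, P c (w, w') * (w * w')_c = (w a₀ * w' b₀) ^ A` (plain radical membership);
* `mul_lower_of_certificate` : the local bound from certificates read at the *normalised*
  vectors (each vector divided by a coordinate of largest absolute value), for any field and
  any absolute value;
* `mul_lower` : the statement above.
-/

set_option autoImplicit false

namespace Fermat.Agent.S17.H.LD.MulLower

open MvPolynomial Fermat.Agent.S17.H.Cert

section Aux

variable {K : Type*} [Field K] {ι α : Type*} [Fintype α]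

/-- **Value bound on the unit polydisc**: a polynomial of a finite family, evaluated at a point
all of whose coordinates have absolute value at most `1`, is bounded by the local constant of
the family.  No homogeneity is needed. -/
theorem abv_eval_le_of_le_one (v : AbsoluteValue K ℝ) (q : α → MvPolynomial ι K) (a : α)
    (x : ι → K) (hx : ∀ i, v (x i) ≤ 1) :
    v ((q a).eval x) ≤ locConst (monoCount q) (famCoeffs q) v := by
  have hmon : ∀ s : ι →₀ ℕ, v (∏ i ∈ s.support, x i ^ s i) ≤ 1 := by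
    intro s
    rw [map_prod]
    refine Finset.prod_le_one (fun i _ => v.nonneg _) (fun i _ => ?_)
    rw [map_pow]
    exact pow_le_one₀ (v.nonneg _) (hx i)
  have hterm : ∀ s : ι →₀ ℕ,
      v ((q a).coeff s * ∏ i ∈ s.support, x i ^ s i) ≤ v ((q a).coeff s) := by
    intro s
    rw [map_mul]
    calc v ((q a).coeff s) * v (∏ i ∈ s.support, x i ^ s i)
        ≤ v ((q a).coeff s) * 1 := mul_le_mul_of_nonneg_left (hmon s) (v.nonneg _)
      _ = v ((q a).coeff s) := mul_one _
  rw [eval_eq]
  by_cases hv : IsNonarchimedean v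
  · rw [locConst_of_nonarch hv]
    refine le_trans hv.apply_sum_le ?_
    rcases isEmpty_or_nonempty (q a).support with he | hne
    · rw [Real.iSup_of_isEmpty]
      exact (gamProd_pos _ v).le
    · refine ciSup_le fun s => ?_
      exact le_trans (hterm s.1) (le_gamProd_of_mem (coeff_mem_famCoeffs q a s.2) v)
  · rw [locConst_of_not_nonarch hv]
    calc v (∑ s ∈ (q a).support, (q a).coeff s * ∏ i ∈ s.support, x i ^ s i)
        ≤ ∑ s ∈ (q a).support, v ((q a).coeff s * ∏ i ∈ s.support, x i ^ s i) :=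
          v.sum_le _ _
      _ ≤ ∑ s ∈ (q a).support, v ((q a).coeff s) :=
          Finset.sum_le_sum fun s _ => hterm s
      _ ≤ ((q a).support.card : ℝ) * gamProd (coeffMS (q a)) v := sum_abv_coeff_le v (q a)
      _ ≤ monoCount q * gamProd (famCoeffs q) v :=
          mul_le_mul (card_support_le_monoCount q a) (gamProd_mono (coeffMS_le_famCoeffs q a) v)
            (gamProd_pos _ v).le (le_trans zero_le_one (one_le_monoCount q))

end Aux

section Forms

variable {K : Type*} [Field K] {α β γ : Type*} [Fintype α] [Fintype β]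

/-- The `c`-th coordinate of the product, as a polynomial in the coordinates of the two
factors (variables `Sum.inl a` and `Sum.inr b`). -/
noncomputable def mulForm (μ : α → β → γ → K) (c : γ) : MvPolynomial (α ⊕ β) K :=
  ∑ a, ∑ b, C (μ a b c) * X (Sum.inl a) * X (Sum.inr b)

theorem eval_mulForm (μ : α → β → γ → K) (c : γ) (w : α → K) (w' : β → K) :
    eval (Sum.elim w w') (mulForm μ c) = ∑ a, ∑ b, μ a b c * w a * w' b := by
  unfold mulForm
  rw [map_sum]
  refine Finset.sum_congr rfl fun a _ => ?_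
  rw [map_sum]
  refine Finset.sum_congr rfl fun b _ => ?_
  rw [map_mul, map_mul, eval_C, eval_X, eval_X, Sum.elim_inl, Sum.elim_inr]

/-- Bilinearity of the coordinates of the product. -/
theorem mul_coord_smul (μ : α → β → γ → K) (c : γ) (t t' : K) (w : α → K) (w' : β → K) :
    ∑ a, ∑ b, μ a b c * (t * w a) * (t' * w' b) =
      t * t' * ∑ a, ∑ b, μ a b c * w a * w' b := by
  rw [Finset.mul_sum]
  refine Finset.sum_congr rfl fun a _ => ?_
  rw [Finset.mul_sum]
  refine Finset.sum_congr rfl fun b _ => ?_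
  ring

end Forms

section Certificate

variable {k : Type*} [Field k] [IsAlgClosed k] {α β γ : Type*} [Fintype α] [Fintype β]
  [Fintype γ]

/-- **Nullstellensatz certificate for a multiplication without zero divisors.**  For every
pair of coordinates `(a₀, b₀)` a power of `w a₀ * w' b₀` is a polynomial combination of the
coordinates of the product. -/
theorem exists_mul_certificate (μ : α → β → γ → k)
    (hμ : ∀ (w : α → k) (w' : β → k),
      (∀ c, ∑ a, ∑ b, μ a b c * w a * w' b = 0) → w = 0 ∨ w' = 0)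
    (a₀ : α) (b₀ : β) :
    ∃ (A : ℕ) (P : γ → MvPolynomial (α ⊕ β) k), ∀ (w : α → k) (w' : β → k),
      ∑ c, eval (Sum.elim w w') (P c) * (∑ a, ∑ b, μ a b c * w a * w' b) =
        (w a₀ * w' b₀) ^ A := by
  have hf : ∀ x ∈ zeroLocus k (⊥ : Ideal (MvPolynomial (α ⊕ β) k)),
      (∀ c, eval x (mulForm μ c) = 0) →
        eval x (X (Sum.inl a₀) * X (Sum.inr b₀) : MvPolynomial (α ⊕ β) k) = 0 := by
    intro x _ hx
    have hxe : x = Sum.elim (x ∘ Sum.inl) (x ∘ Sum.inr) := (Sum.elim_comp_inl_inr x).symm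
    have hx' : ∀ c, ∑ a, ∑ b, μ a b c * (x ∘ Sum.inl) a * (x ∘ Sum.inr) b = 0 := by
      intro c
      have h := hx c
      rw [hxe, eval_mulForm] at h
      exact h
    rw [map_mul, eval_X, eval_X]
    rcases hμ (x ∘ Sum.inl) (x ∘ Sum.inr) hx' with h | h
    · have h0 : x (Sum.inl a₀) = 0 := congrFun h a₀
      rw [h0, zero_mul]
    · have h0 : x (Sum.inr b₀) = 0 := congrFun h b₀
      rw [h0, mul_zero]
  obtain ⟨e, a, P, ha, hrel⟩ := Fermat.Agent.S17.H.B.exists_pow_eq_add_sum
    (⊥ : Ideal (MvPolynomial (α ⊕ β) k)) (mulForm μ) (X (Sum.inl a₀) * X (Sum.inr b₀)) hf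
  refine ⟨e, P, fun w w' => ?_⟩
  rw [Ideal.mem_bot] at ha
  have h := congrArg (eval (Sum.elim w w')) hrel
  rw [ha, zero_add, map_pow, map_mul, eval_X, eval_X, Sum.elim_inl, Sum.elim_inr, map_sum] at h
  rw [h]
  refine Finset.sum_congr rfl fun c _ => ?_
  rw [map_mul, eval_mulForm]

end Certificate

section Local

variable {K : Type*} [Field K] {α β γ : Type*} [Fintype α] [Fintype β] [Fintype γ]

/-- **Local bound from certificates** (any field, any absolute value).  The hypothesis is the
certificate identity read at the normalised vectors `(w a₀)⁻¹ • w`, `(w' b₀)⁻¹ • w'`, for every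
pair of nonzero coordinates; it is used for a pair of coordinates of largest absolute value. -/
theorem mul_lower_of_certificate (v : AbsoluteValue K ℝ) (μ : α → β → γ → K)
    (P : (α × β) × γ → MvPolynomial (α ⊕ β) K) (w : α → K) (w' : β → K)
    (hP : ∀ a₀ b₀, w a₀ ≠ 0 → w' b₀ ≠ 0 →
      ∑ c, eval (Sum.elim (fun a => (w a₀)⁻¹ * w a) (fun b => (w' b₀)⁻¹ * w' b))
          (P ((a₀, b₀), c)) *
        (∑ a, ∑ b, μ a b c * ((w a₀)⁻¹ * w a) * ((w' b₀)⁻¹ * w' b)) = 1) :
    (⨆ a, v (w a)) * (⨆ b, v (w' b)) ≤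
      locConst (Fintype.card γ * monoCount P) (famCoeffs P) v *
        ⨆ c, v (∑ a, ∑ b, μ a b c * w a * w' b) := by
  have hc0 : (0 : ℝ) ≤ Fintype.card γ * monoCount P :=
    mul_nonneg (Nat.cast_nonneg _) (le_trans zero_le_one (one_le_monoCount P))
  have hS0 : 0 ≤ ⨆ c, v (∑ a, ∑ b, μ a b c * w a * w' b) :=
    Real.iSup_nonneg fun c => v.nonneg _
  have hR : 0 ≤ locConst (Fintype.card γ * monoCount P) (famCoeffs P) v *
      ⨆ c, v (∑ a, ∑ b, μ a b c * w a * w' b) :=
    mul_nonneg (locConst_nonneg hc0 _ v) hS0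
  by_cases hw : ∀ a, w a = 0
  · have h0 : (⨆ a, v (w a)) = 0 := by
      have : (fun a => v (w a)) = fun _ => (0 : ℝ) := by
        funext a
        rw [hw a, map_zero]
      rw [this, Real.iSup_const_zero]
    rw [h0, zero_mul]
    exact hR
  by_cases hw' : ∀ b, w' b = 0
  · have h0 : (⨆ b, v (w' b)) = 0 := by
      have : (fun b => v (w' b)) = fun _ => (0 : ℝ) := by
        funext b
        rw [hw' b, map_zero]
      rw [this, Real.iSup_const_zero]
    rw [h0, mul_zero]
    exact hR
  push Not at hw hw'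
  obtain ⟨a₁, ha₁⟩ := hw
  obtain ⟨b₁, hb₁⟩ := hw'
  have : Nonempty α := ⟨a₁⟩
  have : Nonempty β := ⟨b₁⟩
  obtain ⟨a₀, ha₀⟩ := exists_eq_ciSup_of_finite (f := fun a => v (w a))
  obtain ⟨b₀, hb₀⟩ := exists_eq_ciSup_of_finite (f := fun b => v (w' b))
  have ha₀' : v (w a₀) = ⨆ a, v (w a) := ha₀
  have hb₀' : v (w' b₀) = ⨆ b, v (w' b) := hb₀
  have hs : 0 < v (w a₀) := by
    rw [ha₀']
    exact lt_of_lt_of_le (v.pos ha₁) (Finite.le_ciSup (fun a => v (w a)) a₁)
  have hs' : 0 < v (w' b₀) := by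
    rw [hb₀']
    exact lt_of_lt_of_le (v.pos hb₁) (Finite.le_ciSup (fun b => v (w' b)) b₁)
  have hwa : w a₀ ≠ 0 := v.pos_iff.mp hs
  have hwb : w' b₀ ≠ 0 := v.pos_iff.mp hs'
  -- the normalised vectors lie in the unit polydisc
  have hy : ∀ i : α ⊕ β,
      v (Sum.elim (fun a => (w a₀)⁻¹ * w a) (fun b => (w' b₀)⁻¹ * w' b) i) ≤ 1 := by
    rintro (a | b)
    · rw [Sum.elim_inl, map_mul, map_inv₀, inv_mul_le_iff₀ hs, mul_one, ha₀']
      exact Finite.le_ciSup (fun a => v (w a)) a
    · rw [Sum.elim_inr, map_mul, map_inv₀, inv_mul_le_iff₀ hs', mul_one, hb₀']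
      exact Finite.le_ciSup (fun b => v (w' b)) b
  have hcert := hP a₀ b₀ hwa hwb
  rcases isEmpty_or_nonempty γ with hγ | hγ
  · exfalso
    rw [Finset.univ_eq_empty, Finset.sum_empty] at hcert
    exact zero_ne_one hcert
  set S : ℝ := ⨆ c, v (∑ a, ∑ b, μ a b c * w a * w' b) with hS
  set L : ℝ := locConst (monoCount P) (famCoeffs P) v with hL
  have hL0 : 0 ≤ L := locConst_nonneg (le_trans zero_le_one (one_le_monoCount P)) _ v
  -- each term of the certificate is small
  have hterm : ∀ c : γ,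
      v (eval (Sum.elim (fun a => (w a₀)⁻¹ * w a) (fun b => (w' b₀)⁻¹ * w' b))
          (P ((a₀, b₀), c)) *
        (∑ a, ∑ b, μ a b c * ((w a₀)⁻¹ * w a) * ((w' b₀)⁻¹ * w' b))) ≤
        L * ((v (w a₀))⁻¹ * (v (w' b₀))⁻¹ * S) := by
    intro c
    rw [map_mul, mul_coord_smul, map_mul, map_mul, map_inv₀, map_inv₀]
    refine mul_le_mul (abv_eval_le_of_le_one v P ((a₀, b₀), c) _ hy) ?_
      (mul_nonneg (mul_nonneg (inv_nonneg.mpr hs.le) (inv_nonneg.mpr hs'.le)) (v.nonneg _)) hL0
    refine mul_le_mul_of_nonneg_left ?_ (mul_nonneg (inv_nonneg.mpr hs.le) (inv_nonneg.mpr hs'.le))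
    exact Finite.le_ciSup (fun c => v (∑ a, ∑ b, μ a b c * w a * w' b)) c
  have h1 : (1 : ℝ) ≤ locConst (Fintype.card γ) (0 : Multiset K) v *
      (L * ((v (w a₀))⁻¹ * (v (w' b₀))⁻¹ * S)) := by
    have h := abv_sum_le v (fun c : γ =>
      eval (Sum.elim (fun a => (w a₀)⁻¹ * w a) (fun b => (w' b₀)⁻¹ * w' b))
          (P ((a₀, b₀), c)) *
        (∑ a, ∑ b, μ a b c * ((w a₀)⁻¹ * w a) * ((w' b₀)⁻¹ * w' b)))
    rw [hcert, map_one] at h
    refine le_trans h (mul_le_mul_of_nonneg_left (ciSup_le hterm) ?_)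
    exact locConst_nonneg (Nat.cast_nonneg _) _ v
  have h2 : locConst (Fintype.card γ) (0 : Multiset K) v * L =
      locConst (Fintype.card γ * monoCount P) (famCoeffs P) v := by
    rw [hL, locConst_mul, zero_add]
  rw [← ha₀', ← hb₀', ← h2]
  have h3 : locConst (Fintype.card γ) (0 : Multiset K) v *
      (L * ((v (w a₀))⁻¹ * (v (w' b₀))⁻¹ * S)) =
      (locConst (Fintype.card γ) (0 : Multiset K) v * L * S) / (v (w a₀) * v (w' b₀)) := by
    field_simp
  rw [h3, le_div_iff₀ (mul_pos hs hs'), one_mul] at h1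
  exact h1

end Local

section Main

variable {k : Type*} [Field k] [IsAlgClosed k] {α β γ : Type*} [Fintype α] [Fintype β]
  [Fintype γ]

/-- **K1: multiplication does not shrink.**  A bilinear multiplication without zero divisors
over an algebraically closed field satisfies `|w|_v |w'|_v ≤ locConst C Γ v * |w w'|_v` for
every absolute value `v`, with `(C, Γ)` independent of `v`. -/
theorem mul_lower (μ : α → β → γ → k)
    (hμ : ∀ (w : α → k) (w' : β → k),
      (∀ c, ∑ a, ∑ b, μ a b c * w a * w' b = 0) → w = 0 ∨ w' = 0) :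
    ∃ (C : ℝ) (Γ : Multiset k), 1 ≤ C ∧ ∀ (v : AbsoluteValue k ℝ) (w : α → k) (w' : β → k),
      (⨆ a, v (w a)) * (⨆ b, v (w' b)) ≤
        locConst C Γ v * ⨆ c, v (∑ a, ∑ b, μ a b c * w a * w' b) := by
  choose A P hP using fun ab : α × β => exists_mul_certificate μ hμ ab.1 ab.2
  refine ⟨max 1 (Fintype.card γ * monoCount (fun x : (α × β) × γ => P x.1 x.2)),
    famCoeffs (fun x : (α × β) × γ => P x.1 x.2), le_max_left _ _, fun v w w' => ?_⟩
  have hcert : ∀ a₀ b₀, w a₀ ≠ 0 → w' b₀ ≠ 0 →
      ∑ c, eval (Sum.elim (fun a => (w a₀)⁻¹ * w a) (fun b => (w' b₀)⁻¹ * w' b))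
          ((fun x : (α × β) × γ => P x.1 x.2) ((a₀, b₀), c)) *
        (∑ a, ∑ b, μ a b c * ((w a₀)⁻¹ * w a) * ((w' b₀)⁻¹ * w' b)) = 1 := by
    intro a₀ b₀ ha hb
    have h1 := hP (a₀, b₀) (fun a => (w a₀)⁻¹ * w a) (fun b => (w' b₀)⁻¹ * w' b)
    have h2 : ((w a₀)⁻¹ * w a₀ * ((w' b₀)⁻¹ * w' b₀)) ^ A (a₀, b₀) = 1 := by
      rw [inv_mul_cancel₀ ha, inv_mul_cancel₀ hb, one_mul, one_pow]
    exact h1.trans h2
  have h := mul_lower_of_certificate v μ (fun x : (α × β) × γ => P x.1 x.2) w w' hcert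
  refine le_trans h (mul_le_mul_of_nonneg_right (locConst_mono ?_ (le_max_right _ _) le_rfl v)
    (Real.iSup_nonneg fun c => v.nonneg _))
  exact mul_nonneg (Nat.cast_nonneg _) (le_trans zero_le_one (one_le_monoCount _))

end Main

end Fermat.Agent.S17.H.LD.MulLower
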