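import Mathlib
import Fermat.Agent.S17.H.LD.MulLower

/-!
# Program MW (statement S17), strand H, block C, leaf K1 = C3 (field form)

The form of "multiplication does not shrink" consumed by C-DOWN: three linearly independent
families `ψ`, `ψ'`, `χ` of a field `F` over an algebraically closed field `k` with
`ψ s * ψ' t ∈ span χ`.  If `(∑ a s • ψ s) * (∑ b t • ψ' t) = ∑ c u • χ u` then

`|a|_v * |b|_v ≤ locConst C Γ v * |c|_v`

for every absolute value `v` of `k`, with one pair `(C, Γ)` for all `v`.

* `mul_lower` : `MulLower.mul_lower` under the name of the ledger row S17.H.C3;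
* `mul_lower_field` : the field form.
-/

set_option autoImplicit false

namespace Fermat.Agent.S17.H.LD

open Fermat.Agent.S17.H.Cert

/-- **K1** (`MulLower.mul_lower`, restated under the name of the ledger row). -/
theorem mul_lower {k : Type*} [Field k] [IsAlgClosed k] {α β γ : Type*} [Fintype α]
    [Fintype β] [Fintype γ] (μ : α → β → γ → k)
    (hμ : ∀ (w : α → k) (w' : β → k),
      (∀ c, ∑ a, ∑ b, μ a b c * w a * w' b = 0) → w = 0 ∨ w' = 0) :
    ∃ (C : ℝ) (Γ : Multiset k), 1 ≤ C ∧ ∀ (v : AbsoluteValue k ℝ) (w : α → k) (w' : β → k),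
      (⨆ a, v (w a)) * (⨆ b, v (w' b)) ≤
        locConst C Γ v * ⨆ c, v (∑ a, ∑ b, μ a b c * w a * w' b) :=
  MulLower.mul_lower μ hμ

/-- **K1, field form.**  Multiplication of two finite-dimensional subspaces of a field, in
coordinates with respect to linearly independent families, does not shrink the coordinate
vectors at any absolute value of the (algebraically closed) constant field. -/
theorem mul_lower_field {k : Type*} [Field k] [IsAlgClosed k] {F : Type*} [Field F]
    [Algebra k F] {α β γ : Type*} [Fintype α] [Fintype β] [Fintype γ] (ψ : α → F) (ψ' : β → F)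
    (χ : γ → F) (hψ : LinearIndependent k ψ) (hψ' : LinearIndependent k ψ')
    (hχ : LinearIndependent k χ)
    (hmul : ∀ s t, ψ s * ψ' t ∈ Submodule.span k (Set.range χ)) :
    ∃ (C : ℝ) (Γ : Multiset k), 1 ≤ C ∧ ∀ (v : AbsoluteValue k ℝ) (a : α → k) (b : β → k)
      (c : γ → k), (∑ s, a s • ψ s) * (∑ t, b t • ψ' t) = ∑ u, c u • χ u →
      (⨆ s, v (a s)) * (⨆ t, v (b t)) ≤ locConst C Γ v * ⨆ u, v (c u) := by
  have hex : ∀ s t, ∃ m : γ → k, ∑ u, m u • χ u = ψ s * ψ' t := fun s t =>
    (Submodule.mem_span_range_iff_exists_fun k).mp (hmul s t)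
  choose μ hμ using hex
  -- the product in coordinates
  have hprod : ∀ (a : α → k) (b : β → k),
      (∑ s, a s • ψ s) * (∑ t, b t • ψ' t) =
        ∑ u, (∑ s, ∑ t, μ s t u * a s * b t) • χ u := by
    intro a b
    have h1 : ∀ s t, a s • ψ s * b t • ψ' t = ∑ u, (μ s t u * a s * b t) • χ u := by
      intro s t
      rw [smul_mul_smul_comm, ← hμ s t, Finset.smul_sum]
      refine Finset.sum_congr rfl fun u _ => ?_
      rw [smul_smul]
      congr 1
      ring
    calc (∑ s, a s • ψ s) * (∑ t, b t • ψ' t)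
        = ∑ s, ∑ t, a s • ψ s * b t • ψ' t := Finset.sum_mul_sum _ _ _ _
      _ = ∑ s, ∑ t, ∑ u, (μ s t u * a s * b t) • χ u :=
          Finset.sum_congr rfl fun s _ => Finset.sum_congr rfl fun t _ => h1 s t
      _ = ∑ s, ∑ u, ∑ t, (μ s t u * a s * b t) • χ u :=
          Finset.sum_congr rfl fun s _ => Finset.sum_comm
      _ = ∑ u, ∑ s, ∑ t, (μ s t u * a s * b t) • χ u := Finset.sum_comm
      _ = ∑ u, (∑ s, ∑ t, μ s t u * a s * b t) • χ u := by
          refine Finset.sum_congr rfl fun u _ => ?_
          rw [Finset.sum_smul]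
          refine Finset.sum_congr rfl fun s _ => ?_
          rw [Finset.sum_smul]
  -- no zero divisors: `F` is a field and the families are linearly independent
  have hzd : ∀ (w : α → k) (w' : β → k),
      (∀ u, ∑ s, ∑ t, μ s t u * w s * w' t = 0) → w = 0 ∨ w' = 0 := by
    intro w w' h0
    have hp : (∑ s, w s • ψ s) * (∑ t, w' t • ψ' t) = 0 := by
      rw [hprod]
      exact Finset.sum_eq_zero fun u _ => by rw [h0 u, zero_smul]
    rcases mul_eq_zero.mp hp with h | h
    · left
      funext s
      exact Fintype.linearIndependent_iff.mp hψ w h s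
    · right
      funext t
      exact Fintype.linearIndependent_iff.mp hψ' w' h t
  obtain ⟨C, Γ, hC, hb⟩ := MulLower.mul_lower μ hzd
  refine ⟨C, Γ, hC, fun v a b c habc => ?_⟩
  have hc : ∀ u, c u = ∑ s, ∑ t, μ s t u * a s * b t := by
    have h := habc
    rw [hprod] at h
    have h' : ∑ u, (c u - ∑ s, ∑ t, μ s t u * a s * b t) • χ u = 0 := by
      have h2 : ∀ u, (c u - ∑ s, ∑ t, μ s t u * a s * b t) • χ u =
          c u • χ u - (∑ s, ∑ t, μ s t u * a s * b t) • χ u := fun u => sub_smul _ _ _
      rw [Finset.sum_congr rfl fun u _ => h2 u, Finset.sum_sub_distrib, h, sub_self]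
    intro u
    exact sub_eq_zero.mp (Fintype.linearIndependent_iff.mp hχ _ h' u)
  have hfun : (fun u => v (∑ s, ∑ t, μ s t u * a s * b t)) = fun u => v (c u) :=
    funext fun u => by rw [hc u]
  have hfin := hb v a b
  rw [hfun] at hfin
  exact hfin

end Fermat.Agent.S17.H.LD
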