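import Mathlib
import Fermat.Agent.S17.R.LSpace
import Fermat.Agent.S17.R.LStep
import Fermat.Agent.S17.R.SectionRingCore
import Fermat.Agent.S17.H.Cert.LocConst
import Fermat.Agent.S17.H.LD.Carrier
import Fermat.Agent.S17.H.LD.Down
import Fermat.Agent.S17.H.LD.Pt
import Fermat.Agent.S17.H.LD.Forms
import Fermat.Agent.S17.H.LD.MulLowerField
import Fermat.Agent.S17.H.LD.DivCount

/-!
# Program MW (statement S17), strand H, block C: the lower half of (LD) on the curve

`ld_down` (row S17.H.C8, curve level): for a function field `F / K` of one variable, a place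
`v₀`, `m0` large, a basis `τ` of `L(m0 v₀)` and a basis `ψ` of `L(k m0 v₀)` given by forms `P` of
degree `k` in `τ`: at every absolute value `v` of `K`, for every section `s = ∑ a_j ψ_j ≠ 0`
with zeros `Z_1, .., Z_{k m0}` (with multiplicity, `v₀` allowed), representatives `x i` of the
points `τ(Z i)` and every point `y` of the cone of `τ`,

`|a| * ∏ i, max_p |σ_p(x i, y)| ≤ C(v) * (|s(y)| * ∏ i, |x i| * |y| ^ (k m0 - k))`.

It is the instance of the Mathlib-only `exists_down` (leaf C8) at the forms of a basis of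
`L((k m0 - k) m0 v₀)` (leaf C1b), with the factorisation `∏ l_i = s * G` from the divisor count
`DivCount.prod_div_mem_L_nsmul` (G3) and the lower bound for the multiplication of sections
`mul_lower_field` (leaf C3 = K1).
-/

set_option autoImplicit false

namespace Fermat.Agent.S17.H.LD

open AlgebraicCurve MvPolynomial Fermat.Agent.S17.R Fermat.Agent.S17.H.Cert

namespace DownCurve

variable {K F : Type*} [Field K] [Field F] [Algebra K F]

/-- The section `x_a φ_b - x_b φ_a` vanishes at the point `Z` with value vector `x`. -/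
theorem lin_mem_L {ι : Type*} {φ : ι → F} {Z : Place K F} {x : ι → K} (hx : IsPt φ Z x)
    {D : Divisor K F} (hφ : ∀ j, φ j ∈ riemannRochSpace D) (p : ι × ι) :
    lin φ x p ∈ riemannRochSpace (D - Finsupp.single Z (1 : ℤ)) := by
  classical
  have hL : lin φ x p ∈ riemannRochSpace D := by
    unfold lin
    exact Submodule.sub_mem _ (Submodule.smul_mem _ _ (hφ _)) (Submodule.smul_mem _ _ (hφ _))
  by_cases h0 : lin φ x p = 0
  · rw [h0]
    exact Submodule.zero_mem _
  obtain ⟨i, hi, hφi, -⟩ := id hx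
  have h1 : eval x (linForm x p) = 0 := by
    rw [eval_linForm]
    unfold sec
    ring
  have h2 := (hx.eval_eq_zero_iff hi (linForm_isHomogeneous x p)).mp h1
  rw [aeval_linForm, pow_one, Z.adicValuation_eq_exp_neg_ord h0,
    Z.adicValuation_eq_exp_neg_ord hφi, WithZero.exp_lt_exp] at h2
  rw [mem_L_of_ne_zero h0]
  intro v
  have hv := (mem_L_of_ne_zero h0).mp hL v
  have hi' := (mem_L_of_ne_zero hφi).mp (hφ i) Z
  rw [Finsupp.sub_apply, Finsupp.single_apply]
  split_ifs with hvZ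
  · subst hvZ
    omega
  · omega

/-- A finite-dimensional subspace is the span of a finite linearly independent family. -/
theorem exists_basis_family (S : Submodule K F) [Module.Finite K S] :
    ∃ (d : ℕ) (χ : Fin d → F), LinearIndependent K χ ∧ Submodule.span K (Set.range χ) = S := by
  let b := Module.finBasis K S
  refine ⟨_, fun u => (b u : F), ?_, ?_⟩
  · exact b.linearIndependent.map' S.subtype (Submodule.ker_subtype S)
  · have h := b.span_eq
    have h2 := congrArg (Submodule.map S.subtype) h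
    rw [Submodule.map_span, Submodule.map_subtype_top, ← Set.range_comp] at h2
    exact h2

end DownCurve

open DownCurve

variable {K F : Type*} [Field K] [Field F] [Algebra K F]
variable [IsAlgClosed K] [CharZero K] [Algebra.EssFiniteType K F]

/-- **The lower half of (LD) on the curve**, cone form (row S17.H.C8). -/
theorem ld_down (htr : Algebra.trdeg K F = 1) (v₀ : Place K F) :
    ∃ n₀ : ℕ, ∀ m0 : ℕ, n₀ ≤ m0 → ∀ (k : ℕ), 0 < k → ∀ {ι κ : Type} [Fintype ι] [Fintype κ]
      (τ : ι → F) (ψ : κ → F) (P : κ → MvPolynomial ι K),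
      LinearIndependent K τ →
      Submodule.span K (Set.range τ) = riemannRochSpace ((m0 : ℤ) • Finsupp.single v₀ (1 : ℤ)) →
      LinearIndependent K ψ →
      Submodule.span K (Set.range ψ) =
        riemannRochSpace (((k * m0 : ℕ) : ℤ) • Finsupp.single v₀ (1 : ℤ)) →
      (∀ j, (P j).IsHomogeneous k) → (∀ j, aeval τ (P j) = ψ j) →
      ∃ (C : ℝ) (Γ : Multiset K), 1 ≤ C ∧ ∀ (v : AbsoluteValue K ℝ) (a : κ → K)
        (Z : Fin (k * m0) → Place K F) (x : Fin (k * m0) → ι → K) (y : ι → K), a ≠ 0 →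
        divOf K (∑ j, a j • ψ j) + ((k * m0 : ℕ) : ℤ) • Finsupp.single v₀ (1 : ℤ) =
          ∑ i, Finsupp.single (Z i) (1 : ℤ) →
        (∀ i, IsPt τ (Z i) (x i)) →
        (∀ (n : ℕ) (R : MvPolynomial ι K), R.IsHomogeneous n → aeval τ R = 0 → eval y R = 0) →
        (⨆ j, v (a j)) * ∏ i, ⨆ p : ι × ι, v (x i p.1 * y p.2 - x i p.2 * y p.1) ≤
          locConst C Γ v * (v (∑ j, a j * eval y (P j)) * (∏ i, ⨆ j, v (x i j)) *
            (⨆ j, v (y j)) ^ (k * m0 - k)) := by
  classical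
  obtain ⟨n₁, hforms⟩ := exists_form_of_mem_L (K := K) (F := F) htr v₀
  refine ⟨max n₁ 1, fun m0 hm0 k hk ι κ _ _ τ ψ P _ hτ hψli hψ hP hPψ => ?_⟩
  have hm1 : 1 ≤ m0 := le_trans (le_max_right _ _) hm0
  have hmn : n₁ ≤ m0 := le_trans (le_max_left _ _) hm0
  obtain ⟨n, hn⟩ : ∃ n, k * m0 = k + n :=
    ⟨k * m0 - k, by have := Nat.le_mul_of_pos_right k hm1; omega⟩
  have hnk : k * m0 - k = n := by omega
  -- `ι` is nonempty
  have h1mem : (1 : F) ∈ riemannRochSpace ((m0 : ℤ) • Finsupp.single v₀ (1 : ℤ)) :=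
    SectionRing.one_mem_L v₀ m0
  have : Nonempty ι := by
    by_contra hne
    rw [not_nonempty_iff] at hne
    have hr : Set.range τ = ∅ := Set.range_eq_empty τ
    rw [← hτ, hr, Submodule.span_empty, Submodule.mem_bot] at h1mem
    exact one_ne_zero h1mem
  have hτmem : ∀ j, τ j ∈ riemannRochSpace ((m0 : ℤ) • Finsupp.single v₀ (1 : ℤ)) := by
    intro j
    rw [← hτ]
    exact Submodule.subset_span ⟨j, rfl⟩
  have hψmem : ∀ j, ψ j ∈ riemannRochSpace (((k * m0 : ℕ) : ℤ) • Finsupp.single v₀ (1 : ℤ)) := by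
    intro j
    rw [← hψ]
    exact Submodule.subset_span ⟨j, rfl⟩
  -- a basis `χ` of `L(n m0 v₀)` and its forms `Θ`
  have := finite_L htr (((n * m0 : ℕ) : ℤ) • Finsupp.single v₀ (1 : ℤ))
  obtain ⟨dχ, χ, hχli, hχspan⟩ := exists_basis_family
    (riemannRochSpace (((n * m0 : ℕ) : ℤ) • Finsupp.single v₀ (1 : ℤ)))
  have hχmem : ∀ u, χ u ∈ riemannRochSpace (((n * m0 : ℕ) : ℤ) • Finsupp.single v₀ (1 : ℤ)) := by
    intro u
    rw [← hχspan]
    exact Submodule.subset_span ⟨u, rfl⟩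
  have hΘex : ∀ u, ∃ Q : MvPolynomial ι K, Q.IsHomogeneous n ∧ aeval τ Q = χ u := fun u =>
    hforms m0 hmn τ hτ n (χ u) (hχmem u)
  choose Θ hΘh hΘe using hΘex
  -- a basis `ω` of `L(k m0 m0 v₀)`
  have := finite_L htr ((((k * m0) * m0 : ℕ) : ℤ) • Finsupp.single v₀ (1 : ℤ))
  obtain ⟨dω, ω, hωli, hωspan⟩ := exists_basis_family
    (riemannRochSpace ((((k * m0) * m0 : ℕ) : ℤ) • Finsupp.single v₀ (1 : ℤ)))
  -- products of sections
  have hmul : ∀ s t, ψ s * χ t ∈ Submodule.span K (Set.range ω) := by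
    intro s t
    rw [hωspan]
    have h := mul_mem_L (hψmem s) (hχmem t)
    have hdiv : ((k * m0 : ℕ) : ℤ) • Finsupp.single v₀ (1 : ℤ) +
        ((n * m0 : ℕ) : ℤ) • Finsupp.single v₀ (1 : ℤ)
        = (((k * m0) * m0 : ℕ) : ℤ) • Finsupp.single v₀ (1 : ℤ) := by
      have e : (k * m0) * m0 = k * m0 + n * m0 := by rw [← Nat.add_mul, ← hn]
      rw [← add_smul, e, Nat.cast_add]
    rwa [hdiv] at h
  obtain ⟨C₁, Γ₁, hC₁, hml⟩ := mul_lower_field ψ χ ω hψli hχli hωli hmul
  have hK1 : ∀ (v : AbsoluteValue K ℝ) (a : κ → K) (g : Fin dχ → K) (c : Fin dω → K),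
      (∑ j, a j • aeval τ (P j)) * (∑ u, g u • aeval τ (Θ u)) = ∑ d, c d • ω d →
      (⨆ j, v (a j)) * (⨆ u, v (g u)) ≤ locConst C₁ Γ₁ v * ⨆ d, v (c d) := by
    intro v a g c h
    simp only [hPψ, hΘe] at h
    exact hml v a g c h
  have hpow : ∀ b : Fin (k * m0) → ι, ∏ i, τ (b i) ∈ Submodule.span K (Set.range ω) := by
    intro b
    rw [hωspan]
    have h := DivCount.prod_mem_L (Finset.univ : Finset (Fin (k * m0)))
      (fun _ => (m0 : ℤ) • Finsupp.single v₀ (1 : ℤ)) (fun i => τ (b i))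
      (fun i _ => hτmem (b i))
    have hsum : ∑ _i : Fin (k * m0), (m0 : ℤ) • Finsupp.single v₀ (1 : ℤ)
        = (((k * m0) * m0 : ℕ) : ℤ) • Finsupp.single v₀ (1 : ℤ) := by
      rw [Finset.sum_const, Finset.card_univ, Fintype.card_fin, ← natCast_zsmul, smul_smul]
      push_cast
      rfl
    rwa [hsum] at h
  obtain ⟨C, Γ, hC, hD⟩ := exists_down τ hn P hP Θ hΘh ω hpow C₁ Γ₁ hC₁ hK1
  refine ⟨C, Γ, hC, fun v a Z x y ha hZ hx hy => ?_⟩
  -- the section is nonzero
  have hs : (∑ j, a j • ψ j) ≠ 0 := by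
    intro h0
    exact ha (funext fun j => Fintype.linearIndependent_iff.mp hψli a h0 j)
  have hfac : ∀ p : Fin (k * m0) → ι × ι, ∃ g : Fin dχ → K,
      ∏ i, lin τ (x i) (p i) = (∑ j, a j • aeval τ (P j)) * ∑ u, g u • aeval τ (Θ u) := by
    intro p
    have hG := DivCount.prod_div_mem_L_nsmul htr v₀ m0 k (∑ j, a j • ψ j) Z hZ
      (fun i => lin τ (x i) (p i)) (fun i => lin_mem_L (hx i) hτmem (p i))
    rw [hnk, ← hχspan] at hG
    obtain ⟨g, hg⟩ := (Submodule.mem_span_range_iff_exists_fun K).mp hG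
    refine ⟨g, ?_⟩
    simp only [hPψ, hΘe]
    rw [hg, mul_div_assoc', mul_div_cancel_left₀ _ hs]
  have h := hD v a x y hy hfac
  rw [hnk]
  calc (⨆ j, v (a j)) * ∏ i, ⨆ p : ι × ι, v (x i p.1 * y p.2 - x i p.2 * y p.1)
      ≤ locConst C Γ v * v (∑ j, a j * eval y (P j)) * (∏ i, ⨆ j, v (x i j)) *
          (⨆ j, v (y j)) ^ n := h
    _ = locConst C Γ v * (v (∑ j, a j * eval y (P j)) * (∏ i, ⨆ j, v (x i j)) *
          (⨆ j, v (y j)) ^ n) := by ring

end Fermat.Agent.S17.H.LD
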