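import Mathlib
import Fermat.Agent.S17.H.LD.Carrier

/-!
# Program MW (S17), strand H, block C, leaf C9: the upper half of the local lemma (LD)

Mathlib-only (over the carrier): from the identities
`s * ε'_j = ∑ f_c • (∏ i, lin (x i) (c i)) * ε_c` in the `K`-algebra `F` with bounded
coefficients `f` (the output of the bounded-solution leaf), evaluated at a cone point `y`:
`v (s(y)) * ∏ |x i| * |y| ^ n ≤ locConst * |s| * ∏ i, |sec (x i) y|`.
-/

set_option autoImplicit false

namespace Fermat.Agent.S17.H.LD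

open MvPolynomial Fermat.Agent.S17.H.Cert

variable {K F : Type*} [Field K] [CommRing F] [Algebra K F] {ι : Type*} [Fintype ι] [Nonempty ι]

namespace UpAux

omit [Fintype ι] [Nonempty ι] in
/-- `locConst 1 Γ v` is the product part of the constant. -/
theorem locConst_one_eq (Γ : Multiset K) (v : AbsoluteValue K ℝ) :
    locConst 1 Γ v = gamProd Γ v := by
  by_cases hv : IsNonarchimedean v
  · rw [locConst_of_nonarch hv]
  · rw [locConst_of_not_nonarch hv, one_mul]

omit [Fintype ι] [Nonempty ι] in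
/-- The bound for a finite sum with the constant `card + 1 ≥ 1`. -/
theorem abv_sum_le_succ {α : Type*} [Fintype α] (v : AbsoluteValue K ℝ) (f : α → K) :
    v (∑ a, f a) ≤ locConst ((Fintype.card α : ℝ) + 1) (0 : Multiset K) v * ⨆ a, v (f a) := by
  refine le_trans (abv_sum_le v f) ?_
  refine mul_le_mul_of_nonneg_right ?_ (Real.iSup_nonneg fun _ => v.nonneg _)
  exact locConst_mono (Nat.cast_nonneg _) (by linarith) le_rfl v

end UpAux

open UpAux Carrier in
/-- **(UP)**, carrier form.  `Ψ`, `E`, `E'` are forms of degrees `k`, `e`, `n + e`; the powers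
`τ a ^ (n + e)` are combinations of the sections `E'`; if for every `j` the section `s * ε'_j`
(`s = ∑ a_b ψ_b`) is a combination, with coefficients `f` of size `≤ locConst * |a| / ∏ |x i|`,
of the products `(∏ i, lin (x i) (c i)) * ε_t`, then at every cone point `y ≠ 0`
`|s(y)| * ∏ |x i| * |y| ^ n ≤ locConst * |a| * ∏ i, |sec (x i) y|`. -/
theorem exists_up {β ε η : Type*} [Fintype β] [Fintype ε] [Fintype η] (τ : ι → F)
    {k n e M : ℕ} (hM : M = k + n)
    (Ψ : β → MvPolynomial ι K) (hΨ : ∀ j, (Ψ j).IsHomogeneous k)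
    (E : ε → MvPolynomial ι K) (hE : ∀ t, (E t).IsHomogeneous e)
    (E' : η → MvPolynomial ι K) (hE' : ∀ j, (E' j).IsHomogeneous (n + e))
    (hpow : ∀ a : ι, τ a ^ (n + e) ∈ Submodule.span K (Set.range fun j => aeval τ (E' j)))
    (C₄ : ℝ) (Γ₄ : Multiset K) (hC₄ : 1 ≤ C₄) :
    ∃ (C : ℝ) (Γ : Multiset K), 1 ≤ C ∧ ∀ (v : AbsoluteValue K ℝ) (a : β → K)
      (x : Fin M → ι → K) (y : ι → K), OnCone τ y → y ≠ 0 →
      (∀ j : η, ∃ f : (Fin M → ι × ι) × ε → K,
        (∑ b, a b • aeval τ (Ψ b)) * aeval τ (E' j) =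
          ∑ c, f c • ((∏ i, lin τ (x i) (c.1 i)) * aeval τ (E c.2)) ∧
        ∀ c, v (f c) * ∏ i, ⨆ j, v (x i j) ≤ locConst C₄ Γ₄ v * ⨆ b, v (a b)) →
      v (∑ b, a b * eval y (Ψ b)) * (∏ i, ⨆ j, v (x i j)) * (⨆ j, v (y j)) ^ n ≤
        locConst C Γ v * (⨆ b, v (a b)) * ∏ i, ⨆ p : ι × ι, v (sec (x i) y p) := by
  classical
  -- the fixed coefficients of `τ a ^ (n + e)` in the family `E'`
  have hm : ∀ a : ι, ∃ m : η → K, τ a ^ (n + e) = ∑ j, m j • aeval τ (E' j) := by
    intro a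
    obtain ⟨m, hm⟩ := (Submodule.mem_span_range_iff_exists_fun K).mp (hpow a)
    exact ⟨m, hm.symm⟩
  choose m hm using hm
  let Γm : Multiset K := (Finset.univ : Finset (ι × η)).val.map fun p => m p.1 p.2
  have hΓm : ∀ (a : ι) (j : η) (v : AbsoluteValue K ℝ), v (m a j) ≤ gamProd Γm v := by
    intro a j v
    exact le_gamProd_of_mem
      (Multiset.mem_map_of_mem (fun p : ι × η => m p.1 p.2) (Finset.mem_univ (a, j))) v
  let N₁ : ℝ := (Fintype.card ((Fin M → ι × ι) × ε) : ℝ) + 1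
  let N₂ : ℝ := (Fintype.card η : ℝ) + 1
  have hN₁ : (1 : ℝ) ≤ N₁ := le_add_of_nonneg_left (Nat.cast_nonneg _)
  have hN₂ : (1 : ℝ) ≤ N₂ := le_add_of_nonneg_left (Nat.cast_nonneg _)
  have hcE : (1 : ℝ) ≤ monoCount E := one_le_monoCount E
  have hC1 : (1 : ℝ) ≤ N₁ * (monoCount E * C₄) :=
    one_le_mul_of_one_le_of_one_le hN₁ (one_le_mul_of_one_le_of_one_le hcE hC₄)
  have hC : (1 : ℝ) ≤ N₂ * (1 * (N₁ * (monoCount E * C₄))) :=
    one_le_mul_of_one_le_of_one_le hN₂ (by rw [one_mul]; exact hC1)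
  refine ⟨N₂ * (1 * (N₁ * (monoCount E * C₄))), 0 + (Γm + (0 + (famCoeffs E + Γ₄))), hC, ?_⟩
  intro v a x y hy hy0 hsol
  have hYpos : 0 < ⨆ j, v (y j) := supAbv_pos v hy0
  have hA0 : 0 ≤ ⨆ b, v (a b) := supAbv_nonneg v a
  have hX0 : 0 ≤ ∏ i, ⨆ j, v (x i j) := Finset.prod_nonneg fun i _ => supAbv_nonneg v (x i)
  have hS0 : 0 ≤ ∏ i, ⨆ p : ι × ι, v (sec (x i) y p) :=
    Finset.prod_nonneg fun i _ => supAbv_nonneg v (sec (x i) y)
  have hLE : 1 ≤ locConst (monoCount E) (famCoeffs E) v := one_le_locConst hcE _ v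
  have hL4 : 1 ≤ locConst C₄ Γ₄ v := one_le_locConst hC₄ _ v
  have hL1 : 1 ≤ locConst N₁ (0 : Multiset K) v := one_le_locConst hN₁ _ v
  have hL2 : 1 ≤ locConst N₂ (0 : Multiset K) v := one_le_locConst hN₂ _ v
  have hGm : 1 ≤ gamProd Γm v := one_le_gamProd Γm v
  -- abbreviations
  set A : ℝ := ⨆ b, v (a b) with hA
  set Xp : ℝ := ∏ i, ⨆ j, v (x i j) with hXp
  set Y : ℝ := ⨆ j, v (y j) with hY
  set S : ℝ := ∏ i, ⨆ p : ι × ι, v (sec (x i) y p) with hS
  set w : K := ∑ b, a b * eval y (Ψ b) with hw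
  set LE : ℝ := locConst (monoCount E) (famCoeffs E) v with hLEdef
  set L4 : ℝ := locConst C₄ Γ₄ v with hL4def
  set L1 : ℝ := locConst N₁ (0 : Multiset K) v with hL1def
  set L2 : ℝ := locConst N₂ (0 : Multiset K) v with hL2def
  set Gm : ℝ := gamProd Γm v with hGmdef
  have hdeg : M + e = k + (n + e) := by omega
  have hR0 : 0 ≤ LE * L4 * (A * S * Y ^ e) := by positivity
  -- step (ii): the identity at `y` and its size
  have step2 : ∀ j : η, v w * v (eval y (E' j)) * Xp ≤ L1 * (LE * L4 * (A * S * Y ^ e)) := by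
    intro j
    obtain ⟨f, hf, hfb⟩ := hsol j
    have hev : w * eval y (E' j) =
        ∑ c, f c * ((∏ i, sec (x i) y (c.1 i)) * eval y (E c.2)) := by
      have hP : (comb a Ψ * E' j).IsHomogeneous (k + (n + e)) :=
        (comb_isHomogeneous a hΨ).mul (hE' j)
      have hQ : (∑ c : (Fin M → ι × ι) × ε,
          C (f c) * ((∏ i, linForm (x i) (c.1 i)) * E c.2)).IsHomogeneous (k + (n + e)) := by
        rw [← hdeg]
        exact IsHomogeneous.sum _ _ _ fun c _ =>
          ((prod_linForm_isHomogeneous x c.1).mul (hE c.2)).C_mul (f c)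
      have hae : aeval τ (comb a Ψ * E' j) = aeval τ (∑ c : (Fin M → ι × ι) × ε,
          C (f c) * ((∏ i, linForm (x i) (c.1 i)) * E c.2)) := by
        rw [map_mul, aeval_comb, hf, map_sum]
        refine Finset.sum_congr rfl fun c _ => ?_
        rw [map_mul, map_mul, aeval_C, aeval_prod_linForm, Algebra.smul_def]
      have h := hy.eval_eq hP hQ hae
      rw [map_mul, eval_comb, map_sum] at h
      rw [hw, h]
      refine Finset.sum_congr rfl fun c _ => ?_
      rw [map_mul, map_mul, eval_C, eval_prod_linForm]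
    have hterm : ∀ c : (Fin M → ι × ι) × ε,
        v (f c * ((∏ i, sec (x i) y (c.1 i)) * eval y (E c.2))) * Xp ≤
          LE * L4 * (A * S * Y ^ e) := by
      intro c
      have h1 : v (∏ i, sec (x i) y (c.1 i)) ≤ S := by
        rw [map_prod]
        exact Finset.prod_le_prod (fun i _ => v.nonneg _)
          (fun i _ => le_supAbv v (sec (x i) y) (c.1 i))
      have h2 : v (eval y (E c.2)) ≤ LE * Y ^ e := abv_eval_le v E c.2 (hE c.2) y
      have h3 : v (f c) * Xp ≤ L4 * A := hfb c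
      have h4 : 0 ≤ v (f c) * Xp := mul_nonneg (v.nonneg _) hX0
      have h5 : 0 ≤ LE * Y ^ e := by positivity
      calc v (f c * ((∏ i, sec (x i) y (c.1 i)) * eval y (E c.2))) * Xp
          = (v (f c) * Xp) * (v (∏ i, sec (x i) y (c.1 i)) * v (eval y (E c.2))) := by
            rw [map_mul, map_mul]; ring
        _ ≤ (L4 * A) * (S * (LE * Y ^ e)) :=
            mul_le_mul h3 (mul_le_mul h1 h2 (v.nonneg _) hS0)
              (mul_nonneg (v.nonneg _) (v.nonneg _)) (le_trans h4 h3)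
        _ = LE * L4 * (A * S * Y ^ e) := by ring
    calc v w * v (eval y (E' j)) * Xp
        = v (∑ c, f c * ((∏ i, sec (x i) y (c.1 i)) * eval y (E c.2))) * Xp := by
          rw [← map_mul, hev]
      _ ≤ (L1 * ⨆ c, v (f c * ((∏ i, sec (x i) y (c.1 i)) * eval y (E c.2)))) * Xp :=
          mul_le_mul_of_nonneg_right (abv_sum_le_succ v _) hX0
      _ = L1 * ⨆ c, v (f c * ((∏ i, sec (x i) y (c.1 i)) * eval y (E c.2))) * Xp := by
          rw [mul_assoc, Real.iSup_mul_of_nonneg hX0]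
      _ ≤ L1 * (LE * L4 * (A * S * Y ^ e)) :=
          mul_le_mul_of_nonneg_left (Real.iSup_le hterm hR0) (le_trans zero_le_one hL1)
  -- step (iii): the lower bound for the values of `E'` at `y`
  obtain ⟨a₀, ha₀⟩ : ∃ a₀, v (y a₀) = ⨆ j, v (y j) :=
    exists_eq_ciSup_of_finite (f := fun j => v (y j))
  have hypow : y a₀ ^ (n + e) = ∑ j, m a₀ j * eval y (E' j) := by
    have h := hy.eval_eq (isHomogeneous_X_pow a₀ (n + e)) (comb_isHomogeneous (m a₀) hE')
      (by rw [aeval_comb, map_pow, aeval_X, hm a₀])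
    rwa [map_pow, eval_X, eval_comb] at h
  have step3 : Y ^ (n + e) ≤ L2 * ⨆ j, v (m a₀ j * eval y (E' j)) := by
    rw [hY, ← ha₀, ← map_pow, hypow]
    exact abv_sum_le_succ v _
  have hR1 : 0 ≤ Gm * (L1 * (LE * L4 * (A * S * Y ^ e))) := by positivity
  have hwX0 : 0 ≤ v w * Xp := mul_nonneg (v.nonneg _) hX0
  have hfin : v w * Xp * Y ^ n * Y ^ e ≤ L2 * (Gm * (L1 * (LE * L4))) * (A * S) * Y ^ e := by
    calc v w * Xp * Y ^ n * Y ^ e = (v w * Xp) * Y ^ (n + e) := by rw [pow_add]; ring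
      _ ≤ (v w * Xp) * (L2 * ⨆ j, v (m a₀ j * eval y (E' j))) :=
          mul_le_mul_of_nonneg_left step3 hwX0
      _ = L2 * ⨆ j, (v w * Xp) * v (m a₀ j * eval y (E' j)) := by
          rw [← Real.mul_iSup_of_nonneg hwX0]; ring
      _ ≤ L2 * (Gm * (L1 * (LE * L4 * (A * S * Y ^ e)))) := by
          refine mul_le_mul_of_nonneg_left (Real.iSup_le (fun j => ?_) hR1)
            (le_trans zero_le_one hL2)
          calc (v w * Xp) * v (m a₀ j * eval y (E' j))
              = v (m a₀ j) * (v w * v (eval y (E' j)) * Xp) := by rw [map_mul]; ring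
            _ ≤ Gm * (L1 * (LE * L4 * (A * S * Y ^ e))) :=
                mul_le_mul (hΓm a₀ j v) (step2 j)
                  (mul_nonneg (mul_nonneg (v.nonneg _) (v.nonneg _)) hX0)
                  (le_trans zero_le_one hGm)
      _ = L2 * (Gm * (L1 * (LE * L4))) * (A * S) * Y ^ e := by ring
  have hconst : L2 * (Gm * (L1 * (LE * L4))) =
      locConst (N₂ * (1 * (N₁ * (monoCount E * C₄)))) (0 + (Γm + (0 + (famCoeffs E + Γ₄)))) v := by
    rw [hGmdef, ← locConst_one_eq Γm v, hLEdef, hL4def, hL1def, hL2def, locConst_mul,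
      locConst_mul, locConst_mul, locConst_mul]
  have hYe : 0 < Y ^ e := pow_pos hYpos e
  have hgoal := le_of_mul_le_mul_right hfin hYe
  rw [hconst] at hgoal
  calc v w * Xp * Y ^ n ≤ _ := hgoal
    _ = _ := by ring

end Fermat.Agent.S17.H.LD
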