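import Mathlib
import Fermat.Agent.S17.R.LSpace
import Fermat.Agent.S17.R.LStep
import Fermat.Agent.S17.R.Riemann
import Fermat.Agent.S17.R.SectionRingCore
import Fermat.Agent.S17.H.Cert.LocConst
import Fermat.Agent.S17.H.LD.Carrier
import Fermat.Agent.S17.H.LD.Up
import Fermat.Agent.S17.H.LD.Pt
import Fermat.Agent.S17.H.LD.Forms
import Fermat.Agent.S17.H.LD.DownCurve

/-!
# Program MW (statement S17), strand H, block C: the upper half of (LD) on the curve

`UpCurve.SolStatement K F v₀ n₁` is the *solution statement* (row S17.H.C9b): above the threshold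
`n₁`, for forms `E` (degree `2`) and `E'` (degree `k m0 - k + 2`) of bases of `L(2 m0 v₀)` and
`L((k m0 - k + 2) m0 v₀)`, every product `s * E'_j` of a section `s = ∑ a_b ψ_b` of
`L(k m0 v₀)` with zeros `Z i` is a combination `∑ f_c • (∏ i, l_{c i}(x i)) * E_c` of the products
of linear sections through the zeros, with coefficients bounded by
`v (f c) * ∏ i, |x i| ≤ locConst C₄ Γ₄ v * |a|` at every absolute value.

`UpCurve.ld_up_of_sol`: the solution statement gives the upper half of (LD) on the curve in cone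
form (row S17.H.C9, same binders as `ld_down`), through the Mathlib-only `exists_up` (leaf C9).
-/

set_option autoImplicit false

namespace Fermat.Agent.S17.H.LD

open AlgebraicCurve MvPolynomial Fermat.Agent.S17.R Fermat.Agent.S17.H.Cert

namespace UpCurve

/-- The solution statement of row S17.H.C9b at the threshold `n₁`. -/
def SolStatement (K F : Type*) [Field K] [Field F] [Algebra K F] (v₀ : Place K F) (n₁ : ℕ) :
    Prop :=
  ∀ m0 : ℕ, n₁ ≤ m0 → ∀ (k : ℕ), 0 < k → ∀ {ι κ : Type} [Fintype ι] [Fintype κ]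
    (τ : ι → F) (ψ : κ → F) (P : κ → MvPolynomial ι K),
    LinearIndependent K τ →
    Submodule.span K (Set.range τ) = riemannRochSpace ((m0 : ℤ) • Finsupp.single v₀ (1 : ℤ)) →
    LinearIndependent K ψ →
    Submodule.span K (Set.range ψ) =
      riemannRochSpace (((k * m0 : ℕ) : ℤ) • Finsupp.single v₀ (1 : ℤ)) →
    (∀ j, (P j).IsHomogeneous k) → (∀ j, aeval τ (P j) = ψ j) →
    ∀ {ε η : Type} [Fintype ε] [Fintype η] (E : ε → MvPolynomial ι K)
      (E' : η → MvPolynomial ι K),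
      (∀ t, (E t).IsHomogeneous 2) →
      LinearIndependent K (fun t => aeval τ (E t)) →
      Submodule.span K (Set.range fun t => aeval τ (E t)) =
        riemannRochSpace (((2 * m0 : ℕ) : ℤ) • Finsupp.single v₀ (1 : ℤ)) →
      (∀ j, (E' j).IsHomogeneous (k * m0 - k + 2)) →
      LinearIndependent K (fun j => aeval τ (E' j)) →
      Submodule.span K (Set.range fun j => aeval τ (E' j)) =
        riemannRochSpace ((((k * m0 - k + 2) * m0 : ℕ) : ℤ) • Finsupp.single v₀ (1 : ℤ)) →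
      ∃ (C₄ : ℝ) (Γ₄ : Multiset K), 1 ≤ C₄ ∧ ∀ (v : AbsoluteValue K ℝ) (a : κ → K)
        (Z : Fin (k * m0) → Place K F) (x : Fin (k * m0) → ι → K), a ≠ 0 →
        divOf K (∑ j, a j • ψ j) + ((k * m0 : ℕ) : ℤ) • Finsupp.single v₀ (1 : ℤ) =
          ∑ i, Finsupp.single (Z i) (1 : ℤ) →
        (∀ i, IsPt τ (Z i) (x i)) →
        ∀ j : η, ∃ f : (Fin (k * m0) → ι × ι) × ε → K,
          (∑ b, a b • aeval τ (P b)) * aeval τ (E' j) =
            ∑ c, f c • ((∏ i, lin τ (x i) (c.1 i)) * aeval τ (E c.2)) ∧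
          ∀ c, v (f c) * ∏ i, ⨆ j, v (x i j) ≤ locConst C₄ Γ₄ v * ⨆ b, v (a b)

variable {K F : Type*} [Field K] [Field F] [Algebra K F]
variable [IsAlgClosed K] [CharZero K] [Algebra.EssFiniteType K F]

/-- **The upper half of (LD) on the curve**, cone form, from the solution statement. -/
theorem ld_up_of_sol (htr : Algebra.trdeg K F = 1) (v₀ : Place K F) {n₁ : ℕ}
    (hsol : SolStatement K F v₀ n₁) :
    ∃ n₀ : ℕ, ∀ m0 : ℕ, n₀ ≤ m0 → ∀ (k : ℕ), 0 < k → ∀ {ι κ : Type} [Fintype ι] [Fintype κ]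
      (τ : ι → F) (ψ : κ → F) (P : κ → MvPolynomial ι K),
      LinearIndependent K τ →
      Submodule.span K (Set.range τ) = riemannRochSpace ((m0 : ℤ) • Finsupp.single v₀ (1 : ℤ)) →
      LinearIndependent K ψ →
      Submodule.span K (Set.range ψ) =
        riemannRochSpace (((k * m0 : ℕ) : ℤ) • Finsupp.single v₀ (1 : ℤ)) →
      (∀ j, (P j).IsHomogeneous k) → (∀ j, aeval τ (P j) = ψ j) →
      ∃ (C : ℝ) (Γ : Multiset K), 1 ≤ C ∧ ∀ (v : AbsoluteValue K ℝ) (a : κ → K)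
        (Z : Fin (k * m0) → Place K F) (x : Fin (k * m0) → ι → K) (y : ι → K), a ≠ 0 →
        divOf K (∑ j, a j • ψ j) + ((k * m0 : ℕ) : ℤ) • Finsupp.single v₀ (1 : ℤ) =
          ∑ i, Finsupp.single (Z i) (1 : ℤ) →
        (∀ i, IsPt τ (Z i) (x i)) →
        (∀ (n : ℕ) (R : MvPolynomial ι K), R.IsHomogeneous n → aeval τ R = 0 → eval y R = 0) →
        v (∑ j, a j * eval y (P j)) * (∏ i, ⨆ j, v (x i j)) * (⨆ j, v (y j)) ^ (k * m0 - k) ≤
          locConst C Γ v * ((⨆ j, v (a j)) *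
            ∏ i, ⨆ p : ι × ι, v (x i p.1 * y p.2 - x i p.2 * y p.1)) := by
  classical
  obtain ⟨n₂, hforms⟩ := exists_form_of_mem_L (K := K) (F := F) htr v₀
  refine ⟨max (max n₁ n₂) 1, fun m0 hm0 k hk ι κ _ _ τ ψ P hτli hτ hψli hψ hP hPψ => ?_⟩
  have hm1 : 1 ≤ m0 := le_trans (le_max_right _ _) hm0
  have hmn1 : n₁ ≤ m0 := le_trans (le_trans (le_max_left _ _) (le_max_left _ _)) hm0
  have hmn2 : n₂ ≤ m0 := le_trans (le_trans (le_max_right _ _) (le_max_left _ _)) hm0
  have hn : k * m0 = k + (k * m0 - k) := by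
    have := Nat.le_mul_of_pos_right k hm1
    omega
  -- `ι` is nonempty
  have h1mem : (1 : F) ∈ riemannRochSpace ((m0 : ℤ) • Finsupp.single v₀ (1 : ℤ)) :=
    SectionRing.one_mem_L v₀ m0
  have : Nonempty ι := by
    by_contra hne
    rw [not_nonempty_iff] at hne
    have hr : Set.range τ = ∅ := Set.range_eq_empty τ
    rw [← hτ, hr, Submodule.span_empty, Submodule.mem_bot] at h1mem
    exact one_ne_zero h1mem
  have hτmem : ∀ j, τ j ∈ riemannRochSpace ((m0 : ℤ) • Finsupp.single v₀ (1 : ℤ)) := by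
    intro j
    rw [← hτ]
    exact Submodule.subset_span ⟨j, rfl⟩
  -- forms `E` of a basis of `L(2 m0 v₀)`
  have := finite_L htr (((2 * m0 : ℕ) : ℤ) • Finsupp.single v₀ (1 : ℤ))
  obtain ⟨dE, χE, hχEli, hχEspan⟩ := DownCurve.exists_basis_family
    (riemannRochSpace (((2 * m0 : ℕ) : ℤ) • Finsupp.single v₀ (1 : ℤ)))
  have hEex : ∀ t, ∃ Q : MvPolynomial ι K, Q.IsHomogeneous 2 ∧ aeval τ Q = χE t := fun t =>
    hforms m0 hmn2 τ hτ 2 (χE t) (by rw [← hχEspan]; exact Submodule.subset_span ⟨t, rfl⟩)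
  choose E hEh hEe using hEex
  have hEfun : (fun t => aeval τ (E t)) = χE := funext hEe
  -- forms `E'` of a basis of `L((k m0 - k + 2) m0 v₀)`
  have := finite_L htr ((((k * m0 - k + 2) * m0 : ℕ) : ℤ) • Finsupp.single v₀ (1 : ℤ))
  obtain ⟨dE', χE', hχE'li, hχE'span⟩ := DownCurve.exists_basis_family
    (riemannRochSpace ((((k * m0 - k + 2) * m0 : ℕ) : ℤ) • Finsupp.single v₀ (1 : ℤ)))
  have hE'ex : ∀ j, ∃ Q : MvPolynomial ι K, Q.IsHomogeneous (k * m0 - k + 2) ∧
      aeval τ Q = χE' j := fun j =>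
    hforms m0 hmn2 τ hτ (k * m0 - k + 2) (χE' j)
      (by rw [← hχE'span]; exact Submodule.subset_span ⟨j, rfl⟩)
  choose E' hE'h hE'e using hE'ex
  have hE'fun : (fun j => aeval τ (E' j)) = χE' := funext hE'e
  -- the solution statement
  obtain ⟨C₄, Γ₄, hC₄, hS⟩ := hsol m0 hmn1 k hk τ ψ P hτli hτ hψli hψ hP hPψ E E' hEh
    (by rw [hEfun]; exact hχEli) (by rw [hEfun]; exact hχEspan) hE'h
    (by rw [hE'fun]; exact hχE'li) (by rw [hE'fun]; exact hχE'span)
  -- powers of `τ`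
  have hpow : ∀ a : ι, τ a ^ (k * m0 - k + 2) ∈
      Submodule.span K (Set.range fun j => aeval τ (E' j)) := by
    intro a
    rw [hE'fun, hχE'span]
    have h := RiemannAux.pow_mem_L (hτmem a) (k * m0 - k + 2)
    have hsm : (k * m0 - k + 2) • ((m0 : ℤ) • Finsupp.single v₀ (1 : ℤ))
        = (((k * m0 - k + 2) * m0 : ℕ) : ℤ) • Finsupp.single v₀ (1 : ℤ) := by
      rw [← natCast_zsmul, smul_smul, Nat.cast_mul]
    rwa [hsm] at h
  obtain ⟨C, Γ, hC, hU⟩ := exists_up τ hn P hP E hEh E' hE'h hpow C₄ Γ₄ hC₄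
  refine ⟨C, Γ, hC, fun v a Z x y ha hZ hx hy => ?_⟩
  have hCpos : 0 ≤ locConst C Γ v := (locConst_pos hC Γ v).le
  have hRnn : 0 ≤ locConst C Γ v * ((⨆ j, v (a j)) *
      ∏ i, ⨆ p : ι × ι, v (x i p.1 * y p.2 - x i p.2 * y p.1)) := by
    refine mul_nonneg hCpos (mul_nonneg (Real.iSup_nonneg fun j => v.nonneg _) ?_)
    exact Finset.prod_nonneg fun i _ => Real.iSup_nonneg fun p => v.nonneg _
  by_cases hy0 : y = 0
  · -- the vertex of the cone: the value of the section is zero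
    have hval : (∑ j, a j * eval y (P j)) = 0 := by
      refine Finset.sum_eq_zero fun j _ => ?_
      have h0 : eval y (P j) = 0 := by
        rw [hy0, MvPolynomial.eval_zero, MvPolynomial.constantCoeff_eq]
        exact (hP j).coeff_eq_zero (by rw [map_zero]; exact hk.ne)
      rw [h0, mul_zero]
    rw [hval, map_zero, zero_mul, zero_mul]
    exact hRnn
  · have h := hU v a x y hy hy0 (hS v a Z x ha hZ hx)
    calc v (∑ j, a j * eval y (P j)) * (∏ i, ⨆ j, v (x i j)) * (⨆ j, v (y j)) ^ (k * m0 - k)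
        ≤ locConst C Γ v * (⨆ b, v (a b)) * ∏ i, ⨆ p : ι × ι, v (sec (x i) y p) := h
      _ = locConst C Γ v * ((⨆ j, v (a j)) *
            ∏ i, ⨆ p : ι × ι, v (x i p.1 * y p.2 - x i p.2 * y p.1)) := by
          rw [mul_assoc]
          rfl

end UpCurve

end Fermat.Agent.S17.H.LD
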