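import Fermat.Agent.S17.H.Cert.LocConst

/-!
# Program MW (statement S17), strand H, block C, leaf C4 (part CRB): Cramer bound at one
absolute value

`A` an `m × n` matrix of rank `ρ` over a field `K` with an absolute value `v`, `y` in the column
space, `e₁ e₂` a choice of `ρ` rows and `ρ` columns with non-zero minor.  Then `y = A *ᵥ f` with

  `v (f j) ≤ C * B ^ (ρ - 1) * Y / v (minor)`,

where `B` bounds the entries of `A`, `Y` bounds the entries of `y`, and `C = ρ * ρ * (ρ - 1)!`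
in general, `C = 1` when `v` is nonarchimedean.

The point that is not Cramer's rule: `A *ᵥ f = y` holds on ALL rows, not only on the selected
ones, because `rank A = ρ` makes the projection to the selected rows injective on the column
space.
-/

set_option autoImplicit false

noncomputable section

namespace Fermat.Agent.S17.H.LD.CRB

open Finset Matrix

variable {K : Type*} [Field K]

/-- `SumConst v c`: a sum of `n` terms of size `≤ b` has size `≤ c n * b`. -/
def SumConst (v : AbsoluteValue K ℝ) (c : ℕ → ℝ) : Prop :=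
  ∀ (α : Type) (s : Finset α) (f : α → K) (b : ℝ), 0 ≤ b → (∀ a ∈ s, v (f a) ≤ b) →
    v (∑ a ∈ s, f a) ≤ c s.card * b

theorem sumConst_natCast (v : AbsoluteValue K ℝ) : SumConst v fun n => (n : ℝ) := by
  intro α s f b _ h
  calc v (∑ a ∈ s, f a) ≤ ∑ a ∈ s, v (f a) := v.sum_le _ _
    _ ≤ ∑ _a ∈ s, b := Finset.sum_le_sum h
    _ = (s.card : ℝ) * b := by rw [Finset.sum_const, nsmul_eq_mul]

theorem sumConst_one_of_nonarch {v : AbsoluteValue K ℝ} (hv : IsNonarchimedean v) :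
    SumConst v fun _ => (1 : ℝ) := by
  classical
  intro α s f b hb h
  rw [one_mul]
  induction s using Finset.induction_on with
  | empty => simpa using hb
  | insert a s ha ih =>
    rw [Finset.sum_insert ha]
    refine (hv _ _).trans (max_le (h a (Finset.mem_insert_self a s)) ?_)
    exact ih fun x hx => h x (Finset.mem_insert_of_mem hx)

/-- the determinant of an `n × n` matrix with entries of size `≤ B` -/
theorem det_le {v : AbsoluteValue K ℝ} {c : ℕ → ℝ} (hc : SumConst v c) {n : ℕ}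
    (M : Matrix (Fin n) (Fin n) K) {B : ℝ} (hB0 : 0 ≤ B) (hB : ∀ i j, v (M i j) ≤ B) :
    v M.det ≤ c n.factorial * B ^ n := by
  rw [Matrix.det_apply]
  have h := hc (Equiv.Perm (Fin n)) Finset.univ
    (fun σ => Equiv.Perm.sign σ • ∏ i, M (σ i) i) (B ^ n) (pow_nonneg hB0 n) (fun σ _ => ?_)
  · simpa [Finset.card_univ, Fintype.card_perm] using h
  · have hs : v (Equiv.Perm.sign σ • ∏ i, M (σ i) i) = v (∏ i, M (σ i) i) := by
      rcases Int.units_eq_one_or (Equiv.Perm.sign σ) with h1 | h1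
      · rw [h1, one_smul]
      · rw [h1, Units.neg_smul, one_smul, map_neg_eq_map]
    rw [hs, map_prod]
    calc ∏ i, v (M (σ i) i) ≤ ∏ _i : Fin n, B :=
          Finset.prod_le_prod (fun _ _ => v.nonneg _) fun i _ => hB (σ i) i
      _ = B ^ n := by simp

/-- the entries of the adjugate of a `ρ × ρ` matrix with entries of size `≤ B` -/
theorem adjugate_le {v : AbsoluteValue K ℝ} {c : ℕ → ℝ} (hc : SumConst v c) {ρ : ℕ}
    (S : Matrix (Fin ρ) (Fin ρ) K) {B : ℝ} (hB0 : 0 ≤ B) (hB : ∀ i j, v (S i j) ≤ B)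
    (i j : Fin ρ) : v (S.adjugate i j) ≤ c (ρ - 1).factorial * B ^ (ρ - 1) := by
  cases ρ with
  | zero => exact i.elim0
  | succ r =>
    rw [Matrix.adjugate_fin_succ_eq_det_submatrix, map_mul, map_pow, map_neg_eq_map, map_one,
      one_pow, one_mul]
    exact det_le hc _ hB0 fun a b => hB _ _

section main

variable {m n : Type*} [Fintype n] [DecidableEq n]

/-- extension by zero of a vector on the selected columns -/
def ext0 {ρ : ℕ} (e₂ : Fin ρ → n) (g : Fin ρ → K) : n → K :=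
  fun j => ∑ k, if e₂ k = j then g k else 0

theorem mulVec_ext0 (A : Matrix m n K) {ρ : ℕ} (e₂ : Fin ρ → n) (g : Fin ρ → K) (i : m) :
    (A *ᵥ ext0 e₂ g) i = ∑ k, A i (e₂ k) * g k := by
  simp only [Matrix.mulVec, dotProduct, ext0, Finset.mul_sum]
  rw [Finset.sum_comm]
  refine Finset.sum_congr rfl fun k _ => ?_
  rw [Finset.sum_eq_single (e₂ k)]
  · simp
  · intro j _ hj
    rw [if_neg (Ne.symm hj), mul_zero]
  · intro h
    exact absurd (Finset.mem_univ _) h

theorem mulVec_ext0_comp (A : Matrix m n K) {ρ : ℕ} (e₁ : Fin ρ → m) (e₂ : Fin ρ → n)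
    (g : Fin ρ → K) : (A *ᵥ ext0 e₂ g) ∘ e₁ = A.submatrix e₁ e₂ *ᵥ g := by
  funext i
  rw [Function.comp_apply, mulVec_ext0]
  simp [Matrix.mulVec, dotProduct, Matrix.submatrix_apply]

/-- **Cramer bound**, general form with a sum constant. -/
theorem exists_mulVec_eq_bound (v : AbsoluteValue K ℝ) {c : ℕ → ℝ} (hc : SumConst v c)
    (hc0 : ∀ k, 0 ≤ c k) (A : Matrix m n K) {ρ : ℕ} (hrank : A.rank = ρ)
    (e₁ : Fin ρ → m) (e₂ : Fin ρ → n) (hdet : (A.submatrix e₁ e₂).det ≠ 0)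
    {B : ℝ} (hB0 : 0 ≤ B) (hB : ∀ i j, v (A i j) ≤ B)
    {y : m → K} (hy : y ∈ LinearMap.range A.mulVecLin) {Y : ℝ} (hY0 : 0 ≤ Y)
    (hY : ∀ i, v (y i) ≤ Y) :
    ∃ f : n → K, A *ᵥ f = y ∧ ∀ j, v (f j) ≤
      c ρ * (c ρ * ((v (A.submatrix e₁ e₂).det)⁻¹ * (c (ρ - 1).factorial * B ^ (ρ - 1)) * Y)) := by
  classical
  set S := A.submatrix e₁ e₂ with hS
  have hSu : IsUnit S.det := isUnit_iff_ne_zero.mpr hdet
  -- the candidate
  set g : Fin ρ → K := S⁻¹ *ᵥ (y ∘ e₁) with hg
  refine ⟨ext0 e₂ g, ?_, ?_⟩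
  · -- equality on all rows
    set W := LinearMap.range A.mulVecLin with hW
    have hWfin : Module.finrank K W = ρ := hrank
    let π : W →ₗ[K] (Fin ρ → K) := (LinearMap.funLeft K K e₁).comp W.subtype
    have hπ : ∀ w : W, π w = (w : m → K) ∘ e₁ := fun w => rfl
    have hmem : ∀ u : Fin ρ → K, A *ᵥ ext0 e₂ (S⁻¹ *ᵥ u) ∈ W :=
      fun u => ⟨ext0 e₂ (S⁻¹ *ᵥ u), rfl⟩
    have hval : ∀ u : Fin ρ → K, (A *ᵥ ext0 e₂ (S⁻¹ *ᵥ u)) ∘ e₁ = u := by
      intro u
      rw [mulVec_ext0_comp, ← hS, Matrix.mulVec_mulVec, Matrix.mul_nonsing_inv S hSu,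
        Matrix.one_mulVec]
    have hsurj : Function.Surjective π := fun u => ⟨⟨_, hmem u⟩, by rw [hπ]; exact hval u⟩
    have hinj : Function.Injective π :=
      (LinearMap.injective_iff_surjective_of_finrank_eq_finrank
        (by rw [hWfin, Module.finrank_fin_fun])).mpr hsurj
    have heq : (⟨A *ᵥ ext0 e₂ g, hmem (y ∘ e₁)⟩ : W) = ⟨y, hy⟩ := by
      apply hinj
      rw [hπ, hπ]
      exact hval (y ∘ e₁)
    exact congrArg Subtype.val heq
  · -- the bound
    intro j
    have hSB : ∀ a b, v (S a b) ≤ B := fun a b => hB _ _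
    set G : ℝ := c ρ * ((v S.det)⁻¹ * (c (ρ - 1).factorial * B ^ (ρ - 1)) * Y) with hG
    have hG0 : 0 ≤ G := by
      refine mul_nonneg (hc0 _) (mul_nonneg (mul_nonneg (inv_nonneg.mpr (v.nonneg _))
        (mul_nonneg (hc0 _) (pow_nonneg hB0 _))) hY0)
    have hgk : ∀ k, v (g k) ≤ G := by
      intro k
      have hexp : g k = ∑ i, S⁻¹ k i * y (e₁ i) := by
        simp [hg, Matrix.mulVec, dotProduct]
      rw [hexp]
      have h := hc (Fin ρ) Finset.univ (fun i => S⁻¹ k i * y (e₁ i))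
        ((v S.det)⁻¹ * (c (ρ - 1).factorial * B ^ (ρ - 1)) * Y)
        (mul_nonneg (mul_nonneg (inv_nonneg.mpr (v.nonneg _))
          (mul_nonneg (hc0 _) (pow_nonneg hB0 _))) hY0) (fun i _ => ?_)
      · simpa [Finset.card_univ, hG] using h
      · have hinv : S⁻¹ k i = (S.det)⁻¹ * S.adjugate k i := by
          rw [Matrix.inv_def, Ring.inverse_eq_inv, Matrix.smul_apply, smul_eq_mul]
        rw [hinv, map_mul, map_mul, map_inv₀]
        exact mul_le_mul (mul_le_mul_of_nonneg_left (adjugate_le hc S hB0 hSB k i)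
          (inv_nonneg.mpr (v.nonneg _))) (hY _) (v.nonneg _)
          (mul_nonneg (inv_nonneg.mpr (v.nonneg _)) (mul_nonneg (hc0 _) (pow_nonneg hB0 _)))
    have h := hc (Fin ρ) Finset.univ (fun k => if e₂ k = j then g k else 0) G hG0 (fun k _ => ?_)
    · simpa [Finset.card_univ, ext0] using h
    · split_ifs
      · exact hgk k
      · simpa using hG0

/-- **Cramer bound** (block C, leaf C4, part CRB): `C = ρ * ρ * (ρ - 1)!` at an archimedean
absolute value, `C = 1` at a nonarchimedean one, in the `locConst` shape of block B. -/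
theorem cramer_bound (v : AbsoluteValue K ℝ) (A : Matrix m n K) {ρ : ℕ} (hrank : A.rank = ρ)
    (e₁ : Fin ρ → m) (e₂ : Fin ρ → n) (hdet : (A.submatrix e₁ e₂).det ≠ 0)
    {B : ℝ} (hB0 : 0 ≤ B) (hB : ∀ i j, v (A i j) ≤ B)
    {y : m → K} (hy : y ∈ LinearMap.range A.mulVecLin) {Y : ℝ} (hY0 : 0 ≤ Y)
    (hY : ∀ i, v (y i) ≤ Y) :
    ∃ f : n → K, A *ᵥ f = y ∧ ∀ j, v (f j) ≤
      Cert.locConst (ρ * ρ * (ρ - 1).factorial) 0 v * B ^ (ρ - 1) * Y /
        v (A.submatrix e₁ e₂).det := by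
  classical
  by_cases hv : IsNonarchimedean v
  · obtain ⟨f, hf, hb⟩ := exists_mulVec_eq_bound v (sumConst_one_of_nonarch hv)
      (fun _ => zero_le_one) A hrank e₁ e₂ hdet hB0 hB hy hY0 hY
    refine ⟨f, hf, fun j => (hb j).trans (le_of_eq ?_)⟩
    simp only [Cert.locConst, Cert.gamProd_zero, if_pos hv]
    ring
  · obtain ⟨f, hf, hb⟩ := exists_mulVec_eq_bound v (sumConst_natCast v)
      (fun k => Nat.cast_nonneg k) A hrank e₁ e₂ hdet hB0 hB hy hY0 hY
    refine ⟨f, hf, fun j => (hb j).trans (le_of_eq ?_)⟩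
    simp only [Cert.locConst, Cert.gamProd_zero, if_neg hv]
    ring

end main

end Fermat.Agent.S17.H.LD.CRB
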