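import Mathlib
import Fermat.Agent.S17.H.Cert.LocConst
import Fermat.Agent.S17.H.B.Certificate
import Fermat.Agent.S17.H.LD.CramerBound

/-!
# Program MW (statement S17), strand H, block C, leaf K2 + K4: bounded solutions

`exists_bounded_solution`: let `Φ` be a matrix of polynomials over an algebraically closed field
`K` whose rank is constant `= ρ` on the zero locus `V(J)` of an ideal `J`.  Then there is a local
constant of product type such that, at every absolute value `v` of `K` and every point `x` of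
`V(J)` in the unit polydisc of `v`, every `y` in the column space of `Φ(x)` has a preimage `f`
with `v (f j) ≤ locConst C Γ v * sup_i v (y i)`.

Proof: the `ρ`-minors of `Φ` have no common zero on `V(J)`, so by the Nullstellensatz
(`B.exists_pow_eq_add_sum`) `1 = a + ∑ q_m * minor_m` with `a ∈ J`; at a point of the unit
polydisc some minor is therefore `≥ locConst⁻¹`, and Cramer's rule (`CRB.cramer_bound`) on that
minor gives the solution.
-/

set_option autoImplicit false

namespace Fermat.Agent.S17.H.LD.BoundedSol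

open MvPolynomial Matrix Fermat.Agent.S17.H.Cert

variable {K : Type*} [Field K]

/-- `locConst 1 Γ v` is the product part. -/
theorem locConst_one_eq (Γ : Multiset K) (v : AbsoluteValue K ℝ) :
    locConst 1 Γ v = gamProd Γ v := by
  by_cases hv : IsNonarchimedean v
  · rw [locConst_of_nonarch hv]
  · rw [locConst_of_not_nonarch hv, one_mul]

/-- Non-homogeneous local bound for the value of a polynomial at a point of the unit
polydisc. -/
theorem abv_eval_le_one {ι α : Type*} [Fintype α] (v : AbsoluteValue K ℝ)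
    (q : α → MvPolynomial ι K) (a : α) (x : ι → K) (hx : ∀ i, v (x i) ≤ 1) :
    v ((q a).eval x) ≤ locConst (monoCount q) (famCoeffs q) v := by
  classical
  have hterm : ∀ d ∈ (q a).support,
      v ((q a).coeff d * ∏ i ∈ d.support, x i ^ d i) ≤ gamProd (coeffMS (q a)) v := by
    intro d hd
    rw [map_mul, map_prod]
    have h1 : ∏ i ∈ d.support, v (x i ^ d i) ≤ 1 := by
      refine Finset.prod_le_one (fun i _ => v.nonneg _) fun i _ => ?_
      rw [map_pow]
      exact pow_le_one₀ (v.nonneg _) (hx i)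
    calc v ((q a).coeff d) * ∏ i ∈ d.support, v (x i ^ d i)
        ≤ v ((q a).coeff d) * 1 := mul_le_mul_of_nonneg_left h1 (v.nonneg _)
      _ = v ((q a).coeff d) := mul_one _
      _ ≤ gamProd (coeffMS (q a)) v := le_gamProd_of_mem (coeff_mem_coeffMS hd) v
  have hsum : (q a).eval x
      = ∑ d : ((q a).support : Set (ι →₀ ℕ)), (q a).coeff d.1 * ∏ i ∈ d.1.support, x i ^ d.1 i := by
    rw [MvPolynomial.eval_eq]
    exact (Finset.sum_coe_sort (q a).support
      (fun d => (q a).coeff d * ∏ i ∈ d.support, x i ^ d i)).symm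
  rw [hsum]
  refine le_trans (abv_sum_le v _) ?_
  have hsup : (⨆ d : ((q a).support : Set (ι →₀ ℕ)),
      v ((q a).coeff d.1 * ∏ i ∈ d.1.support, x i ^ d.1 i)) ≤ locConst 1 (coeffMS (q a)) v := by
    rw [locConst_one_eq]
    rcases isEmpty_or_nonempty ((q a).support : Set (ι →₀ ℕ)) with he | hne
    · rw [Real.iSup_of_isEmpty]
      exact (gamProd_pos _ v).le
    · exact ciSup_le fun d => hterm d.1 d.2
  have hcard : (Fintype.card ((q a).support : Set (ι →₀ ℕ)) : ℝ) = ((q a).support.card : ℝ) := by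
    simp
  calc locConst (Fintype.card ((q a).support : Set (ι →₀ ℕ))) (0 : Multiset K) v *
        ⨆ d : ((q a).support : Set (ι →₀ ℕ)),
          v ((q a).coeff d.1 * ∏ i ∈ d.1.support, x i ^ d.1 i)
      ≤ locConst (Fintype.card ((q a).support : Set (ι →₀ ℕ))) (0 : Multiset K) v *
          locConst 1 (coeffMS (q a)) v :=
        mul_le_mul_of_nonneg_left hsup (locConst_nonneg (Nat.cast_nonneg _) _ v)
    _ = locConst ((Fintype.card ((q a).support : Set (ι →₀ ℕ)) : ℝ) * 1)
          (0 + coeffMS (q a)) v := locConst_mul _ _ _ _ v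
    _ ≤ locConst (monoCount q) (famCoeffs q) v := by
        refine locConst_mono (by positivity) ?_ ?_ v
        · rw [mul_one, hcard]
          exact card_support_le_monoCount q a
        · rw [zero_add]
          exact coeffMS_le_famCoeffs q a

/-- A matrix of rank `ρ` over a field has a nonzero `ρ × ρ` minor: first the rows. -/
theorem exists_rows {m n : Type*} [Fintype m] [Fintype n] (A : Matrix m n K) {ρ : ℕ}
    (hρ : A.rank = ρ) :
    ∃ e₁ : Fin ρ → m, LinearIndependent K (A.submatrix e₁ id).row := by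
  obtain ⟨f, hf, -, hli⟩ := Submodule.exists_fun_fin_finrank_span_eq K (Set.range A.row)
  have h : ρ = Module.finrank K (Submodule.span K (Set.range A.row)) := by
    rw [← hρ, A.rank_eq_finrank_span_row]
  choose g hg using hf
  refine ⟨fun i => g (Fin.cast h i), ?_⟩
  have : (A.submatrix (fun i => g (Fin.cast h i)) id).row = f ∘ Fin.cast h := by
    funext i
    simp only [Function.comp_apply, ← hg]
    rfl
  rw [this]
  exact hli.comp _ (Fin.cast_injective h)

/-- A matrix of rank `ρ` over a field has a nonzero `ρ × ρ` minor. -/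
theorem exists_minor_ne_zero {m n : Type*} [Fintype m] [Fintype n] (A : Matrix m n K) {ρ : ℕ}
    (hρ : A.rank = ρ) :
    ∃ (e₁ : Fin ρ → m) (e₂ : Fin ρ → n), (A.submatrix e₁ e₂).det ≠ 0 := by
  classical
  obtain ⟨e₁, h₁⟩ := exists_rows A hρ
  have hB : (A.submatrix e₁ id)ᵀ.rank = ρ := by
    rw [rank_transpose, h₁.rank_matrix, Fintype.card_fin]
  obtain ⟨e₂, h₂⟩ := exists_rows (A.submatrix e₁ id)ᵀ hB
  refine ⟨e₁, e₂, ?_⟩
  have hU : IsUnit ((A.submatrix e₁ id)ᵀ.submatrix e₂ id) := linearIndependent_rows_iff_isUnit.mp h₂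
  have hdet : ((A.submatrix e₁ id)ᵀ.submatrix e₂ id).det ≠ 0 :=
    ((Matrix.isUnit_iff_isUnit_det _).mp hU).ne_zero
  have hT : ((A.submatrix e₁ id)ᵀ.submatrix e₂ id) = (A.submatrix e₁ e₂)ᵀ := by
    ext i j
    rfl
  rw [hT, det_transpose] at hdet
  exact hdet

/-- **Bounded solutions of a polynomial linear system of constant rank.** -/
theorem exists_bounded_solution [IsAlgClosed K] {σ r c : Type*} [Fintype σ] [Fintype r] [Fintype c]
    [DecidableEq r] [DecidableEq c] (Φ : Matrix r c (MvPolynomial σ K))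
    (J : Ideal (MvPolynomial σ K)) (ρ : ℕ)
    (hrank : ∀ x : σ → K, (∀ q ∈ J, MvPolynomial.eval x q = 0) →
      (Φ.map (MvPolynomial.eval x)).rank = ρ) :
    ∃ (C : ℝ) (Γ : Multiset K), 1 ≤ C ∧ ∀ (v : AbsoluteValue K ℝ) (x : σ → K),
      (∀ i, v (x i) ≤ 1) → (∀ q ∈ J, MvPolynomial.eval x q = 0) →
      ∀ y ∈ LinearMap.range (Φ.map (MvPolynomial.eval x)).mulVecLin,
        ∃ f : c → K, (Φ.map (MvPolynomial.eval x)).mulVec f = y ∧
          ∀ j, v (f j) ≤ locConst C Γ v * ⨆ i, v (y i) := by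
  classical
  -- the minors
  set p : (Fin ρ → r) × (Fin ρ → c) → MvPolynomial σ K :=
    fun e => (Φ.submatrix e.1 e.2).det with hp
  have hpev : ∀ (x : σ → K) (e : (Fin ρ → r) × (Fin ρ → c)),
      MvPolynomial.eval x (p e) = ((Φ.map (MvPolynomial.eval x)).submatrix e.1 e.2).det := by
    intro x e
    rw [hp]
    simp only
    rw [RingHom.map_det]
    rfl
  -- no common zero on `V(J)`
  have hmem : ∀ x : σ → K, x ∈ zeroLocus K J ↔ ∀ q ∈ J, MvPolynomial.eval x q = 0 := by
    intro x
    rw [mem_zeroLocus_iff]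
    simp [MvPolynomial.aeval_eq_eval]
  have h0 : ∀ x ∈ zeroLocus K J, (∀ j, MvPolynomial.eval x (p j) = 0) →
      MvPolynomial.eval x (1 : MvPolynomial σ K) = 0 := by
    intro x hx hz
    exfalso
    obtain ⟨e₁, e₂, hne⟩ := exists_minor_ne_zero _ (hrank x ((hmem x).mp hx))
    exact hne (by rw [← hpev x (e₁, e₂)]; exact hz (e₁, e₂))
  obtain ⟨e, a, q, haJ, hcert⟩ := Fermat.Agent.S17.H.B.exists_pow_eq_add_sum J p 1 h0
  rw [one_pow] at hcert
  have hcertx : ∀ x : σ → K, (∀ q ∈ J, MvPolynomial.eval x q = 0) →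
      ∑ j, MvPolynomial.eval x (q j) * MvPolynomial.eval x (p j) = 1 := by
    intro x hx
    have h := congrArg (MvPolynomial.eval x) hcert
    rw [map_one, map_add, hx a haJ, zero_add, map_sum] at h
    simp only [map_mul] at h
    exact h.symm
  -- the entries of `Φ` as a family
  set Φ' : r × c → MvPolynomial σ K := fun ij => Φ ij.1 ij.2 with hΦ'
  set c₀ : ℝ := (ρ : ℝ) * ρ * ((ρ - 1).factorial : ℝ) with hc₀
  set cI : ℝ := ((Fintype.card ((Fin ρ → r) × (Fin ρ → c)) : ℕ) : ℝ) with hcI
  refine ⟨1 + c₀ * monoCount Φ' ^ (ρ - 1) * (cI * monoCount q),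
    (ρ - 1) • famCoeffs Φ' + famCoeffs q, ?_, ?_⟩
  · have h1 : (0 : ℝ) ≤ c₀ * monoCount Φ' ^ (ρ - 1) * (cI * monoCount q) := by
      have := one_le_monoCount Φ'
      have := one_le_monoCount q
      positivity
    linarith
  intro v x hx1 hxJ y hy
  set A : Matrix r c K := Φ.map (MvPolynomial.eval x) with hA
  have hAv : ∀ i j, v (A i j) ≤ locConst (monoCount Φ') (famCoeffs Φ') v := by
    intro i j
    exact abv_eval_le_one v Φ' (i, j) x hx1
  have hBv1 : 1 ≤ locConst (monoCount Φ') (famCoeffs Φ') v :=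
    one_le_locConst (one_le_monoCount Φ') _ v
  have hqv : ∀ j, v (MvPolynomial.eval x (q j)) ≤ locConst (monoCount q) (famCoeffs q) v :=
    fun j => abv_eval_le_one v q j x hx1
  have hQpos : 0 < locConst (monoCount q) (famCoeffs q) v :=
    locConst_pos (one_le_monoCount q) _ v
  -- some minor is large
  have hone : (1 : ℝ) ≤ locConst cI (0 : Multiset K) v *
      (locConst (monoCount q) (famCoeffs q) v * ⨆ j, v (MvPolynomial.eval x (p j))) := by
    have h := abv_sum_le v (fun j => MvPolynomial.eval x (q j) * MvPolynomial.eval x (p j))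
    rw [hcertx x hxJ, map_one] at h
    refine le_trans h (mul_le_mul_of_nonneg_left ?_ (locConst_nonneg (Nat.cast_nonneg _) _ v))
    rcases isEmpty_or_nonempty ((Fin ρ → r) × (Fin ρ → c)) with he | hne
    · rw [Real.iSup_of_isEmpty, Real.iSup_of_isEmpty, mul_zero]
    · refine ciSup_le fun j => ?_
      rw [map_mul]
      refine mul_le_mul (hqv j) (Finite.le_ciSup (fun j => v (MvPolynomial.eval x (p j))) j)
        (v.nonneg _) hQpos.le
  have hIpos : 0 ≤ locConst cI (0 : Multiset K) v := locConst_nonneg (Nat.cast_nonneg _) _ v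
  obtain ⟨e₀, he₀⟩ : ∃ e₀ : (Fin ρ → r) × (Fin ρ → c),
      (1 : ℝ) ≤ locConst cI (0 : Multiset K) v *
        (locConst (monoCount q) (famCoeffs q) v * v (MvPolynomial.eval x (p e₀))) := by
    rcases isEmpty_or_nonempty ((Fin ρ → r) × (Fin ρ → c)) with he | hne
    · exfalso
      rw [Real.iSup_of_isEmpty, mul_zero, mul_zero] at hone
      linarith
    · obtain ⟨e₀, he₀⟩ := exists_eq_ciSup_of_finite (f := fun j => v (MvPolynomial.eval x (p j)))
      exact ⟨e₀, by rw [he₀]; exact hone⟩
  have hdetpos : 0 < v (MvPolynomial.eval x (p e₀)) := by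
    by_contra hcon
    have h0' : v (MvPolynomial.eval x (p e₀)) = 0 := le_antisymm (not_lt.mp hcon) (v.nonneg _)
    rw [h0', mul_zero, mul_zero] at he₀
    linarith
  have hdet : (A.submatrix e₀.1 e₀.2).det ≠ 0 := by
    rw [← hpev x e₀]
    intro h
    rw [h, map_zero] at hdetpos
    exact lt_irrefl _ hdetpos
  have hY0 : 0 ≤ ⨆ i, v (y i) := Real.iSup_nonneg fun i => v.nonneg _
  obtain ⟨f, hf, hfb⟩ := CRB.cramer_bound v A (hrank x hxJ) e₀.1 e₀.2 hdet
    (le_trans zero_le_one hBv1) hAv hy hY0 (fun i => Finite.le_ciSup (fun i => v (y i)) i)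
  refine ⟨f, hf, fun j => le_trans (hfb j) ?_⟩
  rw [← hpev x e₀]
  set D := v (MvPolynomial.eval x (p e₀)) with hD
  set Bv := locConst (monoCount Φ') (famCoeffs Φ') v with hBv
  set Qv := locConst (monoCount q) (famCoeffs q) v with hQv
  set Iv := locConst cI (0 : Multiset K) v with hIv
  set Cv := locConst c₀ (0 : Multiset K) v with hCv
  have hc₀0 : (0 : ℝ) ≤ c₀ := by rw [hc₀]; positivity
  have hCv0 : 0 ≤ Cv := locConst_nonneg hc₀0 _ v
  -- `1 / D ≤ Iv * Qv`
  have hstep : Cv * Bv ^ (ρ - 1) * (⨆ i, v (y i)) / D ≤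
      Cv * Bv ^ (ρ - 1) * (Iv * Qv) * ⨆ i, v (y i) := by
    rw [div_le_iff₀ hdetpos]
    have hnn : 0 ≤ Cv * Bv ^ (ρ - 1) * ⨆ i, v (y i) :=
      mul_nonneg (mul_nonneg hCv0 (pow_nonneg (le_trans zero_le_one hBv1) _)) hY0
    calc Cv * Bv ^ (ρ - 1) * (⨆ i, v (y i)) = Cv * Bv ^ (ρ - 1) * (⨆ i, v (y i)) * 1 := by ring
      _ ≤ Cv * Bv ^ (ρ - 1) * (⨆ i, v (y i)) * (Iv * (Qv * D)) :=
          mul_le_mul_of_nonneg_left he₀ hnn
      _ = Cv * Bv ^ (ρ - 1) * (Iv * Qv) * (⨆ i, v (y i)) * D := by ring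
  refine le_trans hstep (mul_le_mul_of_nonneg_right ?_ hY0)
  -- assemble the constant
  have hprod : Cv * Bv ^ (ρ - 1) * (Iv * Qv)
      = locConst (c₀ * monoCount Φ' ^ (ρ - 1) * (cI * monoCount q))
          ((ρ - 1) • famCoeffs Φ' + famCoeffs q) v := by
    rw [hCv, hBv, hIv, hQv, locConst_pow, locConst_mul, locConst_mul, locConst_mul]
    congr 1
    simp
  rw [hprod]
  refine locConst_mono ?_ (by linarith) le_rfl v
  have := one_le_monoCount Φ'
  have := one_le_monoCount q
  positivity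

end Fermat.Agent.S17.H.LD.BoundedSol
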