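import Mathlib
import Fermat.Agent.S17.H.LD.Down
import Fermat.Agent.S17.H.LD.Up
import Fermat.Agent.S17.H.LD.BoundedSol

/-!
# Program MW (S17), strand H, block C, leaf C9b (abstract core): bounded solutions for (UP)

Mathlib-only over the carrier.  `τ : ι → F` a family of a commutative `K`-algebra `F`
(`K` algebraically closed), `εf : ε → F`, `χ : r → F` a linearly independent family whose span
contains all products `(∏ i, τ (b i)) * εf t` (`b : Fin M → ι`).  Assume **constant rank**: for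
every tuple `x : Fin M → ι → K` of nonzero cone points the span of the sections
`(∏ i, lin τ (x i) (c.1 i)) * εf c.2` has dimension `ρ`.  Then every element of that span with
coordinates of size `≤ |a|` in `χ` is a combination of these sections with coefficients of size
`≤ locConst * |a| / ∏ i, |x i|`: the solution hypothesis of `exists_up`.

Proof: the matrix of the sections in the basis `χ` is a matrix of polynomials in the coordinates
of `x`; on each chart `x i (c i) = 1` of the multi-cone its rank is `ρ`, so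
`BoundedSol.exists_bounded_solution` applies at the normalised point `x i / x i (c i)`,
`c i` the largest coordinate; multilinearity un-normalises.
-/

set_option autoImplicit false

namespace Fermat.Agent.S17.H.LD

open MvPolynomial Fermat.Agent.S17.H.Cert

variable {K F : Type*} [Field K] [CommRing F] [Algebra K F] {ι : Type*}

namespace UpSol

/-- Scaling the point of evaluation of a homogeneous polynomial. -/
theorem eval_mul_of_isHomogeneous {n : ℕ} {P : MvPolynomial ι K} (hP : P.IsHomogeneous n)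
    (t : K) (x : ι → K) : eval (fun j => t * x j) P = t ^ n * eval x P := by
  rw [eval_eq, eval_eq, Finset.mul_sum]
  refine Finset.sum_congr rfl fun d hd => ?_
  have hdeg : n = ∑ j ∈ d.support, d j := hP.degree_eq_sum_deg_support hd
  have h1 : ∏ j ∈ d.support, (t * x j) ^ d j = t ^ n * ∏ j ∈ d.support, x j ^ d j := by
    rw [hdeg, ← Finset.prod_pow_eq_pow_sum, ← Finset.prod_mul_distrib]
    exact Finset.prod_congr rfl fun j _ => mul_pow _ _ _
  rw [h1]
  ring

/-- The cone is stable under scaling. -/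
theorem onCone_smul {τ : ι → F} {x : ι → K} (hx : OnCone τ x) (t : K) :
    OnCone τ (fun j => t * x j) := by
  intro n P hP h0
  rw [eval_mul_of_isHomogeneous hP, hx n P hP h0, mul_zero]

theorem lin_smul (τ : ι → F) (t : K) (x : ι → K) (p : ι × ι) :
    lin τ (fun j => t * x j) p = t • lin τ x p := by
  simp only [lin, mul_smul, smul_sub]

/-- Multilinearity of the product of linear sections. -/
theorem prod_lin_smul {M : ℕ} (τ : ι → F) (t : Fin M → K) (x : Fin M → ι → K)
    (p : Fin M → ι × ι) :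
    ∏ i, lin τ (fun j => t i * x i j) (p i) = (∏ i, t i) • ∏ i, lin τ (x i) (p i) := by
  simp_rw [lin_smul]
  exact Finset.prod_smul _ _ _

/-- The polynomial coefficient of `lin`: `X (i, q.1)` or `-X (i, q.2)`. -/
noncomputable def linCoefP {M : ℕ} (i : Fin M) (q : ι × ι) (b : Bool) :
    MvPolynomial (Fin M × ι) K :=
  if b then X (i, q.1) else -X (i, q.2)

theorem eval_linCoefP {M : ℕ} (x : Fin M → ι → K) (i : Fin M) (q : ι × ι) (b : Bool) :
    eval (fun p : Fin M × ι => x p.1 p.2) (linCoefP i q b) = DownAux.linCoef (x i) q b := by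
  cases b <;> simp [linCoefP, DownAux.linCoef]

/-- The matrix of the sections `(∏ i, lin τ (x i) (c.1 i)) * εf c.2` in the family `χ`
(coordinates `m` of the monomials), as polynomials in the coordinates of `x`. -/
noncomputable def PhiP {M : ℕ} {ε r : Type*} (m : (Fin M → ι) → ε → r → K) :
    Matrix r ((Fin M → ι × ι) × ε) (MvPolynomial (Fin M × ι) K) :=
  fun u c => ∑ s : Fin M → Bool,
    (∏ i, linCoefP i (c.1 i) (s i)) * C (m (fun i => DownAux.linIdx (c.1 i) (s i)) c.2 u)

/-- The same matrix at a point. -/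
def PhiK {M : ℕ} {ε r : Type*} (m : (Fin M → ι) → ε → r → K) (x : Fin M → ι → K) :
    Matrix r ((Fin M → ι × ι) × ε) K :=
  fun u c => ∑ s : Fin M → Bool,
    (∏ i, DownAux.linCoef (x i) (c.1 i) (s i)) *
      m (fun i => DownAux.linIdx (c.1 i) (s i)) c.2 u

theorem map_eval_PhiP {M : ℕ} {ε r : Type*} (m : (Fin M → ι) → ε → r → K)
    (x : Fin M → ι → K) :
    (PhiP m).map (eval (fun p : Fin M × ι => x p.1 p.2)) = PhiK m x := by
  ext u c
  simp only [Matrix.map_apply, PhiP, PhiK, map_sum, map_mul, map_prod, eval_linCoefP, eval_C]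

/-- The sections in the coordinates `χ`. -/
theorem prod_lin_mul_eq {M : ℕ} {ε r : Type*} [Fintype r] (τ : ι → F) (εf : ε → F)
    (χ : r → F) (m : (Fin M → ι) → ε → r → K)
    (hm : ∀ b t, (∏ i, τ (b i)) * εf t = ∑ u, m b t u • χ u)
    (x : Fin M → ι → K) (c : (Fin M → ι × ι) × ε) :
    (∏ i, lin τ (x i) (c.1 i)) * εf c.2 = ∑ u, PhiK m x u c • χ u := by
  rw [DownAux.prod_lin_eq, Finset.sum_mul]
  simp_rw [smul_mul_assoc, hm, Finset.smul_sum, smul_smul, PhiK, Finset.sum_smul]
  rw [Finset.sum_comm]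

section LinAlg

variable {r c : Type*} [Fintype r] [Fintype c]

/-- A combination of a family `g` whose coordinates in `χ` are the columns of `A`. -/
theorem sum_smul_eq_mulVec (A : Matrix r c K) (χ : r → F) (g : c → F)
    (hg : ∀ j, g j = ∑ u, A u j • χ u) (f : c → K) :
    ∑ j, f j • g j = ∑ u, (A.mulVec f) u • χ u := by
  simp_rw [hg, Finset.smul_sum, smul_smul, Matrix.mulVec, dotProduct, Finset.sum_smul]
  rw [Finset.sum_comm]
  refine Finset.sum_congr rfl fun u _ => Finset.sum_congr rfl fun j _ => ?_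
  rw [mul_comm]

/-- The rank of the coordinate matrix is the dimension of the span. -/
theorem rank_eq_finrank_span (A : Matrix r c K) (χ : r → F) (hχ : LinearIndependent K χ)
    (g : c → F) (hg : ∀ j, g j = ∑ u, A u j • χ u) :
    A.rank = Module.finrank K ↥(Submodule.span K (Set.range g)) := by
  have hinj := hχ.fintypeLinearCombination_injective
  have hcomp : Fintype.linearCombination K g =
      (Fintype.linearCombination K χ).comp A.mulVecLin := by
    apply LinearMap.ext
    intro f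
    rw [LinearMap.comp_apply, Fintype.linearCombination_apply, Fintype.linearCombination_apply,
      Matrix.mulVecLin_apply]
    exact sum_smul_eq_mulVec A χ g hg f
  rw [← Fintype.range_linearCombination, hcomp, LinearMap.range_comp]
  unfold Matrix.rank
  exact (Submodule.equivMapOfInjective _ hinj _).finrank_eq

/-- Coordinates of an element of the span lie in the range of the coordinate matrix. -/
theorem mem_range_of_mem_span (A : Matrix r c K) (χ : r → F) (hχ : LinearIndependent K χ)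
    (g : c → F) (hg : ∀ j, g j = ∑ u, A u j • χ u) (cy : r → K)
    (h : ∑ u, cy u • χ u ∈ Submodule.span K (Set.range g)) :
    cy ∈ LinearMap.range A.mulVecLin := by
  obtain ⟨f₀, hf₀⟩ := (Submodule.mem_span_range_iff_exists_fun K).mp h
  rw [sum_smul_eq_mulVec A χ g hg f₀] at hf₀
  have hinj := hχ.fintypeLinearCombination_injective
  have h2 : A.mulVec f₀ = cy := hinj (by
    rw [Fintype.linearCombination_apply, Fintype.linearCombination_apply]
    exact hf₀)
  exact ⟨f₀, by rw [Matrix.mulVecLin_apply]; exact h2⟩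

end LinAlg

/-- The ideal of the chart `x i (c i) = 1` of the multi-cone of `τ`. -/
noncomputable def chartIdeal (τ : ι → F) (M : ℕ) (c : Fin M → ι) :
    Ideal (MvPolynomial (Fin M × ι) K) :=
  Ideal.span ({q | ∃ (i : Fin M) (n : ℕ) (R : MvPolynomial ι K), R.IsHomogeneous n ∧
      aeval τ R = 0 ∧ q = rename (Prod.mk i) R} ∪ {q | ∃ i : Fin M, q = X (i, c i) - 1})

theorem eval_eq_zero_of_mem_chartIdeal {M : ℕ} (τ : ι → F) (c : Fin M → ι)
    (x : Fin M → ι → K) (hx : ∀ i, OnCone τ (x i)) (hc : ∀ i, x i (c i) = 1)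
    {q : MvPolynomial (Fin M × ι) K} (hq : q ∈ chartIdeal τ M c) :
    eval (fun p : Fin M × ι => x p.1 p.2) q = 0 := by
  have hle : chartIdeal τ M c ≤ RingHom.ker (eval (fun p : Fin M × ι => x p.1 p.2)) := by
    unfold chartIdeal
    rw [Ideal.span_le]
    rintro q (⟨i, n, R, hR, h0, rfl⟩ | ⟨i, rfl⟩)
    · rw [SetLike.mem_coe, RingHom.mem_ker, eval_rename]
      exact hx i n R hR h0
    · rw [SetLike.mem_coe, RingHom.mem_ker, map_sub, eval_X, map_one, hc i, sub_self]
  exact RingHom.mem_ker.mp (hle hq)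

theorem onCone_of_forall_mem_chartIdeal {M : ℕ} (τ : ι → F) (c : Fin M → ι)
    (xh : Fin M × ι → K) (h : ∀ q ∈ chartIdeal τ M c, eval xh q = 0) (i : Fin M) :
    OnCone τ (fun j => xh (i, j)) ∧ xh (i, c i) = 1 := by
  constructor
  · intro n R hR h0
    have h1 := h (rename (Prod.mk i) R) (Ideal.subset_span (Or.inl ⟨i, n, R, hR, h0, rfl⟩))
    rw [eval_rename] at h1
    exact h1
  · have h1 := h (X (i, c i) - 1) (Ideal.subset_span (Or.inr ⟨i, rfl⟩))
    rw [map_sub, eval_X, map_one] at h1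
    exact sub_eq_zero.mp h1

end UpSol

variable [Fintype ι] [Nonempty ι]

open UpSol Carrier in
/-- **(UP), the bounded solution** (abstract core of leaf C9b). -/
theorem exists_up_sol [IsAlgClosed K] {β ε η r : Type*} [Fintype β] [Fintype ε] [Fintype η]
    [Fintype r] (τ : ι → F) (M : ℕ) (ψ : β → F) (εf : ε → F) (ε' : η → F) (χ : r → F)
    (hχ : LinearIndependent K χ)
    (hmon : ∀ (b : Fin M → ι) (t : ε), (∏ i, τ (b i)) * εf t ∈ Submodule.span K (Set.range χ))
    (hprod : ∀ (b : β) (j : η), ψ b * ε' j ∈ Submodule.span K (Set.range χ))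
    (ρ : ℕ)
    (hrank : ∀ x : Fin M → ι → K, (∀ i, OnCone τ (x i)) → (∀ i, x i ≠ 0) →
      Module.finrank K ↥(Submodule.span K (Set.range fun c : (Fin M → ι × ι) × ε =>
        (∏ i, lin τ (x i) (c.1 i)) * εf c.2)) = ρ) :
    ∃ (C₄ : ℝ) (Γ₄ : Multiset K), 1 ≤ C₄ ∧ ∀ (v : AbsoluteValue K ℝ) (a : β → K)
      (x : Fin M → ι → K), (∀ i, OnCone τ (x i)) → (∀ i, x i ≠ 0) →
      ∀ j : η, (∑ b, a b • ψ b) * ε' j ∈ Submodule.span K
          (Set.range fun c : (Fin M → ι × ι) × ε => (∏ i, lin τ (x i) (c.1 i)) * εf c.2) →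
        ∃ f : (Fin M → ι × ι) × ε → K,
          (∑ b, a b • ψ b) * ε' j = ∑ c, f c • ((∏ i, lin τ (x i) (c.1 i)) * εf c.2) ∧
          ∀ c, v (f c) * ∏ i, ⨆ j, v (x i j) ≤ locConst C₄ Γ₄ v * ⨆ b, v (a b) := by
  classical
  -- coordinates of the monomials and of the products `ψ b * ε' j` in `χ`
  have hm : ∀ (b : Fin M → ι) (t : ε), ∃ m : r → K,
      (∏ i, τ (b i)) * εf t = ∑ u, m u • χ u := by
    intro b t
    obtain ⟨m, hm⟩ := (Submodule.mem_span_range_iff_exists_fun K).mp (hmon b t)
    exact ⟨m, hm.symm⟩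
  choose m hm using hm
  have hn : ∀ (b : β) (j : η), ∃ n : r → K, ψ b * ε' j = ∑ u, n u • χ u := by
    intro b j
    obtain ⟨n, hn⟩ := (Submodule.mem_span_range_iff_exists_fun K).mp (hprod b j)
    exact ⟨n, hn.symm⟩
  choose nn hnn using hn
  obtain ⟨Γn, hΓndef⟩ : ∃ Γn : Multiset K, Γn =
      (Finset.univ : Finset (β × η × r)).val.map fun p => nn p.1 p.2.1 p.2.2 := ⟨_, rfl⟩
  have hΓn : ∀ (b : β) (j : η) (u : r) (v : AbsoluteValue K ℝ), v (nn b j u) ≤ gamProd Γn v := by
    intro b j u v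
    rw [hΓndef]
    exact le_gamProd_of_mem (Multiset.mem_map_of_mem (fun p : β × η × r => nn p.1 p.2.1 p.2.2)
      (Finset.mem_univ_val (b, j, u))) v
  -- constant rank on each chart
  have hrankc : ∀ (c : Fin M → ι) (xh : Fin M × ι → K),
      (∀ q ∈ chartIdeal τ M c, eval xh q = 0) → ((PhiP m).map (eval xh)).rank = ρ := by
    intro c xh hxh
    have hx : ∀ i, OnCone τ (fun j => xh (i, j)) := fun i =>
      (onCone_of_forall_mem_chartIdeal τ c xh hxh i).1
    have hx1 : ∀ i, xh (i, c i) = 1 := fun i =>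
      (onCone_of_forall_mem_chartIdeal τ c xh hxh i).2
    have hx0 : ∀ i, (fun j => xh (i, j)) ≠ 0 := by
      intro i h0
      have h1 : xh (i, c i) = 0 := congrFun h0 (c i)
      rw [hx1 i] at h1
      exact one_ne_zero h1
    have e : (PhiP m).map (eval xh) = PhiK m (fun i j => xh (i, j)) :=
      map_eval_PhiP m (fun i j => xh (i, j))
    rw [e, rank_eq_finrank_span _ χ hχ _ (prod_lin_mul_eq τ εf χ m hm _)]
    exact hrank _ hx hx0
  have hbs := fun c : Fin M → ι =>
    BoundedSol.exists_bounded_solution (PhiP m) (chartIdeal τ M c) ρ (hrankc c)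
  choose Cc Γc hCc hbs using hbs
  obtain ⟨Ctot, hCtot⟩ : ∃ Ctot : ℝ, Ctot = ∑ c : Fin M → ι, Cc c := ⟨_, rfl⟩
  obtain ⟨Γtot, hΓtot⟩ : ∃ Γtot : Multiset K, Γtot = ∑ c : Fin M → ι, Γc c := ⟨_, rfl⟩
  have hCle : ∀ c, Cc c ≤ Ctot := by
    intro c
    rw [hCtot]
    exact Finset.single_le_sum (f := Cc) (fun c _ => zero_le_one.trans (hCc c))
      (Finset.mem_univ c)
  have hΓle : ∀ c, Γc c ≤ Γtot := by
    intro c
    rw [hΓtot]
    exact Finset.single_le_sum (f := Γc) (fun _ _ => Multiset.zero_le _) (Finset.mem_univ c)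
  have hCtot1 : 1 ≤ Ctot := (hCc (fun _ => Classical.arbitrary ι)).trans (hCle _)
  have hβ1 : (1 : ℝ) ≤ (Fintype.card β : ℝ) + 1 := le_add_of_nonneg_left (Nat.cast_nonneg _)
  refine ⟨Ctot * ((Fintype.card β : ℝ) + 1), Γtot + Γn,
    one_le_mul_of_one_le_of_one_le hCtot1 hβ1, ?_⟩
  intro v a x hx hx0 j hmem
  -- the chart: the largest coordinate of each `x i`
  have hc : ∀ i, ∃ ci : ι, v (x i ci) = ⨆ j, v (x i j) := fun i =>
    exists_eq_ciSup_of_finite (f := fun j => v (x i j))
  choose c hc using hc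
  have hNpos : ∀ i, 0 < ⨆ j, v (x i j) := fun i => supAbv_pos v (hx0 i)
  have hxc : ∀ i, x i (c i) ≠ 0 := by
    intro i h0
    have h1 := hNpos i
    rw [← hc i, h0, map_zero] at h1
    exact lt_irrefl _ h1
  -- the normalised point
  obtain ⟨xt, hxt⟩ : ∃ xt : Fin M → ι → K, ∀ i j, xt i j = (x i (c i))⁻¹ * x i j :=
    ⟨_, fun _ _ => rfl⟩
  have hxtfun : ∀ i, xt i = fun j => (x i (c i))⁻¹ * x i j := fun i => funext (hxt i)
  have hxt_cone : ∀ i, OnCone τ (xt i) := fun i => by
    rw [hxtfun i]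
    exact onCone_smul (hx i) _
  have hxt_c : ∀ i, xt i (c i) = 1 := fun i => by
    rw [hxt]
    exact inv_mul_cancel₀ (hxc i)
  have hxt_le : ∀ p : Fin M × ι, v (xt p.1 p.2) ≤ 1 := by
    intro p
    rw [hxt, map_mul, map_inv₀, hc p.1, ← div_eq_inv_mul, div_le_one (hNpos p.1)]
    exact le_supAbv v (x p.1) p.2
  have hzero : ∀ q ∈ chartIdeal τ M c, eval (fun p : Fin M × ι => xt p.1 p.2) q = 0 :=
    fun q hq => eval_eq_zero_of_mem_chartIdeal τ c xt hxt_cone hxt_c hq
  -- the coordinate matrix at the normalised point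
  obtain ⟨A, hA⟩ : ∃ A : Matrix r ((Fin M → ι × ι) × ε) K, A = PhiK m xt := ⟨_, rfl⟩
  have hAg : ∀ c' : (Fin M → ι × ι) × ε,
      (∏ i, lin τ (xt i) (c'.1 i)) * εf c'.2 = ∑ u, A u c' • χ u := by
    intro c'
    rw [hA]
    exact prod_lin_mul_eq τ εf χ m hm xt c'
  -- multilinearity
  obtain ⟨lam, hlam⟩ : ∃ lam : K, lam = ∏ i, (x i (c i))⁻¹ := ⟨_, rfl⟩
  have hlam0 : lam ≠ 0 := by
    rw [hlam]
    exact Finset.prod_ne_zero_iff.mpr fun i _ => inv_ne_zero (hxc i)
  have hscale : ∀ c' : (Fin M → ι × ι) × ε, (∏ i, lin τ (xt i) (c'.1 i)) * εf c'.2 =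
      lam • ((∏ i, lin τ (x i) (c'.1 i)) * εf c'.2) := by
    intro c'
    have h1 : ∏ i, lin τ (xt i) (c'.1 i) = lam • ∏ i, lin τ (x i) (c'.1 i) := by
      rw [hlam, ← prod_lin_smul τ (fun i => (x i (c i))⁻¹) x c'.1]
      exact Finset.prod_congr rfl fun i _ => by rw [hxtfun i]
    rw [h1, smul_mul_assoc]
  -- coordinates of the target
  obtain ⟨cy, hcy⟩ : ∃ cy : r → K, ∀ u, cy u = ∑ b, a b * nn b j u := ⟨_, fun _ => rfl⟩
  have hy : (∑ b, a b • ψ b) * ε' j = ∑ u, cy u • χ u := by
    rw [Finset.sum_mul]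
    simp_rw [smul_mul_assoc, hnn, Finset.smul_sum, smul_smul, hcy, Finset.sum_smul]
    rw [Finset.sum_comm]
  -- the target lies in the span of the normalised sections
  have hmem' : ∑ u, cy u • χ u ∈ Submodule.span K
      (Set.range fun c' : (Fin M → ι × ι) × ε => (∏ i, lin τ (xt i) (c'.1 i)) * εf c'.2) := by
    rw [← hy]
    have hsub : Submodule.span K
        (Set.range fun c' : (Fin M → ι × ι) × ε => (∏ i, lin τ (x i) (c'.1 i)) * εf c'.2) ≤
        Submodule.span K (Set.range fun c' : (Fin M → ι × ι) × ε =>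
          (∏ i, lin τ (xt i) (c'.1 i)) * εf c'.2) := by
      rw [Submodule.span_le]
      rintro _ ⟨c', rfl⟩
      have h1 : (∏ i, lin τ (xt i) (c'.1 i)) * εf c'.2 ∈ Submodule.span K
          (Set.range fun c' : (Fin M → ι × ι) × ε =>
            (∏ i, lin τ (xt i) (c'.1 i)) * εf c'.2) := Submodule.subset_span ⟨c', rfl⟩
      have h2 := Submodule.smul_mem _ lam⁻¹ h1
      rw [hscale c', smul_smul, inv_mul_cancel₀ hlam0, one_smul] at h2
      exact h2
    exact hsub hmem
  have hrange : cy ∈ LinearMap.range A.mulVecLin :=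
    mem_range_of_mem_span A χ hχ _ hAg cy hmem'
  -- the bounded solution on the chart
  have hAeq : (PhiP m).map (eval (fun p : Fin M × ι => xt p.1 p.2)) = A := by
    rw [hA]
    exact map_eval_PhiP m xt
  obtain ⟨ft, hft, hftb⟩ := hbs c v (fun p : Fin M × ι => xt p.1 p.2) hxt_le hzero cy
    (by rw [hAeq]; exact hrange)
  rw [hAeq] at hft
  refine ⟨fun c' => ft c' * lam, ?_, ?_⟩
  · rw [hy, ← hft, ← sum_smul_eq_mulVec A χ _ hAg ft]
    refine Finset.sum_congr rfl fun c' _ => ?_
    rw [hscale c', smul_smul]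
  · intro c'
    have hlamv : v lam * ∏ i, ⨆ j, v (x i j) = 1 := by
      rw [hlam, map_prod, ← Finset.prod_mul_distrib]
      refine Finset.prod_eq_one fun i _ => ?_
      rw [map_inv₀, hc i]
      exact inv_mul_cancel₀ (hNpos i).ne'
    have hA0 : 0 ≤ ⨆ b, v (a b) := supAbv_nonneg v a
    have hLβ0 : 0 ≤ locConst ((Fintype.card β : ℝ) + 1) (0 : Multiset K) v :=
      locConst_nonneg (zero_le_one.trans hβ1) _ v
    have hcyb : (⨆ u, v (cy u)) ≤ locConst ((Fintype.card β : ℝ) + 1) Γn v * ⨆ b, v (a b) := by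
      refine Real.iSup_le (fun u => ?_)
        (mul_nonneg (locConst_nonneg (zero_le_one.trans hβ1) _ v) hA0)
      calc v (cy u)
          ≤ locConst ((Fintype.card β : ℝ) + 1) (0 : Multiset K) v *
              ⨆ b, v (a b * nn b j u) := by
            rw [hcy]
            exact UpAux.abv_sum_le_succ v _
        _ ≤ locConst ((Fintype.card β : ℝ) + 1) (0 : Multiset K) v *
              ((⨆ b, v (a b)) * gamProd Γn v) := by
            refine mul_le_mul_of_nonneg_left (Real.iSup_le (fun b => ?_)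
              (mul_nonneg hA0 (gamProd_pos Γn v).le)) hLβ0
            rw [map_mul]
            exact mul_le_mul (le_supAbv v a b) (hΓn b j u v) (v.nonneg _) hA0
        _ = locConst ((Fintype.card β : ℝ) + 1) Γn v * ⨆ b, v (a b) := by
            rw [← DownAux.locConst_zero_mul_gamProd _ Γn v]
            ring
    calc v (ft c' * lam) * ∏ i, ⨆ j, v (x i j)
        = v (ft c') * (v lam * ∏ i, ⨆ j, v (x i j)) := by rw [map_mul]; ring
      _ = v (ft c') := by rw [hlamv, mul_one]
      _ ≤ locConst (Cc c) (Γc c) v * ⨆ u, v (cy u) := hftb c'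
      _ ≤ locConst Ctot Γtot v *
            (locConst ((Fintype.card β : ℝ) + 1) Γn v * ⨆ b, v (a b)) :=
          mul_le_mul (locConst_mono (zero_le_one.trans (hCc c)) (hCle c) (hΓle c) v) hcyb
            (Real.iSup_nonneg fun _ => v.nonneg _)
            (locConst_nonneg (zero_le_one.trans hCtot1) _ v)
      _ = locConst (Ctot * ((Fintype.card β : ℝ) + 1)) (Γtot + Γn) v * ⨆ b, v (a b) := by
          rw [← locConst_mul]
          ring

end Fermat.Agent.S17.H.LD
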