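import Mathlib
import Fermat.Agent.S17.R.LSpace
import Fermat.Agent.S17.R.LStep
import Fermat.Agent.S17.R.SectionRingCore
import Fermat.Agent.S17.H.LD.DivCount
import Fermat.Agent.S17.H.LD.ConeRank
import Fermat.Agent.S17.H.LD.UpSolCore
import Fermat.Agent.S17.H.LD.UpCurve

/-!
# Program MW (S17), strand H, block C, row C9b: the solution statement of (UP) on the curve

`up_sol : ∃ n₁, UpCurve.SolStatement K F v₀ n₁`: the curve instance of the abstract core
`exists_up_sol` (`LD/UpSolCore.lean`).  Inputs: a basis `χ` of `L((k m0 + 2) m0 v₀)`;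
constant rank on the cone (`ConeRank.finrank_span_cols`); `s * ε'_j ∈ L((k m0 + 2) m0 v₀ - ∑ Z i)`
(`DivCount.mul_mem_L_nsmul_sub_zeros`) is a combination of the sections
`(∏ i, lin τ (x i) (ab i)) * ε_t` (`ConstRankTwin.exists_rep_of_span`).
-/

set_option autoImplicit false

namespace Fermat.Agent.S17.H.LD.UpSolVia

open AlgebraicCurve MvPolynomial Fermat.Agent.S17.R Fermat.Agent.S17.H.Cert Fermat.Agent.S17.H.LD

variable {K F : Type*} [Field K] [Field F] [Algebra K F]

/-- A product of sections of `a v₀` over a finite set `s` is a section of `(|s| a) v₀`. -/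
theorem prod_mem_L_nD {v₀ : Place K F} {a : ℕ} {α : Type*} (s : Finset α) (l : α → F)
    (hl : ∀ i ∈ s, l i ∈ riemannRochSpace (SectionRing.nD v₀ a)) :
    ∏ i ∈ s, l i ∈ riemannRochSpace (SectionRing.nD v₀ (s.card * a)) := by
  classical
  induction s using Finset.induction_on with
  | empty =>
    rw [Finset.prod_empty, Finset.card_empty, zero_mul]
    exact SectionRing.one_mem_L v₀ 0
  | insert i s hi ih =>
    rw [Finset.prod_insert hi, Finset.card_insert_of_notMem hi, Nat.succ_mul, add_comm]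
    exact SectionRing.mul_mem_L_nD (hl i (Finset.mem_insert_self i s))
      (ih fun j hj => hl j (Finset.mem_insert_of_mem hj))

variable [IsAlgClosed K] [CharZero K] [Algebra.EssFiniteType K F]

/-- **Row C9b**: the solution statement of (UP) holds above a threshold. -/
theorem up_sol (htr : Algebra.trdeg K F = 1) (v₀ : Place K F) :
    ∃ n₁ : ℕ, UpCurve.SolStatement K F v₀ n₁ := by
  classical
  obtain ⟨c, hc⟩ := Pencil.exists_isRiemannBound (K := K) (F := F) htr
  refine ⟨max (c + 2).toNat 1, ?_⟩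
  unfold UpCurve.SolStatement
  intro m0 hm0 k hk ι κ _ _ τ ψ P hτli hτ hψli hψ hP hPψ ε η _ _ E E' hE hEli hEspan hE' hE'li
    hE'span
  have hm0' : c + 2 ≤ (m0 : ℤ) := PoleOrder.le_of_toNat_le (le_trans (le_max_left _ _) hm0)
  have hm1 : 1 ≤ m0 := le_trans (le_max_right _ _) hm0
  have hkle : k ≤ k * m0 := Nat.le_mul_of_pos_right k hm1
  -- `ι` is nonempty
  have h1mem : (1 : F) ∈ riemannRochSpace ((m0 : ℤ) • Finsupp.single v₀ (1 : ℤ)) :=
    SectionRing.one_mem_L v₀ m0
  haveI : Nonempty ι := by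
    by_contra hne
    rw [not_nonempty_iff] at hne
    have hr : Set.range τ = ∅ := Set.range_eq_empty τ
    rw [← hτ, hr, Submodule.span_empty, Submodule.mem_bot] at h1mem
    exact one_ne_zero h1mem
  have hτmem : ∀ j, τ j ∈ riemannRochSpace (SectionRing.nD v₀ m0) := by
    intro j
    have h : τ j ∈ Submodule.span K (Set.range τ) := Submodule.subset_span ⟨j, rfl⟩
    rw [hτ] at h
    exact h
  have hG1 : ConeRank.SpanLin τ ((m0 : ℤ) • Finsupp.single v₀ (1 : ℤ)) :=
    ConeRank.spanLin_of_span htr hc v₀ (by linarith) τ hτ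
  have hEmem : ∀ t, aeval τ (E t) ∈ riemannRochSpace (SectionRing.nD v₀ (2 * m0)) := by
    intro t
    have h : aeval τ (E t) ∈ Submodule.span K (Set.range fun t => aeval τ (E t)) :=
      Submodule.subset_span ⟨t, rfl⟩
    rw [hEspan] at h
    exact h
  have hE'mem : ∀ j, aeval τ (E' j) ∈
      riemannRochSpace (SectionRing.nD v₀ ((k * m0 - k + 2) * m0)) := by
    intro j
    have h : aeval τ (E' j) ∈ Submodule.span K (Set.range fun j => aeval τ (E' j)) :=
      Submodule.subset_span ⟨j, rfl⟩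
    rw [hE'span] at h
    exact h
  have hψmem : ∀ b, ψ b ∈ riemannRochSpace (SectionRing.nD v₀ (k * m0)) := by
    intro b
    have h : ψ b ∈ Submodule.span K (Set.range ψ) := Submodule.subset_span ⟨b, rfl⟩
    rw [hψ] at h
    exact h
  -- a basis of the ambient space `L((k m0 + 2) m0 v₀)`
  haveI := finite_L htr ((((k * m0 + 2) * m0 : ℕ) : ℤ) • Finsupp.single v₀ (1 : ℤ))
  obtain ⟨d, χ, hχli, hχspan⟩ := DownCurve.exists_basis_family
    (riemannRochSpace ((((k * m0 + 2) * m0 : ℕ) : ℤ) • Finsupp.single v₀ (1 : ℤ)))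
  have hmon : ∀ (b : Fin (k * m0) → ι) (t : ε),
      (∏ i, τ (b i)) * aeval τ (E t) ∈ Submodule.span K (Set.range χ) := by
    intro b t
    rw [hχspan]
    have h1 := prod_mem_L_nD (v₀ := v₀) (a := m0) Finset.univ (fun i => τ (b i))
      (fun i _ => hτmem (b i))
    rw [Finset.card_univ, Fintype.card_fin] at h1
    have h2 := SectionRing.mul_mem_L_nD h1 (hEmem t)
    have e : k * m0 * m0 + 2 * m0 = (k * m0 + 2) * m0 := by ring
    rw [e] at h2
    exact h2
  have e2 : k * m0 + (k * m0 - k + 2) * m0 = (k * m0 + 2) * m0 := by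
    zify [hkle]
    ring
  have hprod : ∀ (b : κ) (j : η),
      aeval τ (P b) * aeval τ (E' j) ∈ Submodule.span K (Set.range χ) := by
    intro b j
    rw [hχspan, hPψ b]
    have h2 := SectionRing.mul_mem_L_nD (hψmem b) (hE'mem j)
    rw [e2] at h2
    exact h2
  -- constant rank on the cone
  have hrank : ∀ x : Fin (k * m0) → ι → K, (∀ i, OnCone τ (x i)) → (∀ i, x i ≠ 0) →
      Module.finrank K ↥(Submodule.span K (Set.range fun c : (Fin (k * m0) → ι × ι) × ε =>
        (∏ i, lin τ (x i) (c.1 i)) * aeval τ (E c.2))) =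
      ((((k * m0 + 2) * m0 : ℕ) : ℤ) - ((k * m0 : ℕ) : ℤ) + 1 - (gR K F : ℤ)).toNat := by
    intro x hx hx0
    have h := ConeRank.finrank_span_cols htr hc v₀ hm0' τ hG1 (k * m0) 2 le_rfl x hx0 hx
      (fun t => aeval τ (E t)) hEspan
    rw [← h]
    exact (Int.toNat_natCast _).symm
  obtain ⟨C₄, Γ₄, hC₄, hsol⟩ := exists_up_sol τ (k * m0) (fun b => aeval τ (P b))
    (fun t => aeval τ (E t)) (fun j => aeval τ (E' j)) χ hχli hmon hprod _ hrank
  refine ⟨C₄, Γ₄, hC₄, ?_⟩
  intro v a Z x ha hZ hpt j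
  have hx : ∀ i, OnCone τ (x i) := fun i => (hpt i).onCone
  have hx0 : ∀ i, x i ≠ 0 := by
    intro i h0
    obtain ⟨i₀, hi₀, -⟩ := hpt i
    exact hi₀ (by rw [h0]; rfl)
  have hmem : (∑ b, a b • aeval τ (P b)) * aeval τ (E' j) ∈ Submodule.span K
      (Set.range fun c : (Fin (k * m0) → ι × ι) × ε =>
        (∏ i, lin τ (x i) (c.1 i)) * aeval τ (E c.2)) := by
    have hs : ∑ b, a b • aeval τ (P b) = ∑ b, a b • ψ b :=
      Finset.sum_congr rfl fun b _ => by rw [hPψ b]
    rw [hs]
    have hy0 := DivCount.mul_mem_L_nsmul_sub_zeros htr v₀ m0 k ((k * m0 - k + 2) * m0)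
      (∑ b, a b • ψ b) Z hZ (hE'mem j)
    rw [e2] at hy0
    obtain ⟨f, hf, hyf⟩ := ConstRankTwin.exists_rep_of_span htr hc v₀ hm0' τ (k * m0) 2 le_rfl
      Z x (fun i => hG1 (Z i) (x i) (hpt i)) hy0
    rw [hyf]
    refine Submodule.sum_mem _ fun ab _ => ?_
    have hfab : f ab ∈ Submodule.span K (Set.range fun t => aeval τ (E t)) := by
      rw [hEspan]
      exact hf ab
    obtain ⟨cf, hcf⟩ := (Submodule.mem_span_range_iff_exists_fun K).mp hfab
    rw [← hcf, Finset.mul_sum]
    refine Submodule.sum_mem _ fun t _ => ?_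
    rw [mul_smul_comm]
    refine Submodule.smul_mem _ _ (Submodule.subset_span ⟨(ab, t), ?_⟩)
    show (∏ i, lin τ (x i) (ab i)) * aeval τ (E t) = _
    congr 1
    exact Finset.prod_congr rfl fun i _ => ConeRank.lin_eq τ (x i) (ab i)
  exact hsol v a x hx hx0 j hmem

end Fermat.Agent.S17.H.LD.UpSolVia
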