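/-
MW strand H, block C, leaf C11: values at a finite place, through `evalAt` (leaf R13).

ADAPTER for the consumers of the exit of block C (D1, D2, D3b): the cone point of a finite place
and the value of a section there are given by the residue map `Fermat.Agent.S17.R.evalAt`.

* `mem_valuationSubring_of_mem_L` : a section of `n · v₀` is regular at every place `Q ≠ v₀`;
* `evalAt_aeval` : `evalAt` commutes with polynomial expressions in functions regular at `Q`;
* `isPt_evalAt` : for a family `τ` of functions regular at `Q` whose span contains `1`, the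
  tuple of values `(evalAt Q (τ j))_j` is the projective point of `Q` in the family `τ`.
-/
import Mathlib
import Fermat.Agent.S24.FF.Residue
import Fermat.Agent.S17.R.LSpace
import Fermat.Agent.S17.R.Eval
import Fermat.Agent.S17.H.LD.Pt

set_option autoImplicit false
set_option linter.unusedSectionVars false
set_option linter.unusedVariables false

namespace Fermat.Agent.S17.H.LD

open AlgebraicCurve MvPolynomial Fermat.Agent.S17.R

variable {K F : Type*} [Field K] [Field F] [Algebra K F]
variable [IsAlgClosed K] [CharZero K] [Algebra.EssFiniteType K F]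

namespace Values

/-- A function regular at `Q` whose value at `Q` is `0` has valuation `< 1`. -/
theorem adicValuation_lt_one_of_evalAt_eq_zero (htr : Algebra.trdeg K F = 1) (Q : Place K F)
    (f : ↥Q.toValuationSubring) (h : evalAt htr Q f = 0) : Q.adicValuation (f : F) < 1 := by
  have h1 := (Eval.evalAt_eq_iff_mem htr Q f 0).mp h
  rw [map_zero, sub_zero] at h1
  exact Fermat.Agent.S24.FF.adicValuation_lt_one_of_mem_maximal Q h1

/-- A function regular at `Q` whose value at `Q` is not `0` has valuation `1`. -/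
theorem adicValuation_eq_one_of_evalAt_ne_zero (htr : Algebra.trdeg K F = 1) (Q : Place K F)
    (f : ↥Q.toValuationSubring) (h : evalAt htr Q f ≠ 0) : Q.adicValuation (f : F) = 1 := by
  rw [Q.adicValuation_coe_eq_one_iff]
  by_contra hu
  apply h
  rw [Eval.evalAt_eq_iff_mem, map_zero, sub_zero]
  exact (IsLocalRing.mem_maximalIdeal f).mpr hu

/-- The coercion of a polynomial expression in elements of the valuation ring. -/
theorem coe_aeval (Q : Place K F) {ι : Type*} (τ : ι → F)
    (hmem : ∀ j, τ j ∈ Q.toValuationSubring) (P : MvPolynomial ι K) :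
    ((aeval (fun j => (⟨τ j, hmem j⟩ : ↥Q.toValuationSubring)) P : ↥Q.toValuationSubring) : F) =
      aeval τ P := by
  have h := comp_aeval_apply (f := fun j => (⟨τ j, hmem j⟩ : ↥Q.toValuationSubring))
    (IsScalarTower.toAlgHom K ↥Q.toValuationSubring F) P
  exact h

end Values

theorem mem_valuationSubring_of_mem_L {v₀ Q : Place K F} (hQ : Q ≠ v₀) {n : ℕ} {f : F}
    (hf : f ∈ riemannRochSpace ((n : ℤ) • Finsupp.single v₀ (1 : ℤ))) :
    f ∈ Q.toValuationSubring :=
  Eval.mem_regOff_of_mem_L hf Q hQ

theorem evalAt_aeval (htr : Algebra.trdeg K F = 1) (Q : Place K F) {ι : Type*} (τ : ι → F)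
    (hmem : ∀ j, τ j ∈ Q.toValuationSubring) (P : MvPolynomial ι K)
    (hP : aeval τ P ∈ Q.toValuationSubring) :
    evalAt htr Q ⟨aeval τ P, hP⟩ = eval (fun j => evalAt htr Q ⟨τ j, hmem j⟩) P := by
  have hsub : (⟨aeval τ P, hP⟩ : ↥Q.toValuationSubring) =
      aeval (fun j => (⟨τ j, hmem j⟩ : ↥Q.toValuationSubring)) P :=
    Subtype.ext (Values.coe_aeval Q τ hmem P).symm
  rw [hsub, comp_aeval_apply]
  rfl

theorem isPt_evalAt (htr : Algebra.trdeg K F = 1) {v₀ Q : Place K F} (hQ : Q ≠ v₀) {m0 : ℕ}
    {ι : Type*} [Finite ι] (τ : ι → F)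
    (hτ : ∀ j, τ j ∈ riemannRochSpace ((m0 : ℤ) • Finsupp.single v₀ (1 : ℤ)))
    (h1 : (1 : F) ∈ Submodule.span K (Set.range τ))
    (hmem : ∀ j, τ j ∈ Q.toValuationSubring) :
    IsPt τ Q (fun j => evalAt htr Q ⟨τ j, hmem j⟩) := by
  classical
  cases nonempty_fintype ι
  -- the values
  set x : ι → K := fun j => evalAt htr Q ⟨τ j, hmem j⟩ with hx
  -- `1 = ∑ c j • τ j` gives an index with a nonzero value
  obtain ⟨c, hc⟩ := (Submodule.mem_span_range_iff_exists_fun K).mp h1
  have hsum : (∑ j, c j • (⟨τ j, hmem j⟩ : ↥Q.toValuationSubring)) = 1 := by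
    apply Subtype.ext
    have h2 : ((∑ j, c j • (⟨τ j, hmem j⟩ : ↥Q.toValuationSubring) : ↥Q.toValuationSubring) : F)
        = ∑ j, c j • τ j := by
      have h3 := map_sum (IsScalarTower.toAlgHom K ↥Q.toValuationSubring F)
        (fun j => c j • (⟨τ j, hmem j⟩ : ↥Q.toValuationSubring)) Finset.univ
      simp only [map_smul] at h3
      exact h3
    rw [h2, hc]
    rfl
  have hval : ∑ j, c j * x j = 1 := by
    have h2 := congrArg (evalAt htr Q) hsum
    rw [map_sum, map_one] at h2
    simp only [map_smul, smul_eq_mul] at h2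
    exact h2
  obtain ⟨i, hi⟩ : ∃ i, x i ≠ 0 := by
    by_contra hno
    have hall : ∀ j, x j = 0 := fun j => by
      by_contra hj
      exact hno ⟨j, hj⟩
    have h0 : ∑ j, c j * x j = 0 := Finset.sum_eq_zero fun j _ => by rw [hall j, mul_zero]
    rw [h0] at hval
    exact zero_ne_one hval
  have hτi : Q.adicValuation (τ i) = 1 :=
    Values.adicValuation_eq_one_of_evalAt_ne_zero htr Q ⟨τ i, hmem i⟩ hi
  have hτi0 : τ i ≠ 0 := by
    intro h0
    rw [h0, map_zero] at hτi
    exact zero_ne_one hτi
  refine ⟨i, hi, hτi0, fun j => ?_⟩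
  rw [hτi]
  -- `x i • τ j - x j • τ i` is regular at `Q` and its value is `0`
  have hmemj : algebraMap K F (x i) * τ j - algebraMap K F (x j) * τ i ∈ Q.toValuationSubring :=
    sub_mem (mul_mem (Q.algebraMap_mem' _) (hmem j)) (mul_mem (Q.algebraMap_mem' _) (hmem i))
  have hel : (⟨algebraMap K F (x i) * τ j - algebraMap K F (x j) * τ i, hmemj⟩ :
      ↥Q.toValuationSubring) =
      algebraMap K ↥Q.toValuationSubring (x i) * ⟨τ j, hmem j⟩ -
        algebraMap K ↥Q.toValuationSubring (x j) * ⟨τ i, hmem i⟩ := Subtype.ext rfl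
  have hzero : evalAt htr Q ⟨algebraMap K F (x i) * τ j - algebraMap K F (x j) * τ i, hmemj⟩
      = 0 := by
    rw [hel, map_sub, map_mul, map_mul, AlgHom.commutes, AlgHom.commutes]
    show x i * x j - x j * x i = 0
    ring
  exact Values.adicValuation_lt_one_of_evalAt_eq_zero htr Q _ hzero

end Fermat.Agent.S17.H.LD
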