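/-
MW strand H, block C, leaf C11 (second file): values at a finite place for an ARBITRARY value
function `ev` (`Glob.IsEval`), the form consumed by D1 / D2.

Every value function agrees with the residue map `Fermat.Agent.S17.R.evalAt` (leaf R13) on the
functions regular at the place (`eq_evalAt_of_isEval`); hence the statements of `LD/Values.lean`
hold for `ev`:

* `ev_aeval` : `ev` commutes with polynomial expressions in functions regular at `Q`;
* `isPt_ev_of_mem`, `isPt_ev` : for a family `τ` of functions regular at `Q` whose span contains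
  `1`, the tuple `(ev Q (τ j))_j` is the projective point of `Q` in the family `τ`.
-/
import Mathlib
import Fermat.Agent.S24.FF.Residue
import Fermat.Agent.S17.R.LSpace
import Fermat.Agent.S17.R.Eval
import Fermat.Agent.S17.H.Glob.Eval
import Fermat.Agent.S17.H.LD.Pt
import Fermat.Agent.S17.H.LD.Values

set_option autoImplicit false
set_option linter.unusedSectionVars false
set_option linter.unusedVariables false

namespace Fermat.Agent.S17.H.LD

open AlgebraicCurve MvPolynomial Fermat.Agent.S17.R

variable {K F : Type*} [Field K] [Field F] [Algebra K F]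
variable [IsAlgClosed K] [CharZero K] [Algebra.EssFiniteType K F]

/-- **Bridge**: every value function is the residue map `R.evalAt` on the functions regular at
the place. -/
theorem eq_evalAt_of_isEval (htr : Algebra.trdeg K F = 1) {ev : Place K F → F → K}
    (hev : Glob.IsEval ev) (Q : Place K F) {f : F} (hf : f ∈ Q.toValuationSubring) :
    ev Q f = evalAt htr Q ⟨f, hf⟩ := by
  refine hev.eq_of_valuation_lt hf ((Glob.valuation_lt_one_iff Q _).mpr ?_)
  rcases (evalAt_eq_iff htr Q ⟨f, hf⟩ (evalAt htr Q ⟨f, hf⟩)).mp rfl with h | h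
  · exact Or.inl (sub_eq_zero.mpr h)
  · exact Or.inr h

/-- The residue map `R.evalAt`, extended by `0`, is a value function. -/
theorem isEval_evalAt_extend (htr : Algebra.trdeg K F = 1) :
    Glob.IsEval (fun (v : Place K F) (f : F) =>
      open Classical in if h : f ∈ v.toValuationSubring then evalAt htr v ⟨f, h⟩ else 0) := by
  intro v f hf
  rw [Glob.valuation_lt_one_iff]
  simp only [dif_pos hf]
  rcases (evalAt_eq_iff htr v ⟨f, hf⟩ (evalAt htr v ⟨f, hf⟩)).mp rfl with h | h
  · exact Or.inl (sub_eq_zero.mpr h)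
  · exact Or.inr h

omit [IsAlgClosed K] [CharZero K] [Algebra.EssFiniteType K F] in
/-- A polynomial expression in functions regular at `Q` is regular at `Q`. -/
theorem aeval_mem_valuationSubring (Q : Place K F) {ι : Type*} (τ : ι → F)
    (hmem : ∀ j, τ j ∈ Q.toValuationSubring) (P : MvPolynomial ι K) :
    aeval τ P ∈ Q.toValuationSubring := by
  have h : ((aeval (fun j => (⟨τ j, hmem j⟩ : ↥Q.toValuationSubring)) P :
      ↥Q.toValuationSubring) : F) = aeval τ P :=
    comp_aeval_apply (f := fun j => (⟨τ j, hmem j⟩ : ↥Q.toValuationSubring))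
      (IsScalarTower.toAlgHom K ↥Q.toValuationSubring F) P
  rw [← h]
  exact Subtype.property _

/-- A value function commutes with polynomial expressions in functions regular at `Q`. -/
theorem ev_aeval (htr : Algebra.trdeg K F = 1) {ev : Place K F → F → K} (hev : Glob.IsEval ev)
    (Q : Place K F) {ι : Type*} (τ : ι → F) (hmem : ∀ j, τ j ∈ Q.toValuationSubring)
    (P : MvPolynomial ι K) :
    ev Q (aeval τ P) = eval (fun j => ev Q (τ j)) P := by
  have he : (fun j => ev Q (τ j)) = fun j => evalAt htr Q ⟨τ j, hmem j⟩ :=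
    funext fun j => eq_evalAt_of_isEval htr hev Q (hmem j)
  rw [eq_evalAt_of_isEval htr hev Q (aeval_mem_valuationSubring Q τ hmem P),
    evalAt_aeval htr Q τ hmem P, he]

/-- The projective point of a finite place in a family of functions regular there whose span
contains `1`, through the residue map. -/
theorem isPt_evalAt_of_mem (htr : Algebra.trdeg K F = 1) {Q : Place K F} {ι : Type*} [Finite ι]
    (τ : ι → F) (h1 : (1 : F) ∈ Submodule.span K (Set.range τ))
    (hmem : ∀ j, τ j ∈ Q.toValuationSubring) :
    IsPt τ Q (fun j => evalAt htr Q ⟨τ j, hmem j⟩) := by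
  classical
  cases nonempty_fintype ι
  set x : ι → K := fun j => evalAt htr Q ⟨τ j, hmem j⟩ with hx
  obtain ⟨c, hc⟩ := (Submodule.mem_span_range_iff_exists_fun K).mp h1
  have hcomb : aeval τ (∑ j, C (c j) * X j : MvPolynomial ι K) = 1 := by
    rw [map_sum, ← hc]
    refine Finset.sum_congr rfl fun j _ => ?_
    rw [map_mul, aeval_C, aeval_X, Algebra.smul_def]
  have hmem1 : aeval τ (∑ j, C (c j) * X j : MvPolynomial ι K) ∈ Q.toValuationSubring :=
    aeval_mem_valuationSubring Q τ hmem _
  have hval : ∑ j, c j * x j = 1 := by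
    have h2 := evalAt_aeval htr Q τ hmem (∑ j, C (c j) * X j : MvPolynomial ι K) hmem1
    have h3 : (⟨aeval τ (∑ j, C (c j) * X j : MvPolynomial ι K), hmem1⟩ :
        ↥Q.toValuationSubring) = 1 := Subtype.ext hcomb
    rw [h3, map_one, map_sum] at h2
    simp only [map_mul, eval_C, eval_X] at h2
    exact h2.symm
  obtain ⟨i, hi⟩ : ∃ i, x i ≠ 0 := by
    by_contra hno
    have hall : ∀ j, x j = 0 := fun j => by
      by_contra hj
      exact hno ⟨j, hj⟩
    have h0 : ∑ j, c j * x j = 0 := Finset.sum_eq_zero fun j _ => by rw [hall j, mul_zero]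
    rw [h0] at hval
    exact zero_ne_one hval
  have hτi : Q.adicValuation (τ i) = 1 :=
    Values.adicValuation_eq_one_of_evalAt_ne_zero htr Q ⟨τ i, hmem i⟩ hi
  have hτi0 : τ i ≠ 0 := by
    intro h0
    rw [h0, map_zero] at hτi
    exact zero_ne_one hτi
  refine ⟨i, hi, hτi0, fun j => ?_⟩
  rw [hτi]
  have hmemj : algebraMap K F (x i) * τ j - algebraMap K F (x j) * τ i ∈ Q.toValuationSubring :=
    sub_mem (mul_mem (Q.algebraMap_mem' _) (hmem j)) (mul_mem (Q.algebraMap_mem' _) (hmem i))
  have hel : (⟨algebraMap K F (x i) * τ j - algebraMap K F (x j) * τ i, hmemj⟩ :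
      ↥Q.toValuationSubring) =
      algebraMap K ↥Q.toValuationSubring (x i) * ⟨τ j, hmem j⟩ -
        algebraMap K ↥Q.toValuationSubring (x j) * ⟨τ i, hmem i⟩ := Subtype.ext rfl
  have hzero : evalAt htr Q ⟨algebraMap K F (x i) * τ j - algebraMap K F (x j) * τ i, hmemj⟩
      = 0 := by
    rw [hel, map_sub, map_mul, map_mul, AlgHom.commutes, AlgHom.commutes]
    show x i * x j - x j * x i = 0
    ring
  exact Values.adicValuation_lt_one_of_evalAt_eq_zero htr Q _ hzero

/-- The projective point of a finite place in a family of functions regular there whose span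
contains `1`, through any value function. -/
theorem isPt_ev_of_mem (htr : Algebra.trdeg K F = 1) {ev : Place K F → F → K}
    (hev : Glob.IsEval ev) {Q : Place K F} {ι : Type*} [Finite ι] (τ : ι → F)
    (h1 : (1 : F) ∈ Submodule.span K (Set.range τ))
    (hmem : ∀ j, τ j ∈ Q.toValuationSubring) :
    IsPt τ Q (fun j => ev Q (τ j)) := by
  have h := isPt_evalAt_of_mem htr τ h1 hmem
  have he : (fun j => ev Q (τ j)) = fun j => evalAt htr Q ⟨τ j, hmem j⟩ :=
    funext fun j => eq_evalAt_of_isEval htr hev Q (hmem j)
  rw [he]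
  exact h

/-- The projective point of a place `Q ≠ v₀` in a family of sections of `m0 · v₀` whose span
contains `1`, through any value function. -/
theorem isPt_ev (htr : Algebra.trdeg K F = 1) {ev : Place K F → F → K} (hev : Glob.IsEval ev)
    {v₀ Q : Place K F} (hQ : Q ≠ v₀) {m0 : ℕ} {ι : Type*} [Finite ι] (τ : ι → F)
    (hτ : ∀ j, τ j ∈ riemannRochSpace ((m0 : ℤ) • Finsupp.single v₀ (1 : ℤ)))
    (h1 : (1 : F) ∈ Submodule.span K (Set.range τ)) :
    IsPt τ Q (fun j => ev Q (τ j)) :=
  isPt_ev_of_mem htr hev τ h1 fun j => mem_valuationSubring_of_mem_L hQ (hτ j)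

end Fermat.Agent.S17.H.LD
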