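import Mathlib
import Fermat.Agent.S17.R.LSpace

/-!
# PROGRAM MW (S17), strand H, block C, row C10, first literal: enumeration of zeros (helper87)

`K` algebraically closed of characteristic zero, `F / K` a function field of one variable.

* `exists_enum_of_effective` : an effective divisor of degree `n` is a sum of `n` places;
* `exists_zeros` : for `0 ≠ s ∈ L(n v₀)` the divisor of zeros `div s + n v₀` is a sum of `n`
  places (row `S17.H.C10`, verbatim);
* `exists_zeros_of_basis` : the same for `s = ∑ j, a j • ψ j`, `a ≠ 0`, `ψ` a basis of `L(n v₀)`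
  (the divisor hypothesis of `ld_local`);
* `Zeros.sum_single_apply` : the multiplicity of a place in an enumeration;
* `Zeros.card_filter_eq` : the number of indices `i` with `Z i = v` is `ord_v s + n [v = v₀]`.
-/

set_option autoImplicit false

namespace Fermat.Agent.S17.H.LD

open AlgebraicCurve
open Fermat.Agent.S17.R Fermat.Agent.S24.FF

variable {K F : Type*} [Field K] [Field F] [Algebra K F]

namespace Zeros

/-- The multiplicity of a place in an enumeration. -/
theorem sum_single_apply {α : Type*} [DecidableEq α] {n : ℕ} (Z : Fin n → α) (a : α) :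
    (∑ i, Finsupp.single (Z i) (1 : ℤ)) a = ((Finset.univ.filter fun i => Z i = a).card : ℤ) := by
  rw [Finsupp.finsetSum_apply]
  simp only [Finsupp.single_apply]
  rw [Finset.sum_ite, Finset.sum_const_zero, add_zero, Finset.sum_const, nsmul_eq_mul, mul_one]

/-- Removing a point of an effective divisor. -/
theorem sub_single_nonneg {α : Type*} {E : α →₀ ℤ} (hE : 0 ≤ E) {a : α} (ha : 1 ≤ E a) :
    0 ≤ E - Finsupp.single a (1 : ℤ) := by
  classical
  rw [Finsupp.le_def]
  intro b
  rw [Finsupp.zero_apply, Finsupp.sub_apply, Finsupp.single_apply]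
  by_cases hab : a = b
  · subst hab
    rw [if_pos rfl]
    exact sub_nonneg.mpr ha
  · rw [if_neg hab, sub_zero]
    have := Finsupp.le_def.mp hE b
    rwa [Finsupp.zero_apply] at this

/-- A nonzero effective divisor contains a point. -/
theorem exists_one_le {α : Type*} {E : α →₀ ℤ} (hE : 0 ≤ E) (h0 : E ≠ 0) : ∃ a, 1 ≤ E a := by
  obtain ⟨a, ha⟩ : ∃ a, E a ≠ 0 := by
    by_contra hno
    rw [not_exists] at hno
    apply h0
    ext a
    rw [Finsupp.zero_apply]
    exact not_not.mp (hno a)
  refine ⟨a, ?_⟩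
  have h1 := Finsupp.le_def.mp hE a
  rw [Finsupp.zero_apply] at h1
  omega

end Zeros

section Curve

variable [IsAlgClosed K] [CharZero K] [Algebra.EssFiniteType K F]

omit [CharZero K] [Algebra.EssFiniteType K F] in
/-- A point has degree one. -/
theorem Zeros.degree_single_one (htr : Algebra.trdeg K F = 1) (v : Place K F) :
    Divisor.degree (Finsupp.single v (1 : ℤ)) = 1 := by
  rw [Divisor.degree_single, deg_eq_one htr v]
  norm_num

/-- An effective divisor of degree `n` is a sum of `n` places. -/
theorem exists_enum_of_effective (htr : Algebra.trdeg K F = 1) :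
    ∀ (n : ℕ) (E : Divisor K F), 0 ≤ E → Divisor.degree E = (n : ℤ) →
      ∃ Z : Fin n → Place K F, E = ∑ i, Finsupp.single (Z i) (1 : ℤ) := by
  intro n
  induction n with
  | zero =>
    intro E hE hdeg
    refine ⟨Fin.elim0, ?_⟩
    rw [Finset.univ_eq_empty, Finset.sum_empty]
    by_contra h0
    obtain ⟨a, ha⟩ := Zeros.exists_one_le hE h0
    have h1 := degree_nonneg htr (Zeros.sub_single_nonneg hE ha)
    rw [map_sub, hdeg, Zeros.degree_single_one htr] at h1
    norm_num at h1
  | succ n ih =>
    intro E hE hdeg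
    have h0 : E ≠ 0 := by
      intro h
      rw [h, map_zero] at hdeg
      have : (0 : ℤ) < ((n + 1 : ℕ) : ℤ) := by positivity
      omega
    obtain ⟨a, ha⟩ := Zeros.exists_one_le hE h0
    have hdeg' : Divisor.degree (E - Finsupp.single a (1 : ℤ)) = (n : ℤ) := by
      rw [map_sub, hdeg, Zeros.degree_single_one htr]
      push_cast
      ring
    obtain ⟨Z, hZ⟩ := ih _ (Zeros.sub_single_nonneg hE ha) hdeg'
    refine ⟨Fin.cons a Z, ?_⟩
    rw [Fin.sum_univ_succ]
    simp only [Fin.cons_zero, Fin.cons_succ]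
    rw [← hZ]
    abel

/-- **Enumeration of the zeros** (row `S17.H.C10`): for `0 ≠ s ∈ L(n v₀)` the divisor of zeros
`div s + n v₀` is a sum of `n` places. -/
theorem exists_zeros (htr : Algebra.trdeg K F = 1) (v₀ : Place K F) {n : ℕ} {s : F} (hs : s ≠ 0)
    (hsL : s ∈ riemannRochSpace ((n : ℤ) • Finsupp.single v₀ (1 : ℤ))) :
    ∃ Z : Fin n → Place K F,
      divOf K s + (n : ℤ) • Finsupp.single v₀ (1 : ℤ) = ∑ i, Finsupp.single (Z i) (1 : ℤ) := by
  refine exists_enum_of_effective htr n _ ?_ ?_
  · have h := add_divOf_nonneg htr hs hsL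
    rwa [add_comm] at h
  · rw [map_add, degree_divOf htr, zero_add, map_zsmul, Zeros.degree_single_one htr, smul_eq_mul,
      mul_one]

/-- The same for a nonzero combination of a basis of `L(n v₀)`: the divisor hypothesis of
`ld_local` can always be met. -/
theorem exists_zeros_of_basis (htr : Algebra.trdeg K F = 1) (v₀ : Place K F) {n : ℕ}
    {κ : Type*} [Fintype κ] (ψ : κ → F) (hli : LinearIndependent K ψ)
    (hspan : Submodule.span K (Set.range ψ)
      = riemannRochSpace ((n : ℤ) • Finsupp.single v₀ (1 : ℤ)))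
    (a : κ → K) (ha : a ≠ 0) :
    ∃ Z : Fin n → Place K F,
      divOf K (∑ j, a j • ψ j) + (n : ℤ) • Finsupp.single v₀ (1 : ℤ)
        = ∑ i, Finsupp.single (Z i) (1 : ℤ) := by
  have hs : ∑ j, a j • ψ j ≠ 0 := by
    intro h0
    apply ha
    funext j
    exact (Fintype.linearIndependent_iff.mp hli) a h0 j
  have hsL : ∑ j, a j • ψ j ∈ riemannRochSpace ((n : ℤ) • Finsupp.single v₀ (1 : ℤ)) := by
    rw [← hspan]
    exact Submodule.sum_mem _ fun j _ =>
      Submodule.smul_mem _ _ (Submodule.subset_span (Set.mem_range_self j))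
  exact exists_zeros htr v₀ hs hsL

/-- The number of indices of an enumeration of the zeros of `s` at a place `v` is
`ord_v s + n [v = v₀]`. -/
theorem Zeros.card_filter_eq [DecidableEq (Place K F)] (htr : Algebra.trdeg K F = 1)
    (v₀ : Place K F) {n : ℕ} {s : F} {Z : Fin n → Place K F}
    (hZ : divOf K s + (n : ℤ) • Finsupp.single v₀ (1 : ℤ) = ∑ i, Finsupp.single (Z i) (1 : ℤ))
    (v : Place K F) :
    ((Finset.univ.filter fun i => Z i = v).card : ℤ)
      = v.ord s + (if v = v₀ then (n : ℤ) else 0) := by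
  rw [← Zeros.sum_single_apply Z v, ← hZ, Finsupp.add_apply, divOf_apply htr, Finsupp.smul_apply,
    Finsupp.single_apply, smul_eq_mul]
  by_cases h : v₀ = v
  · subst h
    rw [if_pos rfl, if_pos rfl, mul_one]
  · rw [if_neg h, if_neg (Ne.symm h), mul_zero]

/-- Every place of an enumeration of the zeros of `s ∈ L(n v₀)` other than `v₀` is a zero of
`s`, and conversely every zero of `s` occurs. -/
theorem Zeros.exists_index_iff (htr : Algebra.trdeg K F = 1)
    (v₀ : Place K F) {n : ℕ} {s : F} {Z : Fin n → Place K F}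
    (hZ : divOf K s + (n : ℤ) • Finsupp.single v₀ (1 : ℤ) = ∑ i, Finsupp.single (Z i) (1 : ℤ))
    {v : Place K F} (hv : v ≠ v₀) : (∃ i, Z i = v) ↔ 0 < v.ord s := by
  classical
  have h := Zeros.card_filter_eq htr v₀ hZ v
  rw [if_neg hv, add_zero] at h
  rw [← h]
  constructor
  · rintro ⟨i, hi⟩
    have : 0 < (Finset.univ.filter fun i => Z i = v).card :=
      Finset.card_pos.mpr ⟨i, Finset.mem_filter.mpr ⟨Finset.mem_univ i, hi⟩⟩
    exact_mod_cast this
  · intro hpos
    have hpos' : 0 < (Finset.univ.filter fun i => Z i = v).card := by exact_mod_cast hpos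
    obtain ⟨i, hi⟩ := Finset.card_pos.mp hpos'
    exact ⟨i, (Finset.mem_filter.mp hi).2⟩

end Curve

end Fermat.Agent.S17.H.LD
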