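import Mathlib
import Fermat.Agent.S24.FF.Ord
import Fermat.Agent.S17.R.SectionRing
import Fermat.Agent.S17.R.PoleOrder
import Fermat.Agent.S17.H.Cert.LocConst

/-!
# S17 / strand H, block C, leaf C-OO: the secant coordinates of the point at infinity

`F / K` a function field of one variable over an algebraically closed field of characteristic
zero, `v₀` a place, `τ` a spanning family of `L(m0 · v₀)` with `m0` large.  A vector `x` *represents
the point `v₀`* if for some index `i` the functions `x i · τ j - x j · τ i` have smaller valuation at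
`v₀` than `τ i`; a vector `y` is the vector of values of `τ` at a place `Q` if
`Q.adicValuation (τ j - y j) < 1` for all `j`.  Then, for every absolute value `v` of `K`,

`(sup_p v (x p.1 * y p.2 - x p.2 * y p.1)) ^ m0` and `(sup_j v (x j)) ^ m0 * (sup_j v (y j)) ^ (m0 - 1)`

agree up to a local constant of product type (`locConst`): the secant coordinates of the pair
(`v₀`, `Q`) have the size of the `(m0 - 1) / m0`-th power of the point `Q`.

Proof: the functions `l p = x p.1 · τ p.2 - x p.2 · τ p.1` span `L((m0 - 1) · v₀)`.  By the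
generation of the section ring in bounded degree (leaf R10b), `(l p) ^ m0` is a form of degree
`m0 - 1` in `τ`, and `(τ j) ^ (m0 - 1)` is a form of degree `m0` in the `l p`; read both at `Q`.
-/

set_option autoImplicit false

namespace Fermat.Agent.S17.H.LD

open AlgebraicCurve MvPolynomial WithZero
open Fermat.Agent.S17.H.Cert

namespace InfDist

variable {K F : Type*} [Field K] [Field F] [Algebra K F]

/-! ### Values at a place -/

theorem val_le_one (Q : Place K F) {f : F} {c : K}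
    (h : Q.adicValuation (f - algebraMap K F c) < 1) : Q.adicValuation f ≤ 1 := by
  have h1 : f = (f - algebraMap K F c) + algebraMap K F c := by ring
  rw [h1]
  exact le_trans (Valuation.map_add _ _ _) (max_le h.le (Q.adicValuation_algebraMap_le_one c))

theorem val_aeval {ι : Type*} (Q : Place K F) (τ : ι → F) (y : ι → K)
    (hy : ∀ j, Q.adicValuation (τ j - algebraMap K F (y j)) < 1) (P : MvPolynomial ι K) :
    Q.adicValuation (aeval τ P - algebraMap K F (eval y P)) < 1 := by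
  induction P using MvPolynomial.induction_on with
  | C a => simp
  | add p q hp hq =>
    have h : aeval τ (p + q) - algebraMap K F (eval y (p + q)) =
        (aeval τ p - algebraMap K F (eval y p)) + (aeval τ q - algebraMap K F (eval y q)) := by
      simp only [map_add]
      ring
    rw [h]
    exact Valuation.map_add_lt _ hp hq
  | mul_X p j hp =>
    have h : aeval τ (p * X j) - algebraMap K F (eval y (p * X j)) =
        (aeval τ p - algebraMap K F (eval y p)) * τ j +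
          algebraMap K F (eval y p) * (τ j - algebraMap K F (y j)) := by
      simp only [map_mul, aeval_X, eval_X]
      ring
    rw [h]
    refine Valuation.map_add_lt _ ?_ ?_
    · rw [map_mul]
      exact lt_of_le_of_lt (mul_le_of_le_one_right' (val_le_one Q (hy j))) hp
    · rw [map_mul]
      exact lt_of_le_of_lt (mul_le_of_le_one_left' (Q.adicValuation_algebraMap_le_one _)) (hy j)

theorem val_unique (Q : Place K F) {f : F} {a b : K}
    (ha : Q.adicValuation (f - algebraMap K F a) < 1)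
    (hb : Q.adicValuation (f - algebraMap K F b) < 1) : a = b := by
  by_contra hab
  have hne : a - b ≠ 0 := sub_ne_zero.mpr hab
  have h1 := Fermat.Agent.S24.FF.adicValuation_algebraMap Q hne
  have h2 : algebraMap K F (a - b) = (f - algebraMap K F b) - (f - algebraMap K F a) := by
    rw [map_sub]
    ring
  rw [h2] at h1
  have h3 := Valuation.map_sub_lt _ hb ha
  rw [h1] at h3
  exact lt_irrefl _ h3

theorem val_const_mul (Q : Place K F) {c : K} (hc : c ≠ 0) (f : F) :
    Q.adicValuation (algebraMap K F c * f) = Q.adicValuation f := by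
  rw [map_mul, Fermat.Agent.S24.FF.adicValuation_algebraMap Q hc, one_mul]

theorem val_const_mul_le (Q : Place K F) (c : K) (f : F) :
    Q.adicValuation (algebraMap K F c * f) ≤ Q.adicValuation f := by
  rw [map_mul]
  exact mul_le_of_le_one_left' (Q.adicValuation_algebraMap_le_one c)

theorem val_lt_exp_succ_iff (w : Place K F) (f : F) (n : ℤ) :
    w.adicValuation f < exp (n + 1) ↔ w.adicValuation f ≤ exp n := by
  rcases eq_or_ne f 0 with rfl | hf
  · simp
  · rw [w.adicValuation_eq_exp_neg_ord hf, exp_lt_exp, exp_le_exp]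
    omega

/-! ### Forms from powers of a span -/

theorem exists_form_of_mem_span_pow {ι : Type*} [Fintype ι] (τ : ι → F) (k : ℕ) {f : F}
    (hf : f ∈ Submodule.span K (Set.range τ) ^ k) :
    ∃ P : MvPolynomial ι K, P.IsHomogeneous k ∧ aeval τ P = f := by
  induction k generalizing f with
  | zero =>
    rw [pow_zero, Submodule.one_eq_span] at hf
    obtain ⟨c, rfl⟩ := Submodule.mem_span_singleton.mp hf
    exact ⟨C c, isHomogeneous_C _ _, by simp [Algebra.smul_def]⟩
  | succ k ih =>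
    rw [pow_succ] at hf
    refine Submodule.mul_induction_on hf ?_ ?_
    · intro m hm n hn
      obtain ⟨P, hP, rfl⟩ := ih hm
      obtain ⟨c, rfl⟩ := (Submodule.mem_span_range_iff_exists_fun K).mp hn
      refine ⟨P * ∑ j, C (c j) * X j, hP.mul ?_, by simp [Algebra.smul_def]⟩
      exact IsHomogeneous.sum _ _ _ fun j _ => (isHomogeneous_X K j).C_mul (c j)
    · rintro x y ⟨P, hP, rfl⟩ ⟨P', hP', rfl⟩
      exact ⟨P + P', hP.add hP', by simp⟩

/-! ### Suprema -/

theorem iSup_pow_le {α : Type*} [Finite α] (a : α → ℝ) {n : ℕ} (hn : n ≠ 0) {B : ℝ}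
    (hB : 0 ≤ B) (h : ∀ p, a p ^ n ≤ B) : (⨆ p, a p) ^ n ≤ B := by
  rcases isEmpty_or_nonempty α with he | hne
  · rw [Real.iSup_of_isEmpty, zero_pow hn]
    exact hB
  · obtain ⟨p, hp⟩ := exists_eq_ciSup_of_finite (f := a)
    rw [← hp]
    exact h p

theorem val_pow (Q : Place K F) {f : F} {c : K}
    (h : Q.adicValuation (f - algebraMap K F c) < 1) (n : ℕ) :
    Q.adicValuation (f ^ n - algebraMap K F (c ^ n)) < 1 := by
  have h1 := val_aeval Q (fun _ : Unit => f) (fun _ : Unit => c) (fun _ => h)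
    ((X () : MvPolynomial Unit K) ^ n)
  simpa using h1

/-! ### The point `v₀` and the functions `x p.1 · τ p.2 - x p.2 · τ p.1` -/

section Point

variable {ι : Type*} (v₀ : Place K F) (τ : ι → F) (x : ι → K)

/-- The functions `x p.1 · τ p.2 - x p.2 · τ p.1`. -/
noncomputable def lin (p : ι × ι) : F :=
  algebraMap K F (x p.1) * τ p.2 - algebraMap K F (x p.2) * τ p.1

/-- `x` represents the point `v₀` in the chart `i`. -/
def IsRep (i : ι) : Prop :=
  x i ≠ 0 ∧ τ i ≠ 0 ∧ ∀ j,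
    v₀.adicValuation (algebraMap K F (x i) * τ j - algebraMap K F (x j) * τ i)
      < v₀.adicValuation (τ i)

variable {v₀ τ x}

theorem val_le_of_isRep {i : ι} (h : IsRep v₀ τ x i) (j : ι) :
    v₀.adicValuation (τ j) ≤ v₀.adicValuation (τ i) := by
  obtain ⟨hxi, -, hpt⟩ := h
  have h1 : algebraMap K F (x i) * τ j =
      (algebraMap K F (x i) * τ j - algebraMap K F (x j) * τ i) + algebraMap K F (x j) * τ i := by
    ring
  rw [← val_const_mul v₀ hxi (τ j), h1]
  exact le_trans (Valuation.map_add _ _ _) (max_le (hpt j).le (val_const_mul_le v₀ _ _))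

theorem val_lin_lt {i : ι} (h : IsRep v₀ τ x i) (p : ι × ι) :
    v₀.adicValuation (lin τ x p) < v₀.adicValuation (τ i) := by
  obtain ⟨hxi, -, hpt⟩ := h
  have h1 : algebraMap K F (x i) * lin τ x p =
      algebraMap K F (x p.1) * (algebraMap K F (x i) * τ p.2 - algebraMap K F (x p.2) * τ i) -
      algebraMap K F (x p.2) * (algebraMap K F (x i) * τ p.1 - algebraMap K F (x p.1) * τ i) := by
    unfold lin
    ring
  rw [← val_const_mul v₀ hxi (lin τ x p), h1]
  exact Valuation.map_sub_lt _ (lt_of_le_of_lt (val_const_mul_le v₀ _ _) (hpt p.2))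
    (lt_of_le_of_lt (val_const_mul_le v₀ _ _) (hpt p.1))

theorem isRep_unique {i i₀ : ι} {x₀ : ι → K} (h : IsRep v₀ τ x i) (h₀ : IsRep v₀ τ x₀ i₀) :
    ∃ c : K, c ≠ 0 ∧ ∀ j, x j = c * x₀ j := by
  have hV : v₀.adicValuation (τ i) = v₀.adicValuation (τ i₀) :=
    le_antisymm (val_le_of_isRep h₀ i) (val_le_of_isRep h i₀)
  obtain ⟨hxi, hτi, hpt⟩ := h
  obtain ⟨hx₀, hτ₀, hpt₀⟩ := h₀
  have hx₀i : x₀ i ≠ 0 := by
    intro h0
    have h1 := hpt₀ i
    rw [h0, map_zero, zero_mul, sub_zero, val_const_mul v₀ hx₀, hV] at h1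
    exact lt_irrefl _ h1
  refine ⟨x i / x₀ i, div_ne_zero hxi hx₀i, fun j => ?_⟩
  have hd : x i * x₀ j - x j * x₀ i = 0 := by
    by_contra hd
    have hid : algebraMap K F (x i * x₀ j - x j * x₀ i) * τ i₀ =
        algebraMap K F (x₀ i₀) * (algebraMap K F (x i) * τ j - algebraMap K F (x j) * τ i)
        - algebraMap K F (x i) * (algebraMap K F (x₀ i₀) * τ j - algebraMap K F (x₀ j) * τ i₀)
        + algebraMap K F (x j) * (algebraMap K F (x₀ i₀) * τ i - algebraMap K F (x₀ i) * τ i₀) := by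
      simp only [map_sub, map_mul]
      ring
    have h1 : v₀.adicValuation (algebraMap K F (x₀ i₀) *
        (algebraMap K F (x i) * τ j - algebraMap K F (x j) * τ i)) < v₀.adicValuation (τ i₀) := by
      rw [← hV]
      exact lt_of_le_of_lt (val_const_mul_le v₀ _ _) (hpt j)
    have h2 : v₀.adicValuation (algebraMap K F (x i) *
        (algebraMap K F (x₀ i₀) * τ j - algebraMap K F (x₀ j) * τ i₀)) < v₀.adicValuation (τ i₀) :=
      lt_of_le_of_lt (val_const_mul_le v₀ _ _) (hpt₀ j)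
    have h3 : v₀.adicValuation (algebraMap K F (x j) *
        (algebraMap K F (x₀ i₀) * τ i - algebraMap K F (x₀ i) * τ i₀)) < v₀.adicValuation (τ i₀) :=
      lt_of_le_of_lt (val_const_mul_le v₀ _ _) (hpt₀ i)
    have h4 := Valuation.map_add_lt _ (Valuation.map_sub_lt _ h1 h2) h3
    rw [← hid, val_const_mul v₀ hd] at h4
    exact lt_irrefl _ h4
  field_simp
  linear_combination -hd

theorem mem_L_nsmul_iff (v₀ : Place K F) (n : ℕ) (f : F) :
    f ∈ riemannRochSpace ((n : ℤ) • Finsupp.single v₀ (1 : ℤ)) ↔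
      v₀.adicValuation f ≤ exp (n : ℤ) ∧ ∀ w : Place K F, w ≠ v₀ → w.adicValuation f ≤ 1 := by
  constructor
  · intro h
    have h' : ∀ w : Place K F,
        w.adicValuation f ≤ exp (((n : ℤ) • Finsupp.single v₀ (1 : ℤ)) w) := h
    refine ⟨?_, fun w hw => ?_⟩
    · simpa using h' v₀
    · simpa [Finsupp.single_apply, Ne.symm hw] using h' w
  · rintro ⟨h0, h1⟩
    change ∀ w : Place K F, w.adicValuation f ≤ exp (((n : ℤ) • Finsupp.single v₀ (1 : ℤ)) w)
    intro w
    by_cases hw : w = v₀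
    · subst hw
      simpa using h0
    · simpa [Finsupp.single_apply, Ne.symm hw] using h1 w hw

theorem lin_mem_L {n : ℕ}
    (hτ : ∀ j, τ j ∈ riemannRochSpace (((n + 1 : ℕ) : ℤ) • Finsupp.single v₀ (1 : ℤ)))
    {i : ι} (h : IsRep v₀ τ x i) (p : ι × ι) :
    lin τ x p ∈ riemannRochSpace ((n : ℤ) • Finsupp.single v₀ (1 : ℤ)) := by
  rw [mem_L_nsmul_iff]
  refine ⟨?_, fun w hw => ?_⟩
  · rw [← val_lt_exp_succ_iff]
    refine lt_of_lt_of_le (val_lin_lt h p) ?_
    have h1 := ((mem_L_nsmul_iff v₀ (n + 1) (τ i)).mp (hτ i)).1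
    push_cast at h1
    exact h1
  · unfold lin
    refine le_trans (Valuation.map_sub _ _ _) (max_le ?_ ?_)
    · exact le_trans (val_const_mul_le w _ _)
        (((mem_L_nsmul_iff v₀ (n + 1) _).mp (hτ p.2)).2 w hw)
    · exact le_trans (val_const_mul_le w _ _)
        (((mem_L_nsmul_iff v₀ (n + 1) _).mp (hτ p.1)).2 w hw)

theorem val_chart_eq [Fintype ι] {m : ℕ} (hm : m ≠ 0)
    (hspan : Submodule.span K (Set.range τ) =
      riemannRochSpace ((m : ℤ) • Finsupp.single v₀ (1 : ℤ)))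
    (hng : ∃ g : F, g ∈ riemannRochSpace ((m : ℤ) • Finsupp.single v₀ (1 : ℤ)) ∧
      v₀.ord g = -(m : ℤ))
    {i : ι} (h : IsRep v₀ τ x i) : v₀.adicValuation (τ i) = exp (m : ℤ) := by
  refine le_antisymm ?_ ?_
  · have hmem : τ i ∈ riemannRochSpace ((m : ℤ) • Finsupp.single v₀ (1 : ℤ)) := by
      rw [← hspan]
      exact Submodule.subset_span ⟨i, rfl⟩
    exact ((mem_L_nsmul_iff v₀ m _).mp hmem).1
  · obtain ⟨g, hg, hord⟩ := hng
    have hg0 : g ≠ 0 := by
      rintro rfl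
      rw [Place.ord_zero] at hord
      have h1 : (m : ℤ) = 0 := by omega
      exact hm (by exact_mod_cast h1)
    rw [← hspan] at hg
    obtain ⟨c, rfl⟩ := (Submodule.mem_span_range_iff_exists_fun K).mp hg
    have h1 : v₀.adicValuation (∑ j, c j • τ j) = exp (m : ℤ) := by
      rw [v₀.adicValuation_eq_exp_neg_ord hg0, hord, neg_neg]
    rw [← h1]
    refine Valuation.map_sum_le _ fun j _ => ?_
    rw [Algebra.smul_def]
    exact le_trans (val_const_mul_le v₀ _ _) (val_le_of_isRep h j)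

theorem span_lin_eq [Fintype ι] {n : ℕ}
    (hspan : Submodule.span K (Set.range τ) =
      riemannRochSpace (((n + 1 : ℕ) : ℤ) • Finsupp.single v₀ (1 : ℤ)))
    (hng : ∃ g : F, g ∈ riemannRochSpace (((n + 1 : ℕ) : ℤ) • Finsupp.single v₀ (1 : ℤ)) ∧
      v₀.ord g = -((n + 1 : ℕ) : ℤ))
    {i : ι} (h : IsRep v₀ τ x i) :
    Submodule.span K (Set.range (lin τ x)) =
      riemannRochSpace ((n : ℤ) • Finsupp.single v₀ (1 : ℤ)) := by
  have hτ : ∀ j, τ j ∈ riemannRochSpace (((n + 1 : ℕ) : ℤ) • Finsupp.single v₀ (1 : ℤ)) :=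
    fun j => by
      rw [← hspan]
      exact Submodule.subset_span ⟨j, rfl⟩
  apply le_antisymm
  · rw [Submodule.span_le]
    rintro _ ⟨p, rfl⟩
    exact lin_mem_L hτ h p
  · intro f hf
    have hV := val_chart_eq (Nat.succ_ne_zero n) hspan hng h
    obtain ⟨hf0, hf1⟩ := (mem_L_nsmul_iff v₀ n f).mp hf
    have hfbig : f ∈ riemannRochSpace (((n + 1 : ℕ) : ℤ) • Finsupp.single v₀ (1 : ℤ)) := by
      rw [mem_L_nsmul_iff]
      refine ⟨le_trans hf0 ?_, hf1⟩
      rw [exp_le_exp]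
      push_cast
      omega
    rw [← hspan] at hfbig
    obtain ⟨c, rfl⟩ := (Submodule.mem_span_range_iff_exists_fun K).mp hfbig
    obtain ⟨hxi, hτi, hpt⟩ := h
    have hid : algebraMap K F (x i) * ∑ j, c j • τ j - algebraMap K F (∑ j, c j * x j) * τ i =
        ∑ j, algebraMap K F (c j) *
          (algebraMap K F (x i) * τ j - algebraMap K F (x j) * τ i) := by
      rw [map_sum, Finset.mul_sum, Finset.sum_mul, ← Finset.sum_sub_distrib]
      refine Finset.sum_congr rfl fun j _ => ?_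
      rw [Algebra.smul_def, map_mul]
      ring
    have hlt : v₀.adicValuation (∑ j, algebraMap K F (c j) *
        (algebraMap K F (x i) * τ j - algebraMap K F (x j) * τ i)) < v₀.adicValuation (τ i) := by
      refine Valuation.map_sum_lt _ ?_ fun j _ =>
        lt_of_le_of_lt (val_const_mul_le v₀ _ _) (hpt j)
      exact (Valuation.ne_zero_iff _).mpr hτi
    have hf_lt : v₀.adicValuation (algebraMap K F (x i) * ∑ j, c j • τ j)
        < v₀.adicValuation (τ i) := by
      rw [val_const_mul v₀ hxi, hV]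
      refine lt_of_le_of_lt hf0 ?_
      rw [exp_lt_exp]
      push_cast
      omega
    have hS : ∑ j, c j * x j = 0 := by
      by_contra hS
      have h2 : algebraMap K F (∑ j, c j * x j) * τ i =
          algebraMap K F (x i) * ∑ j, c j • τ j - ∑ j, algebraMap K F (c j) *
            (algebraMap K F (x i) * τ j - algebraMap K F (x j) * τ i) := by
        rw [← hid]
        ring
      have h3 := Valuation.map_sub_lt _ hf_lt hlt
      rw [← h2, val_const_mul v₀ hS] at h3
      exact lt_irrefl _ h3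
    have h4 : algebraMap K F (x i) * ∑ j, c j • τ j = ∑ j, c j • lin τ x (i, j) := by
      have h5 := hid
      rw [hS, map_zero, zero_mul, sub_zero] at h5
      rw [h5]
      refine Finset.sum_congr rfl fun j _ => ?_
      rw [Algebra.smul_def]
      rfl
    have hfin : ∑ j, c j • τ j = (x i)⁻¹ • ∑ j, c j • lin τ x (i, j) := by
      rw [← h4, Algebra.smul_def, ← mul_assoc, ← map_mul, inv_mul_cancel₀ hxi, map_one, one_mul]
    rw [hfin]
    exact Submodule.smul_mem _ _ (Submodule.sum_mem _ fun j _ =>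
      Submodule.smul_mem _ _ (Submodule.subset_span ⟨(i, j), rfl⟩))

/-- The two families of forms: `(lin p) ^ (n + 1)` is a form of degree `n` in `τ`, and
`(τ j) ^ n` is a form of degree `n + 1` in the `lin p`. -/
theorem exists_forms [Fintype ι] {n : ℕ}
    (hpow1 : riemannRochSpace ((n : ℤ) • Finsupp.single v₀ (1 : ℤ)) ^ (n + 1) =
      riemannRochSpace ((((n + 1) * n : ℕ) : ℤ) • Finsupp.single v₀ (1 : ℤ)))
    (hpow2 : riemannRochSpace (((n + 1 : ℕ) : ℤ) • Finsupp.single v₀ (1 : ℤ)) ^ n =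
      riemannRochSpace (((n * (n + 1) : ℕ) : ℤ) • Finsupp.single v₀ (1 : ℤ)))
    (hspan : Submodule.span K (Set.range τ) =
      riemannRochSpace (((n + 1 : ℕ) : ℤ) • Finsupp.single v₀ (1 : ℤ)))
    (hng : ∃ g : F, g ∈ riemannRochSpace (((n + 1 : ℕ) : ℤ) • Finsupp.single v₀ (1 : ℤ)) ∧
      v₀.ord g = -((n + 1 : ℕ) : ℤ))
    {i : ι} (h : IsRep v₀ τ x i) :
    (∀ p : ι × ι, ∃ P : MvPolynomial ι K, P.IsHomogeneous n ∧
        aeval τ P = lin τ x p ^ (n + 1)) ∧
    (∀ j : ι, ∃ R : MvPolynomial (ι × ι) K, R.IsHomogeneous (n + 1) ∧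
        aeval (lin τ x) R = τ j ^ n) := by
  have hτ : ∀ j, τ j ∈ riemannRochSpace (((n + 1 : ℕ) : ℤ) • Finsupp.single v₀ (1 : ℤ)) :=
    fun j => by
      rw [← hspan]
      exact Submodule.subset_span ⟨j, rfl⟩
  have hE := span_lin_eq hspan hng h
  have hcomm : ((n + 1) * n : ℕ) = n * (n + 1) := Nat.mul_comm _ _
  constructor
  · intro p
    apply exists_form_of_mem_span_pow τ n
    rw [hspan, hpow2, ← hcomm, ← hpow1]
    exact Submodule.pow_mem_pow _ (lin_mem_L hτ h p) (n + 1)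
  · intro j
    apply exists_form_of_mem_span_pow (lin τ x) (n + 1)
    rw [hE, hpow1, hcomm, ← hpow2]
    exact Submodule.pow_mem_pow _ (hτ j) n

/-- The core estimate for a fixed representative `x` of the point `v₀`. -/
theorem core [Fintype ι] {n : ℕ} (hn : n ≠ 0)
    (hpow1 : riemannRochSpace ((n : ℤ) • Finsupp.single v₀ (1 : ℤ)) ^ (n + 1) =
      riemannRochSpace ((((n + 1) * n : ℕ) : ℤ) • Finsupp.single v₀ (1 : ℤ)))
    (hpow2 : riemannRochSpace (((n + 1 : ℕ) : ℤ) • Finsupp.single v₀ (1 : ℤ)) ^ n =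
      riemannRochSpace (((n * (n + 1) : ℕ) : ℤ) • Finsupp.single v₀ (1 : ℤ)))
    (hspan : Submodule.span K (Set.range τ) =
      riemannRochSpace (((n + 1 : ℕ) : ℤ) • Finsupp.single v₀ (1 : ℤ)))
    (hng : ∃ g : F, g ∈ riemannRochSpace (((n + 1 : ℕ) : ℤ) • Finsupp.single v₀ (1 : ℤ)) ∧
      v₀.ord g = -((n + 1 : ℕ) : ℤ))
    {i : ι} (h : IsRep v₀ τ x i) :
    ∃ (C : ℝ) (Γ : Multiset K), 1 ≤ C ∧
      ∀ (v : AbsoluteValue K ℝ) (Q : Place K F) (y : ι → K),
        (∀ j, Q.adicValuation (τ j - algebraMap K F (y j)) < 1) →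
        (⨆ p : ι × ι, v (x p.1 * y p.2 - x p.2 * y p.1)) ^ (n + 1)
            ≤ locConst C Γ v * (⨆ j, v (y j)) ^ n ∧
        (⨆ j, v (y j)) ^ n
            ≤ locConst C Γ v * (⨆ p : ι × ι, v (x p.1 * y p.2 - x p.2 * y p.1)) ^ (n + 1) := by
  obtain ⟨hP, hR⟩ := exists_forms hpow1 hpow2 hspan hng h
  choose P hPh hPe using hP
  choose R hRh hRe using hR
  have hcP : (1 : ℝ) ≤ monoCount P := one_le_monoCount P
  have hcR : (1 : ℝ) ≤ monoCount R := one_le_monoCount R
  refine ⟨monoCount P * monoCount R, famCoeffs P + famCoeffs R,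
    one_le_mul_of_one_le_of_one_le hcP hcR, ?_⟩
  intro v Q y hy
  have hlin : ∀ p : ι × ι, Q.adicValuation
      (lin τ x p - algebraMap K F (x p.1 * y p.2 - x p.2 * y p.1)) < 1 := by
    intro p
    have h1 := val_aeval Q τ y hy (C (x p.1) * X p.2 - C (x p.2) * X p.1)
    simpa [lin] using h1
  have hcP' : locConst (monoCount P) (famCoeffs P) v
      ≤ locConst (monoCount P * monoCount R) (famCoeffs P + famCoeffs R) v :=
    locConst_mono (le_trans zero_le_one hcP) (le_mul_of_one_le_right (le_trans zero_le_one hcP) hcR)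
      (Multiset.le_add_right _ _) v
  have hcR' : locConst (monoCount R) (famCoeffs R) v
      ≤ locConst (monoCount P * monoCount R) (famCoeffs P + famCoeffs R) v :=
    locConst_mono (le_trans zero_le_one hcR) (le_mul_of_one_le_left (le_trans zero_le_one hcR) hcP)
      (Multiset.le_add_left _ _) v
  have hpos : 0 ≤ locConst (monoCount P * monoCount R) (famCoeffs P + famCoeffs R) v :=
    locConst_nonneg (mul_nonneg (le_trans zero_le_one hcP) (le_trans zero_le_one hcR)) _ v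
  have hY : 0 ≤ (⨆ j, v (y j)) ^ n := pow_nonneg (Real.iSup_nonneg fun j => v.nonneg _) n
  have hA : 0 ≤ (⨆ p : ι × ι, v (x p.1 * y p.2 - x p.2 * y p.1)) ^ (n + 1) :=
    pow_nonneg (Real.iSup_nonneg fun p => v.nonneg _) (n + 1)
  constructor
  · refine iSup_pow_le _ (Nat.succ_ne_zero n) (mul_nonneg hpos hY) fun p => ?_
    have e : (x p.1 * y p.2 - x p.2 * y p.1) ^ (n + 1) = eval y (P p) := by
      refine val_unique Q (f := lin τ x p ^ (n + 1)) (val_pow Q (hlin p) (n + 1)) ?_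
      rw [← hPe p]
      exact val_aeval Q τ y hy (P p)
    rw [← map_pow, e]
    exact le_trans (abv_eval_le v P p (hPh p) y) (mul_le_mul_of_nonneg_right hcP' hY)
  · refine iSup_pow_le _ hn (mul_nonneg hpos hA) fun j => ?_
    have e : (y j) ^ n = eval (fun p : ι × ι => x p.1 * y p.2 - x p.2 * y p.1) (R j) := by
      refine val_unique Q (f := τ j ^ n) (val_pow Q (hy j) n) ?_
      rw [← hRe j]
      exact val_aeval Q (lin τ x) _ hlin (R j)
    rw [← map_pow, e]
    exact le_trans (abv_eval_le v R j (hRh j) _) (mul_le_mul_of_nonneg_right hcR' hA)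

/-- From one representative to all of them: the estimate in homogeneous form. -/
theorem homogenize [Fintype ι] {n : ℕ} {x₀ : ι → K} {i₀ : ι} (h₀ : IsRep v₀ τ x₀ i₀)
    {C₁ : ℝ} {Γ₁ : Multiset K} (hC₁ : 1 ≤ C₁)
    (hcore : ∀ (v : AbsoluteValue K ℝ) (Q : Place K F) (y : ι → K),
        (∀ j, Q.adicValuation (τ j - algebraMap K F (y j)) < 1) →
        (⨆ p : ι × ι, v (x₀ p.1 * y p.2 - x₀ p.2 * y p.1)) ^ (n + 1)
            ≤ locConst C₁ Γ₁ v * (⨆ j, v (y j)) ^ n ∧
        (⨆ j, v (y j)) ^ n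
            ≤ locConst C₁ Γ₁ v * (⨆ p : ι × ι, v (x₀ p.1 * y p.2 - x₀ p.2 * y p.1)) ^ (n + 1)) :
    ∃ (C : ℝ) (Γ : Multiset K), 1 ≤ C ∧
      ∀ (v : AbsoluteValue K ℝ) (x : ι → K) (i : ι), x i ≠ 0 → τ i ≠ 0 →
        (∀ j, v₀.adicValuation (algebraMap K F (x i) * τ j - algebraMap K F (x j) * τ i)
          < v₀.adicValuation (τ i)) →
        ∀ (Q : Place K F) (y : ι → K), (∀ j, Q.adicValuation (τ j - algebraMap K F (y j)) < 1) →
          (⨆ p : ι × ι, v (x p.1 * y p.2 - x p.2 * y p.1)) ^ (n + 1)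
              ≤ locConst C Γ v * (⨆ j, v (x j)) ^ (n + 1) * (⨆ j, v (y j)) ^ n ∧
          (⨆ j, v (x j)) ^ (n + 1) * (⨆ j, v (y j)) ^ n
              ≤ locConst C Γ v * (⨆ p : ι × ι, v (x p.1 * y p.2 - x p.2 * y p.1)) ^ (n + 1) := by
  classical
  refine ⟨C₁, Γ₁ + (n + 1) • ({(x₀ i₀)⁻¹} : Multiset K) + (n + 1) • (Finset.univ.val.map x₀),
    hC₁, ?_⟩
  intro v x i hxi hτi hpt Q y hy
  obtain ⟨c, hc, hx⟩ := isRep_unique (⟨hxi, hτi, hpt⟩ : IsRep v₀ τ x i) h₀
  obtain ⟨hup, hdown⟩ := hcore v Q y hy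
  have hσ : (⨆ p : ι × ι, v (x p.1 * y p.2 - x p.2 * y p.1)) =
      v c * ⨆ p : ι × ι, v (x₀ p.1 * y p.2 - x₀ p.2 * y p.1) := by
    rw [Real.mul_iSup_of_nonneg (v.nonneg c)]
    congr 1
    funext p
    rw [hx p.1, hx p.2, ← map_mul]
    congr 1
    ring
  have hX : (⨆ j, v (x j)) = v c * ⨆ j, v (x₀ j) := by
    rw [Real.mul_iSup_of_nonneg (v.nonneg c)]
    congr 1
    funext j
    rw [hx j, map_mul]
  rw [hσ, hX, mul_pow, mul_pow]
  have hloc : locConst C₁
      (Γ₁ + (n + 1) • ({(x₀ i₀)⁻¹} : Multiset K) + (n + 1) • (Finset.univ.val.map x₀)) v =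
      locConst C₁ Γ₁ v * gamProd ((n + 1) • ({(x₀ i₀)⁻¹} : Multiset K)) v *
        gamProd ((n + 1) • (Finset.univ.val.map x₀)) v := by
    simp only [locConst, gamProd_add]
    ring
  rw [hloc]
  generalize hA : (⨆ p : ι × ι, v (x₀ p.1 * y p.2 - x₀ p.2 * y p.1)) ^ (n + 1) = A at hup hdown ⊢
  generalize hY : (⨆ j, v (y j)) ^ n = Y at hup hdown ⊢
  generalize hc₁ : locConst C₁ Γ₁ v = c₁ at hup hdown ⊢
  have hvc : 0 ≤ v c ^ (n + 1) := pow_nonneg (v.nonneg c) _
  have hA0 : 0 ≤ A := by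
    rw [← hA]
    exact pow_nonneg (Real.iSup_nonneg fun p => v.nonneg _) _
  have hY0 : 0 ≤ Y := by
    rw [← hY]
    exact pow_nonneg (Real.iSup_nonneg fun j => v.nonneg _) _
  have hc₁0 : 0 ≤ c₁ := by
    rw [← hc₁]
    exact locConst_nonneg (le_trans zero_le_one hC₁) _ v
  have hg₂1 : 1 ≤ gamProd ((n + 1) • ({(x₀ i₀)⁻¹} : Multiset K)) v := one_le_gamProd _ v
  have hg₃1 : 1 ≤ gamProd ((n + 1) • (Finset.univ.val.map x₀)) v := one_le_gamProd _ v
  have hf1 : 1 ≤ gamProd ((n + 1) • ({(x₀ i₀)⁻¹} : Multiset K)) v *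
      (⨆ j, v (x₀ j)) ^ (n + 1) := by
    have ha : 0 < v (x₀ i₀) := v.pos h₀.1
    have hsup : v (x₀ i₀) ≤ ⨆ j, v (x₀ j) := Finite.le_ciSup (fun j => v (x₀ j)) i₀
    rw [gamProd_nsmul, ← Multiset.cons_zero, gamProd_cons, gamProd_zero, mul_one, ← mul_pow]
    refine one_le_pow₀ ?_
    calc (1 : ℝ) = (v (x₀ i₀))⁻¹ * v (x₀ i₀) := (inv_mul_cancel₀ ha.ne').symm
      _ ≤ max 1 (v (x₀ i₀)⁻¹) * ⨆ j, v (x₀ j) := by
        rw [map_inv₀]
        exact mul_le_mul (le_max_right _ _) hsup ha.le (le_trans zero_le_one (le_max_left _ _))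
  have hf2 : (⨆ j, v (x₀ j)) ^ (n + 1) ≤ gamProd ((n + 1) • (Finset.univ.val.map x₀)) v := by
    have : Nonempty ι := ⟨i₀⟩
    rw [gamProd_nsmul]
    refine pow_le_pow_left₀ (Real.iSup_nonneg fun j => v.nonneg _) ?_ _
    exact ciSup_le fun j =>
      le_gamProd_of_mem (Multiset.mem_map_of_mem _ (Finset.mem_univ_val j)) v
  generalize gamProd ((n + 1) • ({(x₀ i₀)⁻¹} : Multiset K)) v = g₂ at hg₂1 hf1 ⊢
  generalize gamProd ((n + 1) • (Finset.univ.val.map x₀)) v = g₃ at hg₃1 hf2 ⊢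
  generalize hX₀ : (⨆ j, v (x₀ j)) ^ (n + 1) = X₀ at hf1 hf2 ⊢
  constructor
  · calc v c ^ (n + 1) * A ≤ v c ^ (n + 1) * (c₁ * Y) := mul_le_mul_of_nonneg_left hup hvc
      _ ≤ v c ^ (n + 1) * (c₁ * Y * (g₂ * X₀) * g₃) := by
        refine mul_le_mul_of_nonneg_left ?_ hvc
        have h1 : c₁ * Y ≤ c₁ * Y * (g₂ * X₀) := le_mul_of_one_le_right (mul_nonneg hc₁0 hY0) hf1
        exact le_trans h1 (le_mul_of_one_le_right (le_trans (mul_nonneg hc₁0 hY0) h1) hg₃1)
      _ = c₁ * g₂ * g₃ * (v c ^ (n + 1) * X₀) * Y := by ring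
  · calc v c ^ (n + 1) * X₀ * Y ≤ v c ^ (n + 1) * g₃ * (c₁ * A) := by
          refine mul_le_mul (mul_le_mul_of_nonneg_left hf2 hvc) hdown hY0 ?_
          exact mul_nonneg hvc (le_trans zero_le_one hg₃1)
      _ ≤ v c ^ (n + 1) * g₃ * (c₁ * A) * g₂ :=
          le_mul_of_one_le_right (mul_nonneg (mul_nonneg hvc (le_trans zero_le_one hg₃1))
            (mul_nonneg hc₁0 hA0)) hg₂1
      _ = c₁ * g₂ * g₃ * (v c ^ (n + 1) * A) := by ring

end Point

section Threshold

variable [IsAlgClosed K] [CharZero K] [Algebra.EssFiniteType K F]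

/-- The thresholds: for `m0 = n + 1` large, the section ring statements at `n` and `n + 1` and a
function of exact pole order `n + 1`. -/
theorem exists_threshold (htr : Algebra.trdeg K F = 1) (v₀ : Place K F) :
    ∃ n₀ : ℕ, ∀ m0 : ℕ, n₀ ≤ m0 → ∃ n : ℕ, n ≠ 0 ∧ m0 = n + 1 ∧
      riemannRochSpace ((n : ℤ) • Finsupp.single v₀ (1 : ℤ)) ^ (n + 1) =
        riemannRochSpace ((((n + 1) * n : ℕ) : ℤ) • Finsupp.single v₀ (1 : ℤ)) ∧
      riemannRochSpace (((n + 1 : ℕ) : ℤ) • Finsupp.single v₀ (1 : ℤ)) ^ n =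
        riemannRochSpace (((n * (n + 1) : ℕ) : ℤ) • Finsupp.single v₀ (1 : ℤ)) ∧
      ∃ g : F, g ∈ riemannRochSpace (((n + 1 : ℕ) : ℤ) • Finsupp.single v₀ (1 : ℤ)) ∧
        v₀.ord g = -((n + 1 : ℕ) : ℤ) := by
  obtain ⟨n₁, h₁⟩ := Fermat.Agent.S17.R.L_pow_nsmul_single htr v₀
  obtain ⟨n₂, h₂⟩ := Fermat.Agent.S17.R.exists_nongap_bound htr v₀
  refine ⟨max (n₁ + 2) n₂, fun m0 hm => ?_⟩
  have hm1 : n₁ + 2 ≤ m0 := le_trans (le_max_left _ _) hm
  have hm2 : n₂ ≤ m0 := le_trans (le_max_right _ _) hm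
  obtain ⟨k, rfl⟩ : ∃ k, m0 = k + 2 := ⟨m0 - 2, by omega⟩
  exact ⟨k + 1, Nat.succ_ne_zero k, rfl, h₁ (k + 1) (by omega) (k + 1),
    h₁ (k + 1 + 1) (by omega) k, h₂ (k + 1 + 1) hm2⟩

end Threshold

end InfDist

variable {K F : Type*} [Field K] [Field F] [Algebra K F]
variable [IsAlgClosed K] [CharZero K] [Algebra.EssFiniteType K F]

/-- **C-OO, fixed representative.**  For `m0` large, `τ` spanning `L(m0 · v₀)` and `x` a
representative of the point `v₀`: for every absolute value `v` of `K`, every place `Q` and the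
vector `y` of the values of `τ` at `Q`, the `m0`-th power of the size of the secant coordinates
`x p.1 * y p.2 - x p.2 * y p.1` and the `(m0 - 1)`-th power of the size of `y` agree up to a local
constant of product type. -/
theorem infDist_fixed (htr : Algebra.trdeg K F = 1) (v₀ : Place K F) :
    ∃ n₀ : ℕ, ∀ m0 : ℕ, n₀ ≤ m0 → ∀ (r : ℕ) (τ : Fin r → F),
      Submodule.span K (Set.range τ) =
        riemannRochSpace ((m0 : ℤ) • Finsupp.single v₀ (1 : ℤ)) →
      ∀ (x : Fin r → K) (i : Fin r), x i ≠ 0 → τ i ≠ 0 →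
        (∀ j, v₀.adicValuation (algebraMap K F (x i) * τ j - algebraMap K F (x j) * τ i)
          < v₀.adicValuation (τ i)) →
        ∃ (C : ℝ) (Γ : Multiset K), 1 ≤ C ∧
          ∀ (v : AbsoluteValue K ℝ) (Q : Place K F) (y : Fin r → K),
            (∀ j, Q.adicValuation (τ j - algebraMap K F (y j)) < 1) →
            (⨆ p : Fin r × Fin r, v (x p.1 * y p.2 - x p.2 * y p.1)) ^ m0
                ≤ locConst C Γ v * (⨆ j, v (y j)) ^ (m0 - 1) ∧
            (⨆ j, v (y j)) ^ (m0 - 1)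
                ≤ locConst C Γ v *
                  (⨆ p : Fin r × Fin r, v (x p.1 * y p.2 - x p.2 * y p.1)) ^ m0 := by
  obtain ⟨n₀, h₀⟩ := InfDist.exists_threshold htr v₀
  refine ⟨n₀, fun m0 hm r τ hspan x i hxi hτi hpt => ?_⟩
  obtain ⟨n, hn, rfl, hpow1, hpow2, hng⟩ := h₀ m0 hm
  simp only [Nat.add_sub_cancel]
  exact InfDist.core hn hpow1 hpow2 hspan hng ⟨hxi, hτi, hpt⟩

/-- **C-OO.**  For `m0` large and `τ` spanning `L(m0 · v₀)` there is a local constant of product
type such that for every absolute value `v` of `K`, every representative `x` of the point `v₀`,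
every place `Q` and the vector `y` of the values of `τ` at `Q`:

`(sup_p v (x p.1 * y p.2 - x p.2 * y p.1)) ^ m0` and
`(sup_j v (x j)) ^ m0 * (sup_j v (y j)) ^ (m0 - 1)` bound each other. -/
theorem infDist (htr : Algebra.trdeg K F = 1) (v₀ : Place K F) :
    ∃ n₀ : ℕ, ∀ m0 : ℕ, n₀ ≤ m0 → ∀ (r : ℕ) (τ : Fin r → F),
      Submodule.span K (Set.range τ) =
        riemannRochSpace ((m0 : ℤ) • Finsupp.single v₀ (1 : ℤ)) →
      ∃ (C : ℝ) (Γ : Multiset K), 1 ≤ C ∧
        ∀ (v : AbsoluteValue K ℝ) (x : Fin r → K) (i : Fin r), x i ≠ 0 → τ i ≠ 0 →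
          (∀ j, v₀.adicValuation (algebraMap K F (x i) * τ j - algebraMap K F (x j) * τ i)
            < v₀.adicValuation (τ i)) →
          ∀ (Q : Place K F) (y : Fin r → K),
            (∀ j, Q.adicValuation (τ j - algebraMap K F (y j)) < 1) →
            (⨆ p : Fin r × Fin r, v (x p.1 * y p.2 - x p.2 * y p.1)) ^ m0
                ≤ locConst C Γ v * (⨆ j, v (x j)) ^ m0 * (⨆ j, v (y j)) ^ (m0 - 1) ∧
            (⨆ j, v (x j)) ^ m0 * (⨆ j, v (y j)) ^ (m0 - 1)
                ≤ locConst C Γ v *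
                  (⨆ p : Fin r × Fin r, v (x p.1 * y p.2 - x p.2 * y p.1)) ^ m0 := by
  obtain ⟨n₀, h₀⟩ := InfDist.exists_threshold htr v₀
  refine ⟨n₀, fun m0 hm r τ hspan => ?_⟩
  obtain ⟨n, hn, rfl, hpow1, hpow2, hng⟩ := h₀ m0 hm
  simp only [Nat.add_sub_cancel]
  by_cases hex : ∃ (x₀ : Fin r → K) (i₀ : Fin r), InfDist.IsRep v₀ τ x₀ i₀
  · obtain ⟨x₀, i₀, hrep₀⟩ := hex
    obtain ⟨C₁, Γ₁, hC₁, hcore⟩ := InfDist.core hn hpow1 hpow2 hspan hng hrep₀
    exact InfDist.homogenize hrep₀ hC₁ hcore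
  · exact ⟨1, 0, le_rfl, fun v x i hxi hτi hpt => absurd ⟨x, i, hxi, hτi, hpt⟩ hex⟩

end Fermat.Agent.S17.H.LD
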