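import Mathlib
import Fermat.Agent.S17.H.LD.Pt

/-!
# PROGRAM MW (S17), strand H, block C, row C1: the row literals on top of `LD/Pt.lean` (helper87)

The names of row `S17.H.C1` that are not already in `LD/Pt.lean`, verbatim:

* `IsPt.ne_zero` : a representative of a point is not the zero vector;
* `IsPt.eval_eq_zero` : a representative of a point lies on the cone of homogeneous relations;
* `IsPt.smul_pi` : scaling the representative, with the conclusion written `c • x`;
* `IsPt.exists_ne_zero`, `IsPt.congr_family`, `isPt_iff_of_ne_zero`: convenience forms.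
-/

set_option autoImplicit false

namespace Fermat.Agent.S17.H.LD

open AlgebraicCurve MvPolynomial
open Fermat.Agent.S24.FF

variable {K F : Type*} [Field K] [Field F] [Algebra K F]

/-- A representative of a point is not the zero vector. -/
theorem IsPt.ne_zero {ι : Type*} {φ : ι → F} {Z : Place K F} {x : ι → K} (hx : IsPt φ Z x) :
    x ≠ 0 := by
  obtain ⟨i, hi, -, -⟩ := hx
  intro h0
  exact hi (by rw [h0]; rfl)

/-- A representative of a point has a nonzero coordinate, at which the coordinate function is
nonzero. -/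
theorem IsPt.exists_ne_zero {ι : Type*} {φ : ι → F} {Z : Place K F} {x : ι → K}
    (hx : IsPt φ Z x) : ∃ i, x i ≠ 0 ∧ φ i ≠ 0 := by
  obtain ⟨i, hi, hφi, -⟩ := hx
  exact ⟨i, hi, hφi⟩

/-- A representative of a point lies on the cone of homogeneous relations of the family. -/
theorem IsPt.eval_eq_zero {ι : Type*} [Finite ι] {φ : ι → F} {Z : Place K F} {x : ι → K}
    (hx : IsPt φ Z x) {n : ℕ} {P : MvPolynomial ι K} (hP : P.IsHomogeneous n)
    (h0 : aeval φ P = 0) : eval x P = 0 :=
  hx.onCone n P hP h0

/-- Scaling the representative (conclusion written with the pointwise scalar action). -/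
theorem IsPt.smul_pi {ι : Type*} {φ : ι → F} {Z : Place K F} {x : ι → K} (hx : IsPt φ Z x)
    {c : K} (hc : c ≠ 0) : IsPt φ Z (c • x) :=
  hx.smul hc

/-- The point condition at a prescribed index of the support. -/
theorem isPt_iff_of_ne_zero {ι : Type*} {φ : ι → F} {Z : Place K F} {x : ι → K} {i : ι}
    (hi : x i ≠ 0) :
    IsPt φ Z x ↔ φ i ≠ 0 ∧ ∀ j,
      Z.adicValuation (algebraMap K F (x i) * φ j - algebraMap K F (x j) * φ i)
        < Z.adicValuation (φ i) :=
  ⟨fun h => h.of_ne_zero hi, fun h => ⟨i, hi, h.1, h.2⟩⟩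

/-- The point only depends on the family as a function. -/
theorem IsPt.congr_family {ι : Type*} {φ ψ : ι → F} {Z : Place K F} {x : ι → K}
    (hx : IsPt φ Z x) (h : ∀ j, ψ j = φ j) : IsPt ψ Z x := by
  have e : ψ = φ := funext h
  rw [e]
  exact hx

/-- Reindexing: the point of a subfamily containing an index of the support. -/
theorem IsPt.comp {ι κ : Type*} {φ : ι → F} {Z : Place K F} {x : ι → K} (hx : IsPt φ Z x)
    (e : κ → ι) (he : ∃ k, x (e k) ≠ 0) : IsPt (fun k => φ (e k)) Z (fun k => x (e k)) := by
  obtain ⟨k, hk⟩ := he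
  obtain ⟨hφ, hpt⟩ := hx.of_ne_zero hk
  exact ⟨k, hk, hφ, fun j => hpt (e j)⟩

end Fermat.Agent.S17.H.LD
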