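/-
MW strand H, block C (LD): the curve inputs of the bounded-representation leaf
(`UpMatrix.exists_bounded_rep`, the core of the solution statement `UpCurve.SolStatement`)
in the consumer's shape (helper163).

`F / K` a function field of one variable over an algebraically closed field of characteristic
zero, `v₀` a place, `τ` a spanning family of `L(m0 v₀)`, `εf` a spanning family of `L(e m0 v₀)`,
`2 ≤ e`, `m0` above the Riemann threshold.  The columns are the sections
`(∏ i, lin τ (x i) (c.1 i)) * εf c.2`, `c : (Fin M → ι × ι) × ε`.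

* `prod_lin_mul_mem_L`: every column lies in `L((M + e) m0 v₀)` (no hypothesis on `x`);
* `exists_threshold_finrank`: for every tuple `x` of nonzero cone points the span of the columns
  has dimension `(M + e) m0 + 1 - M - g` (natural subtraction, exact) - the hypothesis `hρ`;
* `exists_threshold_mem_span`: if `div s + (k m0) v₀ = ∑ i, Z i`, the `x i` are value vectors
  of `τ` at the `Z i` and `ε' ∈ L(n v₀)` with `k m0 + n = (k m0 + e) m0`, then `s * ε'` lies in
  the span of the columns at `x` - the membership hypothesis;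
* `exists_threshold_mem_span_forms`: the same with the degree literal
  `n = (k m0 - k + e) m0` of the forms `E'`.
-/
import Mathlib
import Fermat.Agent.S17.H.LD.ConeRank
import Fermat.Agent.S17.H.LD.DivCount

set_option autoImplicit false

namespace Fermat.Agent.S17.H.LD.ConeFeed

open AlgebraicCurve MvPolynomial Fermat.Agent.S17.R Fermat.Agent.S17.H.LD
  Fermat.Agent.S17.H.LD.Pencil Fermat.Agent.S17.H.LD.ConstRankTwin
  Fermat.Agent.S17.H.LD.ConeRank

variable {K F : Type*} [Field K] [Field F] [Algebra K F]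

/-- Every column `(∏ i, lin τ (x i) (q i)) * β` lies in `L((M + e) m0 v₀)`. -/
theorem prod_lin_mul_mem_L (v₀ : Place K F) {m0 : ℕ} {ι : Type*} (τ : ι → F)
    (hτ : ∀ j, τ j ∈ riemannRochSpace ((m0 : ℤ) • Finsupp.single v₀ (1 : ℤ))) (M e : ℕ)
    (x : Fin M → ι → K) (q : Fin M → ι × ι) {β : F}
    (hβ : β ∈ riemannRochSpace (((e * m0 : ℕ) : ℤ) • Finsupp.single v₀ (1 : ℤ))) :
    (∏ i, lin τ (x i) (q i)) * β ∈
      riemannRochSpace ((((M + e) * m0 : ℕ) : ℤ) • Finsupp.single v₀ (1 : ℤ)) := by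
  have hl : ∀ i, lin τ (x i) (q i) ∈
      riemannRochSpace ((m0 : ℤ) • Finsupp.single v₀ (1 : ℤ)) := by
    intro i
    unfold lin
    exact Submodule.sub_mem _ (Submodule.smul_mem _ _ (hτ _)) (Submodule.smul_mem _ _ (hτ _))
  have h1 := DivCount.prod_mem_L (Finset.univ : Finset (Fin M))
    (fun _ => (m0 : ℤ) • Finsupp.single v₀ (1 : ℤ)) (fun i => lin τ (x i) (q i))
    (fun i _ => hl i)
  have h2 := mul_mem_L h1 hβ
  have hsum : ∑ _i : Fin M, ((m0 : ℤ) • Finsupp.single v₀ (1 : ℤ) : Divisor K F) +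
      ((e * m0 : ℕ) : ℤ) • Finsupp.single v₀ (1 : ℤ) =
      (((M + e) * m0 : ℕ) : ℤ) • Finsupp.single v₀ (1 : ℤ) := by
    rw [Finset.sum_const, Finset.card_univ, Fintype.card_fin, ← natCast_zsmul, smul_smul,
      ← add_smul]
    congr 1
    push_cast
    ring
  rwa [hsum] at h2

section Curve

variable [IsAlgClosed K] [CharZero K] [Algebra.EssFiniteType K F]

/-- **The hypothesis `hρ`** of `UpMatrix.exists_bounded_rep` (`hrank` of `exists_up_sol`): for
every tuple of nonzero cone points the span of the columns has dimension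
`(M + e) m0 + 1 - M - g`. -/
theorem exists_threshold_finrank (htr : Algebra.trdeg K F = 1) (v₀ : Place K F) :
    ∃ n₁ : ℕ, ∀ m0 : ℕ, n₁ ≤ m0 → ∀ {ι : Type*} [Fintype ι] (τ : ι → F),
      Submodule.span K (Set.range τ) =
        riemannRochSpace ((m0 : ℤ) • Finsupp.single v₀ (1 : ℤ)) →
      ∀ (M e : ℕ), 2 ≤ e → ∀ {ε : Type*} [Fintype ε] (εf : ε → F),
      Submodule.span K (Set.range εf) =
        riemannRochSpace (((e * m0 : ℕ) : ℤ) • Finsupp.single v₀ (1 : ℤ)) →
      ∀ x : Fin M → ι → K, (∀ i, OnCone τ (x i)) → (∀ i, x i ≠ 0) →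
        Module.finrank K ↥(Submodule.span K (Set.range fun c : (Fin M → ι × ι) × ε =>
          (∏ i, lin τ (x i) (c.1 i)) * εf c.2)) = (M + e) * m0 + 1 - M - gR K F := by
  obtain ⟨c, hc⟩ := exists_isRiemannBound (K := K) (F := F) htr
  refine ⟨(c + 2).toNat, fun m0 hm0 ι _ τ hτ M e he ε _ εf hεf x hcone hx => ?_⟩
  have hm0' : c + 2 ≤ (m0 : ℤ) := PoleOrder.le_of_toNat_le hm0
  have h := finrank_span_cols htr hc v₀ hm0' τ
    (spanLin_of_span htr hc v₀ (by linarith) τ hτ) M e he x hx hcone εf hεf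
  generalize (M + e) * m0 = N at h ⊢
  omega

/-- **The membership hypothesis** of `UpMatrix.exists_bounded_rep` on the curve: the product of
a section `s` with zeros `Z i` (with multiplicity, `div s + (k m0) v₀ = ∑ i, Z i`) and of
`ε' ∈ L(n v₀)`, `k m0 + n = (k m0 + e) m0`, lies in the span of the columns at value vectors
`x i` of `τ` at the `Z i`. -/
theorem exists_threshold_mem_span (htr : Algebra.trdeg K F = 1) (v₀ : Place K F) :
    ∃ n₁ : ℕ, ∀ m0 : ℕ, n₁ ≤ m0 → ∀ {ι : Type*} [Fintype ι] (τ : ι → F),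
      Submodule.span K (Set.range τ) =
        riemannRochSpace ((m0 : ℤ) • Finsupp.single v₀ (1 : ℤ)) →
      ∀ (k n e : ℕ), 2 ≤ e → k * m0 + n = (k * m0 + e) * m0 →
      ∀ {ε : Type*} [Fintype ε] (εf : ε → F),
      Submodule.span K (Set.range εf) =
        riemannRochSpace (((e * m0 : ℕ) : ℤ) • Finsupp.single v₀ (1 : ℤ)) →
      ∀ (s : F) (Z : Fin (k * m0) → Place K F) (x : Fin (k * m0) → ι → K),
      divOf K s + ((k * m0 : ℕ) : ℤ) • Finsupp.single v₀ (1 : ℤ) =
        ∑ i, Finsupp.single (Z i) (1 : ℤ) →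
      (∀ i, IsPt τ (Z i) (x i)) →
      ∀ ε' : F, ε' ∈ riemannRochSpace ((n : ℤ) • Finsupp.single v₀ (1 : ℤ)) →
      s * ε' ∈ Submodule.span K (Set.range fun c : (Fin (k * m0) → ι × ι) × ε =>
        (∏ i, lin τ (x i) (c.1 i)) * εf c.2) := by
  obtain ⟨c, hc⟩ := exists_isRiemannBound (K := K) (F := F) htr
  refine ⟨(c + 2).toNat,
    fun m0 hm0 ι _ τ hτ k n e he hnum ε _ εf hεf s Z x hZ hpt ε' hε' => ?_⟩
  have hm0' : c + 2 ≤ (m0 : ℤ) := PoleOrder.le_of_toNat_le hm0
  have h1 := DivCount.mul_mem_L_nsmul_sub_zeros htr v₀ m0 k n s Z hZ hε'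
  rw [hnum] at h1
  obtain ⟨f, hf, hyf⟩ := exists_rep_of_span htr hc v₀ hm0' τ (k * m0) e he Z x
    (fun i => spanLin_of_span htr hc v₀ (by linarith) τ hτ (Z i) (x i) (hpt i)) h1
  rw [hyf]
  refine Submodule.sum_mem _ fun ab _ => ?_
  have hfab : f ab ∈ Submodule.span K (Set.range εf) := by
    rw [hεf]
    exact hf ab
  obtain ⟨cf, hcf⟩ := (Submodule.mem_span_range_iff_exists_fun K).mp hfab
  rw [← hcf, Finset.mul_sum]
  refine Submodule.sum_mem _ fun t _ => ?_
  rw [mul_smul_comm]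
  have hcol : (∏ i, (algebraMap K F (x i (ab i).1) * τ (ab i).2 -
      algebraMap K F (x i (ab i).2) * τ (ab i).1)) * εf t =
      (∏ i, lin τ (x i) (ab i)) * εf t := by
    congr 1
    exact Finset.prod_congr rfl fun i _ => (lin_eq τ (x i) (ab i)).symm
  rw [hcol]
  exact Submodule.smul_mem _ _ (Submodule.subset_span ⟨(ab, t), rfl⟩)

/-- `exists_threshold_mem_span` at the degree literal of the forms `E'` of
`UpCurve.SolStatement`: `ε' ∈ L((k m0 - k + e) m0 v₀)`. -/
theorem exists_threshold_mem_span_forms (htr : Algebra.trdeg K F = 1) (v₀ : Place K F) :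
    ∃ n₁ : ℕ, ∀ m0 : ℕ, n₁ ≤ m0 → ∀ {ι : Type*} [Fintype ι] (τ : ι → F),
      Submodule.span K (Set.range τ) =
        riemannRochSpace ((m0 : ℤ) • Finsupp.single v₀ (1 : ℤ)) →
      ∀ (k e : ℕ), 2 ≤ e → ∀ {ε : Type*} [Fintype ε] (εf : ε → F),
      Submodule.span K (Set.range εf) =
        riemannRochSpace (((e * m0 : ℕ) : ℤ) • Finsupp.single v₀ (1 : ℤ)) →
      ∀ (s : F) (Z : Fin (k * m0) → Place K F) (x : Fin (k * m0) → ι → K),
      divOf K s + ((k * m0 : ℕ) : ℤ) • Finsupp.single v₀ (1 : ℤ) =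
        ∑ i, Finsupp.single (Z i) (1 : ℤ) →
      (∀ i, IsPt τ (Z i) (x i)) →
      ∀ ε' : F, ε' ∈ riemannRochSpace
        ((((k * m0 - k + e) * m0 : ℕ) : ℤ) • Finsupp.single v₀ (1 : ℤ)) →
      s * ε' ∈ Submodule.span K (Set.range fun c : (Fin (k * m0) → ι × ι) × ε =>
        (∏ i, lin τ (x i) (c.1 i)) * εf c.2) := by
  obtain ⟨n₁, h⟩ := exists_threshold_mem_span (K := K) (F := F) htr v₀
  refine ⟨max n₁ 1, fun m0 hm0 ι _ τ hτ k e he ε _ εf hεf s Z x hZ hpt ε' hε' => ?_⟩
  have hm1 : 1 ≤ m0 := le_trans (le_max_right _ _) hm0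
  have hmn : n₁ ≤ m0 := le_trans (le_max_left _ _) hm0
  have hk : k ≤ k * m0 := Nat.le_mul_of_pos_right k hm1
  obtain ⟨q, hq⟩ : ∃ q, k * m0 = k + q := ⟨k * m0 - k, by omega⟩
  have hq' : k * m0 - k = q := by omega
  have hnum : k * m0 + (k * m0 - k + e) * m0 = (k * m0 + e) * m0 := by
    rw [hq']
    calc k * m0 + (q + e) * m0 = (k + q) * m0 + e * m0 := by ring
      _ = k * m0 * m0 + e * m0 := by rw [← hq]
      _ = (k * m0 + e) * m0 := by ring
  exact h m0 hmn τ hτ k ((k * m0 - k + e) * m0) e he hnum εf hεf s Z x hZ hpt ε' hε'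

end Curve

end Fermat.Agent.S17.H.LD.ConeFeed
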