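import Mathlib
import Fermat.Agent.S17.R.LStep
import Fermat.Agent.S17.R.SectionRingCore
import Fermat.Agent.S17.H.LD.Down
import Fermat.Agent.S17.H.LD.Pt
import Fermat.Agent.S17.H.LD.Forms
import Fermat.Agent.S17.H.LD.DivCount
import Fermat.Agent.S17.H.LD.MulLowerField
import Fermat.Agent.S17.H.LD.InfDist

/-!
# S17 / strand H, block C, leaf C8b: the lower half of (LD) on the curve

`F / K` a function field of one variable, `v₀` a place, `τ` a basis of `L(m0 · v₀)` (`m0` large),
`ψ` a basis of `L(k m0 · v₀)` written as forms `P` of degree `k` in `τ`.  For a section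
`s = ∑ a j • ψ j ≠ 0` with zeros `Z i` (`i < k m0`, with multiplicity, `Z i = v₀` allowed),
representatives `x i` of the points `Z i` and any point `y` of the cone of `τ`:

`|a|_v * ∏ i |sec (x i) y|_v ≤ locConst C Γ v * |s(y)|_v * ∏ i |x i|_v * |y|_v ^ (k m0 - k)`

for every absolute value `v` of `K`.  This is the curve-side instantiation of `exists_down`
(`LD/Down.lean`): the quotient `(∏ i, lin τ (x i) (p i)) / s` lies in `L((k m0 - k) m0 · v₀)` by
the divisor count (`DivCount`), it is a combination of forms of degree `k m0 - k` (`Forms`), and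
multiplication does not shrink coordinate vectors (`mul_lower_field`).
-/

set_option autoImplicit false

namespace Fermat.Agent.S17.H.LD

open AlgebraicCurve MvPolynomial
open Fermat.Agent.S17.R Fermat.Agent.S17.H.Cert

namespace DownGlue

variable {K F : Type*} [Field K] [Field F] [Algebra K F]

/-- `lin τ x p ∈ L(D - Z)` if all `τ j ∈ L(D)` and `x` represents the point `Z`. -/
theorem lin_mem_L_sub {ι : Type*} {D : Divisor K F} {τ : ι → F}
    (hτ : ∀ j, τ j ∈ riemannRochSpace D) {Z : Place K F} {x : ι → K} (hx : IsPt τ Z x)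
    (p : ι × ι) : lin τ x p ∈ riemannRochSpace (D - Finsupp.single Z (1 : ℤ)) := by
  obtain ⟨i, hi⟩ := hx
  have hlin : lin τ x p = InfDist.lin τ x p := by
    simp [lin, InfDist.lin, Algebra.smul_def]
  change ∀ w : Place K F,
    w.adicValuation (lin τ x p) ≤ WithZero.exp ((D - Finsupp.single Z (1 : ℤ)) w)
  intro w
  have hτw : ∀ j, w.adicValuation (τ j) ≤ WithZero.exp (D w) := fun j => by
    have h' : ∀ w : Place K F, w.adicValuation (τ j) ≤ WithZero.exp (D w) := hτ j
    exact h' w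
  by_cases hw : w = Z
  · subst hw
    have h1 : w.adicValuation (InfDist.lin τ x p) < w.adicValuation (τ i) :=
      InfDist.val_lin_lt (v₀ := w) hi p
    have h2 := lt_of_lt_of_le h1 (hτw i)
    have h3 : (D - Finsupp.single w (1 : ℤ)) w = D w - 1 := by simp
    rw [hlin, h3, ← InfDist.val_lt_exp_succ_iff]
    simpa using h2
  · have h3 : (D - Finsupp.single Z (1 : ℤ)) w = D w := by
      simp [Ne.symm hw]
    rw [h3]
    unfold lin
    refine le_trans (Valuation.map_sub _ _ _) (max_le ?_ ?_)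
    · rw [Algebra.smul_def]
      exact le_trans (InfDist.val_const_mul_le w _ _) (hτw _)
    · rw [Algebra.smul_def]
      exact le_trans (InfDist.val_const_mul_le w _ _) (hτw _)

/-- A finite-dimensional subspace has a finite linearly independent spanning family. -/
theorem exists_basis_fin (V : Submodule K F) [Module.Finite K ↥V] :
    ∃ (d : ℕ) (θ : Fin d → F), LinearIndependent K θ ∧ Submodule.span K (Set.range θ) = V := by
  let b := Module.finBasis K ↥V
  refine ⟨Module.finrank K ↥V, fun u => (b u : F), ?_, ?_⟩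
  · have h := b.linearIndependent.map' V.subtype (Submodule.ker_subtype V)
    exact h
  · have h1 : (Set.range fun u => (b u : F)) = V.subtype '' Set.range b := by
      rw [← Set.range_comp]
      rfl
    rw [h1, Submodule.span_image, b.span_eq, Submodule.map_subtype_top]

theorem sum_const_nsmul_single (v₀ : Place K F) (M m : ℕ) :
    (∑ _i : Fin M, ((m : ℤ) • Finsupp.single v₀ (1 : ℤ) : Divisor K F)) =
      ((M * m : ℕ) : ℤ) • Finsupp.single v₀ (1 : ℤ) := by
  rw [Finset.sum_const, Finset.card_univ, Fintype.card_fin, ← natCast_zsmul, smul_smul]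
  push_cast
  rfl

end DownGlue

variable {K F : Type*} [Field K] [Field F] [Algebra K F]
variable [IsAlgClosed K] [CharZero K] [Algebra.EssFiniteType K F]

/-- **C8b, the lower half of (LD) on the curve** (the DOWN half of the exit literal of block C).
-/
theorem ld_down (htr : Algebra.trdeg K F = 1) (v₀ : Place K F) :
    ∃ n₀ : ℕ, ∀ m0 : ℕ, n₀ ≤ m0 → ∀ (k : ℕ), 0 < k → ∀ {ι κ : Type} [Fintype ι] [Fintype κ]
      (τ : ι → F) (ψ : κ → F) (P : κ → MvPolynomial ι K),
      LinearIndependent K τ →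
      Submodule.span K (Set.range τ) =
        riemannRochSpace ((m0 : ℤ) • Finsupp.single v₀ (1 : ℤ)) →
      LinearIndependent K ψ →
      Submodule.span K (Set.range ψ) =
        riemannRochSpace (((k * m0 : ℕ) : ℤ) • Finsupp.single v₀ (1 : ℤ)) →
      (∀ j, (P j).IsHomogeneous k) → (∀ j, aeval τ (P j) = ψ j) →
      ∃ (C : ℝ) (Γ : Multiset K), 1 ≤ C ∧
        ∀ (v : AbsoluteValue K ℝ) (a : κ → K) (Z : Fin (k * m0) → Place K F)
          (x : Fin (k * m0) → ι → K) (y : ι → K), a ≠ 0 →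
          divOf K (∑ j, a j • ψ j) + ((k * m0 : ℕ) : ℤ) • Finsupp.single v₀ (1 : ℤ) =
            ∑ i, Finsupp.single (Z i) (1 : ℤ) →
          (∀ i, IsPt τ (Z i) (x i)) →
          (∀ (n : ℕ) (R : MvPolynomial ι K), R.IsHomogeneous n → aeval τ R = 0 →
            eval y R = 0) →
          (⨆ j, v (a j)) * ∏ i, ⨆ p : ι × ι, v (x i p.1 * y p.2 - x i p.2 * y p.1) ≤
            locConst C Γ v * (v (∑ j, a j * eval y (P j)) * (∏ i, ⨆ j, v (x i j)) *
              (⨆ j, v (y j)) ^ (k * m0 - k)) := by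
  classical
  obtain ⟨n₁, h₁⟩ := exists_form_of_mem_L htr v₀
  refine ⟨max n₁ 1, fun m0 hm k hk ι κ _ _ τ ψ P _hτli hτ hψli hψ hPh hPe => ?_⟩
  have hm1 : n₁ ≤ m0 := le_trans (le_max_left _ _) hm
  have hm0 : 1 ≤ m0 := le_trans (le_max_right _ _) hm
  have hkle : k ≤ k * m0 := Nat.le_mul_of_pos_right k hm0
  have hM : k * m0 = k + (k * m0 - k) := by omega
  -- membership of the `τ j` and `ψ j`
  have hτmem : ∀ j, τ j ∈ riemannRochSpace ((m0 : ℤ) • Finsupp.single v₀ (1 : ℤ)) := fun j => by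
    rw [← hτ]
    exact Submodule.subset_span ⟨j, rfl⟩
  have hψmem : ∀ j, ψ j ∈ riemannRochSpace (((k * m0 : ℕ) : ℤ) • Finsupp.single v₀ (1 : ℤ)) :=
    fun j => by
      rw [← hψ]
      exact Submodule.subset_span ⟨j, rfl⟩
  -- `ι` is nonempty
  have hne : Nonempty ι := by
    by_contra hemp
    rw [not_nonempty_iff] at hemp
    have h1 : (1 : F) ∈ riemannRochSpace ((m0 : ℤ) • Finsupp.single v₀ (1 : ℤ)) :=
      SectionRing.one_mem_L v₀ m0
    rw [← hτ, Set.range_eq_empty τ, Submodule.span_empty, Submodule.mem_bot] at h1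
    exact one_ne_zero h1
  -- a basis `θ` of `L((k m0 - k) m0 v₀)` and its forms `Θ`
  have hfinθ : Module.Finite K ↥(riemannRochSpace
      ((((k * m0 - k) * m0 : ℕ) : ℤ) • Finsupp.single v₀ (1 : ℤ))) := finite_L htr _
  obtain ⟨dθ, θ, hθli, hθspan⟩ := DownGlue.exists_basis_fin (K := K) (riemannRochSpace
      ((((k * m0 - k) * m0 : ℕ) : ℤ) • Finsupp.single v₀ (1 : ℤ)))
  have hθmem : ∀ u, θ u ∈ riemannRochSpace
      ((((k * m0 - k) * m0 : ℕ) : ℤ) • Finsupp.single v₀ (1 : ℤ)) := fun u => by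
    rw [← hθspan]
    exact Submodule.subset_span ⟨u, rfl⟩
  have hΘex : ∀ u, ∃ Q : MvPolynomial ι K, Q.IsHomogeneous (k * m0 - k) ∧ aeval τ Q = θ u :=
    fun u => h₁ m0 hm1 τ hτ (k * m0 - k) (θ u) (hθmem u)
  choose Θ hΘh hΘe using hΘex
  -- a basis `ω` of `L((k m0) m0 v₀)`
  have hfinω : Module.Finite K ↥(riemannRochSpace
      ((((k * m0) * m0 : ℕ) : ℤ) • Finsupp.single v₀ (1 : ℤ))) := finite_L htr _
  obtain ⟨dω, ω, hωli, hωspan⟩ := DownGlue.exists_basis_fin (K := K) (riemannRochSpace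
      ((((k * m0) * m0 : ℕ) : ℤ) • Finsupp.single v₀ (1 : ℤ)))
  -- products of `k m0` of the `τ` lie in the span of `ω`
  have hpow : ∀ b : Fin (k * m0) → ι, ∏ i, τ (b i) ∈ Submodule.span K (Set.range ω) := by
    intro b
    rw [hωspan, ← DownGlue.sum_const_nsmul_single v₀ (k * m0) m0]
    exact DivCount.prod_mem_L Finset.univ _ _ fun i _ => hτmem (b i)
  -- products `ψ s * θ t` lie in the span of `ω`
  have hmul : ∀ s t, ψ s * θ t ∈ Submodule.span K (Set.range ω) := by
    intro s t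
    have h := mul_mem_L (hψmem s) (hθmem t)
    rw [← add_smul, ← Nat.cast_add] at h
    have e : k * m0 + (k * m0 - k) * m0 = k * m0 * m0 := by
      rw [← Nat.add_mul, ← hM]
    rw [e] at h
    rw [hωspan]
    exact h
  obtain ⟨C₁, Γ₁, hC₁, hK1⟩ := mul_lower_field ψ θ ω hψli hθli hωli hmul
  have hK1' : ∀ (v : AbsoluteValue K ℝ) (a : κ → K) (g : Fin dθ → K) (c : Fin dω → K),
      (∑ j, a j • aeval τ (P j)) * (∑ u, g u • aeval τ (Θ u)) = ∑ d, c d • ω d →
      (⨆ j, v (a j)) * (⨆ u, v (g u)) ≤ locConst C₁ Γ₁ v * ⨆ d, v (c d) := by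
    intro v a g c h
    simp only [hPe, hΘe] at h
    exact hK1 v a g c h
  obtain ⟨C, Γ, hC, hdown⟩ := exists_down τ hM P hPh Θ hΘh ω hpow C₁ Γ₁ hC₁ hK1'
  refine ⟨C, Γ, hC, fun v a Z x y ha hZ hpt hy => ?_⟩
  have hs0 : (∑ j, a j • ψ j) ≠ 0 := by
    intro h0
    exact ha (funext fun j => Fintype.linearIndependent_iff.mp hψli a h0 j)
  have hfac : ∀ p : Fin (k * m0) → ι × ι, ∃ g : Fin dθ → K,
      ∏ i, lin τ (x i) (p i) = (∑ j, a j • aeval τ (P j)) * ∑ u, g u • aeval τ (Θ u) := by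
    intro p
    have hl : ∀ i, lin τ (x i) (p i) ∈ riemannRochSpace
        ((m0 : ℤ) • Finsupp.single v₀ (1 : ℤ) - Finsupp.single (Z i) (1 : ℤ)) :=
      fun i => DownGlue.lin_mem_L_sub hτmem (hpt i) (p i)
    have hG := DivCount.prod_div_mem_L_nsmul htr v₀ m0 k (∑ j, a j • ψ j) Z hZ
      (fun i => lin τ (x i) (p i)) hl
    rw [← hθspan] at hG
    obtain ⟨g, hg⟩ := (Submodule.mem_span_range_iff_exists_fun K).mp hG
    refine ⟨g, ?_⟩
    simp only [hPe, hΘe]
    rw [hg]
    field_simp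
  have hfin := hdown v a x y hy hfac
  simpa only [sec, mul_assoc] using hfin

end Fermat.Agent.S17.H.LD
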