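/-
MW strand H, block C (LD), leaf C6 "Image" (row S17.H.C6): the constant rank of `Φ_Z` (G5),
in the point vocabulary of `LD/Pt.lean`.

`F / K` a function field of one variable over an algebraically closed field of characteristic
zero, `v₀` a place, `H = m0 • v₀`, `τ` a spanning family of `L(H)`, `Z : Fin M → Place K F` an
enumeration of points with multiplicity (repeats and `Z i = v₀` allowed), `x i` a representative
of the point `Z i` in the family `τ`.

* `finrank_L_sub_zeros` : `l(N v₀ - ∑ i, Z i) = N - M + 1 - g` for `N ≥ n₁ + M`;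
* `finrank_L_image`     : the same at `N = (M + e) m0`, `e ≥ 1`, `m0 ≥ n₁` (the divisor of the
  next statement);
* `exists_rep_of_mem_L_sub` : for `m0 ≥ n₁`, `e ≥ 2`, every
  `y ∈ L((M + e) H - ∑ i, Z i)` is `∑ ab, (∏ i, (x i a • τ b - x i b • τ a)) * f ab` with
  `f ab ∈ L(e H)`.

Wrapper: the core is `LD/ConstRankTwin.lean` (the pencil trick `M` times, `LD/Pencil.lean`) and
`IsPt.span_linForm` (`LD/Pt2.lean`).
-/
import Mathlib
import Fermat.Agent.S17.H.LD.Pt
import Fermat.Agent.S17.H.LD.Pt2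
import Fermat.Agent.S17.H.LD.ConstRankTwin

set_option autoImplicit false

namespace Fermat.Agent.S17.H.LD

open AlgebraicCurve MvPolynomial Fermat.Agent.S17.R

variable {K F : Type*} [Field K] [Field F] [Algebra K F]
variable [IsAlgClosed K] [CharZero K] [Algebra.EssFiniteType K F]

/-- Row S17.H.C6, first literal: `l(N v₀ - ∑ i, Z i) = N - M + 1 - g` for `N ≥ n₁ + M`. -/
theorem finrank_L_sub_zeros (htr : Algebra.trdeg K F = 1) (v₀ : Place K F) :
    ∃ n₁ : ℕ, ∀ N M : ℕ, n₁ + M ≤ N → ∀ Z : Fin M → Place K F,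
      (Module.finrank K ↥(riemannRochSpace ((N : ℤ) • Finsupp.single v₀ (1 : ℤ) -
        ∑ i, Finsupp.single (Z i) (1 : ℤ))) : ℤ) = (N : ℤ) - M + 1 - (gR K F : ℤ) :=
  ConstRankTwin.finrank_L_sub_zeros htr v₀

/-- The constant rank `ρ = (M + e) m0 - M + 1 - g` of G5: `finrank_L_sub_zeros` at the divisor
`(M + e) m0 v₀ - ∑ i, Z i` of `exists_rep_of_mem_L_sub`. -/
theorem finrank_L_image (htr : Algebra.trdeg K F = 1) (v₀ : Place K F) :
    ∃ n₁ : ℕ, ∀ m0 : ℕ, n₁ ≤ m0 → ∀ (M e : ℕ), 1 ≤ e → ∀ Z : Fin M → Place K F,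
      (Module.finrank K ↥(riemannRochSpace
        ((((M + e) * m0 : ℕ) : ℤ) • Finsupp.single v₀ (1 : ℤ) -
          ∑ i, Finsupp.single (Z i) (1 : ℤ))) : ℤ) =
        (((M + e) * m0 : ℕ) : ℤ) - M + 1 - (gR K F : ℤ) := by
  obtain ⟨n₁, h⟩ := ConstRankTwin.finrank_L_sub_zeros (K := K) (F := F) htr v₀
  refine ⟨n₁ + 1, fun m0 hm0 M e he Z => ?_⟩
  have hpos : 0 < m0 := by omega
  have h2 : n₁ + M ≤ (M + e) * m0 := by
    calc n₁ + M ≤ m0 + M := by omega
      _ ≤ e * m0 + M * m0 :=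
        Nat.add_le_add (Nat.le_mul_of_pos_left m0 he) (Nat.le_mul_of_pos_right M hpos)
      _ = (M + e) * m0 := by ring
  exact h ((M + e) * m0) M h2 Z

/-- Row S17.H.C6, second literal (**G5, constant rank of `Φ_Z`**): for `m0` large, `e ≥ 2` and
EVERY enumeration of zeros `Z` with point representatives `x i`, every section of
`L((M + e) m0 v₀ - ∑ i, Z i)` is a combination of the products of secant forms
`∏ i, (x i a • τ b - x i b • τ a)` with coefficients in `L(e m0 v₀)`. -/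
theorem exists_rep_of_mem_L_sub (htr : Algebra.trdeg K F = 1) (v₀ : Place K F) :
    ∃ n₁ : ℕ, ∀ m0 : ℕ, n₁ ≤ m0 → ∀ {ι : Type} [Fintype ι] (τ : ι → F),
      Submodule.span K (Set.range τ) = riemannRochSpace ((m0 : ℤ) • Finsupp.single v₀ (1 : ℤ)) →
      ∀ (M e : ℕ), 2 ≤ e → ∀ (Z : Fin M → Place K F) (x : Fin M → ι → K),
      (∀ i, IsPt τ (Z i) (x i)) →
      ∀ y ∈ riemannRochSpace ((((M + e) * m0 : ℕ) : ℤ) • Finsupp.single v₀ (1 : ℤ) -
        ∑ i, Finsupp.single (Z i) (1 : ℤ)),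
      ∃ f : (Fin M → ι × ι) → F,
        (∀ ab, f ab ∈ riemannRochSpace (((e * m0 : ℕ) : ℤ) • Finsupp.single v₀ (1 : ℤ))) ∧
        y = ∑ ab, (∏ i, (algebraMap K F (x i (ab i).1) * τ (ab i).2 -
          algebraMap K F (x i (ab i).2) * τ (ab i).1)) * f ab := by
  obtain ⟨n₁, h⟩ := ConstRankTwin.exists_threshold_rep (K := K) (F := F) htr v₀
  refine ⟨n₁, fun m0 hm0 ι _ τ hτ M e he Z x hpt y hy => ?_⟩
  exact (h m0 hm0).2 τ M e he Z x
    (fun i => (hpt i).span_linForm hτ ((h m0 hm0).1 (Z i))) y hy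

end Fermat.Agent.S17.H.LD
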