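import Mathlib
import Fermat.Agent.S17.H.Cert.LocConst
import Fermat.Agent.S17.H.LD.Carrier
import Fermat.Agent.S17.H.LD.BoundedSol

/-!
# Program MW (S17), strand H, block C, leaf C9b (abstract half): bounded representations

Mathlib + the carrier + the bounded-solution leaf.  `τ : ι → F` is a family in a commutative
`K`-algebra, `K` algebraically closed.  For multi-indices `p c : Fin M → ι × ι` and sections
`w c : F` (`c : γ`) consider the sections

`sect τ p w x c = (∏ i, lin τ (x i) (p c i)) * w c`,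

multilinear in the value vectors `x i : ι → K`.  If they lie in a finite dimensional space `W`
and span a space of constant dimension `ρ` when the `x i` run over the nonzero points of the
cone of `τ`, then every `y` of their span is a combination `∑ c, f c • sect τ p w x c` with
`v (f c) * ∏ i, |x i|_v ≤ locConst C Γ v * |coordinates of y|_v`, for every absolute value `v`
of `K`, with one constant of product type (`exists_bounded_rep`).

Proof: the sections in coordinates are a matrix of polynomials in the coordinates of the `x i`;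
on each chart `x i (ch i) = 1` of the multi-cone the rank is `ρ`, so the bounded-solution leaf
applies at the point normalised by the largest coordinates, and the normalisation is undone by
multilinearity.
-/

set_option autoImplicit false

namespace Fermat.Agent.S17.H.LD

open MvPolynomial Fermat.Agent.S17.H.Cert

namespace UpMatrix

variable {K F : Type*} [Field K] [CommRing F] [Algebra K F] {ι : Type*}

/-- Scaling the point of evaluation of a form. -/
theorem eval_mul_of_isHomogeneous {n : ℕ} {P : MvPolynomial ι K} (hP : P.IsHomogeneous n)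
    (c : K) (y : ι → K) : eval (fun j => c * y j) P = c ^ n * eval y P := by
  rw [eval_eq, eval_eq, Finset.mul_sum]
  refine Finset.sum_congr rfl fun d hd => ?_
  have hdeg : n = ∑ j ∈ d.support, d j := hP.degree_eq_sum_deg_support hd
  have h1 : ∏ j ∈ d.support, (c * y j) ^ d j = c ^ n * ∏ j ∈ d.support, y j ^ d j := by
    rw [hdeg, ← Finset.prod_pow_eq_pow_sum, ← Finset.prod_mul_distrib]
    exact Finset.prod_congr rfl fun j _ => mul_pow _ _ _
  rw [h1]
  ring

/-- The cone is stable under scaling. -/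
theorem onCone_mul {τ : ι → F} {y : ι → K} (hy : OnCone τ y) (c : K) :
    OnCone τ (fun j => c * y j) := by
  intro n P hP h0
  rw [eval_mul_of_isHomogeneous hP, hy n P hP h0, mul_zero]

/-- `lin` is linear in the value vector. -/
theorem lin_mul (τ : ι → F) (c : K) (x : ι → K) (p : ι × ι) :
    lin τ (fun j => c * x j) p = c • lin τ x p := by
  simp only [lin, smul_sub, smul_smul]

/-- The sections `(∏ i, lin τ (x i) (p c i)) * w c`. -/
def sect (τ : ι → F) {M : ℕ} {γ : Type*} (p : γ → Fin M → ι × ι) (w : γ → F)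
    (x : Fin M → ι → K) (c : γ) : F :=
  (∏ i, lin τ (x i) (p c i)) * w c

/-- The sections are multilinear in the value vectors. -/
theorem sect_mul (τ : ι → F) {M : ℕ} {γ : Type*} (p : γ → Fin M → ι × ι) (w : γ → F)
    (μ : Fin M → K) (x : Fin M → ι → K) (c : γ) :
    sect τ p w (fun i j => μ i * x i j) c = (∏ i, μ i) • sect τ p w x c := by
  unfold sect
  have h : ∏ i, lin τ (fun j => μ i * x i j) (p c i) = (∏ i, μ i) • ∏ i, lin τ (x i) (p c i) := by
    rw [Algebra.smul_def, map_prod, ← Finset.prod_mul_distrib]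
    refine Finset.prod_congr rfl fun i _ => ?_
    rw [lin_mul, Algebra.smul_def]
  rw [h, smul_mul_assoc]

/-- The monomial of the sign pattern `s`. -/
noncomputable def mono {M : ℕ} (q : Fin M → ι × ι) (s : Fin M → Bool) :
    MvPolynomial (Fin M × ι) K :=
  ∏ i, (if s i then X (i, (q i).1) else - X (i, (q i).2))

/-- The product of the sections of the sign pattern `s`. -/
def tsec (τ : ι → F) {M : ℕ} (q : Fin M → ι × ι) (s : Fin M → Bool) : F :=
  ∏ i, (if s i then τ (q i).2 else τ (q i).1)

theorem eval_mono {M : ℕ} (q : Fin M → ι × ι) (s : Fin M → Bool) (x : Fin M × ι → K) :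
    eval x (mono q s) = ∏ i, (if s i then x (i, (q i).1) else - x (i, (q i).2)) := by
  unfold mono
  rw [map_prod]
  refine Finset.prod_congr rfl fun i _ => ?_
  split_ifs <;> simp

/-- Expansion of a product of linear forms. -/
theorem prod_lin_eq (τ : ι → F) {M : ℕ} (q : Fin M → ι × ι) (x : Fin M × ι → K) :
    ∏ i, lin τ (fun a => x (i, a)) (q i) =
      ∑ s : Fin M → Bool, eval x (mono q s) • tsec τ q s := by
  classical
  have h1 : ∀ i, lin τ (fun a => x (i, a)) (q i) =
      ∑ b : Bool, (algebraMap K F (if b then x (i, (q i).1) else - x (i, (q i).2))) *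
        (if b then τ (q i).2 else τ (q i).1) := by
    intro i
    rw [Fintype.sum_bool]
    simp only [lin, Algebra.smul_def, if_true, Bool.false_eq_true, if_false, map_neg]
    ring
  rw [Finset.prod_congr rfl fun i _ => h1 i, Finset.prod_univ_sum, Fintype.piFinset_univ]
  refine Finset.sum_congr rfl fun s _ => ?_
  rw [Finset.prod_mul_distrib, eval_mono, Algebra.smul_def, map_prod]
  rfl

/-- The matrix of polynomials of the sections, in the coordinates `π`. -/
noncomputable def Phi (τ : ι → F) {M d : ℕ} {γ : Type*} (p : γ → Fin M → ι × ι) (w : γ → F)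
    (π : F →ₗ[K] (Fin d → K)) : Matrix (Fin d) γ (MvPolynomial (Fin M × ι) K) :=
  fun u c => ∑ s : Fin M → Bool, mono (p c) s * C (π (tsec τ (p c) s * w c) u)

theorem eval_Phi (τ : ι → F) {M d : ℕ} {γ : Type*} (p : γ → Fin M → ι × ι) (w : γ → F)
    (π : F →ₗ[K] (Fin d → K)) (x : Fin M × ι → K) (u : Fin d) (c : γ) :
    eval x (Phi τ p w π u c) = π (sect τ p w (fun i a => x (i, a)) c) u := by
  unfold Phi sect
  rw [prod_lin_eq, Finset.sum_mul, map_sum, map_sum, Finset.sum_apply]
  refine Finset.sum_congr rfl fun s _ => ?_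
  rw [map_mul, eval_C, smul_mul_assoc, map_smul, Pi.smul_apply, smul_eq_mul]

/-- The ideal of a chart of the multi-cone: the homogeneous relations of `τ` in each block and
the normalisations `X (i, ch i) = 1`. -/
noncomputable def chartIdeal (τ : ι → F) {M : ℕ} (ch : Fin M → ι) :
    Ideal (MvPolynomial (Fin M × ι) K) :=
  Ideal.span ({q | ∃ (i : Fin M) (n : ℕ) (P : MvPolynomial ι K), P.IsHomogeneous n ∧
      aeval τ P = 0 ∧ q = rename (Prod.mk i) P} ∪ {q | ∃ i : Fin M, q = X (i, ch i) - 1})

theorem chartIdeal_zero_iff (τ : ι → F) {M : ℕ} (ch : Fin M → ι) (x : Fin M × ι → K) :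
    (∀ q ∈ chartIdeal τ ch, eval x q = 0) ↔
      ∀ i, OnCone τ (fun a => x (i, a)) ∧ x (i, ch i) = 1 := by
  constructor
  · intro h i
    refine ⟨fun n P hP h0 => ?_, ?_⟩
    · have h1 := h (rename (Prod.mk i) P)
        (Ideal.subset_span (Or.inl ⟨i, n, P, hP, h0, rfl⟩))
      rwa [eval_rename_prod_mk] at h1
    · have h1 := h (X (i, ch i) - 1) (Ideal.subset_span (Or.inr ⟨i, rfl⟩))
      rw [map_sub, eval_X, map_one] at h1
      exact sub_eq_zero.mp h1
  · intro h q hq
    have hle : chartIdeal τ ch ≤ RingHom.ker (eval x) := by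
      refine Ideal.span_le.mpr ?_
      rintro q (⟨i, n, P, hP, h0, rfl⟩ | ⟨i, rfl⟩)
      · show rename (Prod.mk i) P ∈ RingHom.ker (eval x)
        rw [RingHom.mem_ker, eval_rename_prod_mk]
        exact (h i).1 n P hP h0
      · show X (i, ch i) - 1 ∈ RingHom.ker (eval x)
        rw [RingHom.mem_ker, map_sub, eval_X, map_one, (h i).2, sub_self]
    exact RingHom.mem_ker.mp (hle hq)

/-- **Bounded representations** (abstract half of the glue of (UP)). -/
theorem exists_bounded_rep [IsAlgClosed K] [Fintype ι] {γ : Type*} [Fintype γ]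
    (τ : ι → F) {M : ℕ} (p : γ → Fin M → ι × ι) (w : γ → F) (W : Submodule K F) {d : ℕ}
    (b : Module.Basis (Fin d) K W)
    (hW : ∀ (x : Fin M → ι → K) (c : γ), sect τ p w x c ∈ W) (ρ : ℕ)
    (hρ : ∀ x : Fin M → ι → K, (∀ i, OnCone τ (x i)) → (∀ i, x i ≠ 0) →
      Module.finrank K (Submodule.span K (Set.range (sect τ p w x))) = ρ) :
    ∃ (C : ℝ) (Γ : Multiset K), 1 ≤ C ∧ ∀ (v : AbsoluteValue K ℝ) (x : Fin M → ι → K),
      (∀ i, OnCone τ (x i)) → (∀ i, x i ≠ 0) →
      ∀ (y : F) (hyW : y ∈ W), y ∈ Submodule.span K (Set.range (sect τ p w x)) →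
      ∃ f : γ → K, ∑ c, f c • sect τ p w x c = y ∧
        ∀ c, v (f c) * ∏ i, ⨆ j, v (x i j) ≤
          locConst C Γ v * ⨆ u, v (b.repr ⟨y, hyW⟩ u) := by
  classical
  -- coordinates on `W`, extended to `F`
  obtain ⟨π, hπ⟩ := LinearMap.exists_extend (b.equivFun : W →ₗ[K] (Fin d → K))
  have hπW : ∀ (a : F) (ha : a ∈ W), π a = b.equivFun ⟨a, ha⟩ := fun a ha =>
    LinearMap.congr_fun hπ ⟨a, ha⟩
  have hinj : ∀ a ∈ W, ∀ a' ∈ W, π a = π a' → a = a' := by
    intro a ha a' ha' h
    rw [hπW a ha, hπW a' ha'] at h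
    exact congrArg Subtype.val (b.equivFun.injective h)
  set Φ : Matrix (Fin d) γ (MvPolynomial (Fin M × ι) K) := Phi τ p w π with hΦ
  -- the matrix at a point is the coordinate matrix of the sections
  have hmv : ∀ (x : Fin M × ι → K) (f : γ → K), (Φ.map (eval x)).mulVec f =
      π (∑ c, f c • sect τ p w (fun i a => x (i, a)) c) := by
    intro x f
    funext u
    rw [map_sum, Finset.sum_apply]
    simp only [Matrix.mulVec, dotProduct, Matrix.map_apply, hΦ, eval_Phi, map_smul,
      Pi.smul_apply, smul_eq_mul]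
    exact Finset.sum_congr rfl fun c _ => mul_comm _ _
  -- the rank on a chart
  have hrank : ∀ (ch : Fin M → ι) (x : Fin M × ι → K),
      (∀ q ∈ chartIdeal τ ch, eval x q = 0) → (Φ.map (eval x)).rank = ρ := by
    intro ch x hx
    have hx' := (chartIdeal_zero_iff τ ch x).mp hx
    set xs : Fin M → ι → K := fun i a => x (i, a) with hxs
    have hne : ∀ i, xs i ≠ 0 := by
      intro i h0
      have h1 := (hx' i).2
      have h2 : x (i, ch i) = 0 := congrFun h0 (ch i)
      rw [h2] at h1
      exact zero_ne_one h1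
    rw [← hρ xs (fun i => (hx' i).1) hne]
    set S := Submodule.span K (Set.range (sect τ p w xs)) with hS
    have hSW : S ≤ W := Submodule.span_le.mpr (by rintro _ ⟨c, rfl⟩; exact hW xs c)
    have hrange : LinearMap.range (Φ.map (eval x)).mulVecLin = Submodule.map π S := by
      apply le_antisymm
      · rintro _ ⟨f, rfl⟩
        rw [Matrix.mulVecLin_apply, hmv]
        exact Submodule.mem_map_of_mem
          (Submodule.sum_mem _ fun c _ => Submodule.smul_mem _ _ (Submodule.subset_span ⟨c, rfl⟩))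
      · rintro _ ⟨a, ha, rfl⟩
        obtain ⟨f, rfl⟩ := (Submodule.mem_span_range_iff_exists_fun K).mp ha
        exact ⟨f, by rw [Matrix.mulVecLin_apply, hmv]⟩
    rw [Matrix.rank, hrange]
    have hg : Function.Injective (π.comp S.subtype) := by
      intro a a' h
      exact Subtype.ext (hinj a (hSW a.2) a' (hSW a'.2) h)
    have hrg : LinearMap.range (π.comp S.subtype) = Submodule.map π S := by
      rw [LinearMap.range_comp, Submodule.range_subtype]
    rw [← hrg, LinearMap.finrank_range_of_inj hg]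
  -- the constants of the charts
  have hC4 : ∀ ch : Fin M → ι, ∃ (C : ℝ) (Γ : Multiset K), 1 ≤ C ∧
      ∀ (v : AbsoluteValue K ℝ) (x : Fin M × ι → K), (∀ s, v (x s) ≤ 1) →
      (∀ q ∈ chartIdeal τ ch, eval x q = 0) →
      ∀ y ∈ LinearMap.range (Φ.map (eval x)).mulVecLin,
        ∃ f : γ → K, (Φ.map (eval x)).mulVec f = y ∧
          ∀ j, v (f j) ≤ locConst C Γ v * ⨆ i, v (y i) :=
    fun ch => BoundedSol.exists_bounded_solution Φ (chartIdeal τ ch) ρ (hrank ch)
  choose Cc Γc hCc hsol using hC4
  have hCc0 : ∀ ch, 0 ≤ Cc ch := fun ch => le_trans zero_le_one (hCc ch)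
  have hsum0 : 0 ≤ ∑ ch, Cc ch := Finset.sum_nonneg fun ch _ => hCc0 ch
  refine ⟨1 + ∑ ch, Cc ch, ∑ ch, Γc ch, by linarith, ?_⟩
  intro v x hcone hne y hyW hy
  -- the chart of the largest coordinates
  have hch : ∀ i, ∃ a, v (x i a) = ⨆ j, v (x i j) := by
    intro i
    have : Nonempty ι := by
      by_contra hemp
      rw [not_nonempty_iff] at hemp
      exact hne i (funext fun a => hemp.elim a)
    exact exists_eq_ciSup_of_finite
  choose ch hchv using hch
  have hpos : ∀ i, 0 < v (x i (ch i)) := fun i => by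
    rw [hchv i]
    exact Carrier.supAbv_pos v (hne i)
  have hlam : ∀ i, x i (ch i) ≠ 0 := fun i h0 => by
    have := hpos i
    rw [h0, map_zero] at this
    exact lt_irrefl _ this
  set μ : Fin M → K := fun i => (x i (ch i))⁻¹ with hμ
  set x' : Fin M × ι → K := fun s => μ s.1 * x s.1 s.2 with hx'
  have h1 : ∀ s, v (x' s) ≤ 1 := by
    intro s
    rw [hx', hμ]
    simp only
    rw [map_mul, map_inv₀, inv_mul_le_iff₀ (hpos s.1), mul_one, hchv s.1]
    exact Carrier.le_supAbv v (x s.1) s.2
  have h2 : ∀ q ∈ chartIdeal τ ch, eval x' q = 0 := by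
    refine (chartIdeal_zero_iff τ ch x').mpr fun i => ⟨?_, ?_⟩
    · exact onCone_mul (hcone i) (μ i)
    · show μ i * x i (ch i) = 1
      rw [hμ]
      exact inv_mul_cancel₀ (hlam i)
  have h3 : ∀ c, sect τ p w (fun i a => x' (i, a)) c = (∏ i, μ i) • sect τ p w x c :=
    fun c => sect_mul τ p w μ x c
  have hμ0 : (∏ i, μ i) ≠ 0 :=
    Finset.prod_ne_zero_iff.mpr fun i _ => inv_ne_zero (hlam i)
  -- `π y` is in the column space at the normalised point
  obtain ⟨f0, hf0⟩ := (Submodule.mem_span_range_iff_exists_fun K).mp hy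
  have hmem : π y ∈ LinearMap.range (Φ.map (eval x')).mulVecLin := by
    refine ⟨fun c => f0 c * (∏ i, μ i)⁻¹, ?_⟩
    rw [Matrix.mulVecLin_apply, hmv, ← hf0]
    congr 1
    refine Finset.sum_congr rfl fun c _ => ?_
    rw [h3, smul_smul, mul_assoc, inv_mul_cancel₀ hμ0, mul_one]
  obtain ⟨f, hf, hfb⟩ := hsol ch v x' h1 h2 (π y) hmem
  rw [hmv] at hf
  have hsumW : ∑ c, f c • sect τ p w (fun i a => x' (i, a)) c ∈ W :=
    Submodule.sum_mem _ fun c _ => Submodule.smul_mem _ _ (hW _ c)
  have hy' : ∑ c, f c • sect τ p w (fun i a => x' (i, a)) c = y := hinj _ hsumW _ hyW hf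
  refine ⟨fun c => f c * ∏ i, μ i, ?_, fun c => ?_⟩
  · rw [← hy']
    refine Finset.sum_congr rfl fun c _ => ?_
    rw [h3, smul_smul]
  · have hprod : v (∏ i, μ i) * ∏ i, ⨆ j, v (x i j) = 1 := by
      rw [map_prod, ← Finset.prod_mul_distrib]
      refine Finset.prod_eq_one fun i _ => ?_
      rw [← hchv i, hμ]
      simp only
      rw [map_inv₀]
      exact inv_mul_cancel₀ (ne_of_gt (hpos i))
    have hcoord : ∀ u, π y u = b.repr ⟨y, hyW⟩ u := fun u => by
      rw [hπW y hyW, Module.Basis.equivFun_apply]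
    have hsupeq : ⨆ u, v (π y u) = ⨆ u, v (b.repr ⟨y, hyW⟩ u) := by
      congr 1
      funext u
      rw [hcoord u]
    have hS0 : 0 ≤ ⨆ u, v (b.repr ⟨y, hyW⟩ u) := Real.iSup_nonneg fun u => v.nonneg _
    calc v (f c * ∏ i, μ i) * ∏ i, ⨆ j, v (x i j)
        = v (f c) * (v (∏ i, μ i) * ∏ i, ⨆ j, v (x i j)) := by rw [map_mul, mul_assoc]
      _ = v (f c) := by rw [hprod, mul_one]
      _ ≤ locConst (Cc ch) (Γc ch) v * ⨆ u, v (π y u) := hfb c
      _ = locConst (Cc ch) (Γc ch) v * ⨆ u, v (b.repr ⟨y, hyW⟩ u) := by rw [hsupeq]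
      _ ≤ locConst (1 + ∑ ch, Cc ch) (∑ ch, Γc ch) v * ⨆ u, v (b.repr ⟨y, hyW⟩ u) := by
          refine mul_le_mul_of_nonneg_right ?_ hS0
          refine locConst_mono (hCc0 ch) ?_ ?_ v
          · have : Cc ch ≤ ∑ ch, Cc ch :=
              Finset.single_le_sum (fun ch _ => hCc0 ch) (Finset.mem_univ ch)
            linarith
          · exact Finset.single_le_sum (f := Γc) (fun _ _ => Multiset.zero_le _)
              (Finset.mem_univ ch)

end UpMatrix

end Fermat.Agent.S17.H.LD
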