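import Mathlib
import Fermat.Agent.S17.R.LSpace
import Fermat.Agent.S17.R.LStep
import Fermat.Agent.S17.R.PoleOrder
import Fermat.Agent.S17.H.Cert.LocConst
import Fermat.Agent.S17.H.LD.Carrier
import Fermat.Agent.S17.H.LD.Pt
import Fermat.Agent.S17.H.LD.Pencil
import Fermat.Agent.S17.H.LD.ConeRank
import Fermat.Agent.S17.H.LD.Image
import Fermat.Agent.S17.H.LD.DivCount
import Fermat.Agent.S17.H.LD.UpMatrix
import Fermat.Agent.S17.H.LD.UpCurve

/-!
# Program MW (statement S17), strand H, block C: the solution statement (row S17.H.C9b)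

`UpSolCurve.up_sol`: above a threshold `n₁` the solution statement `UpCurve.SolStatement K F v₀ n₁`
holds.  With `M = k m0`, the products `(∏ i, l_{c i}(x i)) * E_t` of linear sections through the
points `x i` with the forms `E_t` of a basis of `L(2 m0 v₀)` lie in `W = L((M + 2) m0 v₀)` and, at
every tuple of nonzero points of the cone of `τ`, span a space of the constant dimension
`(M + 2) m0 - M + 1 - g` (`ConeRank.finrank_span_cols`).  So the abstract bounded-representation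
leaf `UpMatrix.exists_bounded_rep` applies: every `y` of the span is a combination with
coefficients bounded by the coordinates of `y` in a basis of `W`.  For the zeros `Z i` of a
section `s = ∑ a_b ψ_b` of `L(k m0 v₀)` the product `y = s * E'_j` lies in
`L((M + 2) m0 v₀ - ∑ i, Z i)` (`DivCount.mul_mem_L_nsmul_sub_zeros`), hence in the span
(`exists_rep_of_mem_L_sub`), and its coordinates are linear in `a`.
-/

set_option autoImplicit false

namespace Fermat.Agent.S17.H.LD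

open AlgebraicCurve MvPolynomial Fermat.Agent.S17.R Fermat.Agent.S17.H.Cert

namespace UpSolCurve

variable {K F : Type*} [Field K] [Field F] [Algebra K F]
variable [IsAlgClosed K] [CharZero K] [Algebra.EssFiniteType K F]

/-- **The solution statement** (row S17.H.C9b) holds above a threshold. -/
theorem up_sol (htr : Algebra.trdeg K F = 1) (v₀ : Place K F) :
    ∃ n₁ : ℕ, UpCurve.SolStatement K F v₀ n₁ := by
  classical
  obtain ⟨c, hc⟩ := Pencil.exists_isRiemannBound (K := K) (F := F) htr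
  obtain ⟨n₃, hrep⟩ := exists_rep_of_mem_L_sub (K := K) (F := F) htr v₀
  refine ⟨max (max (c + 2).toNat n₃) 1, ?_⟩
  intro m0 hm0 k hk ι κ _ _ τ ψ P hτli hτ hψli hψ hP hPψ ε η _ _ E E' hEh hEli hEspan hE'h hE'li
    hE'span
  have hm1 : 1 ≤ m0 := le_trans (le_max_right _ _) hm0
  have hmc : c + 2 ≤ (m0 : ℤ) :=
    PoleOrder.le_of_toNat_le (le_trans (le_trans (le_max_left _ _) (le_max_left _ _)) hm0)
  have hmn3 : n₃ ≤ m0 := le_trans (le_trans (le_max_right _ _) (le_max_left _ _)) hm0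
  have hG1 : ConeRank.SpanLin τ ((m0 : ℤ) • Finsupp.single v₀ (1 : ℤ)) :=
    ConeRank.spanLin_of_span htr hc v₀ (by linarith) τ hτ
  -- degrees
  have hkm : k ≤ k * m0 := Nat.le_mul_of_pos_right k hm1
  have hdeg : k * m0 + (k * m0 - k + 2) * m0 = (k * m0 + 2) * m0 := by
    obtain ⟨r, hr⟩ : ∃ r, k * m0 = k + r := ⟨k * m0 - k, by omega⟩
    have hr' : k * m0 - k = r := by omega
    rw [hr']
    calc k * m0 + (r + 2) * m0 = (k + r) * m0 + 2 * m0 := by ring
      _ = (k * m0 + 2) * m0 := by rw [← hr]; ring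
  -- memberships
  have hτmem : ∀ j, τ j ∈ riemannRochSpace ((m0 : ℤ) • Finsupp.single v₀ (1 : ℤ)) := by
    intro j
    rw [← hτ]
    exact Submodule.subset_span ⟨j, rfl⟩
  have hlinmem : ∀ (x : ι → K) (q : ι × ι),
      lin τ x q ∈ riemannRochSpace ((m0 : ℤ) • Finsupp.single v₀ (1 : ℤ)) := by
    intro x q
    unfold lin
    exact Submodule.sub_mem _ (Submodule.smul_mem _ _ (hτmem _))
      (Submodule.smul_mem _ _ (hτmem _))
  have hEmem : ∀ t, aeval τ (E t) ∈
      riemannRochSpace (((2 * m0 : ℕ) : ℤ) • Finsupp.single v₀ (1 : ℤ)) := by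
    intro t
    rw [← hEspan]
    exact Submodule.subset_span ⟨t, rfl⟩
  have hE'mem : ∀ j, aeval τ (E' j) ∈
      riemannRochSpace ((((k * m0 - k + 2) * m0 : ℕ) : ℤ) • Finsupp.single v₀ (1 : ℤ)) := by
    intro j
    rw [← hE'span]
    exact Submodule.subset_span ⟨j, rfl⟩
  have hψmem : ∀ b, aeval τ (P b) ∈
      riemannRochSpace (((k * m0 : ℕ) : ℤ) • Finsupp.single v₀ (1 : ℤ)) := by
    intro b
    rw [hPψ, ← hψ]
    exact Submodule.subset_span ⟨b, rfl⟩
  -- the sections lie in `W = L((k m0 + 2) m0 v₀)`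
  have hWmem : ∀ (x : Fin (k * m0) → ι → K) (q : (Fin (k * m0) → ι × ι) × ε),
      (∏ i, lin τ (x i) (q.1 i)) * aeval τ (E q.2) ∈
        riemannRochSpace ((((k * m0 + 2) * m0 : ℕ) : ℤ) • Finsupp.single v₀ (1 : ℤ)) := by
    intro x q
    have h1 := DivCount.prod_mem_L Finset.univ
      (fun _ : Fin (k * m0) => ((m0 : ℤ) • Finsupp.single v₀ (1 : ℤ) : Divisor K F))
      (fun i => lin τ (x i) (q.1 i)) (fun i _ => hlinmem (x i) (q.1 i))
    have h2 := mul_mem_L h1 (hEmem q.2)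
    have hd : (∑ _i : Fin (k * m0), ((m0 : ℤ) • Finsupp.single v₀ (1 : ℤ) : Divisor K F)) +
        ((2 * m0 : ℕ) : ℤ) • Finsupp.single v₀ (1 : ℤ) =
        (((k * m0 + 2) * m0 : ℕ) : ℤ) • Finsupp.single v₀ (1 : ℤ) := by
      rw [Finset.sum_const, Finset.card_univ, Fintype.card_fin, ← natCast_zsmul, smul_smul,
        ← add_smul]
      congr 1
      push_cast
      ring
    rwa [hd] at h2
  -- the products `ψ_b * E'_j` lie in `W`
  have hgmem : ∀ (b : κ) (j : η), aeval τ (P b) * aeval τ (E' j) ∈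
      riemannRochSpace ((((k * m0 + 2) * m0 : ℕ) : ℤ) • Finsupp.single v₀ (1 : ℤ)) := by
    intro b j
    have h := mul_mem_L (hψmem b) (hE'mem j)
    rwa [← add_smul, ← Nat.cast_add, hdeg] at h
  -- a basis of `W`
  obtain ⟨d, ⟨bW⟩⟩ : ∃ d : ℕ, Nonempty (Module.Basis (Fin d) K
      ↥(riemannRochSpace ((((k * m0 + 2) * m0 : ℕ) : ℤ) • Finsupp.single v₀ (1 : ℤ)))) := by
    have := finite_L htr ((((k * m0 + 2) * m0 : ℕ) : ℤ) • Finsupp.single v₀ (1 : ℤ))
    exact ⟨_, ⟨Module.finBasis K _⟩⟩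
  -- constant rank on the cone
  have hρ : ∀ x : Fin (k * m0) → ι → K, (∀ i, OnCone τ (x i)) → (∀ i, x i ≠ 0) →
      Module.finrank K (Submodule.span K (Set.range (UpMatrix.sect τ
        (fun q : (Fin (k * m0) → ι × ι) × ε => q.1) (fun q => aeval τ (E q.2)) x))) =
      ((((k * m0 + 2) * m0 : ℕ) : ℤ) - ((k * m0 : ℕ) : ℤ) + 1 - (gR K F : ℤ)).toNat := by
    intro x hcone hx
    have h := ConeRank.finrank_span_cols htr hc v₀ hmc τ hG1 (k * m0) 2 le_rfl x hx hcone
      (fun t => aeval τ (E t)) hEspan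
    have h' : (Module.finrank K (Submodule.span K (Set.range (UpMatrix.sect τ
        (fun q : (Fin (k * m0) → ι × ι) × ε => q.1) (fun q => aeval τ (E q.2)) x))) : ℤ) =
        (((k * m0 + 2) * m0 : ℕ) : ℤ) - ((k * m0 : ℕ) : ℤ) + 1 - (gR K F : ℤ) := h
    rw [← h', Int.toNat_natCast]
  obtain ⟨C, Γ, hC, hB⟩ := UpMatrix.exists_bounded_rep τ
    (fun q : (Fin (k * m0) → ι × ι) × ε => q.1) (fun q => aeval τ (E q.2))
    (riemannRochSpace ((((k * m0 + 2) * m0 : ℕ) : ℤ) • Finsupp.single v₀ (1 : ℤ))) bW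
    hWmem _ hρ
  -- the coordinates of the products `ψ_b * E'_j`
  obtain ⟨G, hG⟩ : ∃ G : κ → η → Fin d → K, ∀ b j u,
      G b j u = bW.repr ⟨aeval τ (P b) * aeval τ (E' j), hgmem b j⟩ u :=
    ⟨fun b j u => bW.repr ⟨_, hgmem b j⟩ u, fun _ _ _ => rfl⟩
  obtain ⟨Γπ, hΓπ⟩ : ∃ Γπ : Multiset K, ∀ b j u, G b j u ∈ Γπ :=
    ⟨(Finset.univ : Finset (κ × η × Fin d)).val.map fun q => G q.1 q.2.1 q.2.2, fun b j u =>
      Multiset.mem_map.mpr ⟨(b, j, u), Finset.mem_univ_val _, rfl⟩⟩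
  have hcard : (1 : ℝ) ≤ (Fintype.card κ : ℝ) + 1 := by
    have := Nat.cast_nonneg (α := ℝ) (Fintype.card κ)
    linarith
  refine ⟨C * ((Fintype.card κ : ℝ) + 1), Γ + Γπ, one_le_mul_of_one_le_of_one_le hC hcard, ?_⟩
  intro v a Z x ha hZ hx j
  have hcone : ∀ i, OnCone τ (x i) := fun i => (hx i).onCone
  have hx0 : ∀ i, x i ≠ 0 := by
    intro i h0
    obtain ⟨i0, hi0, -, -⟩ := hx i
    exact hi0 (by rw [h0]; rfl)
  have hs : ∑ b, a b • aeval τ (P b) = ∑ b, a b • ψ b :=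
    Finset.sum_congr rfl fun b _ => by rw [hPψ]
  -- `y = s * E'_j` lies in `W`, in `L((M + 2) m0 v₀ - ∑ Z)` and in the span of the sections
  have hyW : (∑ b, a b • aeval τ (P b)) * aeval τ (E' j) ∈
      riemannRochSpace ((((k * m0 + 2) * m0 : ℕ) : ℤ) • Finsupp.single v₀ (1 : ℤ)) := by
    rw [Finset.sum_mul]
    refine Submodule.sum_mem _ fun b _ => ?_
    rw [smul_mul_assoc]
    exact Submodule.smul_mem _ _ (hgmem b j)
  have hyL : (∑ b, a b • aeval τ (P b)) * aeval τ (E' j) ∈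
      riemannRochSpace ((((k * m0 + 2) * m0 : ℕ) : ℤ) • Finsupp.single v₀ (1 : ℤ) -
        ∑ i, Finsupp.single (Z i) (1 : ℤ)) := by
    have h := DivCount.mul_mem_L_nsmul_sub_zeros htr v₀ m0 k ((k * m0 - k + 2) * m0)
      (∑ b, a b • ψ b) Z hZ (hE'mem j)
    rw [hdeg] at h
    rw [hs]
    exact h
  have hyspan : (∑ b, a b • aeval τ (P b)) * aeval τ (E' j) ∈ Submodule.span K (Set.range
      (UpMatrix.sect τ (fun q : (Fin (k * m0) → ι × ι) × ε => q.1)
        (fun q => aeval τ (E q.2)) x)) := by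
    obtain ⟨f, hf, hyf⟩ := hrep m0 hmn3 τ hτ (k * m0) 2 le_rfl Z x hx _ hyL
    rw [hyf]
    refine Submodule.sum_mem _ fun ab _ => ?_
    have hfab : f ab ∈ Submodule.span K (Set.range fun t => aeval τ (E t)) := by
      rw [hEspan]
      exact hf ab
    obtain ⟨cf, hcf⟩ := (Submodule.mem_span_range_iff_exists_fun K).mp hfab
    rw [← hcf, Finset.mul_sum]
    refine Submodule.sum_mem _ fun t _ => ?_
    rw [mul_smul_comm]
    refine Submodule.smul_mem _ _ (Submodule.subset_span ⟨(ab, t), ?_⟩)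
    show (∏ i, lin τ (x i) (ab i)) * aeval τ (E t) = _
    congr 1
    exact Finset.prod_congr rfl fun i _ => ConeRank.lin_eq τ (x i) (ab i)
  obtain ⟨f, hfy, hfb⟩ := hB v x hcone hx0 _ hyW hyspan
  refine ⟨f, hfy.symm, fun q => ?_⟩
  -- the coordinates of `y` are linear in `a`
  have hyrepr : ∀ u, bW.repr ⟨_, hyW⟩ u = ∑ b, a b * G b j u := by
    intro u
    have hy' : (⟨(∑ b, a b • aeval τ (P b)) * aeval τ (E' j), hyW⟩ :
        ↥(riemannRochSpace ((((k * m0 + 2) * m0 : ℕ) : ℤ) • Finsupp.single v₀ (1 : ℤ)))) =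
        ∑ b, a b • ⟨aeval τ (P b) * aeval τ (E' j), hgmem b j⟩ := by
      apply Subtype.ext
      rw [Submodule.coe_sum]
      show (∑ b, a b • aeval τ (P b)) * aeval τ (E' j) =
        ∑ b, a b • (aeval τ (P b) * aeval τ (E' j))
      rw [Finset.sum_mul]
      exact Finset.sum_congr rfl fun b _ => smul_mul_assoc _ _ _
    rw [hy', map_sum, Finsupp.coe_finsetSum, Finset.sum_apply]
    refine Finset.sum_congr rfl fun b _ => ?_
    rw [map_smul, Finsupp.smul_apply, smul_eq_mul, hG]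
  have hGle : ∀ b u, v (G b j u) ≤ gamProd Γπ v := fun b u => le_gamProd_of_mem (hΓπ b j u) v
  have hsupa : 0 ≤ ⨆ b, v (a b) := Real.iSup_nonneg fun b => v.nonneg _
  have hcoord : ∀ u, v (bW.repr ⟨_, hyW⟩ u) ≤
      locConst (Fintype.card κ : ℝ) (0 : Multiset K) v * ((⨆ b, v (a b)) * gamProd Γπ v) := by
    intro u
    rw [hyrepr u]
    refine le_trans (abv_sum_le v fun b => a b * G b j u) ?_
    refine mul_le_mul_of_nonneg_left ?_ (locConst_nonneg (Nat.cast_nonneg _) _ v)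
    refine Real.iSup_le (fun b => ?_) (mul_nonneg hsupa (gamProd_pos Γπ v).le)
    rw [map_mul]
    exact mul_le_mul (Finite.le_ciSup (fun b => v (a b)) b) (hGle b u) (v.nonneg _) hsupa
  have hsup : (⨆ u, v (bW.repr ⟨_, hyW⟩ u)) ≤
      locConst (Fintype.card κ : ℝ) (0 : Multiset K) v * ((⨆ b, v (a b)) * gamProd Γπ v) :=
    Real.iSup_le hcoord (mul_nonneg (locConst_nonneg (Nat.cast_nonneg _) _ v)
      (mul_nonneg hsupa (gamProd_pos Γπ v).le))
  have hconst : locConst C Γ v *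
      (locConst (Fintype.card κ : ℝ) (0 : Multiset K) v * gamProd Γπ v) ≤
      locConst (C * ((Fintype.card κ : ℝ) + 1)) (Γ + Γπ) v := by
    have h1 : locConst (Fintype.card κ : ℝ) (0 : Multiset K) v * gamProd Γπ v ≤
        locConst ((Fintype.card κ : ℝ) + 1) Γπ v := by
      calc locConst (Fintype.card κ : ℝ) (0 : Multiset K) v * gamProd Γπ v
          ≤ locConst ((Fintype.card κ : ℝ) + 1) (0 : Multiset K) v * locConst 1 Γπ v :=
            mul_le_mul (locConst_mono (Nat.cast_nonneg _) (by linarith) le_rfl v)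
              (gamProd_le_locConst le_rfl Γπ v) (gamProd_pos Γπ v).le
              (locConst_nonneg (by linarith) _ v)
        _ = locConst ((Fintype.card κ : ℝ) + 1) Γπ v := by rw [locConst_mul, mul_one, zero_add]
    calc locConst C Γ v * (locConst (Fintype.card κ : ℝ) (0 : Multiset K) v * gamProd Γπ v)
        ≤ locConst C Γ v * locConst ((Fintype.card κ : ℝ) + 1) Γπ v :=
          mul_le_mul_of_nonneg_left h1 (locConst_pos hC Γ v).le
      _ = locConst (C * ((Fintype.card κ : ℝ) + 1)) (Γ + Γπ) v := locConst_mul _ _ _ _ v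
  calc v (f q) * ∏ i, ⨆ j, v (x i j)
      ≤ locConst C Γ v * ⨆ u, v (bW.repr ⟨_, hyW⟩ u) := hfb q
    _ ≤ locConst C Γ v * (locConst (Fintype.card κ : ℝ) (0 : Multiset K) v *
          ((⨆ b, v (a b)) * gamProd Γπ v)) :=
        mul_le_mul_of_nonneg_left hsup (locConst_pos hC Γ v).le
    _ = (locConst C Γ v * (locConst (Fintype.card κ : ℝ) (0 : Multiset K) v * gamProd Γπ v)) *
          ⨆ b, v (a b) := by ring
    _ ≤ locConst (C * ((Fintype.card κ : ℝ) + 1)) (Γ + Γπ) v * ⨆ b, v (a b) :=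
        mul_le_mul_of_nonneg_right hconst hsupa

end UpSolCurve

end Fermat.Agent.S17.H.LD
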