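import Mathlib
import Fermat.Agent.S17.R.LSpace
import Fermat.Agent.S17.H.Cert.LocConst
import Fermat.Agent.S17.H.LD.Pt
import Fermat.Agent.S17.H.LD.Zeros
import Fermat.Agent.S17.H.LD.DownCurve
import Fermat.Agent.S17.H.LD.UpCurve
import Fermat.Agent.S17.H.LD.UpSolCurve

/-!
# Program MW (statement S17), strand H, block C: the exit (row S17.H.C10)

The local lemma (LD) on a curve `F / K` (`K` algebraically closed of characteristic zero) in cone
form, at every absolute value `v` of `K`, with constants of product type: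

* `ld_up` (row S17.H.C9): the upper half, from the solution statement `UpSolCurve.up_sol`
  through `UpCurve.ld_up_of_sol`;
* `ld_local` (row S17.H.C10): both halves with common constants.  For a section
  `s = ∑ a_j ψ_j` of `L(k m0 v₀)` with zeros `Z i` (enumerated with multiplicity, `k m0` of them,
  `exists_zeros` in `LD/Zeros.lean`) and value vectors `x i` of `τ` at `Z i`, and for every point
  `y` of the cone of `τ`,
  `|s(y)|_v ∏ i |x i|_v |y|_v^(k m0 - k) ≍ |a|_v ∏ i |x i ∧ y|_v`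
  up to the factor `locConst C Γ v`.

The lower half `ld_down` (row S17.H.C8) is in `LD/DownCurve.lean`.
-/

set_option autoImplicit false

namespace Fermat.Agent.S17.H.LD

open AlgebraicCurve MvPolynomial Fermat.Agent.S17.R Fermat.Agent.S17.H.Cert

variable {K F : Type*} [Field K] [Field F] [Algebra K F]
variable [IsAlgClosed K] [CharZero K] [Algebra.EssFiniteType K F]

/-- **The upper half of (LD) on the curve**, cone form (row S17.H.C9; same binders as
`ld_down`). -/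
theorem ld_up (htr : Algebra.trdeg K F = 1) (v₀ : Place K F) :
    ∃ n₀ : ℕ, ∀ m0 : ℕ, n₀ ≤ m0 → ∀ (k : ℕ), 0 < k → ∀ {ι κ : Type} [Fintype ι] [Fintype κ]
      (τ : ι → F) (ψ : κ → F) (P : κ → MvPolynomial ι K),
      LinearIndependent K τ →
      Submodule.span K (Set.range τ) = riemannRochSpace ((m0 : ℤ) • Finsupp.single v₀ (1 : ℤ)) →
      LinearIndependent K ψ →
      Submodule.span K (Set.range ψ) =
        riemannRochSpace (((k * m0 : ℕ) : ℤ) • Finsupp.single v₀ (1 : ℤ)) →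
      (∀ j, (P j).IsHomogeneous k) → (∀ j, aeval τ (P j) = ψ j) →
      ∃ (C : ℝ) (Γ : Multiset K), 1 ≤ C ∧ ∀ (v : AbsoluteValue K ℝ) (a : κ → K)
        (Z : Fin (k * m0) → Place K F) (x : Fin (k * m0) → ι → K) (y : ι → K), a ≠ 0 →
        divOf K (∑ j, a j • ψ j) + ((k * m0 : ℕ) : ℤ) • Finsupp.single v₀ (1 : ℤ) =
          ∑ i, Finsupp.single (Z i) (1 : ℤ) →
        (∀ i, IsPt τ (Z i) (x i)) →
        (∀ (n : ℕ) (R : MvPolynomial ι K), R.IsHomogeneous n → aeval τ R = 0 → eval y R = 0) →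
        v (∑ j, a j * eval y (P j)) * (∏ i, ⨆ j, v (x i j)) * (⨆ j, v (y j)) ^ (k * m0 - k) ≤
          locConst C Γ v * ((⨆ j, v (a j)) *
            ∏ i, ⨆ p : ι × ι, v (x i p.1 * y p.2 - x i p.2 * y p.1)) := by
  obtain ⟨n₁, hsol⟩ := UpSolCurve.up_sol (K := K) (F := F) htr v₀
  exact UpCurve.ld_up_of_sol htr v₀ hsol

/-- **The local lemma (LD) on the curve**, cone form (row S17.H.C10, the exit of block C): both
halves with common constants. -/
theorem ld_local (htr : Algebra.trdeg K F = 1) (v₀ : Place K F) :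
    ∃ n₀ : ℕ, ∀ m0 : ℕ, n₀ ≤ m0 → ∀ (k : ℕ), 0 < k → ∀ {ι κ : Type} [Fintype ι] [Fintype κ]
      (τ : ι → F) (ψ : κ → F) (P : κ → MvPolynomial ι K),
      LinearIndependent K τ →
      Submodule.span K (Set.range τ) = riemannRochSpace ((m0 : ℤ) • Finsupp.single v₀ (1 : ℤ)) →
      LinearIndependent K ψ →
      Submodule.span K (Set.range ψ) =
        riemannRochSpace (((k * m0 : ℕ) : ℤ) • Finsupp.single v₀ (1 : ℤ)) →
      (∀ j, (P j).IsHomogeneous k) → (∀ j, aeval τ (P j) = ψ j) →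
      ∃ (C : ℝ) (Γ : Multiset K), 1 ≤ C ∧ ∀ (v : AbsoluteValue K ℝ) (a : κ → K)
        (Z : Fin (k * m0) → Place K F) (x : Fin (k * m0) → ι → K) (y : ι → K), a ≠ 0 →
        divOf K (∑ j, a j • ψ j) + ((k * m0 : ℕ) : ℤ) • Finsupp.single v₀ (1 : ℤ) =
          ∑ i, Finsupp.single (Z i) (1 : ℤ) →
        (∀ i, IsPt τ (Z i) (x i)) →
        (∀ (n : ℕ) (R : MvPolynomial ι K), R.IsHomogeneous n → aeval τ R = 0 → eval y R = 0) →
        (v (∑ j, a j * eval y (P j)) * (∏ i, ⨆ j, v (x i j)) * (⨆ j, v (y j)) ^ (k * m0 - k) ≤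
          locConst C Γ v * ((⨆ j, v (a j)) *
            ∏ i, ⨆ p : ι × ι, v (x i p.1 * y p.2 - x i p.2 * y p.1))) ∧
        ((⨆ j, v (a j)) * ∏ i, ⨆ p : ι × ι, v (x i p.1 * y p.2 - x i p.2 * y p.1) ≤
          locConst C Γ v * (v (∑ j, a j * eval y (P j)) * (∏ i, ⨆ j, v (x i j)) *
            (⨆ j, v (y j)) ^ (k * m0 - k))) := by
  obtain ⟨n₁, hU⟩ := ld_up (K := K) (F := F) htr v₀
  obtain ⟨n₂, hD⟩ := ld_down (K := K) (F := F) htr v₀
  refine ⟨max n₁ n₂, fun m0 hm0 k hk ι κ _ _ τ ψ P hτli hτ hψli hψ hP hPψ => ?_⟩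
  obtain ⟨C₁, Γ₁, hC₁, h1⟩ := hU m0 (le_trans (le_max_left _ _) hm0) k hk τ ψ P hτli hτ hψli hψ
    hP hPψ
  obtain ⟨C₂, Γ₂, hC₂, h2⟩ := hD m0 (le_trans (le_max_right _ _) hm0) k hk τ ψ P hτli hτ hψli hψ
    hP hPψ
  have h01 : (0 : ℝ) ≤ C₁ := le_trans zero_le_one hC₁
  have h02 : (0 : ℝ) ≤ C₂ := le_trans zero_le_one hC₂
  refine ⟨C₁ * C₂, Γ₁ + Γ₂, one_le_mul_of_one_le_of_one_le hC₁ hC₂,
    fun v a Z x y ha hZ hx hy => ⟨?_, ?_⟩⟩
  · refine le_trans (h1 v a Z x y ha hZ hx hy) (mul_le_mul_of_nonneg_right ?_ ?_)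
    · exact locConst_mono h01 (le_mul_of_one_le_right h01 hC₂) (Multiset.le_add_right _ _) v
    · exact mul_nonneg (Real.iSup_nonneg fun j => v.nonneg _)
        (Finset.prod_nonneg fun i _ => Real.iSup_nonneg fun p => v.nonneg _)
  · refine le_trans (h2 v a Z x y ha hZ hx hy) (mul_le_mul_of_nonneg_right ?_ ?_)
    · exact locConst_mono h02 (le_mul_of_one_le_left h02 hC₁) (Multiset.le_add_left _ _) v
    · exact mul_nonneg (mul_nonneg (v.nonneg _)
        (Finset.prod_nonneg fun i _ => Real.iSup_nonneg fun j => v.nonneg _))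
        (pow_nonneg (Real.iSup_nonneg fun j => v.nonneg _) _)

end Fermat.Agent.S17.H.LD
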