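/-
MW strand H, block C (LD), leaf C1, the part "L(H - P) = span of the secant forms l_ab"
(helper277).  DEF-FREE: the point hypothesis is the unfolded `IsPt φ Z x` of `LD/Pt.lean`
(`∃ i, x i ≠ 0 ∧ φ i ≠ 0 ∧ ∀ j, Z(x i • φ j - x j • φ i) < Z(φ i)`), so a hypothesis
`hx : IsPt φ Z x` can be passed as it is and this file does not import `Pt.lean`.

* `LinForm.linForm_lt`    : `Z(x a • φ b - x b • φ a) < Z(φ i)` at the chart index `i`;
* `LinForm.linForm_mem_L` : `φ j ∈ L(D)` for all `j` gives `x a • φ b - x b • φ a ∈ L(D - Z)`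
  (row S17.H.C1 `IsPt.linForm_mem_L`);
* `LinForm.span_linForm`  : if `φ` spans `L(D)` and `Z` is not a base point of `L(D)`, the
  secant forms `x a • φ b - x b • φ a` span `L(D - Z)` (row S17.H.C1 `IsPt.span_linForm`).

Level-free, no hypothesis on `K`, `F` beyond `[Field K] [Field F] [Algebra K F]`.
-/
import Mathlib
import Fermat.Prelude.Def_AlgebraicCurve_Repartitions
import Fermat.Agent.S24.FF.Ord
import Fermat.Agent.S17.R.LSpace

set_option autoImplicit false

namespace Fermat.Agent.S17.H.LD.LinForm

open AlgebraicCurve Fermat.Agent.S17.R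

variable {K F : Type*} [Field K] [Field F] [Algebra K F]

theorem sub_single_le (D : Divisor K F) (P : Place K F) :
    D - Finsupp.single P (1 : ℤ) ≤ D := by
  classical
  rw [Finsupp.le_def]
  intro v
  rw [Finsupp.sub_apply, Finsupp.single_apply]
  split_ifs <;> omega

/-- Multiplying by a constant keeps a strict bound of the valuation. -/
theorem const_mul_lt (v : Place K F) (c : K) {t : F} {γ : WithZero (Multiplicative ℤ)}
    (h : v.adicValuation t < γ) : v.adicValuation (algebraMap K F c * t) < γ := by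
  rw [map_mul]
  exact lt_of_le_of_lt (mul_le_of_le_one_left' (v.adicValuation_algebraMap_le_one c)) h

/-- The secant form `x a • φ b - x b • φ a` is smaller than `φ i` at the point. -/
theorem linForm_lt {ι : Type*} {φ : ι → F} {Z : Place K F} {x : ι → K} {i : ι} (hxi : x i ≠ 0)
    (hi : ∀ j, Z.adicValuation (algebraMap K F (x i) * φ j - algebraMap K F (x j) * φ i)
      < Z.adicValuation (φ i)) (a b : ι) :
    Z.adicValuation (algebraMap K F (x a) * φ b - algebraMap K F (x b) * φ a)
      < Z.adicValuation (φ i) := by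
  have e : algebraMap K F (x i) * (algebraMap K F (x a) * φ b - algebraMap K F (x b) * φ a) =
      algebraMap K F (x a) * (algebraMap K F (x i) * φ b - algebraMap K F (x b) * φ i) -
        algebraMap K F (x b) * (algebraMap K F (x i) * φ a - algebraMap K F (x a) * φ i) := by
    ring
  have h1 : Z.adicValuation
      (algebraMap K F (x i) * (algebraMap K F (x a) * φ b - algebraMap K F (x b) * φ a))
      < Z.adicValuation (φ i) := by
    rw [e]
    exact Valuation.map_sub_lt _ (const_mul_lt Z (x a) (hi b)) (const_mul_lt Z (x b) (hi a))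
  rwa [map_mul, Fermat.Agent.S24.FF.adicValuation_algebraMap Z hxi, one_mul] at h1

/-- Row S17.H.C1 `IsPt.linForm_mem_L`, def-free: the secant forms of a point `x` of the place
`Z` in a family `φ` of sections of `L(D)` are sections of `L(D - Z)`. -/
theorem linForm_mem_L {ι : Type*} {φ : ι → F} {Z : Place K F} {x : ι → K}
    (hx : ∃ i, x i ≠ 0 ∧ φ i ≠ 0 ∧ ∀ j,
      Z.adicValuation (algebraMap K F (x i) * φ j - algebraMap K F (x j) * φ i)
        < Z.adicValuation (φ i))
    {D : Divisor K F} (hφ : ∀ j, φ j ∈ riemannRochSpace D) (a b : ι) :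
    algebraMap K F (x a) * φ b - algebraMap K F (x b) * φ a ∈
      riemannRochSpace (D - Finsupp.single Z (1 : ℤ)) := by
  classical
  obtain ⟨i, hxi, hφi, hi⟩ := hx
  have hlt := linForm_lt hxi hi a b
  have hlD : algebraMap K F (x a) * φ b - algebraMap K F (x b) * φ a ∈ riemannRochSpace D := by
    rw [← Algebra.smul_def, ← Algebra.smul_def]
    exact Submodule.sub_mem _ (Submodule.smul_mem _ _ (hφ b)) (Submodule.smul_mem _ _ (hφ a))
  obtain ⟨l, hl⟩ : ∃ l : F, l = algebraMap K F (x a) * φ b - algebraMap K F (x b) * φ a :=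
    ⟨_, rfl⟩
  rw [← hl] at hlt hlD ⊢
  by_cases hl0 : l = 0
  · rw [hl0]
    exact Submodule.zero_mem _
  rw [mem_L_of_ne_zero hl0] at hlD ⊢
  intro v
  by_cases hv : v = Z
  · rw [hv]
    have h1 := (mem_L_of_ne_zero hφi).mp (hφ i) Z
    rw [Z.adicValuation_eq_exp_neg_ord hl0, Z.adicValuation_eq_exp_neg_ord hφi,
      WithZero.exp_lt_exp] at hlt
    rw [Finsupp.sub_apply, Finsupp.single_eq_same]
    omega
  · have h1 := hlD v
    rw [Finsupp.sub_apply, Finsupp.single_apply, if_neg (Ne.symm hv), sub_zero]
    exact h1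

/-- Row S17.H.C1 `IsPt.span_linForm`, def-free: if `φ` spans `L(D)` and `Z` is not a base point
of `L(D)`, the secant forms `x a • φ b - x b • φ a` of a point `x` of `Z` span `L(D - Z)`. -/
theorem span_linForm {ι : Type*} [Finite ι] {φ : ι → F} {Z : Place K F} {x : ι → K}
    (hx : ∃ i, x i ≠ 0 ∧ φ i ≠ 0 ∧ ∀ j,
      Z.adicValuation (algebraMap K F (x i) * φ j - algebraMap K F (x j) * φ i)
        < Z.adicValuation (φ i))
    {D : Divisor K F} (hφ : Submodule.span K (Set.range φ) = riemannRochSpace D)
    (hbpf : riemannRochSpace (D - Finsupp.single Z (1 : ℤ)) ≠ riemannRochSpace D) :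
    Submodule.span K (Set.range fun p : ι × ι =>
        algebraMap K F (x p.1) * φ p.2 - algebraMap K F (x p.2) * φ p.1) =
      riemannRochSpace (D - Finsupp.single Z (1 : ℤ)) := by
  classical
  cases nonempty_fintype ι
  have hφD : ∀ j, φ j ∈ riemannRochSpace D := fun j => by
    rw [← hφ]
    exact Submodule.subset_span ⟨j, rfl⟩
  have hgen : ∀ a b, algebraMap K F (x a) * φ b - algebraMap K F (x b) * φ a ∈
      riemannRochSpace (D - Finsupp.single Z (1 : ℤ)) := fun a b => linForm_mem_L hx hφD a b
  have hsub : riemannRochSpace (D - Finsupp.single Z (1 : ℤ)) ≤ riemannRochSpace D :=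
    L_mono (sub_single_le D Z)
  have hSle : Submodule.span K (Set.range fun p : ι × ι =>
      algebraMap K F (x p.1) * φ p.2 - algebraMap K F (x p.2) * φ p.1) ≤
      riemannRochSpace (D - Finsupp.single Z (1 : ℤ)) := by
    rw [Submodule.span_le]
    rintro _ ⟨p, rfl⟩
    exact hgen p.1 p.2
  refine le_antisymm hSle ?_
  intro f hf
  obtain ⟨i, hxi, hφi, hi⟩ := hx
  have hfD : f ∈ Submodule.span K (Set.range φ) := by
    rw [hφ]
    exact hsub hf
  obtain ⟨c, hc⟩ := (Submodule.mem_span_range_iff_exists_fun K).mp hfD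
  have hlS : ∀ j, algebraMap K F (x i) * φ j - algebraMap K F (x j) * φ i ∈
      Submodule.span K (Set.range fun p : ι × ι =>
        algebraMap K F (x p.1) * φ p.2 - algebraMap K F (x p.2) * φ p.1) :=
    fun j => Submodule.subset_span ⟨(i, j), rfl⟩
  have hsum : ∑ j, c j • (algebraMap K F (x i) * φ j - algebraMap K F (x j) * φ i) ∈
      Submodule.span K (Set.range fun p : ι × ι =>
        algebraMap K F (x p.1) * φ p.2 - algebraMap K F (x p.2) * φ p.1) :=
    Submodule.sum_mem _ fun j _ => Submodule.smul_mem _ _ (hlS j)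
  have key : x i • f = ∑ j, c j • (algebraMap K F (x i) * φ j - algebraMap K F (x j) * φ i) +
      (∑ j, c j * x j) • φ i := by
    rw [← hc, Finset.smul_sum, Finset.sum_smul, ← Finset.sum_add_distrib]
    refine Finset.sum_congr rfl fun j _ => ?_
    simp only [Algebra.smul_def, map_mul]
    ring
  by_cases hlam : ∑ j, c j * x j = 0
  · rw [hlam, zero_smul, add_zero] at key
    have hf' : f = (x i)⁻¹ • (x i • f) := by
      rw [smul_smul, inv_mul_cancel₀ hxi, one_smul]
    rw [hf', key]
    exact Submodule.smul_mem _ _ hsum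
  · exfalso
    have h1 : (∑ j, c j * x j) • φ i ∈ riemannRochSpace (D - Finsupp.single Z (1 : ℤ)) := by
      have e1 : (∑ j, c j * x j) • φ i = x i • f -
          ∑ j, c j • (algebraMap K F (x i) * φ j - algebraMap K F (x j) * φ i) := by
        rw [key]
        exact (add_sub_cancel_left _ _).symm
      rw [e1]
      exact Submodule.sub_mem _ (Submodule.smul_mem _ _ hf) (hSle hsum)
    have hφi' : φ i ∈ riemannRochSpace (D - Finsupp.single Z (1 : ℤ)) := by
      have e2 : φ i = (∑ j, c j * x j)⁻¹ • ((∑ j, c j * x j) • φ i) := by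
        rw [smul_smul, inv_mul_cancel₀ hlam, one_smul]
      rw [e2]
      exact Submodule.smul_mem _ _ h1
    have hall : ∀ j, φ j ∈ riemannRochSpace (D - Finsupp.single Z (1 : ℤ)) := by
      intro j
      have e3 : φ j = (x i)⁻¹ •
          ((algebraMap K F (x i) * φ j - algebraMap K F (x j) * φ i) + x j • φ i) := by
        rw [Algebra.smul_def (x j) (φ i), sub_add_cancel, ← Algebra.smul_def, smul_smul,
          inv_mul_cancel₀ hxi, one_smul]
      rw [e3]
      exact Submodule.smul_mem _ _
        (Submodule.add_mem _ (hgen i j) (Submodule.smul_mem _ _ hφi'))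
    apply hbpf
    refine le_antisymm hsub ?_
    rw [← hφ, Submodule.span_le]
    rintro _ ⟨j, rfl⟩
    exact hall j

end Fermat.Agent.S17.H.LD.LinForm
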