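/-
MW strand H, block C (LD), leaf C5: the literal of row S17.H.C5 verbatim
(`span_mul_L_of_degree`, namespace `Fermat.Agent.S17.H.LD`), an adapter on `LD/Pencil.lean`.
-/
import Mathlib
import Fermat.Agent.S17.H.LD.Pencil

set_option autoImplicit false

namespace Fermat.Agent.S17.H.LD

open AlgebraicCurve Fermat.Agent.S17.R

variable {K F : Type*} [Field K] [Field F] [Algebra K F]
variable [IsAlgClosed K] [CharZero K] [Algebra.EssFiniteType K F]

/-- **(G4) Base-point-free pencil trick**, Riemann's theorem only: for `deg D` and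
`deg B - deg D` large the products `f * g`, `f ∈ L(D)`, `g ∈ L(B)`, span `L(D + B)`. -/
theorem span_mul_L_of_degree (htr : Algebra.trdeg K F = 1) :
    ∃ c : ℤ, ∀ D B : Divisor K F, c ≤ Divisor.degree D →
      c ≤ Divisor.degree B - Divisor.degree D →
      Submodule.span K (Set.image2 (fun f g : F => f * g)
        (riemannRochSpace D : Set F) (riemannRochSpace B : Set F)) = riemannRochSpace (D + B) := by
  obtain ⟨c, hc⟩ := Pencil.exists_isRiemannBound (K := K) (F := F) htr
  refine ⟨c + 1, fun D B hD hB => ?_⟩
  exact Pencil.span_image2_mul_L htr hc hD (by linarith)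

/-- Product form of `span_mul_L_of_degree`: `L(D) * L(B) = L(D + B)`. -/
theorem L_mul_L_of_degree (htr : Algebra.trdeg K F = 1) :
    ∃ c : ℤ, ∀ D B : Divisor K F, c ≤ Divisor.degree D →
      c ≤ Divisor.degree B - Divisor.degree D →
      riemannRochSpace D * riemannRochSpace B = riemannRochSpace (D + B) := by
  obtain ⟨c, hc⟩ := Pencil.exists_isRiemannBound (K := K) (F := F) htr
  refine ⟨c + 1, fun D B hD hB => ?_⟩
  exact Pencil.L_mul_L htr hc hD (by linarith)

end Fermat.Agent.S17.H.LD
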