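/-
MW strand H, block C (LD), leaf C1 / G1, second file (helper280): the linear forms through a
point span `L(D - Z)`.

`φ : ι → F` a family of functions of a function field `F / K`, `Z` a place and `x` the point of
`Z` in `φ` (`IsPt φ Z x`, `LD/Pt.lean`).  The linear forms `l_ab = x_a φ_b - x_b φ_a` vanish at
the point:

* `IsPt.linForm_mem_L` : if all `φ j ∈ L(D)` then `l_ab ∈ L(D - Z)`;
* `IsPt.span_linForm` : if `φ` spans `L(D)` and `Z` is not a base point of `L(D)`
  (`L(D - Z) ≠ L(D)`), the `l_ab` span `L(D - Z)`.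

Valuation arithmetic only; no hypothesis on the fields.
-/
import Mathlib
import Fermat.Prelude.Def_AlgebraicCurve_Repartitions
import Fermat.Agent.S17.R.LSpace
import Fermat.Agent.S17.H.LD.Pt

set_option autoImplicit false

namespace Fermat.Agent.S17.H.LD

open AlgebraicCurve Fermat.Agent.S17.R

variable {K F : Type*} [Field K] [Field F] [Algebra K F]

namespace Pt2

theorem algebraMap_mul_mem {D : Divisor K F} (c : K) {f : F} (hf : f ∈ riemannRochSpace D) :
    algebraMap K F c * f ∈ riemannRochSpace D := by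
  rw [← Algebra.smul_def]
  exact Submodule.smul_mem _ c hf

/-- A strict inequality of valuations of nonzero functions is a strict inequality of orders. -/
theorem ord_lt_of_adicValuation_lt (Z : Place K F) {f g : F} (hf : f ≠ 0) (hg : g ≠ 0)
    (h : Z.adicValuation f < Z.adicValuation g) : Z.ord g < Z.ord f := by
  rw [Z.adicValuation_eq_exp_neg_ord hf, Z.adicValuation_eq_exp_neg_ord hg,
    WithZero.exp_lt_exp] at h
  omega

theorem L_sub_single_le (D : Divisor K F) (Z : Place K F) :
    riemannRochSpace (D - Finsupp.single Z (1 : ℤ)) ≤ riemannRochSpace D := by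
  classical
  refine L_mono (sub_le_self D ?_)
  rw [Finsupp.le_def]
  intro v
  rw [Finsupp.zero_apply, Finsupp.single_apply]
  split_ifs <;> omega

/-- The forms `x_i φ_j - x_j φ_i` through the point lie in `L(D - Z)`. -/
theorem sub_mem_L_sub_single {ι : Type*} {φ : ι → F} {Z : Place K F} {x : ι → K} {i : ι}
    (hφi : φ i ≠ 0)
    (hlt : ∀ j, Z.adicValuation (algebraMap K F (x i) * φ j - algebraMap K F (x j) * φ i) <
      Z.adicValuation (φ i))
    {D : Divisor K F} (hφ : ∀ j, φ j ∈ riemannRochSpace D) (j : ι) :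
    algebraMap K F (x i) * φ j - algebraMap K F (x j) * φ i ∈
      riemannRochSpace (D - Finsupp.single Z (1 : ℤ)) := by
  classical
  by_cases hm : algebraMap K F (x i) * φ j - algebraMap K F (x j) * φ i = 0
  · rw [hm]
    exact Submodule.zero_mem _
  have hmD : algebraMap K F (x i) * φ j - algebraMap K F (x j) * φ i ∈ riemannRochSpace D :=
    Submodule.sub_mem _ (algebraMap_mul_mem _ (hφ j)) (algebraMap_mul_mem _ (hφ i))
  have h1 := (mem_L_of_ne_zero hm).mp hmD
  have h2 := (mem_L_of_ne_zero hφi).mp (hφ i)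
  rw [mem_L_of_ne_zero hm]
  intro v
  rw [Finsupp.sub_apply, Finsupp.single_apply]
  by_cases hv : Z = v
  · subst hv
    rw [if_pos rfl]
    have h3 := ord_lt_of_adicValuation_lt Z hm hφi (hlt j)
    have h4 := h2 Z
    omega
  · rw [if_neg hv]
    have h3 := h1 v
    omega

end Pt2

/-- **(G1)** the linear forms `l_ab = x_a φ_b - x_b φ_a` through the point `x` of `Z` lie in
`L(D - Z)`. -/
theorem IsPt.linForm_mem_L {ι : Type*} {φ : ι → F} {Z : Place K F} {x : ι → K}
    (hx : IsPt φ Z x) {D : Divisor K F} (hφ : ∀ j, φ j ∈ riemannRochSpace D) (a b : ι) :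
    algebraMap K F (x a) * φ b - algebraMap K F (x b) * φ a ∈
      riemannRochSpace (D - Finsupp.single Z (1 : ℤ)) := by
  obtain ⟨i, hxi, hφi, hlt⟩ := hx
  have hxi' : algebraMap K F (x i) ≠ 0 := by
    rw [Ne, map_eq_zero]
    exact hxi
  have key : algebraMap K F (x a) * φ b - algebraMap K F (x b) * φ a =
      algebraMap K F (x i)⁻¹ *
        (algebraMap K F (x a) * (algebraMap K F (x i) * φ b - algebraMap K F (x b) * φ i) -
          algebraMap K F (x b) * (algebraMap K F (x i) * φ a - algebraMap K F (x a) * φ i)) := by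
    rw [map_inv₀]
    field_simp
    ring
  rw [key]
  exact Pt2.algebraMap_mul_mem _ (Submodule.sub_mem _
    (Pt2.algebraMap_mul_mem _ (Pt2.sub_mem_L_sub_single hφi hlt hφ b))
    (Pt2.algebraMap_mul_mem _ (Pt2.sub_mem_L_sub_single hφi hlt hφ a)))

/-- **(G1)** `L(D - Z)` is spanned by the linear forms `l_ab = x_a φ_b - x_b φ_a` through the
point `x` of `Z` in a family `φ` spanning `L(D)`, if `Z` is not a base point of `L(D)`. -/
theorem IsPt.span_linForm {ι : Type*} {φ : ι → F} {Z : Place K F} {x : ι → K}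
    (hx : IsPt φ Z x) {D : Divisor K F}
    (hφ : Submodule.span K (Set.range φ) = riemannRochSpace D)
    (hbpf : riemannRochSpace (D - Finsupp.single Z (1 : ℤ)) ≠ riemannRochSpace D) :
    Submodule.span K (Set.range fun p : ι × ι =>
        algebraMap K F (x p.1) * φ p.2 - algebraMap K F (x p.2) * φ p.1) =
      riemannRochSpace (D - Finsupp.single Z (1 : ℤ)) := by
  have hφD : ∀ j, φ j ∈ riemannRochSpace D := fun j =>
    hφ ▸ Submodule.subset_span (Set.mem_range_self j)
  have hle : Submodule.span K (Set.range fun p : ι × ι =>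
        algebraMap K F (x p.1) * φ p.2 - algebraMap K F (x p.2) * φ p.1) ≤
      riemannRochSpace (D - Finsupp.single Z (1 : ℤ)) := by
    rw [Submodule.span_le]
    rintro _ ⟨p, rfl⟩
    exact hx.linForm_mem_L hφD p.1 p.2
  refine le_antisymm hle ?_
  obtain ⟨i, hxi, hφi, hlt⟩ := hx
  have hxi' : algebraMap K F (x i) ≠ 0 := by
    rw [Ne, map_eq_zero]
    exact hxi
  have hsub : riemannRochSpace (D - Finsupp.single Z (1 : ℤ)) ≤ riemannRochSpace D :=
    Pt2.L_sub_single_le D Z
  -- every `φ j` is a combination of `l_(i,j)` and `φ i`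
  have hφj : ∀ j, φ j = algebraMap K F (x i)⁻¹ *
      (algebraMap K F (x i) * φ j - algebraMap K F (x j) * φ i) +
        algebraMap K F ((x i)⁻¹ * x j) * φ i := by
    intro j
    rw [map_mul, map_inv₀]
    field_simp
    ring
  have hφi_not : φ i ∉ riemannRochSpace (D - Finsupp.single Z (1 : ℤ)) := by
    intro hmem
    apply hbpf
    refine le_antisymm hsub ?_
    rw [← hφ, Submodule.span_le]
    rintro _ ⟨j, rfl⟩
    rw [hφj j]
    exact Submodule.add_mem _
      (Pt2.algebraMap_mul_mem _ (Pt2.sub_mem_L_sub_single hφi hlt hφD j))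
      (Pt2.algebraMap_mul_mem _ hmem)
  have hLD : riemannRochSpace D ≤ Submodule.span K (Set.range fun p : ι × ι =>
        algebraMap K F (x p.1) * φ p.2 - algebraMap K F (x p.2) * φ p.1) ⊔
      Submodule.span K {φ i} := by
    rw [← hφ, Submodule.span_le]
    rintro _ ⟨j, rfl⟩
    rw [hφj j]
    refine Submodule.add_mem _ (Submodule.mem_sup_left ?_) (Submodule.mem_sup_right ?_)
    · rw [← Algebra.smul_def]
      exact Submodule.smul_mem _ _ (Submodule.subset_span ⟨(i, j), rfl⟩)
    · rw [← Algebra.smul_def]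
      exact Submodule.smul_mem _ _ (Submodule.mem_span_singleton_self _)
  intro f hf
  obtain ⟨s, hs, t, ht, rfl⟩ := Submodule.mem_sup.mp (hLD (hsub hf))
  obtain ⟨r, rfl⟩ := Submodule.mem_span_singleton.mp ht
  have hr : r • φ i ∈ riemannRochSpace (D - Finsupp.single Z (1 : ℤ)) := by
    have h := Submodule.sub_mem _ hf (hle hs)
    rwa [add_sub_cancel_left] at h
  by_cases h0 : r = 0
  · rw [h0, zero_smul, add_zero]
    exact hs
  · exfalso
    apply hφi_not
    have h := Submodule.smul_mem _ r⁻¹ hr
    rwa [smul_smul, inv_mul_cancel₀ h0, one_smul] at h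

end Fermat.Agent.S17.H.LD
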