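import Mathlib.LinearAlgebra.Matrix.Rank
import Mathlib.LinearAlgebra.Matrix.NonsingularInverse
import Mathlib.LinearAlgebra.Dimension.StrongRankCondition

/-!
# Program MW (statement S17), strand H, block C, leaf C4 (part RKM): a matrix of rank `ρ` has a
non-vanishing `ρ × ρ` minor

Mathlib-only.  `A : Matrix m n K` over a field with `A.rank = ρ` has rows `e₁ : Fin ρ → m` and
columns `e₂ : Fin ρ → n` with `(A.submatrix e₁ e₂).det ≠ 0`.
-/

set_option autoImplicit false

namespace Fermat.Agent.S17.H.LD.RKM

open Matrix Module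

variable {K : Type*} [Field K] {m n : Type*} [Fintype m] [Fintype n]

/-- A matrix of rank `ρ` over a field has a non-vanishing `ρ × ρ` minor. -/
theorem exists_submatrix_det_ne_zero (A : Matrix m n K) {ρ : ℕ} (h : A.rank = ρ) :
    ∃ (e₁ : Fin ρ → m) (e₂ : Fin ρ → n), (A.submatrix e₁ e₂).det ≠ 0 := by
  classical
  -- `ρ` independent columns
  have hc : ρ = finrank K (Submodule.span K (Set.range A.col)) := by
    rw [← h, Matrix.rank_eq_finrank_span_cols]
  obtain ⟨f, hf, -, hfli⟩ := Submodule.exists_fun_fin_finrank_span_eq K (Set.range A.col)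
  choose e₂' he₂' using hf
  let e₂ : Fin ρ → n := fun k => e₂' (Fin.cast hc k)
  have hcols : LinearIndependent K fun k : Fin ρ => A.col (e₂ k) := by
    have h1 : (fun k : Fin ρ => A.col (e₂ k)) = f ∘ Fin.cast hc := by
      funext k
      exact he₂' _
    rw [h1]
    exact hfli.comp _ (Fin.cast_injective hc)
  -- the `m × ρ` matrix of these columns has rank `ρ`
  set B : Matrix m (Fin ρ) K := A.submatrix id e₂ with hB
  have hBrank : B.rank = ρ := by
    have hrow : LinearIndependent K Bᵀ.row := by
      have h2 : Bᵀ.row = fun k : Fin ρ => A.col (e₂ k) := by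
        funext k i
        rfl
      rw [h2]
      exact hcols
    rw [← Matrix.rank_transpose, hrow.rank_matrix, Fintype.card_fin]
  -- `ρ` independent rows of `B`
  have hr : ρ = finrank K (Submodule.span K (Set.range B.row)) :=
    hBrank.symm.trans (Matrix.rank_eq_finrank_span_row B)
  obtain ⟨f', hf', -, hf'li⟩ := Submodule.exists_fun_fin_finrank_span_eq K (Set.range B.row)
  choose e₁' he₁' using hf'
  let e₁ : Fin ρ → m := fun k => e₁' (Fin.cast hr k)
  have hrows : LinearIndependent K (A.submatrix e₁ e₂).row := by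
    have h3 : (A.submatrix e₁ e₂).row = f' ∘ Fin.cast hr := by
      funext k
      exact he₁' _
    rw [h3]
    exact hf'li.comp _ (Fin.cast_injective hr)
  refine ⟨e₁, e₂, ?_⟩
  have hunit := Matrix.linearIndependent_rows_iff_isUnit.mp hrows
  exact ((Matrix.isUnit_iff_isUnit_det _).mp hunit).ne_zero

end Fermat.Agent.S17.H.LD.RKM
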