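import Fermat.Agent.S17.H.Cert.LocConst
import Fermat.Agent.S17.H.B.Certificate

/-!
# Program MW (statement S17), strand H, block C, leaf C2: the unit certificate

The affine weak Nullstellensatz read on the unit polydisc.  `K` an algebraically closed field,
`p j` finitely many polynomials without common zero on the closed set `V(I)`.  Then there is a
constant of product type `locConst C Γ` such that for EVERY absolute value `v` of `K` and every
point `x` of `V(I)` in the unit polydisc of `v`

  `1 ≤ locConst C Γ v * sup_j v (p j x)`.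

Proof: block B1 (`exists_pow_eq_add_sum` with `f = 1`) gives `1 = a + ∑ c j * p j`, `a ∈ I`;
at `x` this reads `1 = ∑ (c j)(x) * (p j)(x)`, and `v ((c j)(x)) ≤ locConst (monoCount c)
(famCoeffs c) v` on the polydisc.  Homogeneous statements reduce to this one by dividing each
block of variables by its largest coordinate.

* `UnitCert.abv_eval_le_of_le_one` : the polydisc bound for a family of polynomials;
* `UnitCert.exists_index` : the pointwise form (one index `j` with `1 ≤ locConst * v (p j x)`);
* `unit_cert` : the literal of the ledger row S17.H.C2.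
-/

set_option autoImplicit false

noncomputable section

namespace Fermat.Agent.S17.H.LD

open MvPolynomial
open Fermat.Agent.S17.H.Cert

namespace UnitCert

variable {K : Type*} [Field K]

/-- **Polydisc bound**: the value of a polynomial of a finite family at a point of the unit
polydisc of `v` is bounded by the local constant of the family (no homogeneity needed). -/
theorem abv_eval_le_of_le_one {σ α : Type*} [Fintype α] (v : AbsoluteValue K ℝ)
    (q : α → MvPolynomial σ K) (a : α) {x : σ → K} (hx : ∀ i, v (x i) ≤ 1) :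
    v ((q a).eval x) ≤ locConst (monoCount q) (famCoeffs q) v := by
  classical
  have hterm : ∀ s ∈ (q a).support,
      v ((q a).coeff s * ∏ i ∈ s.support, x i ^ s i) ≤ gamProd (famCoeffs q) v := by
    intro s hs
    rw [map_mul, map_prod]
    have h1 : v ((q a).coeff s) ≤ gamProd (famCoeffs q) v :=
      le_gamProd_of_mem (coeff_mem_famCoeffs q a hs) v
    have h2 : ∏ i ∈ s.support, v (x i ^ s i) ≤ 1 := by
      refine Finset.prod_le_one (fun i _ => v.nonneg _) (fun i _ => ?_)
      rw [map_pow]
      exact pow_le_one₀ (v.nonneg _) (hx i)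
    calc v ((q a).coeff s) * ∏ i ∈ s.support, v (x i ^ s i)
        ≤ gamProd (famCoeffs q) v * 1 :=
          mul_le_mul h1 h2 (Finset.prod_nonneg fun i _ => v.nonneg _) (gamProd_pos _ v).le
      _ = gamProd (famCoeffs q) v := mul_one _
  rw [MvPolynomial.eval_eq]
  by_cases hv : IsNonarchimedean v
  · rw [locConst_of_nonarch hv]
    refine le_trans hv.apply_sum_le ?_
    rcases isEmpty_or_nonempty (q a).support with he | hne
    · rw [Real.iSup_of_isEmpty]
      exact (gamProd_pos _ v).le
    · exact ciSup_le fun s => hterm s.1 s.2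
  · rw [locConst_of_not_nonarch hv]
    calc v (∑ s ∈ (q a).support, (q a).coeff s * ∏ i ∈ s.support, x i ^ s i)
        ≤ ∑ s ∈ (q a).support, v ((q a).coeff s * ∏ i ∈ s.support, x i ^ s i) := v.sum_le _ _
      _ ≤ ∑ _s ∈ (q a).support, gamProd (famCoeffs q) v := Finset.sum_le_sum hterm
      _ = ((q a).support.card : ℝ) * gamProd (famCoeffs q) v := by
          rw [Finset.sum_const, nsmul_eq_mul]
      _ ≤ monoCount q * gamProd (famCoeffs q) v :=
          mul_le_mul_of_nonneg_right (card_support_le_monoCount q a) (gamProd_pos _ v).le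

/-- **Unit certificate, pointwise form**: at every absolute value `v` and every point of `V(I)`
in the unit polydisc of `v`, one of the values `p j x` has size at least `(locConst C Γ v)⁻¹`. -/
theorem exists_index [IsAlgClosed K] {σ α : Type*} [Finite σ] [Fintype α]
    (I : Ideal (MvPolynomial σ K)) (p : α → MvPolynomial σ K)
    (h0 : ∀ x ∈ zeroLocus K I, ∃ j, eval x (p j) ≠ 0) :
    ∃ (C : ℝ) (Γ : Multiset K), 1 ≤ C ∧ ∀ (v : AbsoluteValue K ℝ) (x : σ → K),
      x ∈ zeroLocus K I → (∀ i, v (x i) ≤ 1) →
        ∃ j, 1 ≤ locConst C Γ v * v (eval x (p j)) := by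
  classical
  obtain ⟨e, a, c, ha, hrel⟩ := Fermat.Agent.S17.H.B.exists_pow_eq_add_sum I p 1 (by
    intro x hx hz
    obtain ⟨j, hj⟩ := h0 x hx
    exact absurd (hz j) hj)
  rw [one_pow] at hrel
  have hmc0 : (0 : ℝ) ≤ monoCount c := le_trans zero_le_one (one_le_monoCount c)
  refine ⟨max 1 (Fintype.card α : ℝ) * monoCount c, famCoeffs c, ?_, ?_⟩
  · exact one_le_mul_of_one_le_of_one_le (le_max_left _ _) (one_le_monoCount c)
  intro v x hxI hx1
  -- evaluate the relation at `x`
  have hax : eval x a = 0 := hxI a ha
  have hsum : (1 : K) = ∑ j, eval x (c j) * eval x (p j) := by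
    have h := congrArg (eval x) hrel
    rw [map_one, map_add, hax, zero_add, map_sum] at h
    rw [h]
    exact Finset.sum_congr rfl fun j _ => map_mul _ _ _
  -- the index type is not empty
  have hne : Nonempty α := by
    by_contra hemp
    rw [not_nonempty_iff] at hemp
    rw [Finset.univ_eq_empty, Finset.sum_empty] at hsum
    exact one_ne_zero hsum
  obtain ⟨j0, hj0⟩ : ∃ j0, v (eval x (c j0) * eval x (p j0)) =
      ⨆ j, v (eval x (c j) * eval x (p j)) := exists_eq_ciSup_of_finite
  have h2 : v (∑ j, eval x (c j) * eval x (p j)) ≤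
      locConst (Fintype.card α : ℝ) (0 : Multiset K) v *
        ⨆ j, v (eval x (c j) * eval x (p j)) :=
    abv_sum_le v (fun j => eval x (c j) * eval x (p j))
  rw [← hsum, map_one, ← hj0] at h2
  refine ⟨j0, ?_⟩
  have h3 : v (eval x (c j0)) ≤ locConst (monoCount c) (famCoeffs c) v :=
    abv_eval_le_of_le_one v c j0 hx1
  have hL0 : 0 ≤ locConst (Fintype.card α : ℝ) (0 : Multiset K) v :=
    locConst_nonneg (Nat.cast_nonneg _) _ _
  calc (1 : ℝ) ≤ locConst (Fintype.card α : ℝ) (0 : Multiset K) v *
        v (eval x (c j0) * eval x (p j0)) := h2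
    _ = locConst (Fintype.card α : ℝ) (0 : Multiset K) v *
        (v (eval x (c j0)) * v (eval x (p j0))) := by rw [map_mul]
    _ ≤ locConst (Fintype.card α : ℝ) (0 : Multiset K) v *
        (locConst (monoCount c) (famCoeffs c) v * v (eval x (p j0))) :=
        mul_le_mul_of_nonneg_left (mul_le_mul_of_nonneg_right h3 (v.nonneg _)) hL0
    _ = locConst ((Fintype.card α : ℝ) * monoCount c) (0 + famCoeffs c) v *
        v (eval x (p j0)) := by
        rw [← locConst_mul, mul_assoc]
    _ ≤ locConst (max 1 (Fintype.card α : ℝ) * monoCount c) (famCoeffs c) v *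
        v (eval x (p j0)) := by
        refine mul_le_mul_of_nonneg_right ?_ (v.nonneg _)
        rw [zero_add]
        exact locConst_mono (mul_nonneg (Nat.cast_nonneg _) hmc0)
          (mul_le_mul_of_nonneg_right (le_max_right _ _) hmc0) le_rfl v

end UnitCert

/-- **UNIT CERT** (block C, leaf C2): polynomials `p j` without common zero on `V(I)` over an
algebraically closed field.  For every absolute value `v` and every point `x` of `V(I)` in the
unit polydisc of `v`: `1 ≤ locConst C Γ v * sup_j v (p j x)`. -/
theorem unit_cert {K : Type*} [Field K] [IsAlgClosed K] {σ ι' : Type*} [Fintype σ] [Fintype ι']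
    (I : Ideal (MvPolynomial σ K)) (p : ι' → MvPolynomial σ K)
    (h : ∀ x ∈ MvPolynomial.zeroLocus K I, ∃ j, MvPolynomial.eval x (p j) ≠ 0) :
    ∃ (C : ℝ) (Γ : Multiset K), 1 ≤ C ∧ ∀ (v : AbsoluteValue K ℝ) (x : σ → K),
      x ∈ MvPolynomial.zeroLocus K I → (∀ i, v (x i) ≤ 1) →
        1 ≤ Fermat.Agent.S17.H.Cert.locConst C Γ v * ⨆ j, v (MvPolynomial.eval x (p j)) := by
  obtain ⟨C, Γ, hC, hcert⟩ := UnitCert.exists_index I p h
  refine ⟨C, Γ, hC, fun v x hxI hx1 => ?_⟩
  obtain ⟨j, hj⟩ := hcert v x hxI hx1
  exact hj.trans (mul_le_mul_of_nonneg_left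
    (Finite.le_ciSup (fun j => v (MvPolynomial.eval x (p j))) j) (locConst_pos hC Γ v).le)

end Fermat.Agent.S17.H.LD
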