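import Mathlib
import Fermat.Agent.S17.H.Cert.LocConst
import Fermat.Agent.S17.H.LD.Carrier
import Fermat.Agent.S17.H.LD.UpMatrix

/-!
# Program MW (S17), strand H, block C, leaf C9b: the solution hypothesis of `exists_up`

`τ : ι → F` a family in a commutative `K`-algebra (`K` algebraically closed), `χ` a linearly
independent family whose span contains the products `(∏ i, τ (b i)) * εf t` (`M` factors) and
`ψ b * ε' j`.  If the sections `(∏ i, lin τ (x i) (c.1 i)) * εf c.2` span a space of constant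
dimension `ρ` for nonzero cone points `x i`, then every `(∑ b, a b • ψ b) * ε' j` of their span
is a combination of them with coefficients `f` such that
`v (f c) * ∏ i, |x i|_v ≤ locConst C₄ Γ₄ v * |a|_v` for every absolute value `v` of `K`.

This is `UpMatrix.exists_bounded_rep` in the coordinates of `χ`: the coordinates of
`(∑ b, a b • ψ b) * ε' j` are linear in `a`.
-/

set_option autoImplicit false

namespace Fermat.Agent.S17.H.LD

open MvPolynomial Fermat.Agent.S17.H.Cert

namespace UpSol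

variable {K F : Type*} [Field K] [CommRing F] [Algebra K F] {ι : Type*}

/-- A product of `M` sections `lin` is a combination of products of `M` of the `τ`. -/
theorem prod_lin_mul_mem {M : ℕ} (τ : ι → F) (V : Submodule K F) (g : F)
    (hmon : ∀ b : Fin M → ι, (∏ i, τ (b i)) * g ∈ V) (x : Fin M → ι → K)
    (q : Fin M → ι × ι) : (∏ i, lin τ (x i) (q i)) * g ∈ V := by
  have h := UpMatrix.prod_lin_eq τ q (fun t : Fin M × ι => x t.1 t.2)
  have h' : ∏ i, lin τ (x i) (q i) =
      ∑ s : Fin M → Bool, eval (fun t : Fin M × ι => x t.1 t.2) (UpMatrix.mono q s) •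
        UpMatrix.tsec τ q s := h
  rw [h', Finset.sum_mul]
  refine Submodule.sum_mem _ fun s _ => ?_
  rw [smul_mul_assoc]
  refine Submodule.smul_mem _ _ ?_
  have h2 : UpMatrix.tsec τ q s = ∏ i, τ (if s i then (q i).2 else (q i).1) := by
    unfold UpMatrix.tsec
    refine Finset.prod_congr rfl fun i _ => ?_
    split_ifs <;> rfl
  rw [h2]
  exact hmon _

/-- **The solution hypothesis of `exists_up`**, from constant rank. -/
theorem exists_up_sol [IsAlgClosed K] [Fintype ι] {β ε η r : Type*} [Fintype β] [Fintype ε]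
    [Fintype η] [Fintype r] (τ : ι → F) (M : ℕ) (ψ : β → F) (εf : ε → F) (ε' : η → F)
    (χ : r → F) (hχ : LinearIndependent K χ)
    (hmon : ∀ (b : Fin M → ι) (t : ε),
      (∏ i, τ (b i)) * εf t ∈ Submodule.span K (Set.range χ))
    (hprod : ∀ (b : β) (j : η), ψ b * ε' j ∈ Submodule.span K (Set.range χ)) (ρ : ℕ)
    (hrank : ∀ x : Fin M → ι → K, (∀ i, OnCone τ (x i)) → (∀ i, x i ≠ 0) →
      Module.finrank K ↥(Submodule.span K (Set.range fun c : (Fin M → ι × ι) × ε =>
        (∏ i, lin τ (x i) (c.1 i)) * εf c.2)) = ρ) :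
    ∃ (C₄ : ℝ) (Γ₄ : Multiset K), 1 ≤ C₄ ∧ ∀ (v : AbsoluteValue K ℝ) (a : β → K)
      (x : Fin M → ι → K), (∀ i, OnCone τ (x i)) → (∀ i, x i ≠ 0) → ∀ j : η,
      (∑ b, a b • ψ b) * ε' j ∈ Submodule.span K (Set.range fun c : (Fin M → ι × ι) × ε =>
        (∏ i, lin τ (x i) (c.1 i)) * εf c.2) →
      ∃ f : (Fin M → ι × ι) × ε → K,
        (∑ b, a b • ψ b) * ε' j = ∑ c, f c • ((∏ i, lin τ (x i) (c.1 i)) * εf c.2) ∧
        ∀ c, v (f c) * ∏ i, ⨆ j, v (x i j) ≤ locConst C₄ Γ₄ v * ⨆ b, v (a b) := by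
  classical
  set W : Submodule K F := Submodule.span K (Set.range χ) with hWdef
  let b0 : Module.Basis r K W := Module.Basis.span hχ
  let bb : Module.Basis (Fin (Fintype.card r)) K W := b0.reindex (Fintype.equivFin r)
  let p : (Fin M → ι × ι) × ε → Fin M → ι × ι := fun c => c.1
  let w : (Fin M → ι × ι) × ε → F := fun c => εf c.2
  have hsect : ∀ (x : Fin M → ι → K) (c : (Fin M → ι × ι) × ε),
      UpMatrix.sect τ p w x c = (∏ i, lin τ (x i) (c.1 i)) * εf c.2 := fun _ _ => rfl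
  have hsectfun : ∀ x : Fin M → ι → K, UpMatrix.sect τ p w x =
      fun c : (Fin M → ι × ι) × ε => (∏ i, lin τ (x i) (c.1 i)) * εf c.2 := fun _ => rfl
  have hW : ∀ (x : Fin M → ι → K) (c : (Fin M → ι × ι) × ε), UpMatrix.sect τ p w x c ∈ W := by
    intro x c
    rw [hsect]
    exact prod_lin_mul_mem τ W (εf c.2) (fun b => hmon b c.2) x c.1
  have hρ : ∀ x : Fin M → ι → K, (∀ i, OnCone τ (x i)) → (∀ i, x i ≠ 0) →
      Module.finrank K (Submodule.span K (Set.range (UpMatrix.sect τ p w x))) = ρ := by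
    intro x hx hx0
    rw [hsectfun]
    exact hrank x hx hx0
  obtain ⟨C, Γ, hC, hrep⟩ := UpMatrix.exists_bounded_rep τ p w W bb hW ρ hρ
  -- the coordinates of the products `ψ b * ε' j`
  let m : β → η → Fin (Fintype.card r) → K := fun b j u => bb.repr ⟨ψ b * ε' j, hprod b j⟩ u
  let Γπ : Multiset K :=
    (Finset.univ : Finset (β × η × Fin (Fintype.card r))).val.map fun t => m t.1 t.2.1 t.2.2
  have hmem : ∀ b j u, m b j u ∈ Γπ := fun b j u =>
    Multiset.mem_map.mpr ⟨(b, j, u), Finset.mem_univ _, rfl⟩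
  have hcard : (0 : ℝ) ≤ (Fintype.card β : ℝ) := Nat.cast_nonneg _
  refine ⟨C * (Fintype.card β + 1), Γ + Γπ, ?_, ?_⟩
  · have h1 : (1 : ℝ) ≤ (Fintype.card β : ℝ) + 1 := by linarith
    calc (1 : ℝ) = 1 * 1 := (one_mul 1).symm
      _ ≤ C * (Fintype.card β + 1) := mul_le_mul hC h1 zero_le_one (le_trans zero_le_one hC)
  intro v a x hx hx0 j hy
  have hyW : (∑ b, a b • ψ b) * ε' j ∈ W := by
    rw [Finset.sum_mul]
    refine Submodule.sum_mem _ fun b _ => ?_
    rw [smul_mul_assoc]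
    exact Submodule.smul_mem _ _ (hprod b j)
  have hy' : (∑ b, a b • ψ b) * ε' j ∈
      Submodule.span K (Set.range (UpMatrix.sect τ p w x)) := by
    rw [hsectfun]
    exact hy
  obtain ⟨f, hf, hfb⟩ := hrep v x hx hx0 _ hyW hy'
  refine ⟨f, ?_, fun c => ?_⟩
  · rw [← hf]
    rfl
  -- the coordinates of `y` are linear in `a`
  have hcoord : ∀ u, bb.repr ⟨(∑ b, a b • ψ b) * ε' j, hyW⟩ u = ∑ b, a b * m b j u := by
    intro u
    have h1 : (⟨(∑ b, a b • ψ b) * ε' j, hyW⟩ : W) =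
        ∑ b, a b • (⟨ψ b * ε' j, hprod b j⟩ : W) := by
      apply Subtype.ext
      show (∑ b, a b • ψ b) * ε' j = ((∑ b, a b • (⟨ψ b * ε' j, hprod b j⟩ : W) : W) : F)
      rw [Submodule.coe_sum, Finset.sum_mul]
      refine Finset.sum_congr rfl fun b _ => ?_
      rw [smul_mul_assoc]
      rfl
    rw [h1, map_sum, Finsupp.coe_finsetSum, Finset.sum_apply]
    refine Finset.sum_congr rfl fun b _ => ?_
    rw [map_smul, Finsupp.smul_apply, smul_eq_mul]
  have hsupa : 0 ≤ ⨆ b, v (a b) := Real.iSup_nonneg fun _ => v.nonneg _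
  have hgp : 0 ≤ gamProd Γπ v := (gamProd_pos Γπ v).le
  have hterm : ∀ u b, v (a b * m b j u) ≤ gamProd Γπ v * ⨆ b, v (a b) := by
    intro u b
    rw [map_mul, mul_comm]
    exact mul_le_mul (le_gamProd_of_mem (hmem b j u) v)
      (Finite.le_ciSup (fun b => v (a b)) b) (v.nonneg _) hgp
  have hu : ∀ u, v (bb.repr ⟨(∑ b, a b • ψ b) * ε' j, hyW⟩ u) ≤
      locConst (Fintype.card β + 1) Γπ v * ⨆ b, v (a b) := by
    intro u
    rw [hcoord u]
    have h1 := abv_sum_le v (fun b => a b * m b j u)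
    have h2 : (⨆ b, v (a b * m b j u)) ≤ gamProd Γπ v * ⨆ b, v (a b) :=
      Real.iSup_le (fun b => hterm u b) (mul_nonneg hgp hsupa)
    have h3 : locConst (Fintype.card β : ℝ) (0 : Multiset K) v ≤
        locConst ((Fintype.card β : ℝ) + 1) (0 : Multiset K) v :=
      locConst_mono hcard (by linarith) le_rfl v
    have h4 : gamProd Γπ v ≤ locConst (1 : ℝ) Γπ v := gamProd_le_locConst le_rfl Γπ v
    have h5 : (0 : ℝ) ≤ locConst ((Fintype.card β : ℝ) + 1) (0 : Multiset K) v :=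
      locConst_nonneg (by linarith) _ v
    calc v (∑ b, a b * m b j u)
        ≤ locConst (Fintype.card β : ℝ) (0 : Multiset K) v * ⨆ b, v (a b * m b j u) := h1
      _ ≤ locConst ((Fintype.card β : ℝ) + 1) (0 : Multiset K) v *
            (locConst (1 : ℝ) Γπ v * ⨆ b, v (a b)) := by
          refine mul_le_mul h3 (le_trans h2 (mul_le_mul_of_nonneg_right h4 hsupa))
            (Real.iSup_nonneg fun _ => v.nonneg _) h5
      _ = locConst (Fintype.card β + 1) Γπ v * ⨆ b, v (a b) := by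
          rw [← mul_assoc, locConst_mul, mul_one, zero_add]
  have hsup : (⨆ u, v (bb.repr ⟨(∑ b, a b • ψ b) * ε' j, hyW⟩ u)) ≤
      locConst (Fintype.card β + 1) Γπ v * ⨆ b, v (a b) :=
    Real.iSup_le hu (mul_nonneg (locConst_nonneg (by linarith) _ v) hsupa)
  calc v (f c) * ∏ i, ⨆ j, v (x i j)
      ≤ locConst C Γ v * ⨆ u, v (bb.repr ⟨(∑ b, a b • ψ b) * ε' j, hyW⟩ u) := hfb c
    _ ≤ locConst C Γ v * (locConst (Fintype.card β + 1) Γπ v * ⨆ b, v (a b)) :=
        mul_le_mul_of_nonneg_left hsup (locConst_nonneg (le_trans zero_le_one hC) Γ v)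
    _ = locConst (C * (Fintype.card β + 1)) (Γ + Γπ) v * ⨆ b, v (a b) := by
        rw [← mul_assoc, locConst_mul]

end UpSol

end Fermat.Agent.S17.H.LD
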